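import Fermat.Agent.TW.EC.CoindChar
import Fermat.Agent.PT.Coh.Mackey
import Fermat.Agent.PT.Coh.ShapiroTriv
import Fermat.Agent.PT.Base.FormalInst
import Fermat.Agent.PT.Out

/-!
# TW (EC), brick (χ-B1): `∑_ψ FS(Coind_U k(ψ)) = 0`

`FS = χ₂ + cm` (`TW/EC/Abs.lean`).  For `U₁ ≤ U ≤ G` with `[U : U₁]` finite and nonzero in `k`,
the `k`-valued characters of `U` trivial on `U₁` separating the cosets of `U₁`:

* `FS_pi` : `FS` of a finite product is the sum (given `CountHyp`);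
* `sum_FS_coind_chi` : `∑_ψ FS(Coind_U k(ψ)) = [k:𝔽] · FS(𝔽[U₁ \ G])`
  (Fourier decomposition `Coind_{U₁} k ≃ ∏_ψ Coind_U k(ψ)` and `Coind_{U₁} k ≃ 𝔽[U₁\G]^[k:𝔽]`);
* `FS_perm_eq_zero` : for `Bridge.datum S`, `FS(𝔽_p[U₁ \ G_ℚ]) = 0` as soon as
  `2·χ₂(U₁; 𝔽_p) = -[G_ℚ : U₁]` and the involution `c` acts freely on `U₁ \ G_ℚ` (`p` odd);
* `FS_coind_chi_eq_zero_of_nonneg` : hence, if `FS(Coind_U k(ψ)) ≥ 0` for all `ψ`, then
  `FS(Coind_U k(ψ)) = 0` for all `ψ`;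
* `FS_coind_chi_eq_zero_of_PTOut` : the same from `PTOut p S` for `U₁ = Gal(ℚ̄/K₁)`, `K₁` a base
  field, and `c` with `χ_cyc(c) ≠ 1`.
-/

set_option autoImplicit false

namespace Fermat.Agent.TW.EC.CharSum

open Fermat.Agent.PT Fermat.Agent.PT.Shapiro Fermat.Agent.TW.EC.CoindChar Module Representation

/-! ### `FS` of a finite product -/

section Pi

variable {G : Type} [Group G] (𝔇 : LocDatum G) (c : G) {𝔽 : Type} [Field 𝔽]
variable {ι : Type} [Fintype ι] {M : ι → Type} [∀ i, AddCommGroup (M i)] [∀ i, Module 𝔽 (M i)]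

/-- `Hⁿ` of a finite product of coefficient modules: the dimensions add up. -/
theorem finrank_H_pi (ρ : ∀ i, Representation 𝔽 G (M i)) (hρ : ∀ i, 𝔇.IsSmooth (ρ i)) (n : ℕ)
    [∀ i, Module.Finite 𝔽 ((𝔇.C (ρ i) (hρ i)).H n)] :
    finrank 𝔽 ((𝔇.C (piRep ρ) (piRep_smooth 𝔇.L ρ hρ)).H n) =
      ∑ i, finrank 𝔽 ((𝔇.C (ρ i) (hρ i)).H n) := by
  have e1 := LinearEquiv.ofBijective _ (toPi_mapH_bijective 𝔇.L ρ hρ n)
  have e2 := LinearEquiv.ofBijective _ (Cx.piH_bijective (fun i => 𝔇.L.cx (ρ i) (hρ i)) n)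
  rw [(e1.trans e2).finrank_eq, Module.finrank_pi_fintype]

/-- The minus part of a finite product. -/
theorem cm_pi (ρ : ∀ i, Representation 𝔽 G (M i)) [∀ i, Module.Finite 𝔽 (M i)] :
    cm c (piRep ρ) = ∑ i, cm c (ρ i) := by
  unfold cm
  let e : LinearMap.ker (piRep ρ c + 1) ≃ₗ[𝔽] Π i, LinearMap.ker (ρ i c + 1) :=
    { toFun := fun f i => ⟨f.1 i, by
        have h1 := f.2
        rw [mem_ker_add_one] at h1 ⊢
        exact congrFun h1 i⟩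
      map_add' := fun _ _ => rfl
      map_smul' := fun _ _ => rfl
      invFun := fun g => ⟨fun i => (g i).1, by
        rw [mem_ker_add_one]
        funext i
        have h1 := (g i).2
        rw [mem_ker_add_one] at h1
        exact h1⟩
      left_inv := fun _ => rfl
      right_inv := fun _ => rfl }
  rw [e.finrank_eq, Module.finrank_pi_fintype]

/-- **`FS` of a finite product** of finite-dimensional smooth representations. -/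
theorem FS_pi {χ : G →* 𝔽ˣ} (h : LocDatum.CountHyp 𝔇 𝔽 χ) (ρ : ∀ i, Representation 𝔽 G (M i))
    (hρ : ∀ i, 𝔇.IsSmooth (ρ i)) [∀ i, Module.Finite 𝔽 (M i)] :
    FS 𝔇 c (piRep ρ) (piRep_smooth 𝔇.L ρ hρ) = ∑ i, FS 𝔇 c (ρ i) (hρ i) := by
  unfold FS
  rw [cm_pi, Finset.sum_add_distrib]
  congr 1
  · unfold Cx.chi
    rw [Finset.sum_comm]
    refine Finset.sum_congr rfl fun n hn => ?_
    have hn2 : n ≤ 2 := Nat.lt_succ_iff.mp (Finset.mem_range.mp hn)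
    have : ∀ i, Module.Finite 𝔽 ((𝔇.C (ρ i) (hρ i)).H n) := fun i => h.fin (ρ i) (hρ i) n hn2
    rw [finrank_H_pi 𝔇 ρ hρ n, Nat.cast_sum, Finset.mul_sum]
  · push_cast
    rfl

end Pi

/-! ### The character sum -/

section Main

variable {G : Type} [Group G] (𝔇 : LocDatum G) (c : G) {𝔽 : Type} [Field 𝔽]
variable {k : Type} [Field k] [Algebra 𝔽 k]
variable (U₁ U : Subgroup G)

/-- `Coind_{U₁}^G k` (trivial action on `k`) is smooth when `U₁` contains a level. -/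
lemma isSmooth_coind_triv (hlev : ∃ N ∈ 𝔇.L.lev, N ≤ U₁) :
    𝔇.IsSmooth (coind U₁.subtype (Representation.trivial 𝔽 U₁ k)) :=
  coind_smooth 𝔇.L U₁ hlev _ (fun _ => by
    obtain ⟨N, hN⟩ := (subLev 𝔇.L U₁).nonempty
    exact ⟨N, hN, fun s _ => rfl⟩)

/-- `Coind_U^G k(ψ)` is smooth when `ψ` is trivial on `U₁ ≤ U` and `U₁` contains a level. -/
lemma isSmooth_coind_chi (hle : U₁ ≤ U) (hlev : ∃ N ∈ 𝔇.L.lev, N ≤ U₁) (ψ : U →* kˣ)
    (hψ : U₁.subgroupOf U ≤ ψ.ker) :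
    𝔇.IsSmooth (coind U.subtype (chiRepF 𝔽 ψ)) := by
  obtain ⟨N, hN, hNU⟩ := hlev
  refine coind_smooth 𝔇.L U ⟨N, hN, hNU.trans hle⟩ _
    (fun x => ⟨N.subgroupOf U, ⟨N, hN, rfl⟩, fun s hs => ?_⟩)
  have h1 : ψ s = 1 :=
    MonoidHom.mem_ker.mp (hψ (Subgroup.mem_subgroupOf.mpr (hNU (Subgroup.mem_subgroupOf.mp hs))))
  rw [chiRepF_apply, h1, Units.val_one, one_mul]

variable [Module.Finite 𝔽 k]

/-- **The character sum**: `∑_ψ FS(Coind_U k(ψ)) = [k:𝔽] · FS(𝔽[U₁ \ G])`. -/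
theorem sum_FS_coind_chi {χ : G →* 𝔽ˣ} (h : LocDatum.CountHyp 𝔇 𝔽 χ) (hle : U₁ ≤ U)
    (hlev : ∃ N ∈ 𝔇.L.lev, N ≤ U₁) (hk : ((U₁.relIndex U : ℕ) : k) ≠ 0)
    (hsep : ∀ u : U, (∀ ψ : chars U₁ U k, ψ.1 u = 1) → u ∈ U₁.subgroupOf U)
    [Fintype (chars U₁ U k)] :
    ∑ ψ : chars U₁ U k, FS 𝔇 c (coind U.subtype (chiRepF 𝔽 ψ.1))
        (isSmooth_coind_chi 𝔇 U₁ U hle hlev ψ.1 ψ.2) =
      (finrank 𝔽 k : ℤ) * FS 𝔇 c (permRep U₁ 𝔽) (permRep_smooth 𝔇.L U₁ 𝔽 hlev) := by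
  have hfi : U₁.FiniteIndex := by
    obtain ⟨N, hN, hNU⟩ := hlev
    have := 𝔇.L.finiteIndex N hN
    exact Subgroup.finiteIndex_of_le hNU
  have hfinP : Module.Finite 𝔽 (coindV U₁.subtype (Representation.trivial 𝔽 U₁ 𝔽)) :=
    finite_perm U₁ 𝔽
  obtain ⟨-, e, he⟩ := exists_coindChiEquiv U₁ U 𝔽 k hle hk hsep
  obtain ⟨e', he'⟩ := exists_coindPowEquiv 𝔽 k U₁
  have hfinX : Module.Finite 𝔽 (coindV U₁.subtype (Representation.trivial 𝔽 U₁ k)) :=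
    Module.Finite.equiv e'.symm
  have hfinψ : ∀ ψ : chars U₁ U k, Module.Finite 𝔽 (coindV U.subtype (chiRepF 𝔽 ψ.1)) := by
    intro ψ
    classical
    refine Module.Finite.of_surjective ((LinearMap.proj ψ).comp e.toLinearMap) ?_
    intro y
    refine ⟨e.symm (Pi.single ψ y), ?_⟩
    simp
  have h1 : FS 𝔇 c (coind U₁.subtype (Representation.trivial 𝔽 U₁ k))
      (isSmooth_coind_triv 𝔇 U₁ hlev) =
      FS 𝔇 c (piRep fun ψ : chars U₁ U k => coind U.subtype (chiRepF 𝔽 ψ.1))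
        (piRep_smooth 𝔇.L _ fun ψ => isSmooth_coind_chi 𝔇 U₁ U hle hlev ψ.1 ψ.2) :=
    FS_congr 𝔇 c _ _ e (fun g f => funext fun ψ => he g f ψ)
  have h2 : FS 𝔇 c (coind U₁.subtype (Representation.trivial 𝔽 U₁ k))
      (isSmooth_coind_triv 𝔇 U₁ hlev) =
      FS 𝔇 c (piRep fun _ : Fin (finrank 𝔽 k) => permRep U₁ 𝔽)
        (piRep_smooth 𝔇.L _ fun _ => permRep_smooth 𝔇.L U₁ 𝔽 hlev) :=
    FS_congr 𝔇 c _ _ e' (fun g f => funext fun i => he' g f i)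
  have h3 := FS_pi 𝔇 c h (fun ψ : chars U₁ U k => coind U.subtype (chiRepF 𝔽 ψ.1))
    (fun ψ => isSmooth_coind_chi 𝔇 U₁ U hle hlev ψ.1 ψ.2)
  have h4 := FS_pi 𝔇 c h (fun _ : Fin (finrank 𝔽 k) => permRep U₁ 𝔽)
    (fun _ => permRep_smooth 𝔇.L U₁ 𝔽 hlev)
  rw [← h3, ← h1, h2, h4]
  simp

/-- **(χ-B1), abstract form**: if `FS(𝔽[U₁ \ G]) = 0` and `FS(Coind_U k(ψ)) ≥ 0` for every
character `ψ` of `U` trivial on `U₁`, then `FS(Coind_U k(ψ)) = 0` for every such `ψ`. -/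
theorem FS_coind_chi_eq_zero_of_nonneg {χ : G →* 𝔽ˣ} (h : LocDatum.CountHyp 𝔇 𝔽 χ)
    (hle : U₁ ≤ U) (hlev : ∃ N ∈ 𝔇.L.lev, N ≤ U₁) (hk : ((U₁.relIndex U : ℕ) : k) ≠ 0)
    (hsep : ∀ u : U, (∀ ψ : U →* kˣ, U₁.subgroupOf U ≤ ψ.ker → ψ u = 1) →
      (u : G) ∈ U₁)
    (h0 : FS 𝔇 c (permRep U₁ 𝔽) (permRep_smooth 𝔇.L U₁ 𝔽 hlev) = 0)
    (hpos : ∀ ψ : U →* kˣ, U₁.subgroupOf U ≤ ψ.ker →
      ∀ hY : 𝔇.IsSmooth (coind U.subtype (chiRepF 𝔽 ψ)),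
        0 ≤ FS 𝔇 c (coind U.subtype (chiRepF 𝔽 ψ)) hY)
    (ψ : U →* kˣ) (hψ : U₁.subgroupOf U ≤ ψ.ker)
    (hY : 𝔇.IsSmooth (coind U.subtype (chiRepF 𝔽 ψ))) :
    FS 𝔇 c (coind U.subtype (chiRepF 𝔽 ψ)) hY = 0 := by
  classical
  have hsep' : ∀ u : U, (∀ ψ : chars U₁ U k, ψ.1 u = 1) → u ∈ U₁.subgroupOf U :=
    fun u hu => Subgroup.mem_subgroupOf.mpr (hsep u fun ψ hψ => hu ⟨ψ, hψ⟩)
  obtain ⟨hfin, -⟩ := exists_coindChiEquiv U₁ U 𝔽 k hle hk hsep'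
  have := Fintype.ofFinite (chars U₁ U k)
  have hsum := sum_FS_coind_chi 𝔇 c U₁ U h hle hlev hk hsep'
  rw [h0, mul_zero] at hsum
  have h3 := (Finset.sum_eq_zero_iff_of_nonneg (fun ψ' _ => hpos ψ'.1 ψ'.2 _)).mp hsum
    ⟨ψ, hψ⟩ (Finset.mem_univ _)
  exact h3

end Main

/-! ### The datum of `(ℚ, S)` -/

section Datum

open Fermat.Agent.PT.Bridge Fermat.Agent.PT.Base ExtCitation

local notation "Qb" => AlgebraicClosure ℚ
local notation "GQ" => (AlgebraicClosure ℚ ≃ₐ[ℚ] AlgebraicClosure ℚ)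

variable (p : ℕ) [Fact p.Prime] (S : Finset Nat.Primes)

lemma two_ne_zero_zmod (hp2 : p ≠ 2) : (2 : ZMod p) ≠ 0 := by
  intro h
  have h1 : ((2 : ℕ) : ZMod p) = 0 := by exact_mod_cast h
  rw [ZMod.natCast_eq_zero_iff] at h1
  have hp : p.Prime := Fact.out
  exact hp2 ((Nat.prime_dvd_prime_iff_eq hp Nat.prime_two).mp h1)

/-- **`FS(𝔽_p[U₁ \ G_ℚ]) = 0`** from the global Euler characteristic `2·χ₂(U₁; 𝔽_p) = -[G_ℚ : U₁]`
and an involution `c` acting freely on `U₁ \ G_ℚ` (`p` odd). -/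
theorem FS_perm_eq_zero (hp2 : p ≠ 2) (U₁ : Subgroup GQ) (hlev : ∃ N ∈ (levS S).lev, N ≤ U₁)
    (hχ : 2 * Cx.chi (CU p S U₁) 2 = -(U₁.index : ℤ)) (c : GQ) (hc : c * c = 1)
    (hfree : ∀ x : GQ, x * c * x⁻¹ ∉ U₁) :
    FS (datum S) c (permRep U₁ (ZMod p)) (permRep_smooth (levS S) U₁ (ZMod p) hlev) = 0 := by
  have hfi : U₁.FiniteIndex := by
    obtain ⟨N, hN, hNU⟩ := hlev
    have := (levS S).finiteIndex N hN
    exact Subgroup.finiteIndex_of_le hNU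
  have := finite_perm U₁ (ZMod p)
  have h1 := Mackey.chi_C_perm p S U₁ hlev 2
  have h2 := two_mul_finrank_ker_coind_add_one U₁ (F := ZMod p) (A := ZMod p) hc hfree
    (two_ne_zero_zmod p hp2)
  rw [finrank_perm] at h2
  have h3 : (2 : ℤ) * (cm c (permRep U₁ (ZMod p)) : ℤ) = (U₁.index : ℤ) := by
    unfold cm
    exact_mod_cast h2
  unfold FS
  rw [h1]
  linarith

/-- **(χ-B1)**: for a base field `K₁` (finite, unramified outside `S`, `⊇ μ_p`),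
`U₁ = Gal(ℚ̄/K₁) ≤ U` with `[U : U₁]` nonzero in `k` and the `k`-valued characters of `U` trivial
on `U₁` separating the cosets of `U₁`, and an involution `c` with `χ_cyc(c) ≠ 1`: if
`FS(Coind_U k(ψ)) ≥ 0` for every character `ψ` of `U` trivial on `U₁`, then all of them vanish.
(`∑_ψ FS(Coind_U k(ψ)) = [k:𝔽_p]·FS(𝔽_p[U₁\G_ℚ]) = 0` by the global Euler characteristic of
`K₁` with `𝔽_p`-coefficients.) -/
theorem FS_coind_chi_eq_zero_of_PTOut (hp2 : p ≠ 2) (hPT : PTOut p S) {k : Type} [Field k]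
    [Algebra (ZMod p) k] [Module.Finite (ZMod p) k] (K₁ : IntermediateField ℚ Qb)
    (hK₁ : IsBaseField p S K₁) (U : Subgroup GQ) (hle : K₁.fixingSubgroup ≤ U)
    (hk : ((K₁.fixingSubgroup.relIndex U : ℕ) : k) ≠ 0)
    (hsep : ∀ u : U, (∀ ψ : U →* kˣ, K₁.fixingSubgroup.subgroupOf U ≤ ψ.ker → ψ u = 1) →
      (u : GQ) ∈ K₁.fixingSubgroup)
    (c : GQ) (hc : c * c = 1) (hcω : cycloChar p c ≠ 1)
    (hpos : ∀ ψ : U →* kˣ, K₁.fixingSubgroup.subgroupOf U ≤ ψ.ker →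
      ∀ hY : (datum S).IsSmooth (coind U.subtype (chiRepF (ZMod p) ψ)),
        0 ≤ FS (datum S) c (coind U.subtype (chiRepF (ZMod p) ψ)) hY)
    (ψ : U →* kˣ) (hψ : K₁.fixingSubgroup.subgroupOf U ≤ ψ.ker)
    (hY : (datum S).IsSmooth (coind U.subtype (chiRepF (ZMod p) ψ))) :
    FS (datum S) c (coind U.subtype (chiRepF (ZMod p) ψ)) hY = 0 := by
  have hlev : ∃ N ∈ (levS S).lev, N ≤ K₁.fixingSubgroup := exists_mem_levS_le hK₁.unram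
  have hχ := (Mackey.chi_CU_of_baseInputs p S hPT.hpS hPT.base K₁ hK₁).2
  have hfree : ∀ x : GQ, x * c * x⁻¹ ∉ K₁.fixingSubgroup := by
    intro x hx
    apply hcω
    have h1 := hK₁.cyc _ hx
    rw [map_mul, map_mul, map_inv, mul_comm, inv_mul_cancel_left] at h1
    exact h1
  exact FS_coind_chi_eq_zero_of_nonneg (datum S) c K₁.fixingSubgroup U hPT.engine.count hle hlev
    hk hsep (FS_perm_eq_zero p S hp2 _ hlev hχ c hc hfree) hpos ψ hψ hY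

end Datum

end Fermat.Agent.TW.EC.CharSum
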