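/-
TW, (EC), brick (χ-asm), setup (Mathlib only): the common kernel `U₁` of two characters
`f₁, f₂ : U → kˣ` of a subgroup `U ≤ G`, the quotient `A = U / U₁ ↪ kˣ × kˣ`:
its order is prime to the characteristic, all its characters are `k`-valued.
-/
import Mathlib

set_option autoImplicit false

namespace Fermat.Agent.TW.EC.CharKer

section Abstract

variable {G : Type*} [Group G] {k : Type*} [Field k]

/-- The common kernel of two characters of a subgroup `U ≤ G`, as a subgroup of `G`. -/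
def kerSub (U : Subgroup G) (f₁ f₂ : U →* kˣ) : Subgroup G :=
  (f₁.ker ⊓ f₂.ker).map U.subtype

variable {U : Subgroup G} {f₁ f₂ : U →* kˣ}

theorem kerSub_le : kerSub U f₁ f₂ ≤ U := by
  rintro _ ⟨u, -, rfl⟩
  exact u.2

theorem mem_kerSub_iff (u : U) : (u : G) ∈ kerSub U f₁ f₂ ↔ f₁ u = 1 ∧ f₂ u = 1 := by
  constructor
  · rintro ⟨v, hv, hvu⟩
    have : v = u := Subtype.ext hvu
    subst this
    exact ⟨MonoidHom.mem_ker.mp hv.1, MonoidHom.mem_ker.mp hv.2⟩
  · intro h
    exact ⟨u, ⟨MonoidHom.mem_ker.mpr h.1, MonoidHom.mem_ker.mpr h.2⟩, rfl⟩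

theorem mem_kerSub_iff' (x : G) :
    x ∈ kerSub U f₁ f₂ ↔ ∃ h : x ∈ U, f₁ ⟨x, h⟩ = 1 ∧ f₂ ⟨x, h⟩ = 1 := by
  constructor
  · intro hx
    exact ⟨kerSub_le hx, (mem_kerSub_iff ⟨x, kerSub_le hx⟩).mp hx⟩
  · rintro ⟨h, h'⟩
    exact (mem_kerSub_iff ⟨x, h⟩).mpr h'

theorem kerSub_subgroupOf : (kerSub U f₁ f₂).subgroupOf U = f₁.ker ⊓ f₂.ker := by
  ext u
  rw [Subgroup.mem_subgroupOf, mem_kerSub_iff, Subgroup.mem_inf, MonoidHom.mem_ker,
    MonoidHom.mem_ker]

theorem kerSub_subgroupOf_eq_ker :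
    (kerSub U f₁ f₂).subgroupOf U = (f₁.prod f₂).ker := by
  rw [kerSub_subgroupOf, MonoidHom.ker_prod]

instance kerSub_normal : ((kerSub U f₁ f₂).subgroupOf U).Normal := by
  rw [kerSub_subgroupOf_eq_ker]
  infer_instance

/-- `U₁` is normalised by `U`. -/
theorem conj_mem_kerSub {g x : G} (hg : g ∈ U) (hx : x ∈ kerSub U f₁ f₂) :
    g * x * g⁻¹ ∈ kerSub U f₁ f₂ := by
  have hxU : x ∈ U := kerSub_le hx
  have h1 := (mem_kerSub_iff ⟨x, hxU⟩).mp hx
  refine (mem_kerSub_iff ⟨g * x * g⁻¹, U.mul_mem (U.mul_mem hg hxU) (U.inv_mem hg)⟩).mpr ?_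
  have e1 : f₁ (⟨g, hg⟩ * ⟨x, hxU⟩ * ⟨g, hg⟩⁻¹) = 1 := by
    rw [map_mul, map_mul, map_inv, h1.1, mul_one, mul_inv_cancel]
  have e2 : f₂ (⟨g, hg⟩ * ⟨x, hxU⟩ * ⟨g, hg⟩⁻¹) = 1 := by
    rw [map_mul, map_mul, map_inv, h1.2, mul_one, mul_inv_cancel]
  exact ⟨e1, e2⟩

theorem conj_mem_kerSub' {g x : G} (hg : g ∈ U) (hx : x ∈ kerSub U f₁ f₂) :
    g⁻¹ * x * g ∈ kerSub U f₁ f₂ := by
  have := conj_mem_kerSub (U.inv_mem hg) hx
  rwa [inv_inv] at this

/-- The relative index of `U₁` in `U` is the order of the image of `U` in `kˣ × kˣ`. -/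
theorem relIndex_kerSub :
    (kerSub U f₁ f₂).relIndex U = Nat.card (f₁.prod f₂).range := by
  rw [Subgroup.relIndex, kerSub_subgroupOf_eq_ker, Subgroup.index_ker]

/-- If a subgroup of finite index of `G` lies in `U₁`, the relative index is nonzero. -/
theorem relIndex_kerSub_ne_zero (N : Subgroup G) [N.FiniteIndex] (hN : N ≤ kerSub U f₁ f₂) :
    (kerSub U f₁ f₂).relIndex U ≠ 0 := by
  have h1 : (kerSub U f₁ f₂).FiniteIndex := Subgroup.finiteIndex_of_le hN
  have h2 : (kerSub U f₁ f₂).relIndex U ∣ (kerSub U f₁ f₂).index :=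
    Subgroup.relIndex_dvd_index_of_le kerSub_le
  intro h0
  rw [h0] at h2
  exact h1.index_ne_zero (Nat.eq_zero_of_zero_dvd h2)

theorem finite_range_of_relIndex_ne_zero (h : (kerSub U f₁ f₂).relIndex U ≠ 0) :
    Finite (f₁.prod f₂).range := by
  rw [relIndex_kerSub] at h
  exact Nat.finite_of_card_ne_zero h

/-- In characteristic `p` the relative index of `U₁` in `U` is prime to `p`. -/
theorem not_dvd_relIndex_kerSub (p : ℕ) [Fact p.Prime] [CharP k p]
    (h : (kerSub U f₁ f₂).relIndex U ≠ 0) : ¬ p ∣ (kerSub U f₁ f₂).relIndex U := by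
  have hfin := finite_range_of_relIndex_ne_zero h
  rw [relIndex_kerSub]
  intro hdvd
  obtain ⟨x, hx⟩ := exists_prime_orderOf_dvd_card' (G := (f₁.prod f₂).range) p hdvd
  have hxp : x ^ p = 1 := hx ▸ pow_orderOf_eq_one x
  have key : ∀ a : kˣ, a ^ p = 1 → a = 1 := by
    intro a ha
    have h1 : ((a : k) - 1) ^ p = 0 := by
      rw [sub_pow_char, one_pow, ← Units.val_pow_eq_pow_val, ha, Units.val_one, sub_self]
    have h2 : (a : k) - 1 = 0 := pow_eq_zero_iff (Fact.out : p.Prime).ne_zero |>.mp h1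
    exact Units.ext (by rw [Units.val_one]; exact sub_eq_zero.mp h2)
  have hx1 : x = 1 := by
    have h3 : ((x : kˣ × kˣ)) ^ p = 1 := by
      have := congrArg (Subtype.val) hxp
      simpa using this
    have h4 : (x : kˣ × kˣ) = 1 := by
      apply Prod.ext
      · exact key _ (by simpa using congrArg Prod.fst h3)
      · exact key _ (by simpa using congrArg Prod.snd h3)
    exact Subtype.ext h4
  rw [hx1, orderOf_one] at hx
  exact (Fact.out : p.Prime).one_lt.ne hx

/-- `k` has enough roots of unity for a finite subgroup of `kˣ × kˣ`. -/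
theorem hasEnoughRootsOfUnity_of_subgroup_prod (B : Subgroup (kˣ × kˣ)) [Finite B] :
    HasEnoughRootsOfUnity k (Monoid.exponent B) := by
  set n := Monoid.exponent B with hn
  have hn0 : n ≠ 0 := Monoid.exponent_ne_zero_of_finite
  have : NeZero n := ⟨hn0⟩
  apply HasEnoughRootsOfUnity.of_card_le
  have : IsCyclic (rootsOfUnity n k) := rootsOfUnity.isCyclic k n
  have hdvd : n ∣ Nat.card (rootsOfUnity n k) := by
    apply Monoid.exponent_dvd_of_forall_pow_eq_one
    intro b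
    have hb : (b : kˣ × kˣ) ^ n = 1 := by
      have := Monoid.pow_exponent_eq_one b
      have := congrArg Subtype.val this
      simpa using this
    have h1 : (b : kˣ × kˣ).1 ∈ rootsOfUnity n k := by
      rw [mem_rootsOfUnity]
      simpa using congrArg Prod.fst hb
    have h2 : (b : kˣ × kˣ).2 ∈ rootsOfUnity n k := by
      rw [mem_rootsOfUnity]
      simpa using congrArg Prod.snd hb
    have h1' : (b : kˣ × kˣ).1 ^ Nat.card (rootsOfUnity n k) = 1 := by
      have := pow_card_eq_one' (G := rootsOfUnity n k) (x := ⟨_, h1⟩)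
      simpa using congrArg Subtype.val this
    have h2' : (b : kˣ × kˣ).2 ^ Nat.card (rootsOfUnity n k) = 1 := by
      have := pow_card_eq_one' (G := rootsOfUnity n k) (x := ⟨_, h2⟩)
      simpa using congrArg Subtype.val this
    apply Subtype.ext
    apply Prod.ext
    · simpa using h1'
    · simpa using h2'
  exact Nat.le_of_dvd Nat.card_pos hdvd

/-- **All characters of `A = U / U₁` are `k`-valued**: the number of characters of `U` trivial
on `U₁` is `[U : U₁]`. -/
theorem card_chars_kerSub (h : (kerSub U f₁ f₂).relIndex U ≠ 0) :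
    Nat.card {ψ' : U →* kˣ // (kerSub U f₁ f₂).subgroupOf U ≤ ψ'.ker}
      = (kerSub U f₁ f₂).relIndex U := by
  have hfin := finite_range_of_relIndex_ne_zero h
  have := hasEnoughRootsOfUnity_of_subgroup_prod (f₁.prod f₂).range
  have hsurj : Function.Surjective (f₁.prod f₂).rangeRestrict :=
    (f₁.prod f₂).rangeRestrict_surjective
  have hker : (f₁.prod f₂).rangeRestrict.ker = (kerSub U f₁ f₂).subgroupOf U := by
    rw [MonoidHom.ker_rangeRestrict, kerSub_subgroupOf_eq_ker]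
  rw [← hker, Nat.card_congr ((f₁.prod f₂).rangeRestrict.liftOfSurjective hsurj),
    CommGroup.card_monoidHom_of_hasEnoughRootsOfUnity, relIndex_kerSub]

/-- Powers: `u ^ [U : U₁] ∈ U₁` for `u ∈ U`. -/
theorem pow_relIndex_mem_kerSub (h : (kerSub U f₁ f₂).relIndex U ≠ 0) {u : G} (hu : u ∈ U) :
    u ^ (kerSub U f₁ f₂).relIndex U ∈ kerSub U f₁ f₂ := by
  have hfin := finite_range_of_relIndex_ne_zero h
  have h1 : ((f₁.prod f₂).rangeRestrict ⟨u, hu⟩) ^ Nat.card (f₁.prod f₂).range = 1 :=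
    pow_card_eq_one'
  rw [← map_pow, ← MonoidHom.mem_ker, MonoidHom.ker_rangeRestrict,
    ← kerSub_subgroupOf_eq_ker, Subgroup.mem_subgroupOf, ← relIndex_kerSub] at h1
  exact h1

/-- A generator of `U` modulo a subgroup of `U₁` generates `U` modulo `U₁`; a character trivial
on `U₁` is determined by its value at the generator. -/
theorem eq_one_iff_of_gen {g : G} (hg : g ∈ U)
    (hgen : ∀ u ∈ U, ∃ n : ℤ, g ^ n * u ∈ kerSub U f₁ f₂) (ψ' : U →* kˣ)
    (hψ' : ∀ u : U, (u : G) ∈ kerSub U f₁ f₂ → ψ' u = 1) :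
    ψ' = 1 ↔ ψ' ⟨g, hg⟩ = 1 := by
  constructor
  · intro h
    rw [h]
    rfl
  · intro h
    ext u
    obtain ⟨n, hn⟩ := hgen u u.2
    have h1 : ψ' (⟨g, hg⟩ ^ n * u) = 1 := hψ' _ hn
    rw [map_mul, map_zpow, h, one_zpow, one_mul] at h1
    rw [h1]
    rfl

end Abstract

end Fermat.Agent.TW.EC.CharKer
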