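/-
TW (EC-CHI, row 316): the Galois-theoretic setup of the per-character Euler characteristic
`F_S(Coind_U k(ψ)) = 0`.

* `omegaK p k : GQ →* kˣ` : the mod `p` cyclotomic character with values in `kˣ`;
  `omegaK_complexConjugation : omegaK p k complexConjugation = -1`;
* the field cut out by `rb` is `IntermediateField.fixedField rb.ker`: it is finite over `ℚ`,
  its fixing subgroup is `rb.ker`, and it is unramified outside `S` when `rb` is;
* `exists_chiSetup` : for `U ⊇ ker rb` and `ψ : U →* kˣ` trivial on `ker rb`, the subgroup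
  `U₁ = {u ∈ U | ψ u = 1 ∧ ω u = 1}` (`CharKer.kerSub`) is `Gal(ℚ̄/K₁)` for a base field
  `K₁ ≤ fixedField (ker rb)` of `(p, S)`.
-/
import Mathlib
import Fermat.Agent.TW.GW.Defs
import Fermat.Agent.TW.Local.AwayCore
import Fermat.Agent.PT.Base.Cd
import Fermat.Agent.PT.G.KumH1Base
import Fermat.Agent.TW.EC.CharKer
import Fermat.Agent.Lib.GalQbar

set_option autoImplicit false

namespace Fermat.Agent.TW.EC.ChiSetup

open Fermat.Agent.S53 Fermat.Agent.PT Fermat.Agent.PT.Bridge ExtCitation

local notation "Qb" => AlgebraicClosure ℚ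

noncomputable section

/-! ### The cyclotomic character with values in `kˣ` -/

section Omega

variable (p : ℕ) [Fact p.Prime] (k : Type) [Field k] [Algebra (ZMod p) k]

/-- The mod `p` cyclotomic character, with values in `kˣ`. -/
def omegaK : GQ →* kˣ :=
  (Units.map (algebraMap (ZMod p) k : ZMod p →* k)).comp (cycloChar p)

theorem omegaK_apply (g : GQ) :
    ((omegaK p k g : kˣ) : k) = algebraMap (ZMod p) k ((cycloChar p g : (ZMod p)ˣ) : ZMod p) :=
  rfl

theorem omegaK_eq_one_iff (g : GQ) : omegaK p k g = 1 ↔ cycloChar p g = 1 := by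
  constructor
  · intro h
    have h1 : ((omegaK p k g : kˣ) : k) = 1 := by rw [h]; rfl
    rw [omegaK_apply] at h1
    have h2 : ((cycloChar p g : (ZMod p)ˣ) : ZMod p) = 1 :=
      (algebraMap (ZMod p) k).injective (by rw [h1, map_one])
    exact Units.ext h2
  · intro h
    apply Units.ext
    rw [omegaK_apply, h, Units.val_one, map_one, Units.val_one]

/-- Complex conjugation acts on `μ_p` by inversion: `χ_cyc(c) = -1`. -/
theorem cycloChar_complexConjugation : cycloChar p complexConjugation = -1 := by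
  have hp : p.Prime := Fact.out
  obtain ⟨ζ, hζ⟩ := Levels.exists_primitiveRoot_Qbar p
  have h1 := DualTwist.cycloExp_spec' p complexConjugation ζ hζ.pow_eq_one
  have h2 := Away.complexConjugation_apply_of_pow_eq_one p hp.pos ζ hζ.pow_eq_one
  have hlt : cycloExp p complexConjugation < p := by
    rw [← val_cycloChar]
    exact ZMod.val_lt _
  have h3 : cycloExp p complexConjugation = p - 1 :=
    hζ.pow_inj hlt (Nat.sub_lt hp.pos one_pos) (h1.symm.trans h2)
  apply Units.ext
  rw [coe_cycloChar, h3, Nat.cast_sub hp.one_le, Nat.cast_one, ZMod.natCast_self, zero_sub]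
  rfl

theorem omegaK_complexConjugation : omegaK p k complexConjugation = -1 := by
  apply Units.ext
  rw [omegaK_apply, cycloChar_complexConjugation, Units.val_neg, Units.val_one, map_neg, map_one,
    Units.val_neg, Units.val_one]

end Omega


/-! ### The field cut out by `rb` -/

section RbField

variable {k : Type} [Field k]

theorem exists_field_fixingSubgroup_eq_ker {rb : GQ →* Mat2 k} (h : FiniteLevel rb) :
    ∃ L : IntermediateField ℚ Qb, FiniteDimensional ℚ L ∧ L.fixingSubgroup = rb.ker := by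
  obtain ⟨F, hF, hF'⟩ := h
  have hle : F.fixingSubgroup ≤ rb.ker := fun s hs =>
    MonoidHom.mem_ker.mpr (hF' s fun x hx => (IntermediateField.mem_fixingSubgroup_iff F s).mp hs x hx)
  obtain ⟨K, -, hK, hKf⟩ := Base.exists_field_of_le F rb.ker hle
  exact ⟨K, hK, hKf⟩

theorem fixedField_ker_spec {rb : GQ →* Mat2 k} (h : FiniteLevel rb) :
    FiniteDimensional ℚ (IntermediateField.fixedField rb.ker) ∧
      (IntermediateField.fixedField rb.ker).fixingSubgroup = rb.ker := by
  obtain ⟨L, hL, hLf⟩ := exists_field_fixingSubgroup_eq_ker h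
  have hgal : IsGalois ℚ Qb := Lib.GalQbar.isGalois_rat
  have hL' : IntermediateField.fixedField rb.ker = L := by
    rw [← hLf]
    exact InfiniteGalois.fixedField_fixingSubgroup L
  rw [hL']
  exact ⟨hL, hLf⟩

/-- The field cut out by `rb` (of finite level) is finite over `ℚ`. -/
theorem finiteDimensional_fixedField_ker {rb : GQ →* Mat2 k} (h : FiniteLevel rb) :
    FiniteDimensional ℚ (IntermediateField.fixedField rb.ker) := (fixedField_ker_spec h).1

/-- `Gal(ℚ̄/ℚ(rb)) = ker rb`. -/
theorem fixingSubgroup_fixedField_ker {rb : GQ →* Mat2 k} (h : FiniteLevel rb) :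
    (IntermediateField.fixedField rb.ker).fixingSubgroup = rb.ker := (fixedField_ker_spec h).2

/-- The field cut out by `rb` is unramified outside `S` when `rb` is. -/
theorem isUnramifiedOutside_fixedField_ker {rb : GQ →* Mat2 k} (h : FiniteLevel rb)
    (S : Finset Nat.Primes)
    (hunr : ∀ q : Nat.Primes, q ∉ S → ∀ P : ValuationSubring Qb, P.LiesOverPrime (q : ℕ) →
      ∀ σ ∈ P.inertiaSubgroupIn ℚ, rb σ = 1) :
    (IntermediateField.fixedField rb.ker).IsUnramifiedOutside S :=
  ⟨finiteDimensional_fixedField_ker h, fun q hq A hA σ hσ => by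
    rw [fixingSubgroup_fixedField_ker h]
    exact MonoidHom.mem_ker.mpr (hunr q hq A hA σ hσ)⟩

end RbField


/-! ### The setup -/

section Setup

variable (p : ℕ) [Fact p.Prime] (S : Finset Nat.Primes) {k : Type} [Field k] [Algebra (ZMod p) k]

/-- Under `ResidualHyp`, the cyclotomic character is trivial on `ker rb`. -/
theorem cycloChar_eq_one_of_mem_ker {rb : GQ →* Mat2 k} (h : ResidualHyp rb p) {s : GQ}
    (hs : s ∈ rb.ker) : cycloChar p s = 1 := by
  have h1 := GW.det_eq_cycloChar p h s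
  rw [MonoidHom.mem_ker.mp hs, Matrix.det_one] at h1
  have h2 : ((cycloChar p s : (ZMod p)ˣ) : ZMod p) = 1 :=
    (algebraMap (ZMod p) k).injective (by rw [← h1, map_one])
  exact Units.ext h2

/-- `ker rb ≤ U₁ = {u ∈ U | ψ u = 1 ∧ ω u = 1}`. -/
theorem ker_le_kerSub {rb : GQ →* Mat2 k} (h : ResidualHyp rb p) (U : Subgroup GQ)
    (hNU : rb.ker ≤ U) (ψ : U →* kˣ) (hψ : ∀ u : U, (u : GQ) ∈ rb.ker → ψ u = 1) :
    rb.ker ≤ CharKer.kerSub U ψ ((omegaK p k).comp U.subtype) := by
  intro s hs
  rw [CharKer.mem_kerSub_iff']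
  refine ⟨hNU hs, hψ ⟨s, hNU hs⟩ hs, ?_⟩
  show omegaK p k s = 1
  rw [omegaK_eq_one_iff]
  exact cycloChar_eq_one_of_mem_ker p h hs

/-- **The setup of (EC-CHI)**: for `U ⊇ ker rb` and a character `ψ` of `U` trivial on `ker rb`,
the common kernel `U₁` of `ψ` and `ω|_U` is `Gal(ℚ̄/K₁)` for a base field `K₁` of `(p, S)`
contained in the field cut out by `rb`. -/
theorem exists_chiSetup {rb : GQ →* Mat2 k} (h : ResidualHyp rb p)
    (hunr : ∀ q : Nat.Primes, q ∉ S → ∀ P : ValuationSubring Qb, P.LiesOverPrime (q : ℕ) →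
      ∀ σ ∈ P.inertiaSubgroupIn ℚ, rb σ = 1)
    (U : Subgroup GQ) (hNU : rb.ker ≤ U) (ψ : U →* kˣ)
    (hψ : ∀ u : U, (u : GQ) ∈ rb.ker → ψ u = 1) :
    ∃ K₁ : IntermediateField ℚ Qb, K₁ ≤ IntermediateField.fixedField rb.ker ∧
      Base.IsBaseField p S K₁ ∧
      K₁.fixingSubgroup = CharKer.kerSub U ψ ((omegaK p k).comp U.subtype) := by
  have hfl : FiniteLevel rb := h.finiteLevel'
  have hle := ker_le_kerSub p h U hNU ψ hψ
  have hfd := finiteDimensional_fixedField_ker hfl
  obtain ⟨K, hKle, hKfd, hKf⟩ := Base.exists_field_of_le (IntermediateField.fixedField rb.ker)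
    (CharKer.kerSub U ψ ((omegaK p k).comp U.subtype))
    (by rw [fixingSubgroup_fixedField_ker hfl]; exact hle)
  refine ⟨K, hKle, ⟨⟨hKfd, fun q hq A hA σ hσ => ?_⟩, fun s hs => ?_⟩, hKf⟩
  · rw [hKf]
    exact hle (MonoidHom.mem_ker.mpr (hunr q hq A hA σ hσ))
  · rw [hKf] at hs
    obtain ⟨hsU, -, h2⟩ := (CharKer.mem_kerSub_iff' s).mp hs
    exact (omegaK_eq_one_iff p k s).mp h2

end Setup

end

end Fermat.Agent.TW.EC.ChiSetup
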