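/-
TW, (EC), brick EC-SIGMA (task 318): the class-group killing set.

For a number field `L ⊆ ℚ̄` there is a finite set `Σ` of rational primes such that for every
finite set `S ⊇ Σ` of primes and every subfield `K ≤ L` the `S`-class group of `K` is trivial;
in particular `Cl_S(K) / p` is trivial and every element of the Selmer group `K(S, p)` is the
product of an `S`-unit and a `p`-th power.
-/
import Fermat.Agent.PT.G.KumBridge
import Fermat.Agent.PT.G.ClSMod

set_option autoImplicit false
set_option linter.unusedSectionVars false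
set_option linter.style.haveILetI false

namespace Fermat.Agent.TW.EC.ClassKill

local notation "Qb" => AlgebraicClosure ℚ

open IsDedekindDomain NumberField FractionalIdeal
open Fermat.Agent.PT.KumBridge Fermat.Agent.PT.SelmerSeq
open scoped nonZeroDivisors

section OneField

variable (K : IntermediateField ℚ Qb) [NumberField K]

/-- Every prime of `𝓞 K` contains a rational prime. -/
theorem exists_natPrime_mem (v : HeightOneSpectrum (𝓞 K)) :
    ∃ q : Nat.Primes, (((q : ℕ) : ℕ) : 𝓞 K) ∈ v.asIdeal := by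
  obtain ⟨q, A, hA, rfl⟩ := exists_primeOf_eq K v
  refine ⟨q, ?_⟩
  rw [mem_primeOf_iff, map_natCast]
  exact A.mem_nonunits_iff.mp hA

/-- The support of an invertible fractional ideal is finite. -/
theorem finite_support_cnt (J : (FractionalIdeal (𝓞 K)⁰ K)ˣ) :
    {v : HeightOneSpectrum (𝓞 K) | cnt K v J ≠ 0}.Finite :=
  finite_factors ((J : (FractionalIdeal (𝓞 K)⁰ K)ˣ) : FractionalIdeal (𝓞 K)⁰ K)

/-- **One field.** There is a finite set `Σ` of rational primes such that every invertible
fractional ideal of `K` is principal up to an ideal supported on the primes over `S`, for every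
`S ⊇ Σ`. -/
theorem exists_forall_mem_PS :
    ∃ T : Finset Nat.Primes, ∀ S : Finset Nat.Primes, T ⊆ S →
      ∀ I : (FractionalIdeal (𝓞 K)⁰ K)ˣ, I ∈ PS K (primesOver K S) := by
  classical
  -- finitely many classes modulo principal ideals
  have hfin : Finite ((FractionalIdeal (𝓞 K)⁰ K)ˣ ⧸ (toPrincipalIdeal (𝓞 K) K).range) :=
    Finite.of_equiv _ (ClassGroup.equiv (R := 𝓞 K) K).toEquiv
  -- representatives
  let rep : ((FractionalIdeal (𝓞 K)⁰ K)ˣ ⧸ (toPrincipalIdeal (𝓞 K) K).range) →
      (FractionalIdeal (𝓞 K)⁰ K)ˣ := fun c => Quotient.out c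
  have hrep : ∀ c, (QuotientGroup.mk (rep c) :
      (FractionalIdeal (𝓞 K)⁰ K)ˣ ⧸ (toPrincipalIdeal (𝓞 K) K).range) = c :=
    fun c => Quotient.out_eq c
  -- the finite set of primes in the supports of the representatives
  have hT : (⋃ c, {v : HeightOneSpectrum (𝓞 K) | cnt K v (rep c) ≠ 0}).Finite :=
    Set.finite_iUnion fun c => finite_support_cnt K (rep c)
  -- rational primes below
  choose qf hqf using exists_natPrime_mem K
  refine ⟨hT.toFinset.image qf, fun S hS I => ?_⟩
  set c : (FractionalIdeal (𝓞 K)⁰ K)ˣ ⧸ (toPrincipalIdeal (𝓞 K) K).range :=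
    QuotientGroup.mk I with hc
  have h1 : (rep c)⁻¹ * I ∈ (toPrincipalIdeal (𝓞 K) K).range := by
    rw [← QuotientGroup.eq, hrep c]
  have h2 : rep c ∈ TS K (primesOver K S) := by
    intro v hv
    by_contra hne
    apply hv
    refine ⟨qf v, hS ?_, hqf v⟩
    rw [Finset.mem_image]
    refine ⟨v, ?_, rfl⟩
    rw [Set.Finite.mem_toFinset, Set.mem_iUnion]
    exact ⟨c, hne⟩
  have h3 : I = rep c * ((rep c)⁻¹ * I) := by rw [mul_inv_cancel_left]
  rw [h3]
  exact Subgroup.mul_mem _ (Subgroup.mem_sup_left h2) (Subgroup.mem_sup_right h1)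

variable {K} in
/-- If every ideal is in `PS`, the `S`-class group is trivial. -/
theorem subsingleton_ClS_of_forall_mem {T : Set (HeightOneSpectrum (𝓞 K))}
    (h : ∀ I : (FractionalIdeal (𝓞 K)⁰ K)ˣ, I ∈ PS K T) : Subsingleton (ClS K T) := by
  refine ⟨fun a b => ?_⟩
  obtain ⟨I, rfl⟩ := QuotientGroup.mk_surjective a
  obtain ⟨J, rfl⟩ := QuotientGroup.mk_surjective b
  rw [QuotientGroup.eq]
  exact h _

end OneField

/-- The subfields of a number field `L ⊆ ℚ̄` are finite in number. -/
theorem finite_setOf_le (L : IntermediateField ℚ Qb) [FiniteDimensional ℚ L] :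
    {K : IntermediateField ℚ Qb | K ≤ L}.Finite := by
  have hfin : Finite (IntermediateField ℚ L) :=
    Field.finite_intermediateField_of_exists_primitive_element ℚ L
      (Field.exists_primitive_element ℚ L)
  have hsub : {K : IntermediateField ℚ Qb | K ≤ L} ⊆
      Set.range (fun K' : IntermediateField ℚ L => IntermediateField.lift K') := by
    intro K hK
    exact ⟨IntermediateField.restrict hK, IntermediateField.lift_restrict hK⟩
  exact (Set.finite_range _).subset hsub

/-- **(EC-SIGMA), ideal form.** For a number field `L ⊆ ℚ̄` there is a finite set `Σ` of primes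
such that for all `S ⊇ Σ` and all subfields `K ≤ L`, every invertible fractional ideal of `K`
is principal up to an ideal supported over `S`. -/
theorem exists_classKill_PS (L : IntermediateField ℚ Qb) [FiniteDimensional ℚ L] :
    ∃ T : Finset Nat.Primes, ∀ S : Finset Nat.Primes, T ⊆ S →
      ∀ (K : IntermediateField ℚ Qb) [NumberField K], K ≤ L →
        ∀ I : (FractionalIdeal (𝓞 K)⁰ K)ˣ, I ∈ PS K (primesOver K S) := by
  classical
  have hfin := finite_setOf_le L
  have hnf : ∀ K : IntermediateField ℚ Qb, K ≤ L → NumberField K := by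
    intro K hK
    haveI : FiniteDimensional ℚ K :=
      FiniteDimensional.of_injective (IntermediateField.inclusion hK).toLinearMap
        (IntermediateField.inclusion_injective hK)
    exact { to_charZero := inferInstance, to_finiteDimensional := inferInstance }
  have hex : ∀ K : IntermediateField ℚ Qb, ∃ T : Finset Nat.Primes, K ≤ L →
      ∀ S : Finset Nat.Primes, T ⊆ S → ∀ [NumberField K],
        ∀ I : (FractionalIdeal (𝓞 K)⁰ K)ˣ, I ∈ PS K (primesOver K S) := by
    intro K
    by_cases hK : K ≤ L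
    · haveI := hnf K hK
      obtain ⟨T, hT'⟩ := exists_forall_mem_PS K
      refine ⟨T, fun _ S hS inst I => ?_⟩
      have hinst : inst = hnf K hK := Subsingleton.elim _ _
      subst hinst
      exact hT' S hS I
    · exact ⟨∅, fun h => absurd h hK⟩
  choose Tf hTf using hex
  refine ⟨hfin.toFinset.biUnion Tf, fun S hS K _ hK I => ?_⟩
  refine hTf K hK S (fun q hq => hS ?_) I
  rw [Finset.mem_biUnion]
  exact ⟨K, by rw [Set.Finite.mem_toFinset]; exact hK, hq⟩

/-- **(EC-SIGMA), class-group form**: the `S`-class groups of all subfields of `L` are trivial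
for `S ⊇ Σ`. -/
theorem exists_classKill_ClS (L : IntermediateField ℚ Qb) [FiniteDimensional ℚ L] :
    ∃ T : Finset Nat.Primes, ∀ S : Finset Nat.Primes, T ⊆ S →
      ∀ (K : IntermediateField ℚ Qb) [NumberField K], K ≤ L →
        Subsingleton (ClS K (primesOver K S)) := by
  obtain ⟨T, hT'⟩ := exists_classKill_PS L
  exact ⟨T, fun S hS K _ hK => subsingleton_ClS_of_forall_mem (hT' S hS K hK)⟩

/-- **(EC-SIGMA)** (task 318): there is a finite set `Σ` of primes with `Cl_S(K) / p` trivial
for all `S ⊇ Σ` and all `K ≤ L` (and all `p`). -/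
theorem exists_classKill (L : IntermediateField ℚ Qb) [FiniteDimensional ℚ L] :
    ∃ T : Finset Nat.Primes, ∀ S : Finset Nat.Primes, T ⊆ S →
      ∀ (K : IntermediateField ℚ Qb) [NumberField K], K ≤ L → ∀ p : ℕ,
        Nat.card (ClSMod K (primesOver K S) p) = 1 := by
  obtain ⟨T, hT'⟩ := exists_classKill_ClS L
  refine ⟨T, fun S hS K _ hK p => ?_⟩
  haveI := hT' S hS K hK
  haveI : Subsingleton (ClSMod K (primesOver K S) p) := by
    refine ⟨fun a b => ?_⟩
    obtain ⟨a, rfl⟩ := QuotientGroup.mk_surjective a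
    obtain ⟨b, rfl⟩ := QuotientGroup.mk_surjective b
    rw [Subsingleton.elim a b]
  exact Nat.card_unique

/-- **(EC-SIGMA), Selmer form**: for `S ⊇ Σ`, `K ≤ L` and `n ≠ 0`, every element of the Selmer
group `K(S, n)` is the product of an `S`-unit and an `n`-th power. -/
theorem exists_classKill_Sel (L : IntermediateField ℚ Qb) [FiniteDimensional ℚ L] :
    ∃ T : Finset Nat.Primes, ∀ S : Finset Nat.Primes, T ⊆ S →
      ∀ (K : IntermediateField ℚ Qb) [NumberField K], K ≤ L → ∀ n : ℕ, n ≠ 0 →
        ∀ x : Kˣ, x ∈ Sel K (primesOver K S) n →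
          ∃ u ∈ (primesOver K S).unit K, ∃ y : Kˣ, x = u * y ^ n := by
  obtain ⟨T, hT'⟩ := exists_classKill_ClS L
  refine ⟨T, fun S hS K _ hK n hn x hx => ?_⟩
  haveI := hT' S hS K hK
  exact (toClS_eq_one_iff hn ⟨x, hx⟩).mp (Subsingleton.elim _ _)

/-- **(EC-SIGMA), all forms with ONE set `T`**: for `S ⊇ T` and every subfield `K ≤ L`:
the `S`-class group of `K` is trivial, `Cl_S(K) / p` has one element for every `p`, and every
element of the Selmer group `K(S, n)` (`n ≠ 0`) is an `S`-unit times an `n`-th power. -/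
theorem exists_classKill_all (L : IntermediateField ℚ Qb) [FiniteDimensional ℚ L] :
    ∃ T : Finset Nat.Primes, ∀ S : Finset Nat.Primes, T ⊆ S →
      ∀ (K : IntermediateField ℚ Qb) [NumberField K], K ≤ L →
        Subsingleton (ClS K (primesOver K S)) ∧
        (∀ p : ℕ, Nat.card (ClSMod K (primesOver K S) p) = 1) ∧
        (∀ n : ℕ, n ≠ 0 → ∀ x : Kˣ, x ∈ Sel K (primesOver K S) n →
          ∃ u ∈ (primesOver K S).unit K, ∃ y : Kˣ, x = u * y ^ n) ∧
        (∀ n : ℕ, n ≠ 0 →
          Sel K (primesOver K S) n =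
            (primesOver K S).unit K ⊔ (powMonoidHom n : Kˣ →* Kˣ).range) := by
  obtain ⟨T, hT'⟩ := exists_classKill_ClS L
  refine ⟨T, fun S hS K _ hK => ?_⟩
  haveI := hT' S hS K hK
  refine ⟨inferInstance, fun p => ?_, fun n hn x hx => ?_, fun n hn => ?_⟩
  · haveI : Subsingleton (ClSMod K (primesOver K S) p) := by
      refine ⟨fun a b => ?_⟩
      obtain ⟨a, rfl⟩ := QuotientGroup.mk_surjective a
      obtain ⟨b, rfl⟩ := QuotientGroup.mk_surjective b
      rw [Subsingleton.elim a b]
    exact Nat.card_unique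
  · exact (toClS_eq_one_iff hn ⟨x, hx⟩).mp (Subsingleton.elim _ _)
  · ext x
    constructor
    · intro hx
      exact (mem_ker_toClS_iff hn ⟨x, hx⟩).mp (Subsingleton.elim _ _)
    · intro hx
      obtain ⟨u, hu, y, ⟨z, rfl⟩, rfl⟩ := Subgroup.mem_sup.mp hx
      intro v hv
      rw [ordK_mul, (mem_unit_iff.mp hu) v hv, zero_add, powMonoidHom_apply, ordK_pow]
      exact dvd_mul_right _ _

end Fermat.Agent.TW.EC.ClassKill
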