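/-
TW / (EC) / (χ-dual), formal half: the tail of the Poitou–Tate sequence as a dimension bound.

For a finite smooth `X` with twisted dual `X' = Hom(X, k)(χ)` over a local datum `𝔇` satisfying
the counting hypotheses `CountHyp 𝔇 k χ` (a field of `PTOut`):

  `Σ_v h⁰_v(X') ≤ h²(X) + h⁰(X')`,

because `H²(X) → ⊕_v H²_v(X) → H³_c(X) → H³(X) = 0` is exact, `h²_v(X) = h⁰_v(X')` and
`h³_c(X) = h⁰(X')`.  Also: cohomology dimensions only depend on the isomorphism class of the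
coefficients, so `X'` may be replaced by any equivariantly isomorphic model
(`Coind_U k(ω ψ⁻¹)` for `X = Coind_U k(ψ)`).
-/
import Mathlib
import Fermat.Agent.PT.Coh.Engine
import Fermat.Agent.PT.Coh.EngineNat

set_option autoImplicit false

namespace Fermat.Agent.TW.EC.DualCount

open Fermat.Agent.PT Module

variable {G : Type} [Group G] (𝔇 : LocDatum G) {k : Type} [Field k]
  {M : Type} [AddCommGroup M] [Module k M] {M' : Type} [AddCommGroup M'] [Module k M']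

/-- global cohomology dimensions are invariant under equivariant isomorphisms -/
theorem finrank_H_congr {ρ : Representation k G M} {ρ' : Representation k G M'}
    (hρ : 𝔇.IsSmooth ρ) (hρ' : 𝔇.IsSmooth ρ') (e : M ≃ₗ[k] M')
    (he : ∀ g m, e (ρ g m) = ρ' g (e m)) (n : ℕ) :
    finrank k (𝔇.H ρ hρ n) = finrank k (𝔇.H ρ' hρ' n) :=
  (LinearEquiv.ofBijective _ (𝔇.mapC_bijective hρ hρ' e he n)).finrank_eq

/-- local cohomology dimensions are invariant under equivariant isomorphisms -/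
theorem finrank_Hv_congr {ρ : Representation k G M} {ρ' : Representation k G M'}
    (hρ : 𝔇.IsSmooth ρ) (hρ' : 𝔇.IsSmooth ρ') (e : M ≃ₗ[k] M')
    (he : ∀ g m, e (ρ g m) = ρ' g (e m)) (v : 𝔇.ι) (n : ℕ) :
    finrank k (𝔇.Hv ρ hρ v n) = finrank k (𝔇.Hv ρ' hρ' v n) :=
  (LinearEquiv.ofBijective _ (𝔇.mapCv_bijective hρ hρ' e he v n)).finrank_eq

/-- finiteness of global cohomology is invariant under equivariant isomorphisms -/
theorem finite_H_congr {ρ : Representation k G M} {ρ' : Representation k G M'}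
    (hρ : 𝔇.IsSmooth ρ) (hρ' : 𝔇.IsSmooth ρ') (e : M ≃ₗ[k] M')
    (he : ∀ g m, e (ρ g m) = ρ' g (e m)) (n : ℕ) [Module.Finite k (𝔇.H ρ hρ n)] :
    Module.Finite k (𝔇.H ρ' hρ' n) :=
  Module.Finite.equiv (LinearEquiv.ofBijective _ (𝔇.mapC_bijective hρ hρ' e he n))

/-- **The Poitou–Tate tail bound**: `Σ_v h⁰_v(X') ≤ h²(X) + h⁰(X')`. -/
theorem sum_finrank_Hv_zero_dualTw_le {χ : G →* kˣ} (hc : LocDatum.CountHyp 𝔇 k χ)
    [Module.Finite k M] (ρ : Representation k G M) (hρ : 𝔇.IsSmooth ρ)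
    (hρ' : 𝔇.IsSmooth (LocDatum.dualTw χ ρ)) :
    ∑ v, finrank k (𝔇.Hv (LocDatum.dualTw χ ρ) hρ' v 0) ≤
      finrank k (𝔇.H ρ hρ 2) + finrank k (𝔇.H (LocDatum.dualTw χ ρ) hρ' 0) := by
  have hsub : Subsingleton (𝔇.H ρ hρ 3) := hc.cd ρ hρ
  have hfv : ∀ v, Module.Finite k (𝔇.Hv ρ hρ v 2) := fun v => hc.finv ρ hρ v 2 le_rfl
  have hf2 : Module.Finite k (𝔇.H ρ hρ 2) := hc.fin ρ hρ 2 le_rfl
  have hsurj : Function.Surjective (𝔇.ιc ρ hρ 2) := fun x =>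
    (𝔇.exact_ιc_πc ρ hρ 2 x).mp (Subsingleton.elim _ _)
  have hker : LinearMap.ker (𝔇.ιc ρ hρ 2) = LinearMap.range (𝔇.locH ρ hρ 2) :=
    LinearMap.exact_iff.mp (𝔇.exact_locH_ιc ρ hρ 2)
  have h := LinearMap.finrank_range_add_finrank_ker (𝔇.ιc ρ hρ 2)
  rw [LinearMap.range_eq_top.mpr hsurj, finrank_top, hker, Module.finrank_pi_fintype] at h
  have h1 : ∑ v, finrank k (𝔇.Hv (LocDatum.dualTw χ ρ) hρ' v 0) =
      ∑ v, finrank k (𝔇.Hv ρ hρ v 2) :=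
    Finset.sum_congr rfl fun v _ => (hc.ev ρ hρ hρ' v).symm
  have h2 : finrank k (LinearMap.range (𝔇.locH ρ hρ 2)) ≤ finrank k (𝔇.H ρ hρ 2) :=
    LinearMap.finrank_range_le _
  rw [h1, ← h, hc.e3 ρ hρ hρ']
  omega

/-- The tail bound with `X'` replaced by an isomorphic model `ρ'`:
`Σ_v h⁰_v(ρ') ≤ h²(ρ) + h⁰(ρ')` whenever `ρ' ≅ dualTw χ ρ` equivariantly. -/
theorem sum_finrank_Hv_zero_le_of_equiv {χ : G →* kˣ} (hc : LocDatum.CountHyp 𝔇 k χ)
    [Module.Finite k M] (ρ : Representation k G M) (ρ' : Representation k G M')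
    (hρ : 𝔇.IsSmooth ρ) (hρ' : 𝔇.IsSmooth ρ') (e : M' ≃ₗ[k] Module.Dual k M)
    (he : ∀ g m, e (ρ' g m) = LocDatum.dualTw χ ρ g (e m)) :
    ∑ v, finrank k (𝔇.Hv ρ' hρ' v 0) ≤ finrank k (𝔇.H ρ hρ 2) + finrank k (𝔇.H ρ' hρ' 0) := by
  have hd : 𝔇.IsSmooth (LocDatum.dualTw χ ρ) := 𝔇.isSmooth_dualTw χ hρ hc.hχ
  have h := sum_finrank_Hv_zero_dualTw_le 𝔇 hc ρ hρ hd
  rw [finrank_H_congr 𝔇 hρ' hd e he 0,
    Finset.sum_congr rfl fun v _ => finrank_Hv_congr 𝔇 hρ' hd e he v 0]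
  exact h

end Fermat.Agent.TW.EC.DualCount
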