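import Mathlib
import Fermat.Agent.PT.Coh.Engine
import Fermat.Agent.PT.Coh.Efface

/-!
# TW (EC): shared definitions for Tate's Euler characteristic formula

For an abstract Poitou–Tate datum `𝔇 : LocDatum G` over a field `𝔽` and an involution `c : G`
("complex conjugation") put, for a smooth representation `(V, ρ)` of `G`,

  `FS 𝔇 c ρ hρ = χ₂(G; V) + dim ker (ρ c + 1)`.

* `cm c ρ`   : the dimension of the minus part of `c`; `cm_congr`, `cm_add`;
* `FS_add`   : `FS` is additive in short exact sequences of finite-dimensional smooth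
  representations (`CountHyp.fin`, `CountHyp.cd`, `2 ≠ 0`, `c * c = 1`);
* `FS_congr` : `FS` is invariant under equivariant linear equivalences;
* `chiRepF 𝔽 ψ` : the character `ψ : U →* kˣ` as a representation of `U` on `k` over `𝔽`;
* `CHIStatement 𝔇 c N 𝔽 k` : (EC-CHI) `FS (coind_U^G k(ψ)) = 0` for all `U ⊇ N` with `U / N`
  cyclic and all characters `ψ` of `U / N`.
-/

set_option autoImplicit false

namespace Fermat.Agent.TW.EC

open Fermat.Agent.PT Module

/-! ### The minus part of an involution -/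

section CM

variable {𝔽 : Type} [Field 𝔽] {G : Type} [Group G]

/-- The dimension of the `(-1)`-eigenspace of `c`. -/
noncomputable def cm (c : G) {V : Type} [AddCommGroup V] [Module 𝔽 V]
    (ρ : Representation 𝔽 G V) : ℕ :=
  finrank 𝔽 (LinearMap.ker (ρ c + 1))

theorem mem_ker_add_one (c : G) {V : Type} [AddCommGroup V] [Module 𝔽 V]
    (ρ : Representation 𝔽 G V) (v : V) : v ∈ LinearMap.ker (ρ c + 1) ↔ ρ c v = -v := by
  rw [LinearMap.mem_ker, LinearMap.add_apply, Module.End.one_apply, add_eq_zero_iff_eq_neg]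

variable {A B C : Type} [AddCommGroup A] [Module 𝔽 A] [AddCommGroup B] [Module 𝔽 B]
  [AddCommGroup C] [Module 𝔽 C]

/-- The dimension of the minus part is invariant under equivariant linear equivalences. -/
theorem cm_congr (c : G) {ρA : Representation 𝔽 G A} {ρB : Representation 𝔽 G B}
    (e : A ≃ₗ[𝔽] B) (he : ∀ g a, e (ρA g a) = ρB g (e a)) : cm c ρA = cm c ρB := by
  unfold cm
  have h : (LinearMap.ker (ρA c + 1)).map (e : A →ₗ[𝔽] B) = LinearMap.ker (ρB c + 1) := by
    ext b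
    rw [Submodule.mem_map, mem_ker_add_one]
    constructor
    · rintro ⟨a, ha, rfl⟩
      rw [mem_ker_add_one] at ha
      show ρB c (e a) = -e a
      rw [← he, ha, map_neg]
    · intro hb
      refine ⟨e.symm b, ?_, e.apply_symm_apply b⟩
      rw [mem_ker_add_one]
      apply e.injective
      rw [he, e.apply_symm_apply, hb, map_neg, e.apply_symm_apply]
  rw [← h]
  exact (LinearEquiv.finrank_eq (e.submoduleMap (LinearMap.ker (ρA c + 1))))

/-- **Additivity of the minus part** in short exact sequences (`2` invertible). -/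
theorem cm_add (h2 : (2 : 𝔽) ≠ 0) (c : G) (hc : c * c = 1) {ρA : Representation 𝔽 G A}
    {ρB : Representation 𝔽 G B} {ρC : Representation 𝔽 G C} [Module.Finite 𝔽 B]
    (i : A →ₗ[𝔽] B) (π : B →ₗ[𝔽] C) (hi : ∀ g a, i (ρA g a) = ρB g (i a))
    (hπ : ∀ g b, π (ρB g b) = ρC g (π b)) (hinj : Function.Injective i)
    (hex : Function.Exact i π) (hsurj : Function.Surjective π) :
    cm c ρB = cm c ρA + cm c ρC := by
  unfold cm
  have hcc : ∀ b : B, ρB c (ρB c b) = b := by
    intro b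
    rw [← Module.End.mul_apply, ← map_mul, hc, map_one, Module.End.one_apply]
  let i' : LinearMap.ker (ρA c + 1) →ₗ[𝔽] LinearMap.ker (ρB c + 1) :=
    i.restrict fun a ha => by
      rw [mem_ker_add_one] at ha ⊢
      rw [← hi, ha, map_neg]
  let π' : LinearMap.ker (ρB c + 1) →ₗ[𝔽] LinearMap.ker (ρC c + 1) :=
    π.restrict fun b hb => by
      rw [mem_ker_add_one] at hb ⊢
      rw [← hπ, hb, map_neg]
  have hi' : Function.Injective i' := fun a a' h =>
    Subtype.ext (hinj (congrArg Subtype.val h))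
  have hπ' : Function.Surjective π' := by
    rintro ⟨x, hx⟩
    rw [mem_ker_add_one] at hx
    obtain ⟨b, rfl⟩ := hsurj x
    have hb : (2 : 𝔽)⁻¹ • (b - ρB c b) ∈ LinearMap.ker (ρB c + 1) := by
      rw [mem_ker_add_one, map_smul, map_sub, hcc, ← smul_neg, neg_sub]
    refine ⟨⟨_, hb⟩, Subtype.ext ?_⟩
    show π ((2 : 𝔽)⁻¹ • (b - ρB c b)) = π b
    rw [map_smul, map_sub, hπ, hx, sub_neg_eq_add, ← two_smul 𝔽 (π b), smul_smul,
      inv_mul_cancel₀ h2, one_smul]
  have hex' : Function.Exact i' π' := by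
    rintro ⟨b, hb⟩
    constructor
    · intro h
      have h0 : π b = 0 := congrArg Subtype.val h
      obtain ⟨a, rfl⟩ := (hex b).1 h0
      rw [mem_ker_add_one] at hb
      have ha : a ∈ LinearMap.ker (ρA c + 1) := by
        rw [mem_ker_add_one]
        apply hinj
        rw [hi, hb, map_neg]
      exact ⟨⟨a, ha⟩, Subtype.ext rfl⟩
    · rintro ⟨a, ha⟩
      apply Subtype.ext
      have h1 : i (a : A) = b := congrArg Subtype.val ha
      show π b = 0
      rw [← h1]
      exact hex.apply_apply_eq_zero _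
  have h1 := Cx.finrank_eq_of_exact i' π' hex'
  rw [LinearMap.finrank_range_of_inj hi', LinearMap.range_eq_top.mpr hπ', finrank_top] at h1
  exact h1

end CM

/-! ### The function `FS = χ₂ + cm` -/

section FS

variable {𝔽 : Type} [Field 𝔽] {G : Type} [Group G] (𝔇 : LocDatum G) (c : G)

/-- `FS(V) = χ₂(G; V) + dim ker (ρ c + 1)`: Tate's formula says `FS = 0`. -/
noncomputable def FS {V : Type} [AddCommGroup V] [Module 𝔽 V] (ρ : Representation 𝔽 G V)
    (hρ : 𝔇.IsSmooth ρ) : ℤ :=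
  Cx.chi (𝔇.C ρ hρ) 2 + (cm c ρ : ℤ)

variable {A B C : Type} [AddCommGroup A] [Module 𝔽 A] [AddCommGroup B] [Module 𝔽 B]
  [AddCommGroup C] [Module 𝔽 C]

/-- `FS` is invariant under equivariant linear equivalences. -/
theorem FS_congr {ρA : Representation 𝔽 G A} {ρB : Representation 𝔽 G B}
    (hA : 𝔇.IsSmooth ρA) (hB : 𝔇.IsSmooth ρB) (e : A ≃ₗ[𝔽] B)
    (he : ∀ g a, e (ρA g a) = ρB g (e a)) : FS 𝔇 c ρA hA = FS 𝔇 c ρB hB := by
  unfold FS
  rw [cm_congr c e he]
  congr 1
  unfold Cx.chi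
  refine Finset.sum_congr rfl fun n _ => ?_
  rw [(LinearEquiv.ofBijective _ (𝔇.mapC_bijective hA hB e he n)).finrank_eq]

/-- **Additivity of `FS`** in short exact sequences of finite-dimensional smooth
representations. -/
theorem FS_add {χ : G →* 𝔽ˣ} (h : LocDatum.CountHyp 𝔇 𝔽 χ) (h2 : (2 : 𝔽) ≠ 0) (hc : c * c = 1)
    [Module.Finite 𝔽 A] [Module.Finite 𝔽 B] [Module.Finite 𝔽 C]
    {ρA : Representation 𝔽 G A} {ρB : Representation 𝔽 G B} {ρC : Representation 𝔽 G C}
    (hA : 𝔇.IsSmooth ρA) (hB : 𝔇.IsSmooth ρB) (hC : 𝔇.IsSmooth ρC)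
    (i : A →ₗ[𝔽] B) (π : B →ₗ[𝔽] C) (hi : ∀ g a, i (ρA g a) = ρB g (i a))
    (hπ : ∀ g b, π (ρB g b) = ρC g (π b)) (hinj : Function.Injective i)
    (hex : Function.Exact i π) (hsurj : Function.Surjective π) :
    FS 𝔇 c ρB hB = FS 𝔇 c ρA hA + FS 𝔇 c ρC hC := by
  unfold FS
  have hse := 𝔇.shortExact_mapC hA hB hC i π hi hπ hinj hex hsurj
  have : Subsingleton ((𝔇.C ρA hA).H (2 + 1)) := h.cd ρA hA
  have h1 := hse.chi_add_of_subsingleton 2 (fun n hn => h.fin ρA hA n hn)
    (fun n hn => h.fin ρB hB n hn) (fun n hn => h.fin ρC hC n hn)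
  rw [h1, cm_add h2 c hc i π hi hπ hinj hex hsurj]
  push_cast
  ring

end FS

/-! ### Characters as representations over a subfield -/

section ChiRep

/-- The character `ψ : U →* kˣ` as a representation of `U` on `k`, over `𝔽`
(restriction of scalars of the one-dimensional `k`-representation `k(ψ)`). -/
def chiRepF (𝔽 : Type) [CommRing 𝔽] {U k : Type} [Group U] [Field k] [Algebra 𝔽 k]
    (ψ : U →* kˣ) : Representation 𝔽 U k where
  toFun u :=
    { toFun := fun x => ((ψ u : kˣ) : k) * x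
      map_add' := fun x y => mul_add _ _ _
      map_smul' := fun a x => mul_smul_comm a _ x }
  map_one' := by
    refine LinearMap.ext fun x => ?_
    show ((ψ 1 : kˣ) : k) * x = x
    rw [map_one, Units.val_one, one_mul]
  map_mul' u v := by
    refine LinearMap.ext fun x => ?_
    show ((ψ (u * v) : kˣ) : k) * x = ((ψ u : kˣ) : k) * (((ψ v : kˣ) : k) * x)
    rw [map_mul, Units.val_mul, mul_assoc]

@[simp] theorem chiRepF_apply (𝔽 : Type) [CommRing 𝔽] {U k : Type} [Group U] [Field k]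
    [Algebra 𝔽 k] (ψ : U →* kˣ) (u : U) (x : k) : chiRepF 𝔽 ψ u x = ((ψ u : kˣ) : k) * x :=
  rfl

/-- **(EC-CHI)** for the datum `𝔇`, the involution `c` and the normal subgroup `N`:
`FS (coind_U^G k(ψ)) = 0` for every `U ⊇ N` with `U / N` cyclic and every character `ψ` of `U`
trivial on `N`. -/
def CHIStatement {G : Type} [Group G] (𝔇 : LocDatum G) (c : G) (N : Subgroup G)
    (𝔽 k : Type) [Field 𝔽] [Field k] [Algebra 𝔽 k] : Prop :=
  ∀ U : Subgroup G, N ≤ U → (∃ g ∈ U, ∀ u ∈ U, ∃ n : ℤ, g ^ n * u ∈ N) →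
    ∀ ψ : U →* kˣ, (∀ u : U, (u : G) ∈ N → ψ u = 1) →
    ∀ hY : 𝔇.IsSmooth (Representation.coind U.subtype (chiRepF 𝔽 ψ)),
      FS 𝔇 c (Representation.coind U.subtype (chiRepF 𝔽 ψ)) hY = 0

end ChiRep

end Fermat.Agent.TW.EC
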