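import Mathlib
import Fermat.Agent.TW.EC.Abs

/-!
# TW (EC): reduction of `FS = 0` to coinduced modules from cyclic subquotients

* `permFun ρ S` : the representation `(g • f) s = ρ g (f (g⁻¹ • s))` on functions `S → X`;
  `AIStatement` : modular Artin induction in additive-function form (EC-AI);
* `permFunEquiv` : for a surjection `q : G → Γ`, a representation `σ` of `Γ` and `C ≤ Γ` with
  preimage `U` in `G`: `permFun σ (Γ ⧸ C)`, inflated to `G`, is `coind_U^G res_U σ`;
* `FS_eq_zero_of_cyclic` : if `ρ` is trivial on an open normal subgroup `N` and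
  `FS (coind_U^G res_U ρ) = 0` for all `U ⊇ N` with `U / N` cyclic, then `FS ρ = 0`;
* `FS_coind_add` : additivity of `FS ∘ coind_U^G` in short exact sequences of representations
  of an open subgroup `U`.
-/

set_option autoImplicit false

namespace Fermat.Agent.TW.EC

open Fermat.Agent.PT Module

/-! ### Permutation-type representations and Artin induction -/

section PermFun

variable {k Γ : Type} [CommRing k] [Group Γ] {X : Type} [AddCommGroup X] [Module k X]

/-- The representation `(g • f) s = ρ g (f (g⁻¹ • s))` on the functions `S → X`, for a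
`Γ`-set `S` (`= X ⊗ k[S]`). -/
def permFun (ρ : Representation k Γ X) (S : Type) [MulAction Γ S] :
    Representation k Γ (S → X) where
  toFun g :=
    { toFun := fun f s => ρ g (f (g⁻¹ • s))
      map_add' := fun f f' => funext fun s => map_add (ρ g) _ _
      map_smul' := fun a f => funext fun s => map_smul (ρ g) a _ }
  map_one' := by
    refine LinearMap.ext fun f => funext fun s => ?_
    show ρ 1 (f ((1 : Γ)⁻¹ • s)) = f s
    rw [map_one, inv_one, one_smul, Module.End.one_apply]
  map_mul' g h := by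
    refine LinearMap.ext fun f => funext fun s => ?_
    show ρ (g * h) (f ((g * h)⁻¹ • s)) = ρ g (ρ h (f (h⁻¹ • g⁻¹ • s)))
    rw [map_mul, Module.End.mul_apply, mul_inv_rev, mul_smul]

theorem permFun_apply (ρ : Representation k Γ X) (S : Type) [MulAction Γ S] (g : Γ)
    (f : S → X) (s : S) : permFun ρ S g f s = ρ g (f (g⁻¹ • s)) := rfl

end PermFun

/-- **(EC-AI)** Modular Artin induction, additive-function form: an additive function on the
finite-dimensional representations of a finite group over a field of characteristic `p`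
vanishes on `X` as soon as it vanishes on `X ⊗ k[Γ/C]` for all cyclic subgroups `C`. -/
def AIStatement : Prop :=
  ∀ {Γ : Type} [Group Γ] [Finite Γ] {k : Type} [Field k] {p : ℕ} [Fact p.Prime] [CharP k p]
    (F : ∀ (V : Type) [AddCommGroup V] [Module k V], Representation k Γ V → ℤ)
    (_ : ∀ (A B C : Type) [AddCommGroup A] [Module k A] [AddCommGroup B] [Module k B]
      [AddCommGroup C] [Module k C] (ρA : Representation k Γ A) (ρB : Representation k Γ B)
      (ρC : Representation k Γ C) (i : A →ₗ[k] B) (q : B →ₗ[k] C), FiniteDimensional k B →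
      Function.Injective i → Function.Surjective q → Function.Exact i q →
      (∀ g a, i (ρA g a) = ρB g (i a)) → (∀ g b, q (ρB g b) = ρC g (q b)) →
      F B ρB = F A ρA + F C ρC)
    (X : Type) [AddCommGroup X] [Module k X] [FiniteDimensional k X] (ρ : Representation k Γ X)
    (_ : ∀ C : Subgroup Γ, IsCyclic C → F (Γ ⧸ C → X) (permFun ρ (Γ ⧸ C)) = 0), F X ρ = 0

/-! ### `X ⊗ k[Γ/C]`, inflated, is a coinduced module -/

section PermCoind

variable {𝔽 : Type} [CommRing 𝔽] {G Γ : Type} [Group G] [Group Γ] (q : G →* Γ)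
  {X : Type} [AddCommGroup X] [Module 𝔽 X] (σ : Representation 𝔽 Γ X) (C : Subgroup Γ)

/-- The map `φ ↦ (g ↦ σ (q g) (φ ((q g)⁻¹ C)))` from `X ⊗ k[Γ/C]` to
`coind_U^G res_U X`, `U = q⁻¹(C)`. -/
def permToCoind : ((Γ ⧸ C) → X) →ₗ[𝔽]
    Representation.coindV (C.comap q).subtype ((σ.comp q).comp (C.comap q).subtype) where
  toFun φ := ⟨fun g => σ (q g) (φ (QuotientGroup.mk (q g)⁻¹)), by
    intro u g
    show σ (q ((u : G) * g)) (φ (QuotientGroup.mk (q ((u : G) * g))⁻¹)) =
      σ (q (u : G)) (σ (q g) (φ (QuotientGroup.mk (q g)⁻¹)))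
    have h1 : (QuotientGroup.mk (q ((u : G) * g))⁻¹ : Γ ⧸ C) = QuotientGroup.mk (q g)⁻¹ := by
      rw [QuotientGroup.eq, inv_inv, map_mul, mul_assoc, mul_inv_cancel, mul_one]
      exact u.2
    rw [h1, map_mul, map_mul, Module.End.mul_apply]⟩
  map_add' φ φ' := Subtype.ext (funext fun g => map_add (σ (q g)) _ _)
  map_smul' a φ := Subtype.ext (funext fun g => map_smul (σ (q g)) a _)

theorem permToCoind_apply (φ : (Γ ⧸ C) → X) (g : G) :
    (permToCoind q σ C φ).1 g = σ (q g) (φ (QuotientGroup.mk (q g)⁻¹)) := rfl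

theorem permToCoind_equivariant (g : G) (φ : (Γ ⧸ C) → X) :
    permToCoind q σ C (((permFun σ (Γ ⧸ C)).comp q) g φ) =
      Representation.coind (C.comap q).subtype ((σ.comp q).comp (C.comap q).subtype) g
        (permToCoind q σ C φ) := by
  apply Subtype.ext
  funext x
  show σ (q x) (σ (q g) (φ ((q g)⁻¹ • (QuotientGroup.mk (q x)⁻¹ : Γ ⧸ C)))) =
    σ (q (x * g)) (φ (QuotientGroup.mk (q (x * g))⁻¹))
  rw [map_mul, map_mul, Module.End.mul_apply, mul_inv_rev]
  rfl

theorem sigma_inv_apply (γ : Γ) (x : X) : σ γ⁻¹ (σ γ x) = x := by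
  rw [← Module.End.mul_apply, ← map_mul, inv_mul_cancel, map_one, Module.End.one_apply]

theorem permToCoind_injective (hq : Function.Surjective q) :
    Function.Injective (permToCoind q σ C) := by
  rw [injective_iff_map_eq_zero]
  intro φ hφ
  funext s
  obtain ⟨γ, rfl⟩ := QuotientGroup.mk_surjective s
  obtain ⟨g, hg⟩ := hq γ⁻¹
  have h1 : σ (q g) (φ (QuotientGroup.mk (q g)⁻¹)) = 0 :=
    congrFun (congrArg Subtype.val hφ) g
  rw [hg, inv_inv] at h1
  have h2 := sigma_inv_apply σ γ⁻¹ (φ (QuotientGroup.mk γ))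
  rw [h1, map_zero] at h2
  exact h2.symm

theorem permToCoind_surjective (hq : Function.Surjective q) :
    Function.Surjective (permToCoind q σ C) := by
  intro f
  -- a lift of the inverse of a representative of every coset
  have hex : ∀ s : Γ ⧸ C, ∃ g : G, (QuotientGroup.mk (q g)⁻¹ : Γ ⧸ C) = s := by
    intro s
    obtain ⟨γ, rfl⟩ := QuotientGroup.mk_surjective s
    obtain ⟨g, hg⟩ := hq γ⁻¹
    exact ⟨g, by rw [hg, inv_inv]⟩
  choose r hr using hex
  refine ⟨fun s => σ ((q (r s))⁻¹) (f.1 (r s)), Subtype.ext (funext fun g => ?_)⟩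
  show σ (q g) (σ ((q (r (QuotientGroup.mk (q g)⁻¹)))⁻¹) (f.1 (r (QuotientGroup.mk (q g)⁻¹)))) =
    f.1 g
  set g₀ := r (QuotientGroup.mk (q g)⁻¹ : Γ ⧸ C) with hg₀
  have h1 : (QuotientGroup.mk (q g₀)⁻¹ : Γ ⧸ C) = QuotientGroup.mk (q g)⁻¹ := hr _
  have hu : g * g₀⁻¹ ∈ C.comap q := by
    rw [QuotientGroup.eq, inv_inv] at h1
    have h2 := C.inv_mem h1
    rw [mul_inv_rev, inv_inv] at h2
    show q (g * g₀⁻¹) ∈ C
    rw [map_mul, map_inv]
    exact h2
  have h3 := f.2 ⟨g * g₀⁻¹, hu⟩ g₀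
  have h4 : ((C.comap q).subtype ⟨g * g₀⁻¹, hu⟩) * g₀ = g := by
    show g * g₀⁻¹ * g₀ = g
    rw [inv_mul_cancel_right]
  rw [h4] at h3
  rw [h3]
  show σ (q g) (σ ((q g₀)⁻¹) (f.1 g₀)) = σ (q (g * g₀⁻¹)) (f.1 g₀)
  rw [map_mul q, map_inv q, map_mul σ, Module.End.mul_apply]

/-- `X ⊗ k[Γ/C]`, inflated along a surjection `q : G → Γ`, is `coind_U^G res_U X`,
`U = q⁻¹(C)`. -/
noncomputable def permFunEquiv (hq : Function.Surjective q) : ((Γ ⧸ C) → X) ≃ₗ[𝔽]
    Representation.coindV (C.comap q).subtype ((σ.comp q).comp (C.comap q).subtype) :=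
  LinearEquiv.ofBijective (permToCoind q σ C)
    ⟨permToCoind_injective q σ C hq, permToCoind_surjective q σ C hq⟩

theorem permFunEquiv_equivariant (hq : Function.Surjective q) (g : G) (φ : (Γ ⧸ C) → X) :
    permFunEquiv q σ C hq (((permFun σ (Γ ⧸ C)).comp q) g φ) =
      Representation.coind (C.comap q).subtype ((σ.comp q).comp (C.comap q).subtype) g
        (permFunEquiv q σ C hq φ) :=
  permToCoind_equivariant q σ C g φ

end PermCoind

/-! ### Reduction to cyclic subquotients -/

section Reduce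

variable {𝔽 : Type} [Field 𝔽] {G : Type} [Group G] (𝔇 : LocDatum G) (c : G)

/-- A representation factoring through a quotient by a subgroup containing a level is
smooth. -/
theorem isSmooth_comp_of_level {Γ : Type} [Group Γ] (q : G →* Γ)
    (hq : ∃ N' ∈ 𝔇.L.lev, N' ≤ q.ker) {V : Type} [AddCommGroup V] [Module 𝔽 V]
    (τ : Representation 𝔽 Γ V) : 𝔇.IsSmooth (τ.comp q) := by
  obtain ⟨N', hN', hle⟩ := hq
  intro m
  refine ⟨N', hN', fun s hs => ?_⟩
  show τ (q s) m = m
  rw [MonoidHom.mem_ker.mp (hle hs), map_one, Module.End.one_apply]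

/-- The coinduction of a representation of `U` which is trivial on a subgroup `N ≤ U`
containing a level is smooth. -/
theorem isSmooth_coind_of_trivial (U N : Subgroup G) (hN : ∃ N' ∈ 𝔇.L.lev, N' ≤ N)
    (hNU : N ≤ U) {A : Type} [AddCommGroup A] [Module 𝔽 A] (σ : Representation 𝔽 U A)
    (hσ : ∀ u : U, (u : G) ∈ N → σ u = 1) :
    𝔇.IsSmooth (Representation.coind U.subtype σ) := by
  obtain ⟨N', hN', hle⟩ := hN
  refine Shapiro.coind_smooth 𝔇.L U ⟨N', hN', hle.trans hNU⟩ σ fun m => ?_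
  refine ⟨N'.subgroupOf U, ⟨N', hN', rfl⟩, fun s hs => ?_⟩
  rw [hσ s (hle (Subgroup.mem_subgroupOf.mp hs)), Module.End.one_apply]

/-- **Reduction to cyclic subquotients.** If `ρ` is trivial on a normal subgroup `N` containing
a level, and `FS (coind_U^G res_U ρ) = 0` for all `U ⊇ N` with `U / N` cyclic, then
`FS ρ = 0` (given modular Artin induction `AIStatement`). -/
theorem FS_eq_zero_of_cyclic (hAI : AIStatement) {p : ℕ} [Fact p.Prime] [CharP 𝔽 p]
    {χ : G →* 𝔽ˣ} (h : LocDatum.CountHyp 𝔇 𝔽 χ) (h2 : (2 : 𝔽) ≠ 0) (hc : c * c = 1)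
    (N : Subgroup G) [N.Normal] (hN : ∃ N' ∈ 𝔇.L.lev, N' ≤ N)
    {X : Type} [AddCommGroup X] [Module 𝔽 X] [Module.Finite 𝔽 X] (ρ : Representation 𝔽 G X)
    (hρ : 𝔇.IsSmooth ρ) (hρN : ∀ n ∈ N, ρ n = 1)
    (hcyc : ∀ U : Subgroup G, N ≤ U → (∃ g ∈ U, ∀ u ∈ U, ∃ n : ℤ, g ^ n * u ∈ N) →
      ∀ hY : 𝔇.IsSmooth (Representation.coind U.subtype (ρ.comp U.subtype)),
        FS 𝔇 c (Representation.coind U.subtype (ρ.comp U.subtype)) hY = 0) :
    FS 𝔇 c ρ hρ = 0 := by
  obtain ⟨N', hN', hle⟩ := hN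
  have := 𝔇.L.finiteIndex N' hN'
  have : N.FiniteIndex := Subgroup.finiteIndex_of_le hle
  have : Finite (G ⧸ N) := Subgroup.finite_quotient_of_finiteIndex
  set q : G →* G ⧸ N := QuotientGroup.mk' N with hqdef
  have hqs : Function.Surjective q := QuotientGroup.mk'_surjective N
  have hker : q.ker = N := QuotientGroup.ker_mk' N
  have hsm : ∀ {V : Type} [AddCommGroup V] [Module 𝔽 V] (τ : Representation 𝔽 (G ⧸ N) V),
      𝔇.IsSmooth (τ.comp q) := fun τ =>
    isSmooth_comp_of_level 𝔇 q ⟨N', hN', by rw [hker]; exact hle⟩ τ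
  -- `ρ` descends to `G ⧸ N`
  let σ : Representation 𝔽 (G ⧸ N) X :=
    QuotientGroup.lift N ρ fun n hn => MonoidHom.mem_ker.mpr (hρN n hn)
  have hσ : σ.comp q = ρ := MonoidHom.ext fun g => rfl
  clear_value σ
  subst hσ
  -- the additive function on representations of `G ⧸ N`
  let F : ∀ (V : Type) [AddCommGroup V] [Module 𝔽 V], Representation 𝔽 (G ⧸ N) V → ℤ :=
    fun V _ _ τ => FS 𝔇 c (τ.comp q) (hsm τ)
  have hF : F X σ = 0 := by
    refine hAI (p := p) F ?_ X σ ?_
    · intro A B C _ _ _ _ _ _ ρA ρB ρC i π hB hinj hsurj hex hi hπ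
      have : Module.Finite 𝔽 A := Module.Finite.of_injective i hinj
      have : Module.Finite 𝔽 C := Module.Finite.of_surjective π hsurj
      exact FS_add 𝔇 c h h2 hc (hsm ρA) (hsm ρB) (hsm ρC) i π (fun g a => hi (q g) a)
        (fun g b => hπ (q g) b) hinj hex hsurj
    · intro C hC
      have hNU : N ≤ C.comap q := fun n hn => by
        show q n ∈ C
        have : q n = 1 := MonoidHom.mem_ker.mp (by rw [hker]; exact hn)
        rw [this]
        exact C.one_mem
      have hgen : ∃ g ∈ C.comap q, ∀ u ∈ C.comap q, ∃ n : ℤ, g ^ n * u ∈ N := by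
        obtain ⟨γ, hγ⟩ := hC.exists_generator
        obtain ⟨g, hg⟩ := hqs (γ : G ⧸ N)
        refine ⟨g, ?_, fun u hu => ?_⟩
        · show q g ∈ C
          rw [hg]
          exact γ.2
        · obtain ⟨m, hm⟩ := Subgroup.mem_zpowers_iff.mp (hγ ⟨q u, hu⟩)
          refine ⟨-m, ?_⟩
          rw [← hker, MonoidHom.mem_ker, map_mul, map_zpow, hg]
          have hm' : (γ : G ⧸ N) ^ m = q u := by
            have := congrArg (Subtype.val) hm
            rwa [Subgroup.coe_zpow] at this
          rw [← hm', zpow_neg, inv_mul_cancel]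
      have hY : 𝔇.IsSmooth (Representation.coind (C.comap q).subtype
          ((σ.comp q).comp (C.comap q).subtype)) :=
        Shapiro.effRep_smooth 𝔇.L (C.comap q) ⟨N', hN', hle.trans hNU⟩ (σ.comp q) (hsm σ)
      have h0 := hcyc (C.comap q) hNU hgen hY
      show FS 𝔇 c ((permFun σ ((G ⧸ N) ⧸ C)).comp q) (hsm _) = 0
      rw [← h0]
      exact FS_congr 𝔇 c (hsm _) hY (permFunEquiv q σ C hqs)
        (permFunEquiv_equivariant q σ C hqs)
  exact hF

/-- **Additivity of `FS ∘ coind_U^G`** in short exact sequences of finite-dimensional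
representations of a subgroup `U` of finite index. -/
theorem FS_coind_add {χ : G →* 𝔽ˣ} (h : LocDatum.CountHyp 𝔇 𝔽 χ) (h2 : (2 : 𝔽) ≠ 0)
    (hc : c * c = 1) (U : Subgroup G) [U.FiniteIndex]
    {A B C : Type} [AddCommGroup A] [Module 𝔽 A] [AddCommGroup B] [Module 𝔽 B]
    [AddCommGroup C] [Module 𝔽 C] [Module.Finite 𝔽 A] [Module.Finite 𝔽 B] [Module.Finite 𝔽 C]
    {σA : Representation 𝔽 U A} {σB : Representation 𝔽 U B} {σC : Representation 𝔽 U C}
    (hA : 𝔇.IsSmooth (Representation.coind U.subtype σA))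
    (hB : 𝔇.IsSmooth (Representation.coind U.subtype σB))
    (hC : 𝔇.IsSmooth (Representation.coind U.subtype σC))
    (i : A →ₗ[𝔽] B) (π : B →ₗ[𝔽] C) (hi : ∀ u a, i (σA u a) = σB u (i a))
    (hπ : ∀ u b, π (σB u b) = σC u (π b)) (hinj : Function.Injective i)
    (hex : Function.Exact i π) (hsurj : Function.Surjective π) :
    FS 𝔇 c (Representation.coind U.subtype σB) hB =
      FS 𝔇 c (Representation.coind U.subtype σA) hA +
        FS 𝔇 c (Representation.coind U.subtype σC) hC := by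
  have := Shapiro.finite_coindV U σA
  have := Shapiro.finite_coindV U σB
  have := Shapiro.finite_coindV U σC
  exact FS_add 𝔇 c h h2 hc hA hB hC (Shapiro.coindLin i hi) (Shapiro.coindLin π hπ)
    (Shapiro.coindLin_equivariant i hi) (Shapiro.coindLin_equivariant π hπ)
    (Shapiro.coindLin_injective i hi hinj) (Shapiro.coindLin_exact i hi π hπ hinj hex)
    (Shapiro.coindLin_surjective π hπ hsurj)

/-- `FS ∘ coind_U^G` vanishes on the zero representation. -/
theorem FS_coind_eq_zero_of_subsingleton {χ : G →* 𝔽ˣ} (h : LocDatum.CountHyp 𝔇 𝔽 χ)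
    (h2 : (2 : 𝔽) ≠ 0) (hc : c * c = 1) (U : Subgroup G) [U.FiniteIndex]
    {B : Type} [AddCommGroup B] [Module 𝔽 B] [Subsingleton B] (σ : Representation 𝔽 U B)
    (hB : 𝔇.IsSmooth (Representation.coind U.subtype σ)) :
    FS 𝔇 c (Representation.coind U.subtype σ) hB = 0 := by
  have h1 := FS_coind_add 𝔇 c h h2 hc U hB hB hB (LinearMap.id : B →ₗ[𝔽] B) 0 (fun u a => rfl)
    (fun u b => Subsingleton.elim _ _) Function.injective_id
    (fun b => ⟨fun _ => ⟨b, rfl⟩, fun _ => Subsingleton.elim _ _⟩)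
    (fun b => ⟨0, Subsingleton.elim _ _⟩)
  linarith

/-- **Flags with character quotients.** Let `σ` be a representation of `U ⊇ N` (trivial on `N`)
on `B`, with `𝔽`-linear coordinates `l 0, …, l (n-1) : B → k` which are jointly injective,
"triangularly surjective", and such that `l j` is `ψ j`-equivariant on the common kernel of the
`l i`, `i > j`. If `FS (coind_U^G k(ψ j)) = 0` for all `j`, then `FS (coind_U^G B) = 0`. -/
theorem FS_coind_eq_zero_of_flag {χ : G →* 𝔽ˣ} (h : LocDatum.CountHyp 𝔇 𝔽 χ)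
    (h2 : (2 : 𝔽) ≠ 0) (hc : c * c = 1) (U N : Subgroup G) (hN : ∃ N' ∈ 𝔇.L.lev, N' ≤ N)
    (hNU : N ≤ U) {k : Type} [Field k] [Algebra 𝔽 k] [Module.Finite 𝔽 k] (n : ℕ) :
    ∀ (B : Type) [AddCommGroup B] [Module 𝔽 B] [Module.Finite 𝔽 B] (σ : Representation 𝔽 U B)
      (_ : ∀ u : U, (u : G) ∈ N → σ u = 1) (l : Fin n → B →ₗ[𝔽] k) (ψ : Fin n → U →* kˣ),
      (∀ j u b, (∀ i, j < i → l i b = 0) → l j (σ u b) = ((ψ j u : kˣ) : k) * l j b) →
      (∀ b, (∀ i, l i b = 0) → b = 0) →
      (∀ j (x : k), ∃ b, (∀ i, j < i → l i b = 0) ∧ l j b = x) →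
      (∀ j, ∀ hY : 𝔇.IsSmooth (Representation.coind U.subtype (chiRepF 𝔽 (ψ j))),
        FS 𝔇 c (Representation.coind U.subtype (chiRepF 𝔽 (ψ j))) hY = 0) →
      ∀ hB : 𝔇.IsSmooth (Representation.coind U.subtype σ),
        FS 𝔇 c (Representation.coind U.subtype σ) hB = 0 := by
  have hUfin : U.FiniteIndex := by
    obtain ⟨N', hN', hle⟩ := hN
    have := 𝔇.L.finiteIndex N' hN'
    exact Subgroup.finiteIndex_of_le (hle.trans hNU)
  induction n with
  | zero =>
    intro B _ _ _ σ _ l ψ _ hinj _ _ hB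
    have : Subsingleton B :=
      ⟨fun b b' => (hinj b fun i => i.elim0).trans (hinj b' fun i => i.elim0).symm⟩
    exact FS_coind_eq_zero_of_subsingleton 𝔇 c h h2 hc U σ hB
  | succ n ih =>
    intro B _ _ _ σ hσ l ψ htri hinj hsurj hψ hB
    set π : B →ₗ[𝔽] k := l (Fin.last n) with hπdef
    have hπeq : ∀ u b, π (σ u b) = ((ψ (Fin.last n) u : kˣ) : k) * π b := fun u b =>
      htri (Fin.last n) u b fun i hi => absurd hi (not_lt.mpr (Fin.le_last i))
    have hstable : ∀ u, LinearMap.ker π ≤ (LinearMap.ker π).comap (σ u) := by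
      intro u b hb
      rw [Submodule.mem_comap, LinearMap.mem_ker, hπeq, LinearMap.mem_ker.mp hb, mul_zero]
    have hπsurj : Function.Surjective π := fun x => by
      obtain ⟨b, -, hb⟩ := hsurj (Fin.last n) x
      exact ⟨b, hb⟩
    -- the character `ψ (last)` is trivial on `N`
    have hψN : ∀ u : U, (u : G) ∈ N → ψ (Fin.last n) u = 1 := by
      intro u hu
      obtain ⟨b, hb⟩ := hπsurj 1
      have h1 := hπeq u b
      rw [hσ u hu, Module.End.one_apply, hb, mul_one] at h1
      exact Units.ext h1.symm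
    have hsmψ : 𝔇.IsSmooth (Representation.coind U.subtype (chiRepF 𝔽 (ψ (Fin.last n)))) :=
      isSmooth_coind_of_trivial 𝔇 U N hN hNU _ fun u hu => by
        refine LinearMap.ext fun x => ?_
        rw [chiRepF_apply, hψN u hu, Units.val_one, one_mul, Module.End.one_apply]
    have hτN : ∀ u : U, (u : G) ∈ N → σ.subrepresentation (LinearMap.ker π) hstable u = 1 := by
      intro u hu
      refine LinearMap.ext fun w => Subtype.ext ?_
      show σ u (w : B) = (w : B)
      rw [hσ u hu, Module.End.one_apply]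
    have hsmτ : 𝔇.IsSmooth (Representation.coind U.subtype
        (σ.subrepresentation (LinearMap.ker π) hstable)) :=
      isSmooth_coind_of_trivial 𝔇 U N hN hNU _ hτN
    have hW := ih (LinearMap.ker π) (σ.subrepresentation (LinearMap.ker π) hstable) hτN
      (fun i => l i.castSucc ∘ₗ (LinearMap.ker π).subtype) (fun i => ψ i.castSucc)
      (fun j u w hw => by
        refine htri j.castSucc u (w : B) fun i hi => ?_
        induction i using Fin.lastCases with
        | last => exact LinearMap.mem_ker.mp w.2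
        | cast i => exact hw i (Fin.castSucc_lt_castSucc_iff.mp hi))
      (fun w hw => by
        refine Subtype.ext (hinj (w : B) fun i => ?_)
        induction i using Fin.lastCases with
        | last => exact LinearMap.mem_ker.mp w.2
        | cast i => exact hw i)
      (fun j x => by
        obtain ⟨b, hb, hbx⟩ := hsurj j.castSucc x
        refine ⟨⟨b, LinearMap.mem_ker.mpr (hb (Fin.last n) (Fin.castSucc_lt_last j))⟩,
          fun i hi => hb i.castSucc (Fin.castSucc_lt_castSucc_iff.mpr hi), hbx⟩)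
      (fun j hY => hψ j.castSucc hY) hsmτ
    have hadd := FS_coind_add 𝔇 c h h2 hc U hsmτ hB hsmψ (LinearMap.ker π).subtype π
      (fun u w => rfl) (fun u b => hπeq u b) (LinearMap.ker π).injective_subtype
      (LinearMap.exact_subtype_ker_map π) hπsurj
    rw [hadd, hW, hψ (Fin.last n) hsmψ, add_zero]

end Reduce

end Fermat.Agent.TW.EC
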