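import Mathlib
import Fermat.Agent.TW.EC.Red
import Fermat.Agent.Lib.RepInd.Artin

/-!
# TW (EC): `AIStatement` is a theorem

The statement `AIStatement` of `TW/EC/Red.lean` (modular Artin induction, additive-function form)
is `Fermat.Agent.Lib.RepInd.eq_zero_of_cyclic`.
-/

set_option autoImplicit false

namespace Fermat.Agent.TW.EC

theorem permFun_eq_permRep {k Γ : Type} [Field k] [Group Γ] {X : Type} [AddCommGroup X]
    [Module k X] (ρ : Representation k Γ X) (S : Type) [MulAction Γ S] :
    permFun ρ S = Lib.RepInd.permRep ρ S := by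
  ext g f s
  rfl

/-- **(EC-AI)** holds: modular Artin induction, additive-function form. -/
theorem aiStatement : AIStatement := by
  intro Γ _ _ k _ p _ _ F hadd X _ _ _ ρ hcyc
  exact Lib.RepInd.eq_zero_of_cyclic (p := p) F hadd ρ (fun C hC => by
    rw [← permFun_eq_permRep]
    exact hcyc C hC)

end Fermat.Agent.TW.EC
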