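import Mathlib

/-!
# TW (EC): the flag of `sl₂` for a triangularisable group of `2 × 2` matrices

Let `r : U →* M₂(k)` be a homomorphism with a common eigenvector `v ≠ 0`, and `χ : U →* kˣ`.
Then the `χ`-twisted adjoint action `X ↦ χ(u) • r(u) X r(u)⁻¹` of `U` on the trace-zero matrices
has a full flag with character quotients: `exists_flag` produces three `k`-linear coordinates
`l 0, l 1, l 2` on `M₂(k)` and three characters `ψ 0, ψ 1, ψ 2 : U →* kˣ` such that, on trace-zero
matrices, the `l i` are jointly injective, triangularly surjective, and `l j` is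
`ψ j`-equivariant on the common kernel of the `l i`, `i > j`.
-/

set_option autoImplicit false

namespace Fermat.Agent.TW.EC.Flag

variable {k : Type} [Field k]


/-! ### Conjugation by upper triangular matrices -/

section Tri

variable (T T' Y : Matrix (Fin 2) (Fin 2) k)

theorem conj_apply_one_zero (hT : T 1 0 = 0) (hT' : T' 1 0 = 0) :
    (T * Y * T') 1 0 = T 1 1 * T' 0 0 * Y 1 0 := by
  simp only [Matrix.mul_apply, Fin.sum_univ_two, hT, hT']
  ring

theorem conj_apply_zero_zero (hT' : T' 1 0 = 0) (h00 : T 0 0 * T' 0 0 = 1) (hY : Y 1 0 = 0) :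
    (T * Y * T') 0 0 = Y 0 0 := by
  simp only [Matrix.mul_apply, Fin.sum_univ_two, hT', hY]
  linear_combination Y 0 0 * h00

theorem conj_apply_zero_one (hY10 : Y 1 0 = 0) (hY00 : Y 0 0 = 0) (hY11 : Y 1 1 = 0) :
    (T * Y * T') 0 1 = T 0 0 * T' 1 1 * Y 0 1 := by
  simp only [Matrix.mul_apply, Fin.sum_univ_two, hY10, hY00, hY11]
  ring

end Tri

/-! ### Diagonal characters of an upper triangular homomorphism -/

section Diag

variable {U : Type} [Group U]

/-- The `i`-th diagonal character of a homomorphism into upper triangular matrices. -/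
def diagHom (t : U →* Matrix (Fin 2) (Fin 2) k) (ht : ∀ u, t u 1 0 = 0) (i : Fin 2) : U →* kˣ :=
  MonoidHom.toHomUnits
    { toFun := fun u => t u i i
      map_one' := by rw [map_one, Matrix.one_apply_eq]
      map_mul' := fun u v => by
        rw [map_mul, Matrix.mul_apply, Fin.sum_univ_two]
        fin_cases i
        · show t u 0 0 * t v 0 0 + t u 0 1 * t v 1 0 = t u 0 0 * t v 0 0
          rw [ht v, mul_zero, add_zero]
        · show t u 1 0 * t v 0 1 + t u 1 1 * t v 1 1 = t u 1 1 * t v 1 1
          rw [ht u, zero_mul, zero_add] }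

theorem diagHom_val (t : U →* Matrix (Fin 2) (Fin 2) k) (ht : ∀ u, t u 1 0 = 0) (i : Fin 2) (u : U) :
    ((diagHom t ht i u : kˣ) : k) = t u i i := rfl

theorem diagHom_inv_val (t : U →* Matrix (Fin 2) (Fin 2) k) (ht : ∀ u, t u 1 0 = 0) (i : Fin 2) (u : U) :
    (((diagHom t ht i u)⁻¹ : kˣ) : k) = t u⁻¹ i i := by
  rw [← map_inv]
  rfl

/-- The conjugate `u ↦ P⁻¹ r(u) P` of a homomorphism. -/
def conjHom (r : U →* Matrix (Fin 2) (Fin 2) k) (P P' : Matrix (Fin 2) (Fin 2) k) (h : P * P' = 1) : U →* Matrix (Fin 2) (Fin 2) k where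
  toFun u := P' * r u * P
  map_one' := by
    rw [map_one, Matrix.mul_one]
    exact mul_eq_one_comm.mp h
  map_mul' u v := by
    rw [map_mul]
    calc P' * (r u * r v) * P = P' * r u * (P * P') * (r v * P) := by
          rw [h, Matrix.mul_one]
          simp only [Matrix.mul_assoc]
      _ = P' * r u * P * (P' * r v * P) := by simp only [Matrix.mul_assoc]

theorem conjHom_apply (r : U →* Matrix (Fin 2) (Fin 2) k) (P P' : Matrix (Fin 2) (Fin 2) k) (h : P * P' = 1) (u : U) :
    conjHom r P P' h u = P' * r u * P := rfl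

/-- The linear functional `X ↦ (P' X P)_{ij}`. -/
def conjEntry (P P' : Matrix (Fin 2) (Fin 2) k) (i j : Fin 2) : Matrix (Fin 2) (Fin 2) k →ₗ[k] k where
  toFun X := (P' * X * P) i j
  map_add' X Y := by rw [Matrix.mul_add, Matrix.add_mul, Matrix.add_apply]
  map_smul' a X := by
    rw [Matrix.mul_smul, Matrix.smul_mul, Matrix.smul_apply, RingHom.id_apply]

theorem conjEntry_apply (P P' : Matrix (Fin 2) (Fin 2) k) (i j : Fin 2) (X : Matrix (Fin 2) (Fin 2) k) :
    conjEntry P P' i j X = (P' * X * P) i j := rfl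

end Diag

/-! ### The flag -/

section Flag

variable {U : Type} [Group U]

/-- A non-zero vector is the first column of an invertible matrix. -/
theorem exists_matrix_col (v : Fin 2 → k) (hv : v ≠ 0) :
    ∃ P P' : Matrix (Fin 2) (Fin 2) k, P * P' = 1 ∧ P' * P = 1 ∧ ∀ i, P i 0 = v i := by
  have key : ∃ P : Matrix (Fin 2) (Fin 2) k, IsUnit P.det ∧ ∀ i, P i 0 = v i := by
    by_cases h0 : v 0 = 0
    · have h1 : v 1 ≠ 0 := by
        intro h1
        apply hv
        funext i
        fin_cases i
        · exact h0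
        · exact h1
      refine ⟨!![v 0, 1; v 1, 0], ?_, fun i => ?_⟩
      · rw [Matrix.det_fin_two_of, mul_zero, one_mul, zero_sub]
        exact (isUnit_iff_ne_zero.mpr h1).neg
      · fin_cases i <;> rfl
    · refine ⟨!![v 0, 0; v 1, 1], ?_, fun i => ?_⟩
      · rw [Matrix.det_fin_two_of, mul_one, zero_mul, sub_zero]
        exact isUnit_iff_ne_zero.mpr h0
      · fin_cases i <;> rfl
  obtain ⟨P, hP, hPv⟩ := key
  exact ⟨P, P⁻¹, Matrix.mul_nonsing_inv P hP, Matrix.nonsing_inv_mul P hP, hPv⟩

theorem forall_fin_three {Q : Fin 3 → Prop} (h0 : Q 0) (h1 : Q 1) (h2 : Q 2) : ∀ j, Q j := by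
  intro j
  fin_cases j
  · exact h0
  · exact h1
  · exact h2

/-- **The flag of `sl₂`** for a group of matrices with a common eigenvector. -/
theorem exists_flag (r : U →* Matrix (Fin 2) (Fin 2) k) (χ : U →* kˣ) (v : Fin 2 → k) (hv : v ≠ 0)
    (heig : ∀ u, ∃ a : k, (r u).mulVec v = a • v) :
    ∃ (l : Fin 3 → Matrix (Fin 2) (Fin 2) k →ₗ[k] k) (ψ : Fin 3 → U →* kˣ),
      (∀ j u X, Matrix.trace X = 0 → (∀ i, j < i → l i X = 0) →
        l j (((χ u : kˣ) : k) • (r u * X * r u⁻¹)) = ((ψ j u : kˣ) : k) * l j X) ∧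
      (∀ X, Matrix.trace X = 0 → (∀ i, l i X = 0) → X = 0) ∧
      (∀ j (x : k), ∃ X, Matrix.trace X = 0 ∧ (∀ i, j < i → l i X = 0) ∧ l j X = x) ∧
      (∀ j u, r u = 1 → χ u = 1 → ψ j u = 1) := by
  obtain ⟨P, P', hPP', hP'P, hPv⟩ := exists_matrix_col v hv
  -- the conjugate homomorphism is upper triangular
  set t : U →* Matrix (Fin 2) (Fin 2) k := conjHom r P P' hPP' with htdef
  have ht : ∀ u, t u 1 0 = 0 := by
    intro u
    obtain ⟨a, ha⟩ := heig u
    have h1 : ∀ i, (r u * P) i 0 = a * P i 0 := by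
      intro i
      have h2 := congrFun ha i
      rw [Matrix.mul_apply]
      simp only [Matrix.mulVec, dotProduct, Pi.smul_apply, smul_eq_mul] at h2
      simp only [hPv]
      exact h2
    show (P' * r u * P) 1 0 = 0
    rw [Matrix.mul_assoc, Matrix.mul_apply]
    simp only [h1]
    have h3 := congrFun (congrFun hP'P 1) 0
    rw [Matrix.mul_apply] at h3
    rw [Fin.sum_univ_two] at h3 ⊢
    have h4 : (1 : Matrix (Fin 2) (Fin 2) k) 1 0 = 0 := by simp
    rw [h4] at h3
    linear_combination a * h3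
  have htt : ∀ u, t u * t u⁻¹ = 1 := fun u => by
    rw [← map_mul, mul_inv_cancel, map_one]
  have ht00 : ∀ u, t u 0 0 * t u⁻¹ 0 0 = 1 := by
    intro u
    have h1 := congrFun (congrFun (htt u) 0) 0
    rw [Matrix.mul_apply, Fin.sum_univ_two, ht u⁻¹, mul_zero, add_zero] at h1
    simpa using h1
  -- conjugation of the twisted adjoint action
  have hconj : ∀ u X, P' * (((χ u : kˣ) : k) • (r u * X * r u⁻¹)) * P =
      ((χ u : kˣ) : k) • (t u * (P' * X * P) * t u⁻¹) := by
    intro u X
    rw [Matrix.mul_smul, Matrix.smul_mul]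
    congr 1
    show P' * (r u * X * r u⁻¹) * P = P' * r u * P * (P' * X * P) * (P' * r u⁻¹ * P)
    calc P' * (r u * X * r u⁻¹) * P
        = P' * r u * (P * P') * X * (P * P') * r u⁻¹ * P := by
          rw [hPP', Matrix.mul_one, Matrix.mul_one]
          simp only [Matrix.mul_assoc]
      _ = P' * r u * P * (P' * X * P) * (P' * r u⁻¹ * P) := by simp only [Matrix.mul_assoc]
  have htrace : ∀ X : Matrix (Fin 2) (Fin 2) k, Matrix.trace (P' * X * P) = Matrix.trace X := by
    intro X
    rw [Matrix.trace_mul_comm, ← Matrix.mul_assoc, hPP', Matrix.one_mul]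
  have h11 : ∀ Y : Matrix (Fin 2) (Fin 2) k, Matrix.trace Y = 0 → Y 0 0 = 0 → Y 1 1 = 0 := by
    intro Y hY h0
    rw [Matrix.trace_fin_two, h0, zero_add] at hY
    exact hY
  have hback : ∀ Y : Matrix (Fin 2) (Fin 2) k, P' * (P * Y * P') * P = Y := by
    intro Y
    calc P' * (P * Y * P') * P = (P' * P) * Y * (P' * P) := by simp only [Matrix.mul_assoc]
      _ = Y := by rw [hP'P, Matrix.one_mul, Matrix.mul_one]
  have hback' : ∀ X : Matrix (Fin 2) (Fin 2) k, P * (P' * X * P) * P' = X := by
    intro X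
    calc P * (P' * X * P) * P' = (P * P') * X * (P * P') := by simp only [Matrix.mul_assoc]
      _ = X := by rw [hPP', Matrix.one_mul, Matrix.mul_one]
  have htrace' : ∀ Y : Matrix (Fin 2) (Fin 2) k, Matrix.trace (P * Y * P') = Matrix.trace Y := by
    intro Y
    rw [Matrix.trace_mul_comm, ← Matrix.mul_assoc, hP'P, Matrix.one_mul]
  refine ⟨![conjEntry P P' 0 1, conjEntry P P' 0 0, conjEntry P P' 1 0],
    ![χ * diagHom t ht 0 * (diagHom t ht 1)⁻¹, χ, χ * diagHom t ht 1 * (diagHom t ht 0)⁻¹],
    ?_, ?_, ?_, ?_⟩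
  · refine forall_fin_three ?_ ?_ ?_
    · intro u X hX hl
      have hl1 : (P' * X * P) 0 0 = 0 := hl 1 (by decide)
      have hl2 : (P' * X * P) 1 0 = 0 := hl 2 (by decide)
      have hY11 := h11 _ ((htrace X).trans hX) hl1
      show (P' * (((χ u : kˣ) : k) • (r u * X * r u⁻¹)) * P) 0 1 =
        (((χ * diagHom t ht 0 * (diagHom t ht 1)⁻¹) u : kˣ) : k) * (P' * X * P) 0 1
      rw [hconj, Matrix.smul_apply, conj_apply_zero_one _ _ _ hl2 hl1 hY11, MonoidHom.mul_apply,
        MonoidHom.mul_apply, MonoidHom.inv_apply, Units.val_mul, Units.val_mul,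
        diagHom_inv_val, diagHom_val, smul_eq_mul]
      ring
    · intro u X hX hl
      have hl2 : (P' * X * P) 1 0 = 0 := hl 2 (by decide)
      show (P' * (((χ u : kˣ) : k) • (r u * X * r u⁻¹)) * P) 0 0 =
        ((χ u : kˣ) : k) * (P' * X * P) 0 0
      rw [hconj, Matrix.smul_apply, conj_apply_zero_zero _ _ _ (ht u⁻¹) (ht00 u) hl2,
        smul_eq_mul]
    · intro u X hX hl
      show (P' * (((χ u : kˣ) : k) • (r u * X * r u⁻¹)) * P) 1 0 =
        (((χ * diagHom t ht 1 * (diagHom t ht 0)⁻¹) u : kˣ) : k) * (P' * X * P) 1 0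
      rw [hconj, Matrix.smul_apply, conj_apply_one_zero _ _ _ (ht u) (ht u⁻¹),
        MonoidHom.mul_apply, MonoidHom.mul_apply, MonoidHom.inv_apply, Units.val_mul,
        Units.val_mul, diagHom_inv_val, diagHom_val, smul_eq_mul]
      ring
  · intro X hX hl
    have hl0 : (P' * X * P) 0 1 = 0 := hl 0
    have hl1 : (P' * X * P) 0 0 = 0 := hl 1
    have hl2 : (P' * X * P) 1 0 = 0 := hl 2
    have hY11 := h11 _ ((htrace X).trans hX) hl1
    have hY : P' * X * P = 0 := by
      ext i j
      fin_cases i <;> fin_cases j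
      · exact hl1
      · exact hl0
      · exact hl2
      · exact hY11
    rw [← hback' X, hY, Matrix.mul_zero, Matrix.zero_mul]
  · refine forall_fin_three ?_ ?_ ?_
    · intro x
      refine ⟨P * !![0, x; 0, 0] * P', ?_, ?_, ?_⟩
      · rw [htrace', Matrix.trace_fin_two_of, add_zero]
      · refine forall_fin_three ?_ ?_ ?_
        · intro h
          exact absurd h (lt_irrefl _)
        · intro _
          show (P' * (P * !![0, x; 0, 0] * P') * P) 0 0 = 0
          rw [hback]
          rfl
        · intro _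
          show (P' * (P * !![0, x; 0, 0] * P') * P) 1 0 = 0
          rw [hback]
          rfl
      · show (P' * (P * !![0, x; 0, 0] * P') * P) 0 1 = x
        rw [hback]
        rfl
    · intro x
      refine ⟨P * !![x, 0; 0, -x] * P', ?_, ?_, ?_⟩
      · rw [htrace', Matrix.trace_fin_two_of, add_neg_cancel]
      · refine forall_fin_three ?_ ?_ ?_
        · intro h
          exact absurd h (by decide)
        · intro h
          exact absurd h (lt_irrefl _)
        · intro _
          show (P' * (P * !![x, 0; 0, -x] * P') * P) 1 0 = 0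
          rw [hback]
          rfl
      · show (P' * (P * !![x, 0; 0, -x] * P') * P) 0 0 = x
        rw [hback]
        rfl
    · intro x
      refine ⟨P * !![0, 0; x, 0] * P', ?_, ?_, ?_⟩
      · rw [htrace', Matrix.trace_fin_two_of, add_zero]
      · refine forall_fin_three ?_ ?_ ?_
        · intro h
          exact absurd h (by decide)
        · intro h
          exact absurd h (by decide)
        · intro h
          exact absurd h (lt_irrefl _)
      · show (P' * (P * !![0, 0; x, 0] * P') * P) 1 0 = x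
        rw [hback]
        rfl
  · have ht1 : ∀ u, r u = 1 → t u = 1 := by
      intro u hu
      show P' * r u * P = 1
      rw [hu, Matrix.mul_one, hP'P]
    have hd : ∀ i u, r u = 1 → diagHom t ht i u = 1 := by
      intro i u hu
      apply Units.ext
      rw [diagHom_val, ht1 u hu, Matrix.one_apply_eq, Units.val_one]
    refine forall_fin_three ?_ ?_ ?_
    · intro u hu hχ
      show (χ * diagHom t ht 0 * (diagHom t ht 1)⁻¹) u = 1
      rw [MonoidHom.mul_apply, MonoidHom.mul_apply, MonoidHom.inv_apply, hχ, hd 0 u hu,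
        hd 1 u hu, inv_one, mul_one, mul_one]
    · intro u _ hχ
      exact hχ
    · intro u hu hχ
      show (χ * diagHom t ht 1 * (diagHom t ht 0)⁻¹) u = 1
      rw [MonoidHom.mul_apply, MonoidHom.mul_apply, MonoidHom.inv_apply, hχ, hd 0 u hu,
        hd 1 u hu, inv_one, mul_one, mul_one]

end Flag

end Fermat.Agent.TW.EC.Flag
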