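import Mathlib
import Fermat.Agent.TW.EC.Red
import Fermat.Agent.TW.EC.Flag
import Fermat.Agent.TW.GW.Defs
import Fermat.Agent.TW.ResHyp
import Fermat.Agent.TW.Local.AwayCore
import Fermat.Agent.PT.Coh.RexDual

/-!
# TW (EC): Tate's Euler characteristic formula for `ad⁰(1)` — the assembly

`rb : GQ →* M₂(k)` with `ResidualHyp rb p`, `p ≠ 2`, `k` finite, `S ∋ p` a finite set of primes
outside which `rb` is unramified, `PTOut p S` the Poitou–Tate end products.  From

* `AIStatement` (EC-AI, modular Artin induction in additive-function form), and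
* `CHIStatement (datum S) complexConjugation rb.ker (ZMod p) k` (EC-CHI: `FS = 0` on
  `coind_U k(ψ)` for `U ⊇ ker rb` with cyclic `U / ker rb`),

we get `FS (ad⁰(1)) = 0` (`FS_adRep_det_eq_zero`), i.e. with `h⁰(ad⁰(1)) = 0` and
`dim ad⁰(1)^{c = -1} = [k : 𝔽_p]`:

  `h²(G_S; ad⁰(1)) + [k : 𝔽_p] = h¹(G_S; ad⁰(1))`   (`ec_of_statements`).
-/

set_option autoImplicit false

namespace Fermat.Agent.TW.EC

open Fermat.Agent.S53 Fermat.Agent.PT Fermat.Agent.PT.Bridge ExtCitation Module
open Fermat.Agent.TW Fermat.Agent.TW.GW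

local notation "Qb" => AlgebraicClosure ℚ

noncomputable section

variable {k : Type} [Field k]

/-! ### `ker rb` contains an `S`-level -/

/-- Left multiplication by `rb` on `M₂(k)`, over `𝔽_p`. -/
def mulRep (p : ℕ) [Algebra (ZMod p) k] (rb : GQ →* Mat2 k) :
    Representation (ZMod p) GQ (Mat2 k) where
  toFun g :=
    { toFun := fun X => rb g * X
      map_add' := fun X Y => mul_add _ _ _
      map_smul' := fun a X => by
        rw [RingHom.id_apply]
        exact Matrix.mul_smul (rb g) a X }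
  map_one' := by
    refine LinearMap.ext fun X => ?_
    show rb 1 * X = X
    rw [map_one, one_mul]
  map_mul' g g' := by
    refine LinearMap.ext fun X => ?_
    show rb (g * g') * X = rb g * (rb g' * X)
    rw [map_mul, mul_assoc]

/-- If `rb` is of finite level and unramified outside `S`, then `ker rb` contains an
`S`-level. -/
theorem exists_level_le_ker [Finite k] (p : ℕ) [Fact p.Prime] [Algebra (ZMod p) k]
    (S : Finset Nat.Primes) {rb : GQ →* Mat2 k} (hrb : FiniteLevel rb)
    (hunr : ∀ q : Nat.Primes, q ∉ S → ∀ P : ValuationSubring Qb, P.LiesOverPrime (q : ℕ) →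
      ∀ σ ∈ P.inertiaSubgroupIn ℚ, rb σ = 1) :
    ∃ N ∈ (datum S).L.lev, N ≤ rb.ker := by
  have hfin : Module.Finite (ZMod p) k := Module.Finite.of_finite
  have hfin' : Module.Finite (ZMod p) (Mat2 k) := Module.Finite.matrix
  have hsm : (datum S).IsSmooth (mulRep p rb) := by
    refine isSmooth_of_smooth_unramified S (Rep.of (mulRep p rb)) (fun m => ?_)
      (fun q hq P hP g hg => ?_)
    · obtain ⟨F, hF, hF'⟩ := hrb
      refine ⟨F, hF, fun s hs => ?_⟩
      have h1 : rb s = 1 := hF' s fun x hx =>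
        (IntermediateField.mem_fixingSubgroup_iff _ _).mp hs x hx
      show rb s * m = m
      rw [h1, one_mul]
    · refine LinearMap.ext fun X => ?_
      show rb g * X = X
      rw [hunr q hq P hP g hg, one_mul]
  obtain ⟨N, hN, hN'⟩ := hsm (1 : Mat2 k)
  refine ⟨N, hN, fun s hs => ?_⟩
  have h1 : rb s * 1 = 1 := hN' s hs
  rw [mul_one] at h1
  exact MonoidHom.mem_ker.mpr h1

variable (p : ℕ) [Fact p.Prime] [Algebra (ZMod p) k]

/-! ### The minus part of complex conjugation on `ad⁰(1)` -/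

/-- `dim_{𝔽_p} ad⁰(1)^{c = -1} = [k : 𝔽_p]`. -/
theorem cm_adRep_det (rb : GQ →* Mat2 k) (hp2 : p ≠ 2) (h : ResidualHyp rb p) :
    cm complexConjugation (adRep p rb (detChar rb)) = finrank (ZMod p) k := by
  obtain ⟨A, hA⟩ : ∃ A : Mat2 k, A = rb complexConjugation := ⟨_, rfl⟩
  have h2 : (2 : k) ≠ 0 := Away.two_ne_zero_of_charP p hp2 h.charP
  have htr : A.trace = 0 := by
    rw [hA]
    exact Away.trace_rb_complexConjugation rb p h
  have hns : A 0 1 ≠ 0 ∨ A 1 0 ≠ 0 ∨ A 0 0 ≠ A 1 1 := by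
    rw [hA]
    exact Away.rb_complexConjugation_not_scalar rb p hp2 h
  have hsq : A * A = 1 := by
    rw [hA]
    exact Away.rb_complexConjugation_mul_self rb
  have hdet : A.det = -1 := by
    rw [hA]
    exact Away.det_rb_complexConjugation rb p h
  have hA0 : A ≠ 0 := by
    intro h0
    rw [h0, mul_zero] at hsq
    exact zero_ne_one hsq
  -- the line spanned by `rb c`
  let f : k →ₗ[ZMod p] sl2 k :=
    { toFun := fun t => ⟨t • A, by rw [mem_sl2, Matrix.trace_smul, htr, smul_zero]⟩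
      map_add' := fun s t => Subtype.ext (add_smul s t A)
      map_smul' := fun a t => Subtype.ext (by
        show (a • t) • A = a • (t • A)
        rw [smul_assoc]) }
  have hf : Function.Injective f := by
    intro s t hst
    have h1 : s • A = t • A := congrArg Subtype.val hst
    have h3 : (s - t) • A = 0 := by rw [sub_smul, h1, sub_self]
    exact sub_eq_zero.mp ((smul_eq_zero.mp h3).resolve_right hA0)
  have hact : ∀ X : Mat2 k,
      adAct rb (detChar rb) complexConjugation X = -(A * X * A) := by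
    intro X
    rw [adAct_apply, detChar_apply, complexConjugation_inv, ← hA, hdet, neg_one_smul]
  have hrange : LinearMap.range f =
      LinearMap.ker (adRep p rb (detChar rb) complexConjugation + 1) := by
    ext X
    rw [mem_ker_add_one, LinearMap.mem_range]
    constructor
    · rintro ⟨t, rfl⟩
      apply Subtype.ext
      show adAct rb (detChar rb) complexConjugation (t • A) = -(t • A)
      rw [hact, Matrix.mul_smul, hsq, Matrix.smul_mul, one_mul]
    · intro hX
      have h1 : adAct rb (detChar rb) complexConjugation (X : Mat2 k) = -(X : Mat2 k) :=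
        congrArg Subtype.val hX
      rw [hact, neg_inj] at h1
      have h3 : A * (X : Mat2 k) = (X : Mat2 k) * A := by
        calc A * (X : Mat2 k) = A * (A * X * A) := by rw [h1]
          _ = (A * A) * X * A := by simp only [mul_assoc]
          _ = X * A := by rw [hsq, one_mul]
      obtain ⟨t, ht⟩ := Away.exists_smul_of_commute h2 A hns (X : Mat2 k)
        ((mem_sl2 _).mp X.2) h3
      rw [htr, zero_div, zero_smul, sub_zero] at ht
      exact ⟨t, Subtype.ext ht.symm⟩
  unfold cm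
  rw [← hrange, LinearMap.finrank_range_of_inj hf]

/-! ### `H⁰(ad⁰(1)) = 0` -/

theorem finrank_H0_adRep_det (rb : GQ →* Mat2 k) (hp2 : p ≠ 2) (h : ResidualHyp rb p)
    (S : Finset Nat.Primes) (hsm : (datum S).IsSmooth (adRep p rb (detChar rb))) :
    finrank (ZMod p) ((datum S).H (adRep p rb (detChar rb)) hsm 0) = 0 := by
  have h1 : finrank (ZMod p) ((datum S).H (adRep p rb (detChar rb)) hsm 0) =
      finrank (ZMod p) (adRep p rb (detChar rb)).invariants := Rex.finrank_H0 (datum S).L hsm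
  have h2 : (adRep p rb (detChar rb)).invariants = ⊥ := by
    rw [eq_bot_iff]
    intro X hX
    rw [Representation.mem_invariants] at hX
    rw [Submodule.mem_bot]
    apply Subtype.ext
    exact ResHyp.eq_zero_of_adAct_det rb p hp2 h (X : Mat2 k) ((mem_sl2 _).mp X.2)
      fun σ => congrArg Subtype.val (hX σ)
  rw [h1, h2, finrank_bot]

/-! ### The assembly -/

/-- An eigenvector of `rb g` for an eigenvalue in `k` (`ResidualHyp.split`). -/
theorem exists_eigenvector {rb : GQ →* Mat2 k} {p : ℕ} (h : ResidualHyp rb p) (g : GQ) :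
    ∃ v : Fin 2 → k, v ≠ 0 ∧ ∃ a : k, (rb g).mulVec v = a • v := by
  obtain ⟨α, β, hcp⟩ := h.split g
  have h1 : (Matrix.scalar (Fin 2) α - rb g).det = 0 := by
    rw [← Matrix.eval_charpoly, hcp]
    simp
  obtain ⟨v, hv, hv'⟩ := Matrix.exists_mulVec_eq_zero_iff.mpr h1
  refine ⟨v, hv, α, ?_⟩
  rw [Matrix.sub_mulVec, sub_eq_zero] at hv'
  rw [← hv']
  funext i
  simp [Matrix.mulVec, dotProduct, Matrix.scalar_apply, Matrix.diagonal_apply]

/-- The elements of `GQ` for which `v` is an eigenvector of `rb`. -/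
def eigenSubgroup (rb : GQ →* Mat2 k) (v : Fin 2 → k) (hv : v ≠ 0) : Subgroup GQ where
  carrier := {g | ∃ a : k, (rb g).mulVec v = a • v}
  mul_mem' := by
    rintro g g' ⟨a, ha⟩ ⟨a', ha'⟩
    refine ⟨a * a', ?_⟩
    rw [map_mul, ← Matrix.mulVec_mulVec, ha', Matrix.mulVec_smul, ha, smul_smul, mul_comm]
  one_mem' := ⟨1, by rw [map_one, Matrix.one_mulVec, one_smul]⟩
  inv_mem' := by
    rintro g ⟨a, ha⟩
    have h1 : (rb g⁻¹).mulVec ((rb g).mulVec v) = v := by
      rw [Matrix.mulVec_mulVec, ← map_mul, inv_mul_cancel, map_one, Matrix.one_mulVec]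
    rw [ha, Matrix.mulVec_smul] at h1
    have ha0 : a ≠ 0 := by
      rintro rfl
      rw [zero_smul] at h1
      exact hv h1.symm
    refine ⟨a⁻¹, ?_⟩
    calc (rb g⁻¹).mulVec v = a⁻¹ • (a • (rb g⁻¹).mulVec v) := by
          rw [smul_smul, inv_mul_cancel₀ ha0, one_smul]
      _ = a⁻¹ • v := by rw [h1]

/-- **(EC) for `ad⁰(1)`, in the form `FS = 0`**, from (EC-AI) and (EC-CHI). -/
theorem FS_adRep_det_eq_zero [Finite k] (hAI : AIStatement) (rb : GQ →* Mat2 k) (hp2 : p ≠ 2)
    (h : ResidualHyp rb p) (S : Finset Nat.Primes)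
    (hunr : ∀ q : Nat.Primes, q ∉ S → ∀ P : ValuationSubring Qb, P.LiesOverPrime (q : ℕ) →
      ∀ σ ∈ P.inertiaSubgroupIn ℚ, rb σ = 1)
    (hPT : PTOut p S)
    (hCHI : CHIStatement (datum S) complexConjugation rb.ker (ZMod p) k)
    (hsm : (datum S).IsSmooth (adRep p rb (detChar rb))) :
    FS (datum S) complexConjugation (adRep p rb (detChar rb)) hsm = 0 := by
  have hfin : Module.Finite (ZMod p) k := Module.Finite.of_finite
  have hfinM : Module.Finite (ZMod p) (Mat2 k) := Module.Finite.matrix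
  have hfin' : Module.Finite (ZMod p) (sl2 k) :=
    Module.Finite.of_injective ((sl2 k).subtype.restrictScalars (ZMod p))
      (sl2 k).injective_subtype
  have hN := exists_level_le_ker p S h.finiteLevel' hunr
  have hcount := hPT.engine.count
  have h2 : (2 : ZMod p) ≠ 0 := two_ne_zero_of_ne_two hp2
  have hdetker : ∀ n : GQ, rb n = 1 → detChar rb n = 1 := fun n hn =>
    Units.ext (by rw [detChar_apply, hn, Matrix.det_one, Units.val_one])
  have hρN : ∀ n ∈ rb.ker, adRep p rb (detChar rb) n = 1 := fun n hn =>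
    adRep_eq_one_of p rb _ n (MonoidHom.mem_ker.mp hn) (hdetker n (MonoidHom.mem_ker.mp hn))
  refine FS_eq_zero_of_cyclic (datum S) complexConjugation hAI (p := p) hcount h2
    complexConjugation_mul_self rb.ker hN (adRep p rb (detChar rb)) hsm hρN ?_
  rintro U hNU ⟨g, hgU, hgen⟩ hY
  -- a common eigenvector of `rb u`, `u ∈ U`
  obtain ⟨v, hv, hvg⟩ := exists_eigenvector h g
  have heig : ∀ u : U, ∃ a : k, (rb (u : GQ)).mulVec v = a • v := by
    intro u
    obtain ⟨n, hn⟩ := hgen (u : GQ) u.2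
    have h1 : g ^ n ∈ eigenSubgroup rb v hv := Subgroup.zpow_mem _ hvg n
    have h3 : g ^ n * (u : GQ) ∈ eigenSubgroup rb v hv :=
      ⟨1, by rw [MonoidHom.mem_ker.mp hn, Matrix.one_mulVec, one_smul]⟩
    have h4 : (g ^ n)⁻¹ * (g ^ n * (u : GQ)) ∈ eigenSubgroup rb v hv :=
      Subgroup.mul_mem _ (Subgroup.inv_mem _ h1) h3
    rwa [inv_mul_cancel_left] at h4
  obtain ⟨l, ψ, hl1, hl2, hl3, hl4⟩ :=
    Flag.exists_flag (rb.comp U.subtype) ((detChar rb).comp U.subtype) v hv heig
  refine FS_coind_eq_zero_of_flag (datum S) complexConjugation hcount h2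
    complexConjugation_mul_self U rb.ker hN hNU 3 (sl2 k)
    ((adRep p rb (detChar rb)).comp U.subtype) (fun u hu => hρN (u : GQ) hu)
    (fun j => (l j).restrictScalars (ZMod p) ∘ₗ (sl2 k).subtype.restrictScalars (ZMod p)) ψ
    (fun j u b hb => hl1 j u (b : Mat2 k) ((mem_sl2 _).mp b.2) hb)
    (fun b hb => Subtype.ext (hl2 (b : Mat2 k) ((mem_sl2 _).mp b.2) hb))
    (fun j x => ?_) (fun j hYj => ?_) hY
  · obtain ⟨X, hX, hXl, hXx⟩ := hl3 j x
    exact ⟨⟨X, (mem_sl2 X).mpr hX⟩, hXl, hXx⟩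
  · exact hCHI U hNU ⟨g, hgU, hgen⟩ (ψ j)
      (fun u hu => hl4 j u (MonoidHom.mem_ker.mp hu) (hdetker _ (MonoidHom.mem_ker.mp hu))) hYj

/-- **(EC) for `ad⁰(1)`**: `h²(G_S; ad⁰(1)) + [k : 𝔽_p] ≤ h¹(G_S; ad⁰(1))` (in fact an
equality), from (EC-AI) and (EC-CHI). -/
theorem ec_of_statements [Finite k] (hAI : AIStatement) (rb : GQ →* Mat2 k) (hp2 : p ≠ 2)
    (h : ResidualHyp rb p) (S : Finset Nat.Primes)
    (hunr : ∀ q : Nat.Primes, q ∉ S → ∀ P : ValuationSubring Qb, P.LiesOverPrime (q : ℕ) →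
      ∀ σ ∈ P.inertiaSubgroupIn ℚ, rb σ = 1)
    (hPT : PTOut p S)
    (hCHI : CHIStatement (datum S) complexConjugation rb.ker (ZMod p) k) :
    finrank (ZMod p) ((datum S).H (adRep p rb (detChar rb))
        (isSmooth_adRep_det p S h.finiteLevel' hunr) 2) + finrank (ZMod p) k ≤
      finrank (ZMod p) ((datum S).H (adRep p rb (detChar rb))
        (isSmooth_adRep_det p S h.finiteLevel' hunr) 1) := by
  have h0 := FS_adRep_det_eq_zero p hAI rb hp2 h S hunr hPT hCHI
    (isSmooth_adRep_det p S h.finiteLevel' hunr)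
  unfold FS at h0
  rw [Cx.chi_two, cm_adRep_det p rb hp2 h] at h0
  have h1 := finrank_H0_adRep_det p rb hp2 h S (isSmooth_adRep_det p S h.finiteLevel' hunr)
  have h1' : finrank (ZMod p) (((datum S).C (adRep p rb (detChar rb))
      (isSmooth_adRep_det p S h.finiteLevel' hunr)).H 0) = 0 := h1
  rw [h1'] at h0
  have h3 : ((finrank (ZMod p) ((datum S).H (adRep p rb (detChar rb))
        (isSmooth_adRep_det p S h.finiteLevel' hunr) 2) : ℕ) : ℤ) + (finrank (ZMod p) k : ℤ) =
      (finrank (ZMod p) ((datum S).H (adRep p rb (detChar rb))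
        (isSmooth_adRep_det p S h.finiteLevel' hunr) 1) : ℤ) := by
    push_cast at h0
    linarith
  exact le_of_eq (by exact_mod_cast h3)

/-- **(EC) for `ad⁰(1)`, wrapper over `S ⊇ Σ`** (the shape consumed by GW-ASM), from (EC-AI)
and (EC-CHI) for all `S` containing a finite set `T`. -/
theorem exists_finset_ec_of [Finite k] (hAI : AIStatement) (rb : GQ →* Mat2 k) (hp2 : p ≠ 2)
    (h : ResidualHyp rb p)
    (hCHI : ∃ T : Finset Nat.Primes, ∀ S : Finset Nat.Primes, T ⊆ S →
      (∀ q : Nat.Primes, q ∉ S → ∀ P : ValuationSubring Qb, P.LiesOverPrime (q : ℕ) →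
        ∀ σ ∈ P.inertiaSubgroupIn ℚ, rb σ = 1) →
      PTOut p S → CHIStatement (datum S) complexConjugation rb.ker (ZMod p) k) :
    ∃ T₀ : Finset Nat.Primes, ∀ S : Finset Nat.Primes, T₀ ⊆ S →
      ∀ (hunr : ∀ q : Nat.Primes, q ∉ S → ∀ P : ValuationSubring Qb, P.LiesOverPrime (q : ℕ) →
        ∀ σ ∈ P.inertiaSubgroupIn ℚ, rb σ = 1),
      PTOut p S →
      finrank (ZMod p) ((datum S).H (adRep p rb (detChar rb))
          (isSmooth_adRep_det p S h.finiteLevel' hunr) 2) + finrank (ZMod p) k ≤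
        finrank (ZMod p) ((datum S).H (adRep p rb (detChar rb))
          (isSmooth_adRep_det p S h.finiteLevel' hunr) 1) := by
  obtain ⟨T, hT⟩ := hCHI
  exact ⟨T, fun S hTS hunr hPT => ec_of_statements p hAI rb hp2 h S hunr hPT (hT S hTS hunr hPT)⟩

end

end Fermat.Agent.TW.EC
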