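import Mathlib
import Fermat.Agent.TW.EC.Main
import Fermat.Agent.TW.EC.AI

/-!
# TW (EC): Tate's Euler characteristic formula for `ad⁰(1)` — final form

`exists_finset_ec_of_chi` : (EC) for `ad⁰(1)` over all `S ⊇ T₀`, from (EC-CHI) alone
(modular Artin induction `aiStatement` is a theorem).
-/

set_option autoImplicit false

namespace Fermat.Agent.TW.EC

open Fermat.Agent.S53 Fermat.Agent.PT Fermat.Agent.PT.Bridge ExtCitation Module
open Fermat.Agent.TW Fermat.Agent.TW.GW

local notation "Qb" => AlgebraicClosure ℚ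

variable {k : Type} [Field k] (p : ℕ) [Fact p.Prime] [Algebra (ZMod p) k]

/-- **(EC) for `ad⁰(1)`, for one `S`**, from (EC-CHI) for `S`. -/
theorem ec_of_chi [Finite k] (rb : GQ →* Mat2 k) (hp2 : p ≠ 2)
    (h : ResidualHyp rb p) (S : Finset Nat.Primes)
    (hunr : ∀ q : Nat.Primes, q ∉ S → ∀ P : ValuationSubring Qb, P.LiesOverPrime (q : ℕ) →
      ∀ σ ∈ P.inertiaSubgroupIn ℚ, rb σ = 1)
    (hPT : PTOut p S)
    (hCHI : CHIStatement (datum S) complexConjugation rb.ker (ZMod p) k) :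
    finrank (ZMod p) ((datum S).H (adRep p rb (detChar rb))
        (isSmooth_adRep_det p S h.finiteLevel' hunr) 2) + finrank (ZMod p) k ≤
      finrank (ZMod p) ((datum S).H (adRep p rb (detChar rb))
        (isSmooth_adRep_det p S h.finiteLevel' hunr) 1) :=
  ec_of_statements p aiStatement rb hp2 h S hunr hPT hCHI

/-- **(EC) for `ad⁰(1)`, wrapper over `S ⊇ T₀`**, from (EC-CHI) for all `S` containing a finite
set `T`. -/
theorem exists_finset_ec_of_chi [Finite k] (rb : GQ →* Mat2 k) (hp2 : p ≠ 2)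
    (h : ResidualHyp rb p)
    (hCHI : ∃ T : Finset Nat.Primes, ∀ S : Finset Nat.Primes, T ⊆ S →
      (∀ q : Nat.Primes, q ∉ S → ∀ P : ValuationSubring Qb, P.LiesOverPrime (q : ℕ) →
        ∀ σ ∈ P.inertiaSubgroupIn ℚ, rb σ = 1) →
      PTOut p S → CHIStatement (datum S) complexConjugation rb.ker (ZMod p) k) :
    ∃ T₀ : Finset Nat.Primes, ∀ S : Finset Nat.Primes, T₀ ⊆ S →
      ∀ (hunr : ∀ q : Nat.Primes, q ∉ S → ∀ P : ValuationSubring Qb, P.LiesOverPrime (q : ℕ) →
        ∀ σ ∈ P.inertiaSubgroupIn ℚ, rb σ = 1),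
      PTOut p S →
      finrank (ZMod p) ((datum S).H (adRep p rb (detChar rb))
          (isSmooth_adRep_det p S h.finiteLevel' hunr) 2) + finrank (ZMod p) k ≤
        finrank (ZMod p) ((datum S).H (adRep p rb (detChar rb))
          (isSmooth_adRep_det p S h.finiteLevel' hunr) 1) :=
  exists_finset_ec_of p aiStatement rb hp2 h hCHI

end Fermat.Agent.TW.EC
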