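/-
TW (EC-χ), brick (χ-K): equivariant Kummer theory.

`K` a number field inside `ℚ̄`, unramified outside `S ∋ p`, `ζ_p ∈ K`, `U₁ = Gal(ℚ̄/K)`, and
`g ∈ G_ℚ` normalising `U₁` (so `g K = K`).  For a field `k ⊇ 𝔽_p`, finite over `𝔽_p`:

* `conjU K g hg`, `conjChar K g hg k` : conjugation by `g` on `U₁` and on functions `U₁ → k`;
* `eigenChars K S g hg k lam` : the `S`-level characters `c : U₁ → k` with
  `c (g u g⁻¹) = lam * c u`  (where the restriction of `H¹(U; k(ψ))` to `U₁` lands, `lam = ψ g`);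
* `kumRel_conj` : the twist law `χ_{g a}(u) = ω(g) · χ_a(g⁻¹ u g)` of Kummer characters;
* `unitCharK` : the `k`-linear map `k ⊗[ℤ] (S-units of K) → (U₁ → k)`, `μ ⊗ u ↦ μ · χ_u`,
  injective (`unitCharK_injective`), with range the level characters when `Cl_S(K)[p] = 0`
  (`range_unitCharK`);
* `eigenChars_eq_map` / `finrank_eigenChars` : for any `ℤ`-linear model `a` of the action of `g`
  on the `S`-units,
  `eigenChars K S g hg k lam = unitCharK '' ker (a ⊗ k − θ)`, `θ = ω(g) · lam⁻¹`, hence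
  `dim_k eigenChars = dim_k ker (a.baseChange k − θ • 1)`.
-/
import Fermat.Agent.PT.G.KumH1S
import Fermat.Agent.PT.DualTwist

set_option autoImplicit false

namespace Fermat.Agent.TW.EC.KummerEq

local notation "Qb" => AlgebraicClosure ℚ
local notation "GQ" => (AlgebraicClosure ℚ ≃ₐ[ℚ] AlgebraicClosure ℚ)

open ExtCitation Fermat.Agent.PT Fermat.Agent.PT.KumBridge Fermat.Agent.PT.SelmerSeq
  Fermat.Agent.PT.KumH1 IsDedekindDomain NumberField TensorProduct

noncomputable section

variable (K : IntermediateField ℚ Qb)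

/-! ### Conjugation by an element of the normaliser -/

/-- Conjugation `u ↦ g u g⁻¹` on `Gal(ℚ̄/K)`, for `g` in its normaliser. -/
def conjU (g : GQ) (hg : g ∈ Subgroup.normalizer (K.fixingSubgroup : Set GQ)) :
    K.fixingSubgroup → K.fixingSubgroup :=
  fun u => ⟨g * u * g⁻¹, (Subgroup.mem_normalizer_iff.mp hg u).mp u.2⟩

@[simp] theorem coe_conjU (g : GQ) (hg : g ∈ Subgroup.normalizer (K.fixingSubgroup : Set GQ))
    (u : K.fixingSubgroup) : ((conjU K g hg u : K.fixingSubgroup) : GQ) = g * u * g⁻¹ := rfl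

theorem conjU_mul (g : GQ) (hg : g ∈ Subgroup.normalizer (K.fixingSubgroup : Set GQ))
    (u v : K.fixingSubgroup) : conjU K g hg (u * v) = conjU K g hg u * conjU K g hg v := by
  apply Subtype.ext
  simp [mul_assoc]

theorem conjU_inv_conjU (g : GQ) (hg : g ∈ Subgroup.normalizer (K.fixingSubgroup : Set GQ))
    (u : K.fixingSubgroup) :
    conjU K g⁻¹ (inv_mem hg) (conjU K g hg u) = u := by
  apply Subtype.ext
  simp [mul_assoc]

theorem conjU_conjU_inv (g : GQ) (hg : g ∈ Subgroup.normalizer (K.fixingSubgroup : Set GQ))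
    (u : K.fixingSubgroup) :
    conjU K g hg (conjU K g⁻¹ (inv_mem hg) u) = u := by
  apply Subtype.ext
  simp [mul_assoc]

/-- Conjugation preserves the traces on `U₁` of normal subgroups of `G_ℚ`. -/
theorem conjU_mem_subgroupOf (g : GQ) (hg : g ∈ Subgroup.normalizer (K.fixingSubgroup : Set GQ))
    {N : Subgroup GQ} (hN : N.Normal) {u : K.fixingSubgroup}
    (hu : u ∈ N.subgroupOf K.fixingSubgroup) :
    conjU K g hg u ∈ N.subgroupOf K.fixingSubgroup := by
  rw [Subgroup.mem_subgroupOf] at hu ⊢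
  exact hN.conj_mem _ hu g

/-- `g` in the normaliser of `Gal(ℚ̄/K)` maps `K` into itself. -/
theorem apply_mem_of_mem_normalizer (g : GQ)
    (hg : g ∈ Subgroup.normalizer (K.fixingSubgroup : Set GQ)) {x : Qb} (hx : x ∈ K) :
    g x ∈ K := by
  rw [Kummer.mem_iff_forall_apply_eq]
  intro u hu
  have h1 : g⁻¹ * u * g ∈ K.fixingSubgroup := by
    have := (Subgroup.mem_normalizer_iff.mp (inv_mem hg) u).mp hu
    rwa [inv_inv] at this
  have h2 := (Kummer.mem_iff_forall_apply_eq K x).mp hx _ h1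
  have h3 : u (g x) = g ((g⁻¹ * u * g) x) := by
    simp [AlgEquiv.mul_apply]
  rw [h3, h2]

/-- The ring endomorphism of `K` induced by `g` in the normaliser of `Gal(ℚ̄/K)`. -/
def actK (g : GQ) (hg : g ∈ Subgroup.normalizer (K.fixingSubgroup : Set GQ)) : ↥K →+* ↥K where
  toFun x := ⟨g x, apply_mem_of_mem_normalizer K g hg x.2⟩
  map_one' := Subtype.ext (map_one g)
  map_mul' _ _ := Subtype.ext (map_mul g _ _)
  map_zero' := Subtype.ext (map_zero g)
  map_add' _ _ := Subtype.ext (map_add g _ _)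

@[simp] theorem coe_actK (g : GQ) (hg : g ∈ Subgroup.normalizer (K.fixingSubgroup : Set GQ))
    (x : ↥K) : ((actK K g hg x : ↥K) : Qb) = g (x : Qb) := rfl

/-- The action of `g` on `Kˣ`. -/
def actUnits (g : GQ) (hg : g ∈ Subgroup.normalizer (K.fixingSubgroup : Set GQ)) :
    (↥K)ˣ →* (↥K)ˣ :=
  Units.map (actK K g hg : ↥K →* ↥K)

@[simp] theorem coe_actUnits (g : GQ) (hg : g ∈ Subgroup.normalizer (K.fixingSubgroup : Set GQ))
    (x : (↥K)ˣ) : (((actUnits K g hg x : (↥K)ˣ) : ↥K) : Qb) = g ((x : ↥K) : Qb) := rfl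

/-! ### The twist law for Kummer characters -/

variable (p : ℕ) [Fact p.Prime]

/-- **Twist law**: if `χ` is the Kummer character of `a`, then
`u ↦ ω(g) · χ(g⁻¹ u g)` is the Kummer character of `g a`. -/
theorem kumRel_conj {ζ : Qb} (hζ : IsPrimitiveRoot ζ p) (g : GQ)
    (hg : g ∈ Subgroup.normalizer (K.fixingSubgroup : Set GQ))
    {χ : K.fixingSubgroup → ZMod p} {a : (↥K)ˣ} (h : KumRel K p ζ χ a) :
    KumRel K p ζ (fun u => (cycloChar p g : ZMod p) * χ (conjU K g⁻¹ (inv_mem hg) u))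
      (actUnits K g hg a) := by
  obtain ⟨α, hα, hrel⟩ := h
  have hζp : ζ ^ p = 1 := hζ.pow_eq_one
  refine ⟨g α, ?_, fun u => ?_⟩
  · rw [← map_pow, hα]
    rfl
  · have h1 : (u : GQ) (g α) = g (((conjU K g⁻¹ (inv_mem hg) u : K.fixingSubgroup) : GQ) α) := by
      simp [AlgEquiv.mul_apply]
    rw [h1, hrel, map_mul, map_pow, DualTwist.cycloExp_spec' p g ζ hζp, ← pow_mul]
    congr 1
    rw [ZMod.val_mul, ← val_cycloChar, pow_eq_pow_mod _ hζp]


/-! ### The Kummer character of an element of the Selmer subgroup -/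

theorem kumRel_one (ζ : Qb) : KumRel K p ζ 0 1 :=
  ⟨1, by simp, fun u => by simp⟩

theorem kumRel_mul {ζ : Qb} (hζ : IsPrimitiveRoot ζ p) {χ χ' : K.fixingSubgroup → ZMod p}
    {a a' : (↥K)ˣ} (h : KumRel K p ζ χ a) (h' : KumRel K p ζ χ' a') :
    KumRel K p ζ (χ + χ') (a * a') := by
  obtain ⟨α, hα, hr⟩ := h
  obtain ⟨α', hα', hr'⟩ := h'
  refine ⟨α * α', ?_, fun u => ?_⟩
  · rw [mul_pow, hα, hα']
    rfl
  · rw [map_mul, hr, hr', Pi.add_apply, Kummer.zeta_pow_val_add p hζ.pow_eq_one]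
    ring

variable (S : Finset Nat.Primes) [NumberField K]

section KumChar

variable {p}
variable (hpS : pPrime p ∈ S) (hK : K.IsUnramifiedOutside S) {ζ : Qb}
  (hζ : IsPrimitiveRoot ζ p) (hζK : ζ ∈ K)

/-- The Kummer character of an element of the Selmer subgroup `K(S, p)`. -/
def kumChar (a : Sel K (primesOver K S) p) : K.fixingSubgroup → ZMod p :=
  (exists_mem_kumRel K S p hpS hK hζ hζK a.2).choose

theorem kumChar_mem (a : Sel K (primesOver K S) p) :
    kumChar K S hpS hK hζ hζK a ∈ kummerChars K S p :=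
  (exists_mem_kumRel K S p hpS hK hζ hζK a.2).choose_spec.1

theorem kumRel_kumChar (a : Sel K (primesOver K S) p) :
    KumRel K p ζ (kumChar K S hpS hK hζ hζK a) a :=
  (exists_mem_kumRel K S p hpS hK hζ hζK a.2).choose_spec.2

/-- The Kummer character is determined by the element. -/
theorem eq_kumChar {χ : K.fixingSubgroup → ZMod p} {a : Sel K (primesOver K S) p}
    (h : KumRel K p ζ χ a) : χ = kumChar K S hpS hK hζ hζK a :=
  (kumRel_eq_iff K p hζ hζK h (kumRel_kumChar K S hpS hK hζ hζK a)).mpr rfl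

theorem kumChar_mul (a a' : Sel K (primesOver K S) p) :
    kumChar K S hpS hK hζ hζK (a * a')
      = kumChar K S hpS hK hζ hζK a + kumChar K S hpS hK hζ hζK a' :=
  (eq_kumChar K S hpS hK hζ hζK (a := a * a')
    (kumRel_mul K p hζ (kumRel_kumChar K S hpS hK hζ hζK a)
      (kumRel_kumChar K S hpS hK hζ hζK a'))).symm

theorem kumChar_one : kumChar K S hpS hK hζ hζK 1 = 0 :=
  (eq_kumChar K S hpS hK hζ hζK (a := 1) (kumRel_one K p ζ)).symm

/-- The Kummer character of `a` vanishes iff `a` is a `p`-th power. -/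
theorem kumChar_eq_zero_iff (a : Sel K (primesOver K S) p) :
    kumChar K S hpS hK hζ hζK a = 0 ↔ (a : (↥K)ˣ) ∈ (powMonoidHom p : (↥K)ˣ →* (↥K)ˣ).range := by
  rw [kumRel_eq_iff K p hζ hζK (kumRel_kumChar K S hpS hK hζ hζK a) (kumRel_one K p ζ),
    QuotientGroup.eq, mul_one, inv_mem_iff]

/-- The twist law for `kumChar`: `χ_{g a}(u) = ω(g) · χ_a(g⁻¹ u g)`. -/
theorem kumChar_act (g : GQ) (hg : g ∈ Subgroup.normalizer (K.fixingSubgroup : Set GQ))
    (a b : Sel K (primesOver K S) p) (hab : (b : (↥K)ˣ) = actUnits K g hg a)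
    (u : K.fixingSubgroup) :
    kumChar K S hpS hK hζ hζK b u
      = (cycloChar p g : ZMod p) * kumChar K S hpS hK hζ hζK a (conjU K g⁻¹ (inv_mem hg) u) := by
  have h := kumRel_conj K p hζ g hg (kumRel_kumChar K S hpS hK hζ hζK a)
  rw [← hab] at h
  exact (congrFun (eq_kumChar K S hpS hK hζ hζK h) u).symm

/-! ### The character of an `S`-unit -/

/-- The Kummer character of an `S`-unit, as an additive map. -/
def unitChar : Additive ↥((primesOver K S).unit ↥K) →+ (K.fixingSubgroup → ZMod p) where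
  toFun u := kumChar K S hpS hK hζ hζK
    ⟨(Additive.toMul u : ↥((primesOver K S).unit ↥K)), unit_le_Sel _ _ _ (Additive.toMul u).2⟩
  map_zero' := kumChar_one K S hpS hK hζ hζK
  map_add' u v := kumChar_mul K S hpS hK hζ hζK
    ⟨(Additive.toMul u : ↥((primesOver K S).unit ↥K)), unit_le_Sel _ _ _ (Additive.toMul u).2⟩
    ⟨(Additive.toMul v : ↥((primesOver K S).unit ↥K)), unit_le_Sel _ _ _ (Additive.toMul v).2⟩

theorem unitChar_apply (u : Additive ↥((primesOver K S).unit ↥K)) :
    unitChar K S hpS hK hζ hζK u = kumChar K S hpS hK hζ hζK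
      ⟨(Additive.toMul u : ↥((primesOver K S).unit ↥K)),
        unit_le_Sel _ _ _ (Additive.toMul u).2⟩ := rfl

theorem unitChar_mem_levelChars (u : Additive ↥((primesOver K S).unit ↥K)) :
    unitChar K S hpS hK hζ hζK u
      ∈ levelChars ((Bridge.levS S).sub K.fixingSubgroup) (ZMod p) :=
  (mem_levelChars_iff_mem_kummerChars p ((isSCofinal_levS S).sub K) _).mpr
    (kumChar_mem K S hpS hK hζ hζK _)

/-- The character of an `S`-unit vanishes iff the unit is a `p`-th power of an `S`-unit. -/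
theorem unitChar_eq_zero_iff (u : Additive ↥((primesOver K S).unit ↥K)) :
    unitChar K S hpS hK hζ hζK u = 0 ↔ ∃ v : Additive ↥((primesOver K S).unit ↥K), u = p • v := by
  have hp : p.Prime := Fact.out
  rw [unitChar_apply, kumChar_eq_zero_iff]
  constructor
  · rintro ⟨y, hy⟩
    rw [powMonoidHom_apply] at hy
    have hyu : y ∈ (primesOver K S).unit ↥K := by
      rw [mem_unit_iff]
      intro v hv
      have h1 := (mem_unit_iff.mp (Additive.toMul u).2) v hv
      have h2 : ordK (↥K) v (y ^ p) = 0 := by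
        rw [hy]
        exact h1
      rw [ordK_pow] at h2
      rcases mul_eq_zero.mp h2 with h3 | h3
      · exact absurd (by exact_mod_cast h3) hp.ne_zero
      · exact h3
    refine ⟨Additive.ofMul ⟨y, hyu⟩, ?_⟩
    rw [← ofMul_pow]
    apply congrArg Additive.ofMul
    exact Subtype.ext hy.symm
  · rintro ⟨v, rfl⟩
    refine ⟨((Additive.toMul v : ↥((primesOver K S).unit ↥K)) : (↥K)ˣ), ?_⟩
    rw [powMonoidHom_apply]
    rfl

/-- The twist law for `unitChar`. -/
theorem unitChar_act (g : GQ) (hg : g ∈ Subgroup.normalizer (K.fixingSubgroup : Set GQ))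
    (u w : Additive ↥((primesOver K S).unit ↥K))
    (huw : ((((Additive.toMul w : ↥((primesOver K S).unit ↥K)) : (↥K)ˣ) : ↥K) : Qb)
      = g ((((Additive.toMul u : ↥((primesOver K S).unit ↥K)) : (↥K)ˣ) : ↥K) : Qb))
    (x : K.fixingSubgroup) :
    unitChar K S hpS hK hζ hζK w x
      = (cycloChar p g : ZMod p) * unitChar K S hpS hK hζ hζK u (conjU K g⁻¹ (inv_mem hg) x) := by
  rw [unitChar_apply, unitChar_apply]
  exact kumChar_act K S hpS hK hζ hζK g hg _ _ (Units.ext (Subtype.ext huw)) x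

end KumChar

/-! ### Coefficients in a finite extension `k` of `𝔽_p` -/

section Coeff

variable (k : Type) [Field k] [Algebra (ZMod p) k]

/-- Every element of `k ⊗[ℤ] M` is `∑ⱼ bⱼ ⊗ mⱼ` for a basis `b` of `k` over `𝔽_p`. -/
theorem exists_eq_sum_tmul [Module.Finite (ZMod p) k] {M : Type*} [AddCommGroup M]
    (ξ : k ⊗[ℤ] M) :
    ∃ m : Fin (Module.finrank (ZMod p) k) → M,
      ξ = ∑ j, Module.finBasis (ZMod p) k j ⊗ₜ[ℤ] m j := by
  have hp : p.Prime := Fact.out
  have : NeZero p := ⟨hp.ne_zero⟩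
  induction ξ using TensorProduct.induction_on with
  | zero => exact ⟨0, by simp⟩
  | tmul μ x =>
    refine ⟨fun j => (((Module.finBasis (ZMod p) k).repr μ j).val : ℤ) • x, ?_⟩
    have h1 : ∀ j, Module.finBasis (ZMod p) k j ⊗ₜ[ℤ]
        ((((Module.finBasis (ZMod p) k).repr μ j).val : ℤ) • x)
        = (((Module.finBasis (ZMod p) k).repr μ j) • Module.finBasis (ZMod p) k j) ⊗ₜ[ℤ] x := by
      intro j
      rw [← TensorProduct.smul_tmul]
      congr 1
      rw [zsmul_eq_mul, Algebra.smul_def]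
      congr 1
      rw [Int.cast_natCast, ← map_natCast (algebraMap (ZMod p) k), ZMod.natCast_zmod_val]
    simp_rw [h1]
    rw [← TensorProduct.sum_tmul, (Module.finBasis (ZMod p) k).sum_repr]
  | add ξ₁ ξ₂ h₁ h₂ =>
    obtain ⟨m₁, rfl⟩ := h₁
    obtain ⟨m₂, rfl⟩ := h₂
    refine ⟨m₁ + m₂, ?_⟩
    simp [TensorProduct.tmul_add, Finset.sum_add_distrib]

variable {Γ : Type} [Group Γ] (L : LevelSys Γ)

/-- Extension of coefficients `𝔽_p → k` preserves level characters. -/
theorem algebraMap_comp_mem_levelChars {χ : Γ → ZMod p} (hχ : χ ∈ levelChars L (ZMod p)) :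
    (fun x => algebraMap (ZMod p) k (χ x)) ∈ levelChars L k := by
  obtain ⟨h1, h2⟩ := hχ
  exact ⟨fun g h => by simp only [h1, map_add], h2.comp (algebraMap (ZMod p) k)⟩

/-- A `𝔽_p`-linear functional of a `k`-valued level character is a level character. -/
theorem linearMap_comp_mem_levelChars (φ : k →ₗ[ZMod p] ZMod p) {c : Γ → k}
    (hc : c ∈ levelChars L k) : (fun x => φ (c x)) ∈ levelChars L (ZMod p) := by
  obtain ⟨h1, h2⟩ := hc
  exact ⟨fun g h => by simp only [h1, map_add], h2.comp φ⟩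

end Coeff

section Main

variable {p}
variable (hpS : pPrime p ∈ S) (hK : K.IsUnramifiedOutside S) {ζ : Qb}
  (hζ : IsPrimitiveRoot ζ p) (hζK : ζ ∈ K)
variable (k : Type) [Field k] [Algebra (ZMod p) k]

/-- `u ↦ (x ↦ χ_u(x) ∈ k)` as a `ℤ`-linear map. -/
def unitCharZ : Additive ↥((primesOver K S).unit ↥K) →ₗ[ℤ] (K.fixingSubgroup → k) :=
  (((algebraMap (ZMod p) k).toAddMonoidHom.compLeft K.fixingSubgroup).comp
    (unitChar K S hpS hK hζ hζK)).toIntLinearMap

/-- **The Kummer map with coefficients**: `k ⊗[ℤ] (S-units) → (U₁ → k)`, `μ ⊗ u ↦ μ · χ_u`. -/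
def unitCharK : k ⊗[ℤ] Additive ↥((primesOver K S).unit ↥K) →ₗ[k] (K.fixingSubgroup → k) :=
  (unitCharZ K S hpS hK hζ hζK k).liftBaseChange k

theorem unitCharK_tmul (μ : k) (u : Additive ↥((primesOver K S).unit ↥K))
    (x : K.fixingSubgroup) :
    unitCharK K S hpS hK hζ hζK k (μ ⊗ₜ u) x
      = μ * algebraMap (ZMod p) k (unitChar K S hpS hK hζ hζK u x) := rfl

theorem unitCharK_sum_tmul [Module.Finite (ZMod p) k]
    (m : Fin (Module.finrank (ZMod p) k) → Additive ↥((primesOver K S).unit ↥K))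
    (x : K.fixingSubgroup) :
    unitCharK K S hpS hK hζ hζK k (∑ j, Module.finBasis (ZMod p) k j ⊗ₜ[ℤ] m j) x
      = ∑ j, unitChar K S hpS hK hζ hζK (m j) x • Module.finBasis (ZMod p) k j := by
  rw [map_sum, Finset.sum_apply]
  refine Finset.sum_congr rfl fun j _ => ?_
  rw [unitCharK_tmul, Algebra.smul_def, mul_comm]

/-- The Kummer map with coefficients is injective. -/
theorem unitCharK_injective [Module.Finite (ZMod p) k] :
    Function.Injective (unitCharK K S hpS hK hζ hζK k) := by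
  have hp : p.Prime := Fact.out
  rw [injective_iff_map_eq_zero]
  intro ξ hξ
  obtain ⟨m, rfl⟩ := exists_eq_sum_tmul p k ξ
  have h0 : ∀ j, unitChar K S hpS hK hζ hζK (m j) = 0 := by
    intro j
    funext x
    have h1 := congrFun hξ x
    rw [unitCharK_sum_tmul] at h1
    exact Fintype.linearIndependent_iff.mp (Module.finBasis (ZMod p) k).linearIndependent _ h1 j
  refine Finset.sum_eq_zero fun j _ => ?_
  obtain ⟨v, hv⟩ := (unitChar_eq_zero_iff K S hpS hK hζ hζK (m j)).mp (h0 j)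
  rw [hv, ← TensorProduct.smul_tmul]
  have h2 : p • Module.finBasis (ZMod p) k j = 0 := by
    rw [nsmul_eq_mul, ← map_natCast (algebraMap (ZMod p) k), ZMod.natCast_self, map_zero,
      zero_mul]
  rw [h2, TensorProduct.zero_tmul]

/-- The Kummer map with coefficients takes values in the level characters. -/
theorem unitCharK_mem_levelChars [Module.Finite (ZMod p) k]
    (ξ : k ⊗[ℤ] Additive ↥((primesOver K S).unit ↥K)) :
    unitCharK K S hpS hK hζ hζK k ξ ∈ levelChars ((Bridge.levS S).sub K.fixingSubgroup) k := by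
  obtain ⟨m, rfl⟩ := exists_eq_sum_tmul p k ξ
  rw [map_sum]
  refine Submodule.sum_mem _ fun j _ => ?_
  have h1 : unitCharK K S hpS hK hζ hζK k (Module.finBasis (ZMod p) k j ⊗ₜ[ℤ] m j)
      = Module.finBasis (ZMod p) k j •
        (fun x => algebraMap (ZMod p) k (unitChar K S hpS hK hζ hζK (m j) x)) := rfl
  rw [h1]
  exact Submodule.smul_mem _ _ (algebraMap_comp_mem_levelChars p k _
    (unitChar_mem_levelChars K S hpS hK hζ hζK (m j)))

/-- If every element of the Selmer subgroup is an `S`-unit times a `p`-th power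
(`Cl_S(K)[p] = 0`), every `𝔽_p`-valued level character is the character of an `S`-unit. -/
theorem exists_unitChar_eq
    (hCl : ∀ x ∈ Sel K (primesOver K S) p, ∃ u ∈ (primesOver K S).unit ↥K, ∃ y : (↥K)ˣ,
      x = u * y ^ p)
    {χ : K.fixingSubgroup → ZMod p}
    (hχ : χ ∈ levelChars ((Bridge.levS S).sub K.fixingSubgroup) (ZMod p)) :
    ∃ u : Additive ↥((primesOver K S).unit ↥K), unitChar K S hpS hK hζ hζK u = χ := by
  have hχ' : χ ∈ kummerChars K S p :=
    (mem_levelChars_iff_mem_kummerChars p ((isSCofinal_levS S).sub K) _).mp hχ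
  obtain ⟨a, ha, hrel⟩ := exists_kumRel_of_mem K S p hK hζ hζK hχ'
  obtain ⟨u, hu, y, hy⟩ := hCl a ha
  refine ⟨Additive.ofMul ⟨u, hu⟩, ?_⟩
  rw [unitChar_apply]
  refine ((kumRel_eq_iff K p hζ hζK hrel (kumRel_kumChar K S hpS hK hζ hζK _)).mpr ?_).symm
  rw [QuotientGroup.eq]
  refine ⟨y⁻¹, ?_⟩
  rw [powMonoidHom_apply, hy]
  show y⁻¹ ^ p = (u * y ^ p)⁻¹ * u
  rw [mul_inv_rev, inv_mul_cancel_right, inv_pow]

/-- **Range of the Kummer map** when `Cl_S(K)[p] = 0`: all `k`-valued level characters. -/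
theorem range_unitCharK [Module.Finite (ZMod p) k]
    (hCl : ∀ x ∈ Sel K (primesOver K S) p, ∃ u ∈ (primesOver K S).unit ↥K, ∃ y : (↥K)ˣ,
      x = u * y ^ p) :
    LinearMap.range (unitCharK K S hpS hK hζ hζK k)
      = levelChars ((Bridge.levS S).sub K.fixingSubgroup) k := by
  apply le_antisymm
  · rintro _ ⟨ξ, rfl⟩
    exact unitCharK_mem_levelChars K S hpS hK hζ hζK k ξ
  · intro c hc
    have hex : ∀ j : Fin (Module.finrank (ZMod p) k),
        ∃ u : Additive ↥((primesOver K S).unit ↥K),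
          unitChar K S hpS hK hζ hζK u = fun x => (Module.finBasis (ZMod p) k).coord j (c x) :=
      fun j => exists_unitChar_eq K S hpS hK hζ hζK hCl
        (linearMap_comp_mem_levelChars p k _ ((Module.finBasis (ZMod p) k).coord j) hc)
    choose m hm using hex
    refine ⟨∑ j, Module.finBasis (ZMod p) k j ⊗ₜ[ℤ] m j, ?_⟩
    funext x
    rw [unitCharK_sum_tmul]
    simp_rw [hm]
    exact (Module.finBasis (ZMod p) k).sum_repr (c x)

/-! ### Equivariance and the eigenspaces -/

/-- Conjugation by `g` on functions `U₁ → k`: `(conjChar g c) u = c (g u g⁻¹)`. -/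
def conjChar (g : GQ) (hg : g ∈ Subgroup.normalizer (K.fixingSubgroup : Set GQ)) :
    (K.fixingSubgroup → k) →ₗ[k] (K.fixingSubgroup → k) :=
  LinearMap.funLeft k k (conjU K g hg)

omit [NumberField K] [Algebra (ZMod p) k] in
@[simp] theorem conjChar_apply (g : GQ) (hg : g ∈ Subgroup.normalizer (K.fixingSubgroup : Set GQ))
    (c : K.fixingSubgroup → k) (u : K.fixingSubgroup) :
    conjChar K k g hg c u = c (conjU K g hg u) := rfl

/-- **Equivariance of the Kummer map**: for a `ℤ`-linear model `a` of the action of `g` on the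
`S`-units, `Φ ∘ (a ⊗ k) = ω(g) • (conjugation by g⁻¹) ∘ Φ`. -/
theorem unitCharK_baseChange (g : GQ) (hg : g ∈ Subgroup.normalizer (K.fixingSubgroup : Set GQ))
    (a : Additive ↥((primesOver K S).unit ↥K) →ₗ[ℤ] Additive ↥((primesOver K S).unit ↥K))
    (ha : ∀ u, ((((Additive.toMul (a u) : ↥((primesOver K S).unit ↥K)) : (↥K)ˣ) : ↥K) : Qb)
      = g ((((Additive.toMul u : ↥((primesOver K S).unit ↥K)) : (↥K)ˣ) : ↥K) : Qb))
    (ξ : k ⊗[ℤ] Additive ↥((primesOver K S).unit ↥K)) :
    unitCharK K S hpS hK hζ hζK k (a.baseChange k ξ)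
      = algebraMap (ZMod p) k (cycloChar p g : ZMod p) •
        conjChar K k g⁻¹ (inv_mem hg) (unitCharK K S hpS hK hζ hζK k ξ) := by
  induction ξ using TensorProduct.induction_on with
  | zero => simp
  | tmul μ u =>
    funext x
    rw [LinearMap.baseChange_tmul, unitCharK_tmul, Pi.smul_apply, conjChar_apply, unitCharK_tmul,
      unitChar_act K S hpS hK hζ hζK g hg u (a u) (ha u) x, map_mul, smul_eq_mul]
    ring
  | add ξ₁ ξ₂ h₁ h₂ =>
    rw [map_add, map_add, h₁, h₂, map_add, map_add, smul_add]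

/-- The `S`-level characters `c : U₁ → k` with `c (g u g⁻¹) = lam * c u`. -/
def eigenChars (g : GQ) (hg : g ∈ Subgroup.normalizer (K.fixingSubgroup : Set GQ)) (lam : k) :
    Submodule k (K.fixingSubgroup → k) :=
  levelChars ((Bridge.levS S).sub K.fixingSubgroup) k ⊓
    LinearMap.ker (conjChar K k g hg - lam • LinearMap.id)

omit [NumberField K] [Algebra (ZMod p) k] in
theorem mem_eigenChars_iff (g : GQ) (hg : g ∈ Subgroup.normalizer (K.fixingSubgroup : Set GQ))
    (lam : k) (c : K.fixingSubgroup → k) :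
    c ∈ eigenChars K S k g hg lam ↔
      c ∈ levelChars ((Bridge.levS S).sub K.fixingSubgroup) k ∧
        ∀ u, c (conjU K g hg u) = lam * c u := by
  rw [eigenChars, Submodule.mem_inf, LinearMap.mem_ker]
  refine and_congr_right fun _ => ?_
  constructor
  · intro h u
    have := congrFun h u
    simp only [LinearMap.sub_apply, LinearMap.smul_apply, LinearMap.id_apply, Pi.sub_apply,
      Pi.smul_apply, conjChar_apply, smul_eq_mul, Pi.zero_apply] at this
    exact sub_eq_zero.mp this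
  · intro h
    funext u
    simp only [LinearMap.sub_apply, LinearMap.smul_apply, LinearMap.id_apply, Pi.sub_apply,
      Pi.smul_apply, conjChar_apply, smul_eq_mul, Pi.zero_apply]
    exact sub_eq_zero.mpr (h u)

/-- **Equivariant Kummer theory** (`Cl_S(K)[p] = 0`): the `lam`-eigenspace of conjugation by `g`
on the `k`-valued `S`-level characters of `Gal(ℚ̄/K)` is the image under the Kummer map of the
`ω(g) · lam⁻¹`-eigenspace of `g` on `k ⊗ (S-units)`. -/
theorem eigenChars_eq_map [Module.Finite (ZMod p) k]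
    (hCl : ∀ x ∈ Sel K (primesOver K S) p, ∃ u ∈ (primesOver K S).unit ↥K, ∃ y : (↥K)ˣ,
      x = u * y ^ p)
    (g : GQ) (hg : g ∈ Subgroup.normalizer (K.fixingSubgroup : Set GQ))
    (a : Additive ↥((primesOver K S).unit ↥K) →ₗ[ℤ] Additive ↥((primesOver K S).unit ↥K))
    (ha : ∀ u, ((((Additive.toMul (a u) : ↥((primesOver K S).unit ↥K)) : (↥K)ˣ) : ↥K) : Qb)
      = g ((((Additive.toMul u : ↥((primesOver K S).unit ↥K)) : (↥K)ˣ) : ↥K) : Qb))
    (lam : kˣ) :
    eigenChars K S k g hg (lam : k)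
      = (LinearMap.ker (a.baseChange k -
          (algebraMap (ZMod p) k (cycloChar p g : ZMod p) * ((lam⁻¹ : kˣ) : k)) • 1)).map
        (unitCharK K S hpS hK hζ hζK k) := by
  have hω : algebraMap (ZMod p) k (cycloChar p g : ZMod p) ≠ 0 := by
    have h1 : IsUnit (algebraMap (ZMod p) k (cycloChar p g : ZMod p)) :=
      (cycloChar p g).isUnit.map (algebraMap (ZMod p) k)
    exact h1.ne_zero
  have hlam : (lam : k) ≠ 0 := lam.ne_zero
  ext c
  rw [mem_eigenChars_iff, Submodule.mem_map]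
  constructor
  · rintro ⟨hc, heig⟩
    have hc' : c ∈ LinearMap.range (unitCharK K S hpS hK hζ hζK k) := by
      rw [range_unitCharK K S hpS hK hζ hζK k hCl]
      exact hc
    obtain ⟨ξ, rfl⟩ := hc'
    refine ⟨ξ, ?_, rfl⟩
    rw [LinearMap.mem_ker]
    apply unitCharK_injective K S hpS hK hζ hζK k
    rw [map_zero, LinearMap.sub_apply, map_sub, LinearMap.smul_apply, Module.End.one_apply,
      map_smul, unitCharK_baseChange K S hpS hK hζ hζK k g hg a ha]
    funext x
    have h1 := heig (conjU K g⁻¹ (inv_mem hg) x)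
    rw [conjU_conjU_inv] at h1
    simp only [Pi.sub_apply, Pi.smul_apply, conjChar_apply, smul_eq_mul, Pi.zero_apply]
    rw [h1, Units.val_inv_eq_inv_val]
    field_simp
    ring
  · rintro ⟨ξ, hξ, rfl⟩
    refine ⟨unitCharK_mem_levelChars K S hpS hK hζ hζK k ξ, fun u => ?_⟩
    rw [LinearMap.mem_ker, LinearMap.sub_apply, LinearMap.smul_apply, Module.End.one_apply,
      sub_eq_zero] at hξ
    have h1 := congrFun (unitCharK_baseChange K S hpS hK hζ hζK k g hg a ha ξ) (conjU K g hg u)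
    rw [hξ, map_smul] at h1
    simp only [Pi.smul_apply, conjChar_apply, smul_eq_mul] at h1
    rw [conjU_inv_conjU, Units.val_inv_eq_inv_val] at h1
    have h2 : (lam : k)⁻¹ * unitCharK K S hpS hK hζ hζK k ξ (conjU K g hg u)
        = unitCharK K S hpS hK hζ hζK k ξ u := by
      apply mul_left_cancel₀ hω
      rw [← h1]
      ring
    rw [← h2, mul_inv_cancel_left₀ hlam]

include hpS hK hζ hζK in
/-- **Equivariant Kummer theory, dimension form** (`Cl_S(K)[p] = 0`):
`dim_k {c ∈ Hom_S(U₁, k) | c(g u g⁻¹) = lam · c(u)} = dim_k ker (g ⊗ k − ω(g) lam⁻¹)` on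
`k ⊗ (S-units of K)`. -/
theorem finrank_eigenChars [Module.Finite (ZMod p) k]
    (hCl : ∀ x ∈ Sel K (primesOver K S) p, ∃ u ∈ (primesOver K S).unit ↥K, ∃ y : (↥K)ˣ,
      x = u * y ^ p)
    (g : GQ) (hg : g ∈ Subgroup.normalizer (K.fixingSubgroup : Set GQ))
    (a : Additive ↥((primesOver K S).unit ↥K) →ₗ[ℤ] Additive ↥((primesOver K S).unit ↥K))
    (ha : ∀ u, ((((Additive.toMul (a u) : ↥((primesOver K S).unit ↥K)) : (↥K)ˣ) : ↥K) : Qb)
      = g ((((Additive.toMul u : ↥((primesOver K S).unit ↥K)) : (↥K)ˣ) : ↥K) : Qb))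
    (lam : kˣ) :
    Module.finrank k (eigenChars K S k g hg (lam : k))
      = Module.finrank k (LinearMap.ker (a.baseChange k -
          (algebraMap (ZMod p) k (cycloChar p g : ZMod p) * ((lam⁻¹ : kˣ) : k)) • 1)) := by
  rw [eigenChars_eq_map K S hpS hK hζ hζK k hCl g hg a ha lam]
  exact (LinearEquiv.finrank_eq (Submodule.equivMapOfInjective _
    (unitCharK_injective K S hpS hK hζ hζK k) _)).symm

end Main

end

end Fermat.Agent.TW.EC.KummerEq
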