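import Fermat.Agent.PT.Coh.ResInj
import Fermat.Agent.PT.G.KumH1

/-!
# TW / (EC), brick (χ-Sh): `H¹(Coind_U k(ψ))` injects into the `ψ`-eigen level characters

`(Γ, L)` a leveled group, `U₁ ≤ U ≤ Γ` open subgroups, `U` normalising `U₁`, `ψ : U → kˣ` a
character trivial on `U₁`, `σ` the representation of `U` on `k` through `ψ`, regarded over a
subfield `𝔽` (`Algebra 𝔽 k`), and `[U : U₁]` invertible in `𝔽`.  Then

* `psiChars L U₁ U ψ` : the `k`-space of level characters `c : U₁ → k` with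
  `c (g u g⁻¹) = ψ g * c u` for all `g ∈ U`;
* `exists_injective_H1_sub` : an injective `𝔽`-linear map `H¹_L(U; k(ψ)) → psiChars`
  (restriction to `U₁`; injective by `ResInj.res_mapH_injective`);
* `exists_injective_H1_coind` : the same for `H¹_L(Γ; Coind_U^Γ k(ψ))` (Shapiro);
* `finrank_H1_coind_le` : `dim_𝔽 H¹(Γ; Coind_U k(ψ)) ≤ [k : 𝔽] · dim_k psiChars`.
-/

set_option autoImplicit false

namespace Fermat.Agent.TW.EC.ShRes

open Fermat.Agent.PT Fermat.Agent.PT.Shapiro Module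

variable {Γ : Type} [Group Γ] (L : LevelSys Γ) (U₁ U : Subgroup Γ)
variable {k : Type} [Field k]

/-- The `ψ`-eigen level characters of `U₁`: additive level-constant `c : U₁ → k` with
`c (g u g⁻¹) = ψ g * c u` for every `g ∈ U`. -/
def psiChars (ψ : U →* kˣ) : Submodule k (U₁ → k) where
  carrier := {c | c ∈ KumH1.levelChars (L.sub U₁) k ∧
    ∀ (g : U) (u : U₁) (h : (g : Γ) * u * (g : Γ)⁻¹ ∈ U₁),
      c ⟨(g : Γ) * u * (g : Γ)⁻¹, h⟩ = (ψ g : k) * c u}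
  zero_mem' := ⟨Submodule.zero_mem _, fun g u h => by simp⟩
  add_mem' := by
    rintro c c' ⟨h1, h2⟩ ⟨h1', h2'⟩
    exact ⟨Submodule.add_mem _ h1 h1', fun g u h => by
      simp only [Pi.add_apply, h2 g u h, h2' g u h, mul_add]⟩
  smul_mem' := by
    rintro a c ⟨h1, h2⟩
    exact ⟨Submodule.smul_mem _ a h1, fun g u h => by
      simp only [Pi.smul_apply, smul_eq_mul, h2 g u h]; ring⟩

variable {L U₁ U}

lemma mem_psiChars_iff {ψ : U →* kˣ} {c : U₁ → k} :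
    c ∈ psiChars L U₁ U ψ ↔ c ∈ KumH1.levelChars (L.sub U₁) k ∧
      ∀ (g : U) (u : U₁) (h : (g : Γ) * u * (g : Γ)⁻¹ ∈ U₁),
        c ⟨(g : Γ) * u * (g : Γ)⁻¹, h⟩ = (ψ g : k) * c u := Iff.rfl

/-- The eigen-condition for one element `g ∈ U` (the shape of a single-generator eigenspace). -/
lemma psiChars_le_single {ψ : U →* kˣ} {c : U₁ → k} (hc : c ∈ psiChars L U₁ U ψ) {g : Γ}
    (hg : g ∈ U) (u : U₁) (h : g * u * g⁻¹ ∈ U₁) :
    c ⟨g * u * g⁻¹, h⟩ = (ψ ⟨g, hg⟩ : k) * c u :=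
  hc.2 ⟨g, hg⟩ u h

variable {𝔽 : Type} [Field 𝔽] [Algebra 𝔽 k]

/-- The differential `C¹ → C²` in low-degree form. -/
lemma d_one_apply {Γ' : Type} [Group Γ'] (L' : LevelSys Γ') {M : Type} [AddCommGroup M]
    [Module 𝔽 M] (ρ : Representation 𝔽 Γ' M) (hρ : L'.IsSmooth ρ) (f : (L'.cx ρ hρ).X 1)
    (g h : Γ') :
    ((L'.cx ρ hρ).d 1 f).1 ![g, h]
      = ρ g (f.1 fun _ => h) - f.1 (fun _ => g * h) + f.1 (fun _ => g) := by
  rw [LevelSys.cx_d_apply]
  have e1 : (fun i : Fin 1 => (![g, h] : Fin 2 → Γ') i.succ) = fun _ => h := by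
    funext i
    fin_cases i
    rfl
  have e2 : Fin.contractNth (0 : Fin 2) (· * ·) (![g, h] : Fin 2 → Γ') = fun _ => g * h := by
    funext i
    fin_cases i
    rfl
  have e3 : Fin.contractNth (1 : Fin 2) (· * ·) (![g, h] : Fin 2 → Γ') = fun _ => g := by
    funext i
    fin_cases i
    rfl
  rw [Fin.sum_univ_two, e1, e2, e3]
  simp only [Matrix.cons_val_zero, Fin.val_zero, zero_add, pow_one, neg_smul, one_smul,
    Fin.val_one, Nat.reduceAdd, even_two, Even.neg_pow, one_pow]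
  abel

/-- The cocycle identity in degree one. -/
lemma cocycle_one {Γ' : Type} [Group Γ'] (L' : LevelSys Γ') {M : Type} [AddCommGroup M]
    [Module 𝔽 M] (ρ : Representation 𝔽 Γ' M) (hρ : L'.IsSmooth ρ) (f : (L'.cx ρ hρ).Z 1)
    (g h : Γ') :
    f.1.1 (fun _ => g * h) = f.1.1 (fun _ => g) + ρ g (f.1.1 fun _ => h) := by
  have h0 := congrFun (congrArg Subtype.val ((L'.cx ρ hρ).mem_Z.1 f.2)) ![g, h]
  rw [d_one_apply] at h0
  have h1 : ((0 : (L'.cx ρ hρ).X 2) : (Fin 2 → Γ') → M) ![g, h] = 0 := rfl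
  rw [h1] at h0
  rw [sub_add_eq_add_sub, sub_eq_zero] at h0
  rw [← h0, add_comm]

section Main

variable (L U₁ U)
variable (hle : U₁ ≤ U) (hlev : ∃ N ∈ L.lev, N ≤ U₁)
variable (ψ : U →* kˣ) (hψ : ∀ u : U, (u : Γ) ∈ U₁ → ψ u = 1)
variable (σ : Representation 𝔽 U k) (hσ : ∀ (u : U) (x : k), σ u x = (ψ u : k) * x)

include hlev hψ hσ in
/-- `k(ψ)` is smooth for the induced levels of `U`. -/
lemma sigma_smooth : (subLev L U).IsSmooth σ := by
  intro x
  obtain ⟨N, hN, hNU⟩ := hlev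
  refine ⟨N.subgroupOf U, ⟨N, hN, rfl⟩, fun s hs => ?_⟩
  rw [hσ, hψ s (hNU (Subgroup.mem_subgroupOf.mp hs)), Units.val_one, one_mul]

/-- Restriction of a `1`-cocycle of `U` to `U₁`, as a function. -/
def resFun (hs : (subLev L U).IsSmooth σ) (c : ((subLev L U).cx σ hs).Z 1) : U₁ → k :=
  fun u => c.1.1 fun _ => ⟨u, hle u.2⟩

include hψ hσ in
lemma resFun_mul (hs : (subLev L U).IsSmooth σ) (c : ((subLev L U).cx σ hs).Z 1) (u v : U₁) :
    resFun L U₁ U hle σ hs c (u * v) = resFun L U₁ U hle σ hs c u + resFun L U₁ U hle σ hs c v := by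
  have h := cocycle_one (subLev L U) σ hs c ⟨u, hle u.2⟩ ⟨v, hle v.2⟩
  rw [hσ, hψ _ u.2, Units.val_one, one_mul] at h
  exact h

include hψ hσ in
lemma resFun_conj (hs : (subLev L U).IsSmooth σ) (c : ((subLev L U).cx σ hs).Z 1) (g : U)
    (u : U₁) (h : (g : Γ) * u * (g : Γ)⁻¹ ∈ U₁) :
    resFun L U₁ U hle σ hs c ⟨(g : Γ) * u * (g : Γ)⁻¹, h⟩
      = (ψ g : k) * resFun L U₁ U hle σ hs c u := by
  set u' : U := ⟨u, hle u.2⟩ with hu'
  have e : (⟨(g : Γ) * u * (g : Γ)⁻¹, hle h⟩ : U) = g * (u' * g⁻¹) := by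
    apply Subtype.ext
    simp [hu', mul_assoc]
  have h1 := cocycle_one (subLev L U) σ hs c g (u' * g⁻¹)
  have h2 := cocycle_one (subLev L U) σ hs c u' g⁻¹
  have h3 := cocycle_one (subLev L U) σ hs c g g⁻¹
  have h4 := cocycle_one (subLev L U) σ hs c 1 1
  rw [mul_one, map_one, Module.End.one_apply] at h4
  have h5 : c.1.1 (fun _ => (1 : U)) = 0 := by
    have := h4
    exact left_eq_add.mp this |>.symm ▸ rfl
  rw [mul_inv_cancel, h5] at h3
  rw [hσ] at h1 h3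
  rw [hσ, hψ u' u.2, Units.val_one, one_mul] at h2
  show c.1.1 (fun _ => (⟨(g : Γ) * u * (g : Γ)⁻¹, hle h⟩ : U)) = (ψ g : k) * c.1.1 (fun _ => u')
  rw [e, h1, h2, mul_add]
  linear_combination -h3

lemma resFun_levelConst (hs : (subLev L U).IsSmooth σ) (c : ((subLev L U).cx σ hs).Z 1) :
    (L.sub U₁).IsLevelConst (fun g : Fin 1 → U₁ => resFun L U₁ U hle σ hs c (g 0)) := by
  obtain ⟨N', ⟨N, hN, rfl⟩, hc⟩ := c.1.2
  refine ⟨N.subgroupOf U₁, LevelSys.mem_sub_lev hN, fun g g' hgg' => ?_⟩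
  refine hc _ _ fun _ => ?_
  have := hgg' 0
  rw [Subgroup.mem_subgroupOf] at this ⊢
  exact this

/-- Restriction of `1`-cocycles of `U` with coefficients `k(ψ)` to `U₁`, with values in the
`ψ`-eigen level characters. -/
def resLin (hs : (subLev L U).IsSmooth σ) :
    ((subLev L U).cx σ hs).Z 1 →ₗ[𝔽] ↥(psiChars L U₁ U ψ) where
  toFun c := ⟨resFun L U₁ U hle σ hs c,
    ⟨fun u v => resFun_mul L U₁ U hle ψ hψ σ hσ hs c u v, resFun_levelConst L U₁ U hle σ hs c⟩,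
    fun g u h => resFun_conj L U₁ U hle ψ hψ σ hσ hs c g u h⟩
  map_add' _ _ := rfl
  map_smul' _ _ := rfl

lemma resLin_apply (hs : (subLev L U).IsSmooth σ) (c : ((subLev L U).cx σ hs).Z 1) (u : U₁) :
    (resLin L U₁ U hle ψ hψ σ hσ hs c : U₁ → k) u = c.1.1 fun _ => ⟨u, hle u.2⟩ := rfl

/-- Coboundaries vanish on `U₁`. -/
lemma comap_B_le_ker_resLin (hs : (subLev L U).IsSmooth σ) :
    (((subLev L U).cx σ hs).B 1).comap (((subLev L U).cx σ hs).Z 1).subtype ≤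
      LinearMap.ker (resLin L U₁ U hle ψ hψ σ hσ hs) := by
  intro c hc
  obtain ⟨y, hy⟩ := (((subLev L U).cx σ hs).mem_B_succ).1 (Submodule.mem_comap.mp hc)
  rw [LinearMap.mem_ker]
  apply Subtype.ext
  funext u
  rw [resLin_apply]
  have h1 : c.1.1 (fun _ => (⟨u, hle u.2⟩ : U)) =
      (((subLev L U).cx σ hs).d 0 y).1 (fun _ => (⟨u, hle u.2⟩ : U)) := by
    rw [hy]; rfl
  rw [h1, cx_d_zero_apply (subLev L U) σ hs y _ (fun i => i.elim0), hσ, hψ _ u.2, Units.val_one,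
    one_mul, sub_self]
  rfl

/-- The restriction map `H¹(U; k(ψ)) → psiChars`. -/
def resH (hs : (subLev L U).IsSmooth σ) :
    ((subLev L U).cx σ hs).H 1 →ₗ[𝔽] ↥(psiChars L U₁ U ψ) :=
  Submodule.liftQ _ (resLin L U₁ U hle ψ hψ σ hσ hs) (comap_B_le_ker_resLin L U₁ U hle ψ hψ σ hσ hs)

lemma resH_Hπ (hs : (subLev L U).IsSmooth σ) (c : ((subLev L U).cx σ hs).Z 1) :
    resH L U₁ U hle ψ hψ σ hσ hs (((subLev L U).cx σ hs).Hπ 1 c) =
      resLin L U₁ U hle ψ hψ σ hσ hs c := rfl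

include hlev in
/-- **p′-descent**: restriction `H¹(U; k(ψ)) → psiChars` is injective when `[U : U₁]` is
invertible in `𝔽`. -/
theorem resH_injective (hs : (subLev L U).IsSmooth σ)
    (hidx : ((U₁.relIndex U : ℕ) : 𝔽) ≠ 0) :
    Function.Injective (resH L U₁ U hle ψ hψ σ hσ hs) := by
  refine (injective_iff_map_eq_zero _).mpr fun x hx => ?_
  obtain ⟨c, rfl⟩ := ((subLev L U).cx σ hs).Hπ_surjective 1 x
  rw [resH_Hπ] at hx
  obtain ⟨N, hN, hNU⟩ := hlev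
  have hW : ∃ N' ∈ (subLev L U).lev, N' ≤ U₁.subgroupOf U :=
    ⟨N.subgroupOf U, ⟨N, hN, rfl⟩, fun s hs' => Subgroup.mem_subgroupOf.mpr
      (hNU (Subgroup.mem_subgroupOf.mp hs'))⟩
  have hinj := ResInj.res_mapH_injective σ (U₁.subgroupOf U) (subLev L U) hW hs
    (isUnit_iff_ne_zero.mpr hidx) 1
  apply hinj
  rw [map_zero]
  have hcls : ((subLev L U).cx σ hs).Hπ 1 c =
      ((subLev L U).cx σ hs).cls 1 c.1 (((subLev L U).cx σ hs).mem_Z.1 c.2) := rfl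
  rw [hcls, Cx.Hom.mapH_cls, Cx.cls_eq_zero_iff]
  have hzero : ((subLev L U).res (subLev (subLev L U) (U₁.subgroupOf U))
      (isCts_subtype (subLev L U) (U₁.subgroupOf U)) σ hs
      ((isCts_subtype (subLev L U) (U₁.subgroupOf U)).isSmooth hs)).f 1 c.1 = 0 := by
    apply Subtype.ext
    funext g
    have h1 := congrFun (congrArg Subtype.val hx) ⟨((g 0 : U) : Γ), (g 0).2⟩
    rw [resLin_apply] at h1
    have e : ((U₁.subgroupOf U).subtype ∘ g) = fun _ => (g 0 : U) := by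
      funext i
      fin_cases i
      rfl
    show c.1.1 ((U₁.subgroupOf U).subtype ∘ g) = 0
    rw [e]
    exact h1
  rw [hzero]
  exact Submodule.zero_mem _

include hle hlev hψ hσ in
/-- **(χ-Sh), group form**: an injective `𝔽`-linear map from `H¹(U; k(ψ))` into the `ψ`-eigen
level characters of `U₁`. -/
theorem exists_injective_H1_sub (hs : (subLev L U).IsSmooth σ)
    (hidx : ((U₁.relIndex U : ℕ) : 𝔽) ≠ 0) :
    ∃ Φ : ((subLev L U).cx σ hs).H 1 →ₗ[𝔽] ↥(psiChars L U₁ U ψ), Function.Injective Φ :=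
  ⟨resH L U₁ U hle ψ hψ σ hσ hs, resH_injective L U₁ U hle hlev ψ hψ σ hσ hs hidx⟩

include hle hlev hψ hσ in
/-- **(χ-Sh)**: an injective `𝔽`-linear map from `H¹(Γ; Coind_U^Γ k(ψ))` into the `ψ`-eigen
level characters of `U₁` (Shapiro, then restriction to `U₁`). -/
theorem exists_injective_H1_coind (hY : L.IsSmooth (Representation.coind U.subtype σ))
    (hidx : ((U₁.relIndex U : ℕ) : 𝔽) ≠ 0) :
    ∃ Φ : (L.cx (Representation.coind U.subtype σ) hY).H 1 →ₗ[𝔽] ↥(psiChars L U₁ U ψ),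
      Function.Injective Φ := by
  have hs := sigma_smooth L U₁ U hlev ψ hψ σ hσ
  have hU : ∃ N ∈ L.lev, N ≤ U := by
    obtain ⟨N, hN, hNU⟩ := hlev
    exact ⟨N, hN, hNU.trans hle⟩
  exact ⟨(resH L U₁ U hle ψ hψ σ hσ hs).comp ((sh L U hU σ hs).mapH 1),
    (resH_injective L U₁ U hle hlev ψ hψ σ hσ hs hidx).comp
      (shapiro_bijective L U hU 1 k σ hs).1⟩

include hle hlev hψ hσ in
/-- **(χ-Sh), dimension form**:
`dim_𝔽 H¹(Γ; Coind_U^Γ k(ψ)) ≤ [k : 𝔽] · dim_k (ψ-eigen level characters of U₁)`. -/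
theorem finrank_H1_coind_le (hY : L.IsSmooth (Representation.coind U.subtype σ))
    (hidx : ((U₁.relIndex U : ℕ) : 𝔽) ≠ 0) [Module.Finite 𝔽 k]
    [Module.Finite k ↥(psiChars L U₁ U ψ)] :
    Module.Finite 𝔽 ((L.cx (Representation.coind U.subtype σ) hY).H 1) ∧
      finrank 𝔽 ((L.cx (Representation.coind U.subtype σ) hY).H 1) ≤
        finrank 𝔽 k * finrank k ↥(psiChars L U₁ U ψ) := by
  obtain ⟨Φ, hΦ⟩ := exists_injective_H1_coind L U₁ U hle hlev ψ hψ σ hσ hY hidx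
  have : Module.Finite 𝔽 ↥(psiChars L U₁ U ψ) := Module.Finite.trans k _
  refine ⟨Module.Finite.of_injective Φ hΦ, ?_⟩
  rw [Module.finrank_mul_finrank 𝔽 k ↥(psiChars L U₁ U ψ)]
  exact LinearMap.finrank_le_finrank_of_injective hΦ

end Main

end Fermat.Agent.TW.EC.ShRes
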