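/-
TW (EC-χ), brick (χ-K), joint form: the `ψ`-eigen level characters of `U₁ = Gal(ℚ̄/K)` for the
whole group `U` (helper69's `ShRes.psiChars`) are the image under the Kummer map
`KummerEq.unitCharK` of the joint eigenspace of `U` on `k ⊗ (S-units of K)`:

  `psiChars (levS S) U₁ U ψ = unitCharK '' ⨅ g : U, ker (a g ⊗ k − θ(g))`,
  `θ(g) = ω(g) · ψ(g)⁻¹`,

for any family `a g` of `ℤ`-linear models of the action of `g ∈ U` on the `S`-units
(`Cl_S(K)[p] = 0`, `U` normalises `U₁`).  Consequences: `psiChars` is finite-dimensional and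
`dim_k psiChars = dim_k ⨅ g, ker (a g ⊗ k − θ(g))`.
-/
import Fermat.Agent.TW.EC.KummerEq
import Fermat.Agent.TW.EC.ShRes

set_option autoImplicit false

namespace Fermat.Agent.TW.EC.KummerPsi

local notation "Qb" => AlgebraicClosure ℚ
local notation "GQ" => (AlgebraicClosure ℚ ≃ₐ[ℚ] AlgebraicClosure ℚ)

open ExtCitation Fermat.Agent.PT Fermat.Agent.PT.KumBridge Fermat.Agent.PT.SelmerSeq
  Fermat.Agent.PT.KumH1 IsDedekindDomain NumberField TensorProduct
  Fermat.Agent.TW.EC.KummerEq Fermat.Agent.TW.EC.ShRes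

noncomputable section

variable (K : IntermediateField ℚ Qb) [NumberField K] {p : ℕ} [Fact p.Prime]
  (S : Finset Nat.Primes)
variable (k : Type) [Field k]

omit [NumberField K] in
/-- `psiChars` is the intersection of the single-element eigenspaces `eigenChars`. -/
theorem mem_psiChars_iff_forall (U : Subgroup GQ)
    (hnorm : U ≤ Subgroup.normalizer (K.fixingSubgroup : Set GQ)) (ψ : U →* kˣ)
    (c : K.fixingSubgroup → k) :
    c ∈ psiChars (Bridge.levS S) K.fixingSubgroup U ψ ↔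
      ∀ g : U, c ∈ eigenChars K S k (g : GQ) (hnorm g.2) (ψ g : k) := by
  constructor
  · rintro ⟨hc, h⟩ g
    rw [mem_eigenChars_iff]
    exact ⟨hc, fun u => h g u _⟩
  · intro h
    refine ⟨((mem_eigenChars_iff K S k _ _ _ c).mp (h 1)).1, fun g u hu => ?_⟩
    exact ((mem_eigenChars_iff K S k _ _ _ c).mp (h g)).2 u

omit [NumberField K] in
/-- `psiChars ≤ eigenChars` for every single `g ∈ U`. -/
theorem psiChars_le_eigenChars (U : Subgroup GQ)
    (hnorm : U ≤ Subgroup.normalizer (K.fixingSubgroup : Set GQ)) (ψ : U →* kˣ) (g : U) :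
    psiChars (Bridge.levS S) K.fixingSubgroup U ψ
      ≤ eigenChars K S k (g : GQ) (hnorm g.2) (ψ g : k) :=
  fun c hc => (mem_psiChars_iff_forall K S k U hnorm ψ c).mp hc g

variable [Algebra (ZMod p) k]
variable (hpS : pPrime p ∈ S) (hK : K.IsUnramifiedOutside S) {ζ : Qb}
  (hζ : IsPrimitiveRoot ζ p) (hζK : ζ ∈ K)

/-- **Equivariant Kummer theory, joint form** (`Cl_S(K)[p] = 0`): the `ψ`-eigen `S`-level
characters of `U₁ = Gal(ℚ̄/K)` under conjugation by `U` are the image under the Kummer map of the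
joint `θ`-eigenspace of `U` on `k ⊗ (S-units of K)`, `θ = ω ψ⁻¹`. -/
theorem psiChars_eq_map [Module.Finite (ZMod p) k]
    (hCl : ∀ x ∈ Sel K (primesOver K S) p, ∃ u ∈ (primesOver K S).unit ↥K, ∃ y : (↥K)ˣ,
      x = u * y ^ p)
    (U : Subgroup GQ) (hnorm : U ≤ Subgroup.normalizer (K.fixingSubgroup : Set GQ))
    (ψ : U →* kˣ)
    (a : U → (Additive ↥((primesOver K S).unit ↥K) →ₗ[ℤ] Additive ↥((primesOver K S).unit ↥K)))
    (ha : ∀ (g : U) (u : Additive ↥((primesOver K S).unit ↥K)),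
      ((((Additive.toMul (a g u) : ↥((primesOver K S).unit ↥K)) : (↥K)ˣ) : ↥K) : Qb)
        = (g : GQ) ((((Additive.toMul u : ↥((primesOver K S).unit ↥K)) : (↥K)ˣ) : ↥K) : Qb)) :
    psiChars (Bridge.levS S) K.fixingSubgroup U ψ
      = (⨅ g : U, LinearMap.ker ((a g).baseChange k -
          (algebraMap (ZMod p) k (cycloChar p (g : GQ) : ZMod p) * (((ψ g)⁻¹ : kˣ) : k)) • 1)).map
        (unitCharK K S hpS hK hζ hζK k) := by
  rw [Submodule.map_iInf _ (unitCharK_injective K S hpS hK hζ hζK k)]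
  ext c
  rw [mem_psiChars_iff_forall K S k U hnorm ψ c, Submodule.mem_iInf]
  refine forall_congr' fun g => ?_
  rw [eigenChars_eq_map K S hpS hK hζ hζK k hCl (g : GQ) (hnorm g.2) (a g) (ha g) (ψ g)]

include hpS hK hζ hζK in
/-- **Equivariant Kummer theory, joint form, dimensions**: `psiChars` is finite-dimensional and
`dim_k psiChars = dim_k ⨅ g : U, ker (a g ⊗ k − ω(g) ψ(g)⁻¹)`. -/
theorem finrank_psiChars [Module.Finite (ZMod p) k]
    (hCl : ∀ x ∈ Sel K (primesOver K S) p, ∃ u ∈ (primesOver K S).unit ↥K, ∃ y : (↥K)ˣ,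
      x = u * y ^ p)
    (U : Subgroup GQ) (hnorm : U ≤ Subgroup.normalizer (K.fixingSubgroup : Set GQ))
    (ψ : U →* kˣ)
    (a : U → (Additive ↥((primesOver K S).unit ↥K) →ₗ[ℤ] Additive ↥((primesOver K S).unit ↥K)))
    (ha : ∀ (g : U) (u : Additive ↥((primesOver K S).unit ↥K)),
      ((((Additive.toMul (a g u) : ↥((primesOver K S).unit ↥K)) : (↥K)ˣ) : ↥K) : Qb)
        = (g : GQ) ((((Additive.toMul u : ↥((primesOver K S).unit ↥K)) : (↥K)ˣ) : ↥K) : Qb)) :
    Module.Finite k ↥(psiChars (Bridge.levS S) K.fixingSubgroup U ψ) ∧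
      Module.finrank k ↥(psiChars (Bridge.levS S) K.fixingSubgroup U ψ)
        = Module.finrank k ↥(⨅ g : U, LinearMap.ker ((a g).baseChange k -
          (algebraMap (ZMod p) k (cycloChar p (g : GQ) : ZMod p) * (((ψ g)⁻¹ : kˣ) : k)) • 1)) := by
  have : Module.Finite ℤ (Additive ↥((primesOver K S).unit ↥K)) :=
    Fermat.Agent.PT.SUnit.finite_additive_unit ↥K (primesOver K S)
  rw [psiChars_eq_map K S k hpS hK hζ hζK hCl U hnorm ψ a ha]
  set P := ⨅ g : U, LinearMap.ker ((a g).baseChange k -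
    (algebraMap (ZMod p) k (cycloChar p (g : GQ) : ZMod p) * (((ψ g)⁻¹ : kˣ) : k)) • 1) with hP
  have e := Submodule.equivMapOfInjective (unitCharK K S hpS hK hζ hζK k)
    (unitCharK_injective K S hpS hK hζ hζK k) P
  exact ⟨Module.Finite.equiv e, (LinearEquiv.finrank_eq e).symm⟩

include hpS hK hζ hζK in
/-- The same with an abstract character `θ : U →* kˣ`, `θ = ω|_U · ψ⁻¹`. -/
theorem finrank_psiChars_theta [Module.Finite (ZMod p) k]
    (hCl : ∀ x ∈ Sel K (primesOver K S) p, ∃ u ∈ (primesOver K S).unit ↥K, ∃ y : (↥K)ˣ,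
      x = u * y ^ p)
    (U : Subgroup GQ) (hnorm : U ≤ Subgroup.normalizer (K.fixingSubgroup : Set GQ))
    (ψ θ : U →* kˣ)
    (hθ : ∀ g : U, (θ g : k)
      = algebraMap (ZMod p) k (cycloChar p (g : GQ) : ZMod p) * (((ψ g)⁻¹ : kˣ) : k))
    (a : U → (Additive ↥((primesOver K S).unit ↥K) →ₗ[ℤ] Additive ↥((primesOver K S).unit ↥K)))
    (ha : ∀ (g : U) (u : Additive ↥((primesOver K S).unit ↥K)),
      ((((Additive.toMul (a g u) : ↥((primesOver K S).unit ↥K)) : (↥K)ˣ) : ↥K) : Qb)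
        = (g : GQ) ((((Additive.toMul u : ↥((primesOver K S).unit ↥K)) : (↥K)ˣ) : ↥K) : Qb)) :
    Module.Finite k ↥(psiChars (Bridge.levS S) K.fixingSubgroup U ψ) ∧
      Module.finrank k ↥(psiChars (Bridge.levS S) K.fixingSubgroup U ψ)
        = Module.finrank k
          ↥(⨅ g : U, LinearMap.ker ((a g).baseChange k - (θ g : k) • 1)) := by
  have h := finrank_psiChars K S k hpS hK hζ hζK hCl U hnorm ψ a ha
  have hP : (⨅ g : U, LinearMap.ker ((a g).baseChange k - (θ g : k) • 1))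
      = ⨅ g : U, LinearMap.ker ((a g).baseChange k -
          (algebraMap (ZMod p) k (cycloChar p (g : GQ) : ZMod p) * (((ψ g)⁻¹ : kˣ) : k)) • 1) :=
    iInf_congr fun g => by rw [hθ g]
  rw [hP]
  exact h

end

end Fermat.Agent.TW.EC.KummerPsi
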