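import Mathlib
import Fermat.Agent.PT.Coh.RexDual

/-!
# TW / (EC): Mackey counts for coinduced characters  (χ-M)

`U, D ≤ G`, `θ : U →* kˣ`, `σ` the representation of `U` on `k` by `θ` (over a subfield `𝔽`).

* `TrivOn θ D g` : "`θ` is trivial on `U ∩ g D g⁻¹`" (depends only on the double coset `U g D`).
* `finrank_invariants_coind` : `dim_𝔽 (Coind_U^G k(θ))^D = [k:𝔽] · #{x ∈ U\G/D | θ = 1 on
  U ∩ g D g⁻¹, g ∈ x}`.
* `finrank_ker_add_one_coind` : `dim_𝔽 ker (c + 1 | Coind_U^G k(ψ)) = [k:𝔽] · #{x ∈ U\G/⟨c⟩ |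
  ω ψ⁻¹ = 1 on U ∩ g ⟨c⟩ g⁻¹}` for any character `ω` of `G` with `ω c = -1`.
* `finrank_Hv_zero_coind`, `finrank_H_zero_coind` : the same counts for the local and global
  `H⁰` of a Poitou–Tate datum.
-/

set_option autoImplicit false

namespace Fermat.Agent.TW.EC.Mackey

open Module

section core

variable {G : Type*} [Group G] {U : Subgroup G} {k : Type*} [Field k]

/-- `θ` is trivial on `U ∩ g D g⁻¹`. -/
def TrivOn (θ : U →* kˣ) (D : Subgroup G) (g : G) : Prop :=
  ∀ u : U, g⁻¹ * (u : G) * g ∈ D → θ u = 1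

lemma trivOn_mul_iff (θ : U →* kˣ) (D : Subgroup G) (g : G) (u₀ : U) {d₀ : G} (hd₀ : d₀ ∈ D) :
    TrivOn θ D ((u₀ : G) * g * d₀) ↔ TrivOn θ D g := by
  constructor
  · intro h u hu
    have h1 := h (u₀ * u * u₀⁻¹) (by
      have e : ((u₀ : G) * g * d₀)⁻¹ * ((u₀ * u * u₀⁻¹ : U) : G) * ((u₀ : G) * g * d₀) =
          d₀⁻¹ * (g⁻¹ * (u : G) * g) * d₀ := by
        push_cast
        group
      rw [e]
      exact D.mul_mem (D.mul_mem (D.inv_mem hd₀) hu) hd₀)
    rwa [map_mul, map_mul, map_inv, mul_comm, inv_mul_cancel_left] at h1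
  · intro h u hu
    have h1 := h (u₀⁻¹ * u * u₀) (by
      have e : g⁻¹ * ((u₀⁻¹ * u * u₀ : U) : G) * g =
          d₀ * (((u₀ : G) * g * d₀)⁻¹ * (u : G) * ((u₀ : G) * g * d₀)) * d₀⁻¹ := by
        push_cast
        group
      rw [e]
      exact D.mul_mem (D.mul_mem hd₀ hu) (D.inv_mem hd₀))
    rwa [map_mul, map_mul, map_inv, mul_comm, mul_inv_cancel_left] at h1

/-- `TrivOn` depends only on the double coset. -/
lemma trivOn_iff_of_mk_eq (θ : U →* kˣ) (D : Subgroup G) {g g' : G}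
    (h : DoubleCoset.mk U D g = DoubleCoset.mk U D g') : TrivOn θ D g ↔ TrivOn θ D g' := by
  obtain ⟨u, hu, d, hd, rfl⟩ := (DoubleCoset.eq U D g g').1 h
  exact (trivOn_mul_iff θ D g ⟨u, hu⟩ hd).symm

/-- `TrivOn` for the inverse character. -/
lemma trivOn_inv_iff (θ : U →* kˣ) (D : Subgroup G) (g : G) : TrivOn θ⁻¹ D g ↔ TrivOn θ D g := by
  constructor
  · intro h u hu
    have := h u hu
    rwa [MonoidHom.inv_apply, inv_eq_one] at this
  · intro h u hu
    rw [MonoidHom.inv_apply, inv_eq_one]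
    exact h u hu

/-- conjugating the subgroup `D`. -/
lemma trivOn_conj_iff (θ : U →* kˣ) (D D' : Subgroup G) (g g₀ : G)
    (hD : ∀ x : G, x ∈ D' ↔ g₀⁻¹ * x * g₀ ∈ D) : TrivOn θ D' g ↔ TrivOn θ D (g * g₀) := by
  have e : ∀ u : U, (g * g₀)⁻¹ * (u : G) * (g * g₀) = g₀⁻¹ * (g⁻¹ * (u : G) * g) * g₀ := by
    intro u
    group
  constructor
  · intro h u hu
    rw [e, ← hD] at hu
    exact h u hu
  · intro h u hu
    rw [hD, ← e] at hu
    exact h u hu

variable (𝔽 : Type*) [Field 𝔽] [Algebra 𝔽 k]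

/-- The functions `f : G → k` with `f (u h) = θ u · f h` (`u ∈ U`) and `f (h d) = f h`
(`d ∈ D`): the `D`-invariants of the coinduced module of `k(θ)`. -/
def fixedFun (θ : U →* kˣ) (D : Subgroup G) : Submodule 𝔽 (G → k) where
  carrier := {f | (∀ (u : U) (h : G), f ((u : G) * h) = (θ u : k) * f h) ∧
    ∀ d ∈ D, ∀ h : G, f (h * d) = f h}
  add_mem' := by
    rintro f f' ⟨h1, h2⟩ ⟨h1', h2'⟩
    exact ⟨fun u h => by simp only [Pi.add_apply, h1, h1', mul_add],
      fun d hd h => by simp only [Pi.add_apply, h2 d hd, h2' d hd]⟩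
  zero_mem' := ⟨fun u h => by simp, fun d hd h => rfl⟩
  smul_mem' := by
    rintro a f ⟨h1, h2⟩
    exact ⟨fun u h => by simp only [Pi.smul_apply, h1, mul_smul_comm],
      fun d hd h => by simp only [Pi.smul_apply, h2 d hd]⟩

variable {𝔽}

lemma mem_fixedFun {θ : U →* kˣ} {D : Subgroup G} {f : G → k} :
    f ∈ fixedFun 𝔽 θ D ↔ (∀ (u : U) (h : G), f ((u : G) * h) = (θ u : k) * f h) ∧
      ∀ d ∈ D, ∀ h : G, f (h * d) = f h := Iff.rfl

/-- The double cosets on which `θ` is trivial. -/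
abbrev Good (θ : U →* kˣ) (D : Subgroup G) : Type _ :=
  {x : DoubleCoset.Quotient (U : Set G) (D : Set G) // TrivOn θ D (Quotient.out x)}

variable (𝔽) in
/-- evaluation at the chosen representatives of the good double cosets -/
noncomputable def evOut (θ : U →* kˣ) (D : Subgroup G) : fixedFun 𝔽 θ D →ₗ[𝔽] (Good θ D → k) where
  toFun f x := f.1 (Quotient.out x.1)
  map_add' _ _ := rfl
  map_smul' _ _ := rfl

lemma exists_decomp (D : Subgroup G) (h : G) :
    ∃ (u : U) (d : G), d ∈ D ∧ h = (u : G) * Quotient.out (DoubleCoset.mk U D h) * d := by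
  obtain ⟨a, b, ha, hb, e⟩ := DoubleCoset.mk_out_eq_mul U D h
  refine ⟨⟨a⁻¹, U.inv_mem ha⟩, b⁻¹, D.inv_mem hb, ?_⟩
  rw [e]
  show h = a⁻¹ * (a * h * b) * b⁻¹
  group

lemma theta_eq_of_decomp {θ : U →* kˣ} {D : Subgroup G} {o : G} (ho : TrivOn θ D o)
    {u₁ u₂ : U} {d₁ d₂ : G} (hd₁ : d₁ ∈ D) (hd₂ : d₂ ∈ D)
    (e : (u₁ : G) * o * d₁ = (u₂ : G) * o * d₂) : θ u₁ = θ u₂ := by
  have h1 : o⁻¹ * ((u₂⁻¹ * u₁ : U) : G) * o = d₂ * d₁⁻¹ := by
    have h2 : o⁻¹ * ((u₂⁻¹ * u₁ : U) : G) * o = o⁻¹ * (u₂ : G)⁻¹ * ((u₁ : G) * o * d₁) * d₁⁻¹ := by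
      push_cast
      group
    rw [h2, e]
    group
  have h3 := ho (u₂⁻¹ * u₁) (by rw [h1]; exact D.mul_mem hd₂ (D.inv_mem hd₁))
  rw [map_mul, map_inv, inv_mul_eq_one] at h3
  exact h3.symm

lemma evOut_injective (θ : U →* kˣ) (D : Subgroup G) : Function.Injective (evOut 𝔽 θ D) := by
  rw [injective_iff_map_eq_zero]
  rintro ⟨f, hf1, hf2⟩ h0
  apply Subtype.ext
  funext h
  show f h = 0
  obtain ⟨u, d, hd, e⟩ := exists_decomp (U := U) D h
  set o := Quotient.out (DoubleCoset.mk U D h) with ho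
  have key : f o = 0 := by
    by_cases hgood : TrivOn θ D o
    · exact congrFun h0 ⟨DoubleCoset.mk U D h, hgood⟩
    · unfold TrivOn at hgood
      push Not at hgood
      obtain ⟨u', hu'D, hu'⟩ := hgood
      have h1 : f o = (θ u' : k) * f o := by
        have h2 := hf2 _ hu'D o
        have h3 : o * (o⁻¹ * (u' : G) * o) = (u' : G) * o := by group
        rw [h3, hf1] at h2
        exact h2.symm
      have h4 : ((θ u' : k) - 1) * f o = 0 := by rw [sub_mul, one_mul, ← h1, sub_self]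
      rcases mul_eq_zero.mp h4 with h5 | h5
      · exfalso
        apply hu'
        apply Units.ext
        rw [Units.val_one]
        exact sub_eq_zero.mp h5
      · exact h5
  rw [e, hf2 d hd, hf1, key, mul_zero]

section surj

variable (θ : U →* kˣ) (D : Subgroup G)

/-- extension by zero of a function on the good double cosets -/
noncomputable def valOf (a : Good θ D → k) (x : DoubleCoset.Quotient (U : Set G) (D : Set G)) :
    k := by
  classical
  exact if hx : TrivOn θ D (Quotient.out x) then a ⟨x, hx⟩ else 0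

/-- the `U`-component of `h` with respect to the chosen representative of its double coset -/
noncomputable def uOf (U D : Subgroup G) (h : G) : U :=
  Classical.choose (exists_decomp (U := U) D h)

lemma uOf_spec (h : G) : ∃ d : G, d ∈ D ∧
    h = (uOf U D h : G) * Quotient.out (DoubleCoset.mk U D h) * d :=
  Classical.choose_spec (exists_decomp (U := U) D h)

/-- the function attached to values on the good double cosets -/
noncomputable def ofVal (a : Good θ D → k) (h : G) : k :=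
  (θ (uOf U D h) : k) * valOf θ D a (DoubleCoset.mk U D h)

lemma ofVal_eq (a : Good θ D → k) (h : G) (x : DoubleCoset.Quotient (U : Set G) (D : Set G))
    (hx : DoubleCoset.mk U D h = x) (u : U) {d : G} (hd : d ∈ D)
    (e : h = (u : G) * Quotient.out x * d) : ofVal θ D a h = (θ u : k) * valOf θ D a x := by
  subst hx
  unfold ofVal
  by_cases hgood : TrivOn θ D (Quotient.out (DoubleCoset.mk U D h))
  · obtain ⟨d', hd', e'⟩ := uOf_spec (U := U) D h
    rw [theta_eq_of_decomp hgood hd' hd (e'.symm.trans e)]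
  · have : valOf θ D a (DoubleCoset.mk U D h) = 0 := by
      unfold valOf
      exact dif_neg hgood
    rw [this, mul_zero, mul_zero]

lemma ofVal_mem (a : Good θ D → k) : ofVal θ D a ∈ fixedFun 𝔽 θ D := by
  refine ⟨fun u h => ?_, fun d hd h => ?_⟩
  · obtain ⟨d', hd', e'⟩ := uOf_spec (U := U) D h
    have hmk : DoubleCoset.mk U D ((u : G) * h) = DoubleCoset.mk U D h :=
      ((DoubleCoset.eq U D h ((u : G) * h)).2 ⟨u, u.2, 1, D.one_mem, by rw [mul_one]⟩).symm
    rw [ofVal_eq θ D a ((u : G) * h) _ hmk (u * uOf U D h) hd' (by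
        rw [Subgroup.coe_mul, mul_assoc, mul_assoc, ← mul_assoc (uOf U D h : G)]
        exact congrArg (fun t => (u : G) * t) e'),
      ofVal_eq θ D a h _ rfl (uOf U D h) hd' e', map_mul, Units.val_mul, mul_assoc]
  · obtain ⟨d', hd', e'⟩ := uOf_spec (U := U) D h
    have hmk : DoubleCoset.mk U D (h * d) = DoubleCoset.mk U D h :=
      ((DoubleCoset.eq U D h (h * d)).2 ⟨1, U.one_mem, d, hd, by rw [one_mul]⟩).symm
    rw [ofVal_eq θ D a (h * d) _ hmk (uOf U D h) (D.mul_mem hd' hd) (by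
        rw [← mul_assoc]
        exact congrArg (fun t => t * d) e'),
      ofVal_eq θ D a h _ rfl (uOf U D h) hd' e']

lemma ofVal_out (a : Good θ D → k) (x : Good θ D) : ofVal θ D a (Quotient.out x.1) = a x := by
  rw [ofVal_eq θ D a (Quotient.out x.1) x.1 (DoubleCoset.out_eq' U D x.1) 1 D.one_mem
    (by rw [Subgroup.coe_one, one_mul, mul_one]), map_one, Units.val_one, one_mul]
  unfold valOf
  exact dif_pos x.2

lemma evOut_surjective : Function.Surjective (evOut 𝔽 θ D) := fun a =>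
  ⟨⟨ofVal θ D a, ofVal_mem θ D a⟩, funext fun x => ofVal_out θ D a x⟩

end surj

variable (𝔽) in
/-- `(Coind_U^G k(θ))^D ≅ k^{good double cosets}`. -/
noncomputable def fixedFunEquiv (θ : U →* kˣ) (D : Subgroup G) :
    fixedFun 𝔽 θ D ≃ₗ[𝔽] (Good θ D → k) :=
  LinearEquiv.ofBijective (evOut 𝔽 θ D) ⟨evOut_injective θ D, evOut_surjective θ D⟩

theorem finrank_fixedFun [Module.Finite 𝔽 k] (θ : U →* kˣ) (D : Subgroup G)
    [Finite (DoubleCoset.Quotient (U : Set G) (D : Set G))] :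
    finrank 𝔽 (fixedFun 𝔽 θ D) = finrank 𝔽 k * Nat.card (Good θ D) := by
  classical
  have : Fintype (Good θ D) := Fintype.ofFinite _
  rw [(fixedFunEquiv 𝔽 θ D).finrank_eq, Module.finrank_pi_fintype, Finset.sum_const,
    Finset.card_univ, Nat.card_eq_fintype_card, smul_eq_mul, mul_comm]

/-! ### The representation-theoretic forms -/

/-- the `D`-invariants of the coinduced representation, as functions -/
noncomputable def invariantsEquiv (D : Subgroup G) (σ : Representation 𝔽 U k) (θ : U →* kˣ)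
    (hσ : ∀ u x, σ u x = (θ u : k) * x) :
    Representation.invariants ((Representation.coind U.subtype σ).comp D.subtype) ≃ₗ[𝔽]
      fixedFun 𝔽 θ D where
  toFun f := ⟨f.1.1, fun u h => by rw [← hσ]; exact f.1.2 u h, fun d hd h => by
    have h1 := f.2 ⟨d, hd⟩
    exact congrFun (congrArg Subtype.val h1) h⟩
  invFun w := ⟨⟨w.1, fun u h => by rw [hσ]; exact w.2.1 u h⟩, fun d =>
    Subtype.ext (funext fun h => w.2.2 d d.2 h)⟩
  map_add' _ _ := rfl
  map_smul' _ _ := rfl
  left_inv _ := rfl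
  right_inv _ := rfl

/-- **(M1)** `dim (Coind_U^G k(θ))^D = [k:𝔽] · #{x ∈ U\G/D | θ = 1 on U ∩ g D g⁻¹}`. -/
theorem finrank_invariants_coind [Module.Finite 𝔽 k] (D : Subgroup G)
    [Finite (DoubleCoset.Quotient (U : Set G) (D : Set G))] (σ : Representation 𝔽 U k)
    (θ : U →* kˣ) (hσ : ∀ u x, σ u x = (θ u : k) * x) :
    finrank 𝔽 (Representation.invariants ((Representation.coind U.subtype σ).comp D.subtype)) =
      finrank 𝔽 k * Nat.card {x : DoubleCoset.Quotient (U : Set G) (D : Set G) //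
        TrivOn θ D (Quotient.out x)} := by
  rw [(invariantsEquiv D σ θ hσ).finrank_eq, finrank_fixedFun]

/-- `U \ G / D` is finite when `U` has finite index. -/
lemma finite_doubleCosetQuotient_of_finiteIndex (U D : Subgroup G) [U.FiniteIndex] :
    Finite (DoubleCoset.Quotient (U : Set G) (D : Set G)) := by
  have hf : ∀ a b : G, QuotientGroup.leftRel U a b →
      DoubleCoset.mk U D a⁻¹ = DoubleCoset.mk U D b⁻¹ := by
    intro a b hab
    rw [QuotientGroup.leftRel_apply] at hab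
    refine (DoubleCoset.eq U D a⁻¹ b⁻¹).2 ⟨(a⁻¹ * b)⁻¹, U.inv_mem hab, 1, D.one_mem, ?_⟩
    group
  have hfin : Finite (G ⧸ U) := inferInstance
  refine Finite.of_surjective (α := G ⧸ U)
    (Quotient.lift (s := QuotientGroup.leftRel U) (fun g : G => DoubleCoset.mk U D g⁻¹) hf) ?_
  intro x
  refine ⟨Quotient.mk (QuotientGroup.leftRel U) (Quotient.out x)⁻¹, ?_⟩
  show DoubleCoset.mk U D ((Quotient.out x)⁻¹)⁻¹ = x
  rw [inv_inv]
  exact DoubleCoset.out_eq' U D x

/-! ### The `(-1)`-eigenspace of an element `c` -/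

/-- the subgroup of right periods of a function -/
def periodSub (f : G → k) : Subgroup G where
  carrier := {d | ∀ h, f (h * d) = f h}
  mul_mem' := fun {a b} ha hb h => by rw [← mul_assoc, hb, ha]
  one_mem' := fun h => by rw [mul_one]
  inv_mem' := fun {a} ha h => by
    have := ha (h * a⁻¹)
    rw [inv_mul_cancel_right] at this
    exact this.symm

lemma mem_ker_add_one_iff (σ : Representation 𝔽 U k) (c : G)
    (f : Representation.coindV U.subtype σ) :
    f ∈ LinearMap.ker (Representation.coind U.subtype σ c + 1) ↔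
      ∀ h : G, f.1 (h * c) = - f.1 h := by
  rw [LinearMap.mem_ker]
  constructor
  · intro h0 h
    have h1 : f.1 (h * c) + f.1 h = 0 := congrFun (congrArg Subtype.val h0) h
    exact eq_neg_of_add_eq_zero_left h1
  · intro h0
    apply Subtype.ext
    funext h
    show f.1 (h * c) + f.1 h = 0
    rw [h0 h, neg_add_cancel]

/-- Twisting by a character `ω` of `G` with `ω c = -1` identifies the `(-1)`-eigenspace of `c`
on `Coind_U^G k(ψ)` with the `⟨c⟩`-invariants of `Coind_U^G k(ψ ω⁻¹)`. -/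
noncomputable def kerAddOneEquiv (c : G) (ω : G →* kˣ) (hω : ω c = -1)
    (σ : Representation 𝔽 U k) (ψ : U →* kˣ) (hσ : ∀ u x, σ u x = (ψ u : k) * x) :
    LinearMap.ker (Representation.coind U.subtype σ c + 1) ≃ₗ[𝔽]
      fixedFun 𝔽 (ψ * (ω.comp U.subtype)⁻¹) (Subgroup.zpowers c) where
  toFun f := ⟨fun h => (((ω h)⁻¹ : kˣ) : k) * f.1.1 h, by
    have hf1 : ∀ (u : U) (h : G), f.1.1 ((u : G) * h) = (ψ u : k) * f.1.1 h := fun u h => by
      rw [← hσ]; exact f.1.2 u h
    have hf2 := (mem_ker_add_one_iff σ c f.1).1 f.2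
    refine ⟨fun u h => ?_, ?_⟩
    · show (((ω ((u : G) * h))⁻¹ : kˣ) : k) * f.1.1 ((u : G) * h) =
        (((ψ * (ω.comp U.subtype)⁻¹) u : kˣ) : k) * ((((ω h)⁻¹ : kˣ) : k) * f.1.1 h)
      rw [hf1, map_mul, mul_inv, MonoidHom.mul_apply, MonoidHom.inv_apply, MonoidHom.comp_apply,
        Subgroup.coe_subtype, Units.val_mul, Units.val_mul]
      ring
    · have hc : c ∈ periodSub (fun h => (((ω h)⁻¹ : kˣ) : k) * f.1.1 h) := by
        intro h
        show (((ω (h * c))⁻¹ : kˣ) : k) * f.1.1 (h * c) = (((ω h)⁻¹ : kˣ) : k) * f.1.1 h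
        rw [hf2, map_mul, hω, mul_inv, inv_neg_one, Units.val_mul, Units.val_neg, Units.val_one]
        ring
      intro d hd h
      exact (Subgroup.zpowers_le.mpr hc) hd h⟩
  invFun w := ⟨⟨fun h => (ω h : k) * w.1 h, fun u h => by
      show (ω ((U.subtype u : G) * h) : k) * w.1 ((U.subtype u : G) * h) =
        σ u ((ω h : k) * w.1 h)
      have h1 := w.2.1 u h
      rw [hσ, Subgroup.coe_subtype, h1, map_mul, MonoidHom.mul_apply, MonoidHom.inv_apply,
        MonoidHom.comp_apply, Subgroup.coe_subtype, Units.val_mul, Units.val_mul]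
      have h2 : (ω (u : G) : k) * (((ω (u : G))⁻¹ : kˣ) : k) = 1 := Units.mul_inv _
      linear_combination (ψ u : k) * (ω h : k) * w.1 h * h2⟩, by
    rw [mem_ker_add_one_iff]
    intro h
    show (ω (h * c) : k) * w.1 (h * c) = - ((ω h : k) * w.1 h)
    rw [w.2.2 c (Subgroup.mem_zpowers c) h, map_mul, hω, Units.val_mul, Units.val_neg,
      Units.val_one]
    ring⟩
  map_add' f f' := Subtype.ext (funext fun h => mul_add _ _ _)
  map_smul' a f := Subtype.ext (funext fun h => mul_smul_comm _ _ _)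
  left_inv f := Subtype.ext (Subtype.ext (funext fun h => Units.mul_inv_cancel_left _ _))
  right_inv w := Subtype.ext (funext fun h => Units.inv_mul_cancel_left _ _)

/-- **(M2)** `dim ker (c + 1 | Coind_U^G k(ψ)) = [k:𝔽] · #{x ∈ U\G/⟨c⟩ | ω ψ⁻¹ = 1 on
U ∩ g ⟨c⟩ g⁻¹}` for every character `ω` of `G` with `ω c = -1`. -/
theorem finrank_ker_add_one_coind [Module.Finite 𝔽 k] (c : G)
    [Finite (DoubleCoset.Quotient (U : Set G) (Subgroup.zpowers c : Set G))] (ω : G →* kˣ)
    (hω : ω c = -1) (σ : Representation 𝔽 U k) (ψ : U →* kˣ)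
    (hσ : ∀ u x, σ u x = (ψ u : k) * x) :
    finrank 𝔽 (LinearMap.ker (Representation.coind U.subtype σ c + 1)) =
      finrank 𝔽 k * Nat.card {x : DoubleCoset.Quotient (U : Set G) (Subgroup.zpowers c : Set G) //
        TrivOn ((ω.comp U.subtype) * ψ⁻¹) (Subgroup.zpowers c) (Quotient.out x)} := by
  rw [(kerAddOneEquiv c ω hω σ ψ hσ).finrank_eq, finrank_fixedFun]
  congr 1
  refine Nat.card_congr (Equiv.subtypeEquivRight fun x => ?_)
  have e : (ω.comp U.subtype) * ψ⁻¹ = (ψ * (ω.comp U.subtype)⁻¹)⁻¹ := by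
    ext u
    simp [mul_comm]
  rw [e, trivOn_inv_iff]

/-! ### The case `D = ⊤` -/

lemma trivOn_top_iff (θ : U →* kˣ) (g : G) : TrivOn θ ⊤ g ↔ θ = 1 := by
  constructor
  · intro h
    ext u
    rw [h u (Subgroup.mem_top _), MonoidHom.one_apply]
  · intro h u _
    rw [h, MonoidHom.one_apply]

instance subsingleton_doubleCoset_top (U : Subgroup G) :
    Subsingleton (DoubleCoset.Quotient (U : Set G) ((⊤ : Subgroup G) : Set G)) := by
  refine ⟨fun a b => ?_⟩
  rw [← DoubleCoset.out_eq' U ⊤ a, ← DoubleCoset.out_eq' U ⊤ b]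
  refine (DoubleCoset.eq U ⊤ _ _).2 ⟨1, U.one_mem, (Quotient.out a)⁻¹ * Quotient.out b,
    Subgroup.mem_top _, ?_⟩
  group

theorem card_good_top (θ : U →* kˣ) [Decidable (θ = 1)] :
    Nat.card {x : DoubleCoset.Quotient (U : Set G) ((⊤ : Subgroup G) : Set G) //
      TrivOn θ ⊤ (Quotient.out x)} = if θ = 1 then 1 else 0 := by
  split_ifs with h
  · have : Unique {x : DoubleCoset.Quotient (U : Set G) ((⊤ : Subgroup G) : Set G) //
        TrivOn θ ⊤ (Quotient.out x)} :=
      { default := ⟨DoubleCoset.mk U ⊤ 1, (trivOn_top_iff θ _).2 h⟩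
        uniq := fun x => Subtype.ext (Subsingleton.elim _ _) }
    exact Nat.card_unique
  · have : IsEmpty {x : DoubleCoset.Quotient (U : Set G) ((⊤ : Subgroup G) : Set G) //
        TrivOn θ ⊤ (Quotient.out x)} := ⟨fun x => h ((trivOn_top_iff θ _).1 x.2)⟩
    exact Nat.card_of_isEmpty

/-- the invariants of the coinduced representation, as functions -/
noncomputable def invariantsTopEquiv (σ : Representation 𝔽 U k) (θ : U →* kˣ)
    (hσ : ∀ u x, σ u x = (θ u : k) * x) :
    Representation.invariants (Representation.coind U.subtype σ) ≃ₗ[𝔽] fixedFun 𝔽 θ ⊤ where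
  toFun f := ⟨f.1.1, fun u h => by rw [← hσ]; exact f.1.2 u h, fun d _ h => by
    have h1 := f.2 d
    exact congrFun (congrArg Subtype.val h1) h⟩
  invFun w := ⟨⟨w.1, fun u h => by rw [hσ]; exact w.2.1 u h⟩, fun d =>
    Subtype.ext (funext fun h => w.2.2 d (Subgroup.mem_top d) h)⟩
  map_add' _ _ := rfl
  map_smul' _ _ := rfl
  left_inv _ := rfl
  right_inv _ := rfl

/-- `dim (Coind_U^G k(θ))^G = [k:𝔽]` if `θ = 1`, and `0` otherwise. -/
theorem finrank_invariants_coind_top [Module.Finite 𝔽 k] (σ : Representation 𝔽 U k)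
    (θ : U →* kˣ) [Decidable (θ = 1)] (hσ : ∀ u x, σ u x = (θ u : k) * x) :
    finrank 𝔽 (Representation.invariants (Representation.coind U.subtype σ)) =
      if θ = 1 then finrank 𝔽 k else 0 := by
  rw [(invariantsTopEquiv σ θ hσ).finrank_eq, finrank_fixedFun, card_good_top]
  split_ifs <;> simp

end core

/-! ### The local and global `H⁰` of a Poitou–Tate datum -/

section datum

open Fermat.Agent.PT

variable {G : Type} [Group G] {U : Subgroup G} {𝔽 k : Type} [Field 𝔽] [Field k] [Algebra 𝔽 k]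
  [Module.Finite 𝔽 k]

/-- **(M3)** `h⁰_v(Coind_U^G k(θ)) = [k:𝔽] · #{x ∈ U\G/D_v | θ = 1 on U ∩ g D_v g⁻¹}`. -/
theorem finrank_Hv_zero_coind (𝔇 : LocDatum G) (σ : Representation 𝔽 U k) (θ : U →* kˣ)
    (hσ : ∀ u x, σ u x = (θ u : k) * x)
    (hY : 𝔇.IsSmooth (Representation.coind U.subtype σ)) (v : 𝔇.ι)
    [Finite (DoubleCoset.Quotient (U : Set G) (𝔇.D v : Set G))] :
    finrank 𝔽 (𝔇.Hv (Representation.coind U.subtype σ) hY v 0) =
      finrank 𝔽 k * Nat.card {x : DoubleCoset.Quotient (U : Set G) (𝔇.D v : Set G) //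
        TrivOn θ (𝔇.D v) (Quotient.out x)} := by
  rw [← finrank_invariants_coind (𝔇.D v) σ θ hσ]
  exact Rex.finrank_H0 (𝔇.Lv v) (𝔇.isSmooth_resRep hY v)

/-- **(M4)** `h⁰(Coind_U^G k(θ)) = [k:𝔽]` if `θ = 1`, and `0` otherwise. -/
theorem finrank_H_zero_coind (𝔇 : LocDatum G) (σ : Representation 𝔽 U k) (θ : U →* kˣ)
    [Decidable (θ = 1)] (hσ : ∀ u x, σ u x = (θ u : k) * x)
    (hY : 𝔇.IsSmooth (Representation.coind U.subtype σ)) :
    finrank 𝔽 (𝔇.H (Representation.coind U.subtype σ) hY 0) =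
      if θ = 1 then finrank 𝔽 k else 0 := by
  rw [← finrank_invariants_coind_top σ θ hσ]
  exact Rex.finrank_H0 𝔇.L hY

end datum

end Fermat.Agent.TW.EC.Mackey
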