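import Mathlib
import Fermat.Agent.PT.G.PlaceCoset
import Fermat.Agent.PT.G.PlaceDict

/-!
# TW (EC): the `S`-units of a number field `K ⊆ ℚ̄` as a subgroup of `ℚ̄ˣ`

`sUnits K S` is the group of `x ∈ Kˣ` which are units at every valuation subring of `ℚ̄` over a
rational prime `q ∉ S`.  Working inside `ℚ̄ˣ` makes Galois fixed points trivial:
`sUnits L S = sUnits K S ∩ L` for `L ≤ K`.

* `sUnitsAut K S σ hσ` : the action of `σ ∈ G_ℚ` with `σ K ⊆ K` on `Additive (sUnits K S)`.
* `unitEquiv K S : (primesOver K S).unit K ≃* sUnits K S` : comparison with Mathlib's `S`-units.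
* `finrank_sUnits_add_one` : Dirichlet's `S`-unit theorem,
  `rank + 1 = #(infinite places) + #(primes over S)`.
-/

set_option autoImplicit false
set_option linter.style.haveILetI false

namespace Fermat.Agent.TW.EC

open scoped Pointwise
open IsDedekindDomain NumberField

local notation "Qb" => AlgebraicClosure ℚ
local notation "GQ" => (AlgebraicClosure ℚ ≃ₐ[ℚ] AlgebraicClosure ℚ)

/-- The `S`-units of `K ⊆ ℚ̄`, as a subgroup of `ℚ̄ˣ`. -/
def sUnits (K : IntermediateField ℚ Qb) (S : Finset Nat.Primes) : Subgroup Qbˣ where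
  carrier := {x | (x : Qb) ∈ K ∧ ∀ q : Nat.Primes, q ∉ S → ∀ A : ValuationSubring Qb,
    A.LiesOverPrime q → A.valuation (x : Qb) = 1}
  mul_mem' := by
    rintro x y ⟨hx, hx'⟩ ⟨hy, hy'⟩
    refine ⟨by rw [Units.val_mul]; exact K.mul_mem hx hy, fun q hq A hA => ?_⟩
    rw [Units.val_mul, map_mul, hx' q hq A hA, hy' q hq A hA, one_mul]
  one_mem' := ⟨by rw [Units.val_one]; exact K.one_mem,
    fun q hq A hA => by rw [Units.val_one, map_one]⟩
  inv_mem' := by
    rintro x ⟨hx, hx'⟩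
    refine ⟨by rw [Units.val_inv_eq_inv_val]; exact K.inv_mem hx, fun q hq A hA => ?_⟩
    rw [Units.val_inv_eq_inv_val, map_inv₀, hx' q hq A hA, inv_one]

theorem mem_sUnits_iff {K : IntermediateField ℚ Qb} {S : Finset Nat.Primes} {x : Qbˣ} :
    x ∈ sUnits K S ↔ (x : Qb) ∈ K ∧ ∀ q : Nat.Primes, q ∉ S → ∀ A : ValuationSubring Qb,
      A.LiesOverPrime q → A.valuation (x : Qb) = 1 := Iff.rfl

theorem sUnits_mono {K L : IntermediateField ℚ Qb} (h : L ≤ K) (S : Finset Nat.Primes) :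
    sUnits L S ≤ sUnits K S := fun _ hx => ⟨h hx.1, hx.2⟩

theorem mem_sUnits_of_le {K L : IntermediateField ℚ Qb} {S : Finset Nat.Primes} {x : Qbˣ}
    (hx : x ∈ sUnits K S) (hxL : (x : Qb) ∈ L) : x ∈ sUnits L S := ⟨hxL, hx.2⟩

/-- The valuation of a Galois conjugate. -/
theorem valuation_apply_eq_one_iff (g : GQ) (A : ValuationSubring Qb) (x : Qb) :
    A.valuation (g x) = 1 ↔ (g⁻¹ • A).valuation x = 1 := by
  rcases eq_or_ne x 0 with rfl | hx
  · simp
  have hgx : g x ≠ 0 := by rwa [Ne, map_eq_zero_iff g g.injective]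
  have h1 := Fermat.Agent.PT.G.smul_valuation_le_one_iff g⁻¹ A x
  have h2 := Fermat.Agent.PT.G.smul_valuation_le_one_iff g⁻¹ A x⁻¹
  rw [inv_inv] at h1 h2
  rw [map_inv₀, map_inv₀, map_inv₀] at h2
  have h0 : 0 < A.valuation (g x) := zero_lt_iff.mpr ((Valuation.ne_zero_iff _).mpr hgx)
  have h0' : 0 < (g⁻¹ • A).valuation x := zero_lt_iff.mpr ((Valuation.ne_zero_iff _).mpr hx)
  rw [inv_le_one₀ h0', inv_le_one₀ h0] at h2
  rw [le_antisymm_iff, le_antisymm_iff, h1, h2]

theorem map_mem_sUnits {K : IntermediateField ℚ Qb} (S : Finset Nat.Primes) (σ : GQ)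
    (hσ : ∀ x ∈ K, σ x ∈ K) {x : Qbˣ} (hx : x ∈ sUnits K S) :
    Units.map (σ : Qb →* Qb) x ∈ sUnits K S := by
  refine ⟨hσ _ hx.1, fun q hq A hA => ?_⟩
  have h1 : ((Units.map (σ : Qb →* Qb) x : Qbˣ) : Qb) = σ (x : Qb) := rfl
  rw [h1, valuation_apply_eq_one_iff]
  exact hx.2 q hq _ (Fermat.Agent.PT.Levels.liesOverPrime_smul hA σ⁻¹)

/-- The action of `σ ∈ G_ℚ` with `σ K ⊆ K` on the `S`-units of `K`, multiplicatively. -/
noncomputable def sUnitsHom (K : IntermediateField ℚ Qb) (S : Finset Nat.Primes) (σ : GQ)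
    (hσ : ∀ x ∈ K, σ x ∈ K) : sUnits K S →* sUnits K S where
  toFun x := ⟨Units.map (σ : Qb →* Qb) x, map_mem_sUnits S σ hσ x.2⟩
  map_one' := Subtype.ext (map_one _)
  map_mul' _ _ := Subtype.ext (map_mul _ _ _)

theorem sUnitsHom_apply (K : IntermediateField ℚ Qb) (S : Finset Nat.Primes) (σ : GQ)
    (hσ : ∀ x ∈ K, σ x ∈ K) (x : sUnits K S) :
    (((sUnitsHom K S σ hσ x : sUnits K S) : Qbˣ) : Qb) = σ ((x : Qbˣ) : Qb) := rfl

/-- The action of `σ ∈ G_ℚ` with `σ K ⊆ K` on the `S`-units of `K`, as a `ℤ`-linear map. -/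
noncomputable def sUnitsAut (K : IntermediateField ℚ Qb) (S : Finset Nat.Primes) (σ : GQ)
    (hσ : ∀ x ∈ K, σ x ∈ K) : Additive (sUnits K S) →ₗ[ℤ] Additive (sUnits K S) :=
  (MonoidHom.toAdditive (sUnitsHom K S σ hσ)).toIntLinearMap

theorem sUnitsAut_apply (K : IntermediateField ℚ Qb) (S : Finset Nat.Primes) (σ : GQ)
    (hσ : ∀ x ∈ K, σ x ∈ K) (x : Additive (sUnits K S)) :
    (((Additive.toMul (sUnitsAut K S σ hσ x) : sUnits K S) : Qbˣ) : Qb)
      = σ (((Additive.toMul x : sUnits K S) : Qbˣ) : Qb) := rfl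

theorem sUnitsAut_ofMul (K : IntermediateField ℚ Qb) (S : Finset Nat.Primes) (σ : GQ)
    (hσ : ∀ x ∈ K, σ x ∈ K) (x : sUnits K S) :
    sUnitsAut K S σ hσ (Additive.ofMul x) = Additive.ofMul (sUnitsHom K S σ hσ x) := rfl

/-- Two elements of `Additive (sUnits K S)` with the same image in `ℚ̄` are equal. -/
theorem sUnits_ext {K : IntermediateField ℚ Qb} {S : Finset Nat.Primes}
    {x y : Additive (sUnits K S)}
    (h : (((Additive.toMul x : sUnits K S) : Qbˣ) : Qb)
      = (((Additive.toMul y : sUnits K S) : Qbˣ) : Qb)) : x = y :=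
  Additive.toMul.injective (Subtype.ext (Units.ext h))

theorem sUnitsAut_mul (K : IntermediateField ℚ Qb) (S : Finset Nat.Primes) (σ τ : GQ)
    (hσ : ∀ x ∈ K, σ x ∈ K) (hτ : ∀ x ∈ K, τ x ∈ K)
    (hστ : ∀ x ∈ K, (σ * τ) x ∈ K) :
    sUnitsAut K S (σ * τ) hστ = sUnitsAut K S σ hσ ∘ₗ sUnitsAut K S τ hτ := by
  refine LinearMap.ext fun x => sUnits_ext ?_
  rw [LinearMap.comp_apply, sUnitsAut_apply, sUnitsAut_apply, sUnitsAut_apply]
  rfl

theorem sUnitsAut_eq_id (K : IntermediateField ℚ Qb) (S : Finset Nat.Primes) (σ : GQ)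
    (hσ : ∀ x ∈ K, σ x ∈ K) (h : ∀ x ∈ K, σ x = x) :
    sUnitsAut K S σ hσ = LinearMap.id := by
  refine LinearMap.ext fun x => sUnits_ext ?_
  rw [sUnitsAut_apply, LinearMap.id_apply]
  exact h _ (Additive.toMul x).2.1

theorem pow_mem_of_forall_mem {K : IntermediateField ℚ Qb} {σ : GQ} (hσ : ∀ x ∈ K, σ x ∈ K)
    (j : ℕ) : ∀ x ∈ K, (σ ^ j) x ∈ K := by
  induction j with
  | zero => intro x hx; simpa using hx
  | succ n ih =>
    intro x hx
    rw [pow_succ, AlgEquiv.mul_apply]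
    exact ih _ (hσ x hx)

theorem sUnitsAut_pow (K : IntermediateField ℚ Qb) (S : Finset Nat.Primes) (σ : GQ)
    (hσ : ∀ x ∈ K, σ x ∈ K) (j : ℕ) :
    sUnitsAut K S σ hσ ^ j = sUnitsAut K S (σ ^ j) (pow_mem_of_forall_mem hσ j) := by
  induction j with
  | zero =>
    rw [pow_zero]
    symm
    exact sUnitsAut_eq_id K S _ _ (fun x _ => by simp)
  | succ n ih =>
    rw [pow_succ, ih]
    symm
    have h := sUnitsAut_mul K S (σ ^ n) σ (pow_mem_of_forall_mem hσ n) hσ
      (by rw [← pow_succ]; exact pow_mem_of_forall_mem hσ (n + 1))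
    rw [Module.End.mul_eq_comp, ← h]
    congr 1

/-- The inclusion of the `S`-units of a subfield. -/
noncomputable def sUnitsIncl {K L : IntermediateField ℚ Qb} (h : L ≤ K) (S : Finset Nat.Primes) :
    Additive (sUnits L S) →ₗ[ℤ] Additive (sUnits K S) :=
  (MonoidHom.toAdditive (Subgroup.inclusion (sUnits_mono h S))).toIntLinearMap

theorem sUnitsIncl_apply {K L : IntermediateField ℚ Qb} (h : L ≤ K) (S : Finset Nat.Primes)
    (x : Additive (sUnits L S)) :
    (((Additive.toMul (sUnitsIncl h S x) : sUnits K S) : Qbˣ) : Qb)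
      = (((Additive.toMul x : sUnits L S) : Qbˣ) : Qb) := rfl

theorem sUnitsIncl_injective {K L : IntermediateField ℚ Qb} (h : L ≤ K) (S : Finset Nat.Primes) :
    Function.Injective (sUnitsIncl h S) := by
  intro x y hxy
  apply sUnits_ext
  rw [← sUnitsIncl_apply h S x, ← sUnitsIncl_apply h S y, hxy]

/-- The image of the `S`-units of `L ≤ K`: the `S`-units of `K` lying in `L`. -/
theorem mem_range_sUnitsIncl_iff {K L : IntermediateField ℚ Qb} (h : L ≤ K)
    (S : Finset Nat.Primes) (x : Additive (sUnits K S)) :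
    x ∈ LinearMap.range (sUnitsIncl h S) ↔
      (((Additive.toMul x : sUnits K S) : Qbˣ) : Qb) ∈ L := by
  constructor
  · rintro ⟨y, rfl⟩
    rw [sUnitsIncl_apply]
    exact (Additive.toMul y).2.1
  · intro hx
    refine ⟨Additive.ofMul ⟨(Additive.toMul x : sUnits K S), mem_sUnits_of_le
      (Additive.toMul x).2 hx⟩, ?_⟩
    apply sUnits_ext
    rfl

section Compare

variable (K : IntermediateField ℚ Qb) [NumberField K] (S : Finset Nat.Primes)

open Fermat.Agent.PT.KumBridge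

theorem primeOf_eq_primeOf (A : ValuationSubring Qb) (q : Nat.Primes) (hA : A.LiesOverPrime q) :
    primeOf K A q.2.ne_zero hA = Fermat.Agent.PT.PlaceDict.primeOf K q.2 hA :=
  HeightOneSpectrum.ext (Ideal.ext fun _ => Iff.rfl)

theorem map_mem_sUnits_of_mem_unit (x : Kˣ) (hx : x ∈ (primesOver K S).unit ↥K) :
    Units.map (algebraMap K Qb : K →* Qb) x ∈ sUnits K S := by
  refine ⟨(x : K).2, fun q hq A hA => ?_⟩
  exact valuation_eq_one_of_primeOf K A q.2.ne_zero hA (x : K)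
    (hx _ (primeOf_notMem_primesOver K S A q hq hA))

/-- Mathlib's `S`-units of `K` (for the primes over `S`) versus `sUnits K S`. -/
noncomputable def unitHom : (primesOver K S).unit ↥K →* sUnits K S where
  toFun x := ⟨Units.map (algebraMap K Qb : K →* Qb) (x : Kˣ), map_mem_sUnits_of_mem_unit K S _ x.2⟩
  map_one' := Subtype.ext (by simp)
  map_mul' x y := Subtype.ext (by simp)

theorem unitHom_apply (x : (primesOver K S).unit ↥K) :
    (((unitHom K S x : sUnits K S) : Qbˣ) : Qb) = (((x : Kˣ) : K) : Qb) := rfl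

theorem unitHom_bijective : Function.Bijective (unitHom K S) := by
  constructor
  · intro x y hxy
    have h1 : (((x : Kˣ) : K) : Qb) = (((y : Kˣ) : K) : Qb) := by
      rw [← unitHom_apply, ← unitHom_apply, hxy]
    exact Subtype.ext (Units.ext (Subtype.ext h1))
  · rintro ⟨y, hy⟩
    have hy0 : (⟨(y : Qb), hy.1⟩ : K) ≠ 0 := by
      intro h
      exact y.ne_zero (congrArg Subtype.val h)
    refine ⟨⟨Units.mk0 ⟨(y : Qb), hy.1⟩ hy0, ?_⟩, Subtype.ext (Units.ext rfl)⟩
    intro v hv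
    obtain ⟨q, A, hA, rfl⟩ := exists_primeOf_eq K v
    have hqS : q ∉ S := fun hq => hv ⟨q, hq, natCast_mem_primeIdeal K A hA⟩
    rw [primeOf_eq_primeOf]
    exact (Fermat.Agent.PT.PlaceDict.adic_eq_one_iff K q.2 hA _).mpr (hy.2 q hqS A hA)

/-- Mathlib's `S`-units of `K` (for the primes over `S`) are `sUnits K S`. -/
noncomputable def unitEquiv : (primesOver K S).unit ↥K ≃* sUnits K S :=
  MulEquiv.ofBijective (unitHom K S) (unitHom_bijective K S)

theorem unitEquiv_apply (x : (primesOver K S).unit ↥K) :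
    (((unitEquiv K S x : sUnits K S) : Qbˣ) : Qb) = (((x : Kˣ) : K) : Qb) := rfl

/-- The `ℤ`-linear form of `unitEquiv`. -/
noncomputable def unitLinearEquiv :
    Additive ((primesOver K S).unit ↥K) ≃ₗ[ℤ] Additive (sUnits K S) :=
  (MulEquiv.toAdditive (unitEquiv K S)).toIntLinearEquiv

theorem unitLinearEquiv_apply (x : Additive ((primesOver K S).unit ↥K)) :
    (((Additive.toMul (unitLinearEquiv K S x) : sUnits K S) : Qbˣ) : Qb)
      = ((((Additive.toMul x : (primesOver K S).unit ↥K) : Kˣ) : K) : Qb) := rfl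

instance finite_sUnits : Module.Finite ℤ (Additive (sUnits K S)) := by
  haveI := Fermat.Agent.PT.SUnit.finite_additive_unit K (primesOver K S)
  exact Module.Finite.equiv (unitLinearEquiv K S)

/-- **Dirichlet's `S`-unit theorem** for `sUnits K S`. -/
theorem finrank_sUnits_add_one :
    Module.finrank ℤ (Additive (sUnits K S)) + 1
      = Nat.card (InfinitePlace K) + Nat.card (primesOver K S) := by
  rw [← (unitLinearEquiv K S).finrank_eq,
    Fermat.Agent.PT.SUnit.finrank_additive_unit K (primesOver K S), NumberField.Units.rank,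
    Nat.card_eq_fintype_card (α := InfinitePlace K)]
  have : 0 < Fintype.card (InfinitePlace K) := Fintype.card_pos
  omega

end Compare

end Fermat.Agent.TW.EC
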