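/-
TW / (EC) / (χ-asm), independent assembly: (EC-CHI) `FS(Coind_U k(ψ)) = 0` from the landed
bricks and ONE open input, the equivariant `S`-unit count `UnitBound` (χ-U).

For `S ⊇ T` (class-group killing set of `ℚ(rb)`), `U ⊇ ker rb`, `ψ : U → kˣ` trivial on `ker rb`:
`U₁ = {u ∈ U | ψ u = 1 ∧ ω u = 1} = Gal(ℚ̄/K₁)`; for every `ψ'` trivial on `U₁`,
`θ' = ω|_U ψ'⁻¹`, `X = Coind_U k(ψ')`:

  h¹(X) ≤ d · dim psiChars                                   (χ-Sh)
        = d · dim ⨅_u ker(u ⊗ k − θ'(u)) on k ⊗ E_{K₁,S}     (χ-K, Cl_S(K₁)[p] = 0)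
        ≤ d · (n_∞ + Σ_{q∈S} n_q + [θ' = ω] − [θ' = 1])      (χ-U)
  cm(X) = d · n_∞,  h⁰(X) = d·[ψ' = 1],                       (χ-M)
  h²(X) + d·[θ' = 1] ≥ d · Σ_{q∈S} n_q                        (χ-dual + Poitou–Tate tail)

so `FS(X) ≥ 0`; the sum over `ψ'` vanishes (χ-B1), hence `FS(Coind_U k(ψ)) = 0`.
-/
import Mathlib
import Fermat.Agent.TW.EC.ChiSetup
import Fermat.Agent.TW.EC.CharSum
import Fermat.Agent.TW.EC.KummerPsi
import Fermat.Agent.TW.EC.MackeyCount
import Fermat.Agent.TW.EC.CoindDual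
import Fermat.Agent.TW.EC.DualCount
import Fermat.Agent.TW.EC.ClassKill
import Fermat.Agent.TW.EC.SUnitQb
import Fermat.Agent.TW.EC.Red
import Fermat.Agent.TW.EC.Final

set_option autoImplicit false

namespace Fermat.Agent.TW.EC.ChiAsmB

open Fermat.Agent.S53 Fermat.Agent.PT Fermat.Agent.PT.Bridge ExtCitation Module TensorProduct
open Fermat.Agent.TW Fermat.Agent.TW.EC.Mackey Fermat.Agent.PT.KumBridge
  Fermat.Agent.PT.SelmerSeq

local notation "Qb" => AlgebraicClosure ℚ

noncomputable section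

/-! ### Transport of joint eigenspaces along an equivariant isomorphism -/

section Transport

variable {k : Type*} [Field k]

theorem mem_iInf_ker_iff {ι : Sort*} {X : Type*} [AddCommGroup X] [Module k X]
    (F : ι → X →ₗ[k] X) (θ : ι → k) (x : X) :
    x ∈ (⨅ i, LinearMap.ker (F i - θ i • 1)) ↔ ∀ i, F i x = θ i • x := by
  rw [Submodule.mem_iInf]
  refine forall_congr' fun i => ?_
  rw [LinearMap.mem_ker, LinearMap.sub_apply, LinearMap.smul_apply, Module.End.one_apply,
    sub_eq_zero]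

/-- Joint eigenspaces of conjugate families of endomorphisms have the same dimension. -/
theorem finrank_iInf_ker_congr {ι : Sort*} {V W : Type*} [AddCommGroup V] [Module k V]
    [AddCommGroup W] [Module k W] (f : ι → V →ₗ[k] V) (g : ι → W →ₗ[k] W) (E : V ≃ₗ[k] W)
    (hE : ∀ i x, E (f i x) = g i (E x)) (θ : ι → k) :
    finrank k ↥(⨅ i, LinearMap.ker (f i - θ i • 1)) =
      finrank k ↥(⨅ i, LinearMap.ker (g i - θ i • 1)) := by
  have hmap : (⨅ i, LinearMap.ker (f i - θ i • 1)).map (E : V →ₗ[k] W) =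
      ⨅ i, LinearMap.ker (g i - θ i • 1) := by
    ext y
    rw [Submodule.mem_map, mem_iInf_ker_iff]
    constructor
    · rintro ⟨x, hx, rfl⟩ i
      rw [mem_iInf_ker_iff] at hx
      show g i (E x) = θ i • E x
      rw [← hE, hx i, map_smul]
    · intro hy
      refine ⟨E.symm y, ?_, E.apply_symm_apply y⟩
      rw [mem_iInf_ker_iff]
      intro i
      apply E.injective
      rw [hE, E.apply_symm_apply, hy i, map_smul, E.apply_symm_apply]
  rw [← hmap]
  exact (LinearEquiv.finrank_eq (E.submoduleMap _))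

/-- The same for the base changes of conjugate families of `ℤ`-linear maps. -/
theorem finrank_iInf_ker_baseChange_congr {ι : Sort*} {M M' : Type*} [AddCommGroup M]
    [AddCommGroup M'] (a : ι → M →ₗ[ℤ] M) (a' : ι → M' →ₗ[ℤ] M') (e : M ≃ₗ[ℤ] M')
    (he : ∀ i x, e (a i x) = a' i (e x)) (θ : ι → k) :
    finrank k ↥(⨅ i, LinearMap.ker ((a i).baseChange k - θ i • 1)) =
      finrank k ↥(⨅ i, LinearMap.ker ((a' i).baseChange k - θ i • 1)) := by
  refine finrank_iInf_ker_congr _ _ (LinearEquiv.baseChange ℤ k M M' e) (fun i x => ?_) θ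
  induction x using TensorProduct.induction_on with
  | zero => simp
  | tmul c m =>
    rw [LinearMap.baseChange_tmul]
    show c ⊗ₜ[ℤ] e (a i m) = (a' i).baseChange k (c ⊗ₜ[ℤ] e m)
    rw [LinearMap.baseChange_tmul, he]
  | add x y hx hy => rw [map_add, map_add, hx, hy, map_add, map_add]

end Transport

/-! ### The open input: the equivariant `S`-unit count (χ-U) -/

section UnitBound

open scoped Classical in
/-- **(χ-U)**, the equivariant `S`-unit count mod `p` in double-coset form: for a number field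
`K ⊆ ℚ̄` stable under `U ⊇ Gal(ℚ̄/K)` with `p ∤ [U : Gal(ℚ̄/K)]` and a character `θ` of `U`
trivial on `Gal(ℚ̄/K)`, the joint `θ`-eigenspace of `U` on `k ⊗ E_{K,S}` has dimension at most
`#{x ∈ U\G_ℚ/⟨c⟩ | θ = 1 on U ∩ x⟨c⟩x⁻¹} + Σ_{q ∈ S} #{x ∈ U\G_ℚ/D_q | θ = 1 on U ∩ x D_q x⁻¹}
  - [θ = 1] + [θ = ω|_U]`. -/
def UnitBound (p : ℕ) [Fact p.Prime] (k : Type) [Field k] [Algebra (ZMod p) k]
    (S : Finset Nat.Primes) : Prop :=
  ∀ (K : IntermediateField ℚ Qb) [NumberField K] (U : Subgroup GQ)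
    (_ : K.fixingSubgroup ≤ U) (hU : ∀ u ∈ U, ∀ x ∈ K, u x ∈ K) (θ : U →* kˣ)
    (_ : ∀ u : U, (u : GQ) ∈ K.fixingSubgroup → θ u = 1)
    (_ : ¬ p ∣ K.fixingSubgroup.relIndex U),
    finrank k ↥(⨅ u : U, LinearMap.ker ((sUnitsAut K S u.1 (hU u.1 u.2)).baseChange k -
        ((θ u : kˣ) : k) • 1)) + (if θ = 1 then 1 else 0) ≤
      Nat.card {x : DoubleCoset.Quotient (U : Set GQ)
          (Subgroup.zpowers complexConjugation : Set GQ) //
          TrivOn θ (Subgroup.zpowers complexConjugation) (Quotient.out x)} +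
        ∑ q ∈ S, Nat.card {x : DoubleCoset.Quotient (U : Set GQ)
          (((primeLocalPlace q).decompositionSubgroup ℚ : Subgroup GQ) : Set GQ) //
          TrivOn θ ((primeLocalPlace q).decompositionSubgroup ℚ) (Quotient.out x)} +
        (if θ = (ChiSetup.omegaK p k).comp U.subtype then 1 else 0)

end UnitBound

/-! ### The model of the unit action consumed by (χ-K) -/

section Model

variable (K : IntermediateField ℚ Qb) [NumberField K] (S : Finset Nat.Primes)

/-- The action of `g` (stabilising `K`) on Mathlib's `S`-units of `K`. -/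
def galUnitsB (g : GQ) (hg : ∀ x ∈ K, g x ∈ K) :
    Additive ↥((primesOver K S).unit ↥K) →ₗ[ℤ] Additive ↥((primesOver K S).unit ↥K) :=
  (unitLinearEquiv K S).symm.toLinearMap ∘ₗ sUnitsAut K S g hg ∘ₗ
    (unitLinearEquiv K S).toLinearMap

theorem galUnitsB_spec (g : GQ) (hg : ∀ x ∈ K, g x ∈ K)
    (u : Additive ↥((primesOver K S).unit ↥K)) :
    ((((Additive.toMul (galUnitsB K S g hg u) : ↥((primesOver K S).unit ↥K)) : (↥K)ˣ) : ↥K) : Qb)
      = g ((((Additive.toMul u : ↥((primesOver K S).unit ↥K)) : (↥K)ˣ) : ↥K) : Qb) := by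
  have h1 := unitLinearEquiv_apply K S (galUnitsB K S g hg u)
  have h2 : unitLinearEquiv K S (galUnitsB K S g hg u) =
      sUnitsAut K S g hg (unitLinearEquiv K S u) := by
    show unitLinearEquiv K S ((unitLinearEquiv K S).symm
      (sUnitsAut K S g hg (unitLinearEquiv K S u))) = _
    rw [LinearEquiv.apply_symm_apply]
  rw [← h1, h2, sUnitsAut_apply, unitLinearEquiv_apply]

theorem unitLinearEquiv_galUnitsB (g : GQ) (hg : ∀ x ∈ K, g x ∈ K)
    (u : Additive ↥((primesOver K S).unit ↥K)) :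
    unitLinearEquiv K S (galUnitsB K S g hg u) = sUnitsAut K S g hg (unitLinearEquiv K S u) := by
  show unitLinearEquiv K S ((unitLinearEquiv K S).symm
    (sUnitsAut K S g hg (unitLinearEquiv K S u))) = _
  rw [LinearEquiv.apply_symm_apply]

end Model

/-! ### Positivity -/

section Pos

variable (p : ℕ) [Fact p.Prime] (S : Finset Nat.Primes) {k : Type} [Field k]
  [Algebra (ZMod p) k] [Module.Finite (ZMod p) k]

open scoped Classical in
/-- **(POS)**: `FS(Coind_U k(ψ)) ≥ 0` for every character `ψ` of `U` trivial on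
`Gal(ℚ̄/K)`, `K` a base field stable under `U` with `Cl_S(K)[p] = 0` and `p ∤ [U : G_K]`. -/
theorem FS_coind_nonneg (hPT : PTOut p S) (hUB : UnitBound p k S)
    (K : IntermediateField ℚ Qb) [NumberField K] (hK : Base.IsBaseField p S K)
    (hCl : ∀ x ∈ Sel K (primesOver K S) p, ∃ u ∈ (primesOver K S).unit ↥K, ∃ y : (↥K)ˣ,
      x = u * y ^ p)
    (U : Subgroup GQ) (hle : K.fixingSubgroup ≤ U)
    (hnorm : U ≤ Subgroup.normalizer (K.fixingSubgroup : Set GQ))
    (hidx : ¬ p ∣ K.fixingSubgroup.relIndex U)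
    (ψ : U →* kˣ) (hψ : ∀ u : U, (u : GQ) ∈ K.fixingSubgroup → ψ u = 1)
    (hY : (datum S).IsSmooth (Representation.coind U.subtype (chiRepF (ZMod p) ψ))) :
    0 ≤ FS (datum S) complexConjugation
      (Representation.coind U.subtype (chiRepF (ZMod p) ψ)) hY := by
  have hpS : pPrime p ∈ S := hPT.hpS
  obtain ⟨ζ, hζ, hζK⟩ := KumH1.exists_primitiveRoot_mem_of_isBaseField p S hK
  have hlev : ∃ N ∈ (levS S).lev, N ≤ K.fixingSubgroup := exists_mem_levS_le hK.unram
  have hUfin : U.FiniteIndex := by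
    obtain ⟨N, hN, hNK⟩ := hlev
    have := (levS S).finiteIndex N hN
    exact Subgroup.finiteIndex_of_le (hNK.trans hle)
  have hU : ∀ u ∈ U, ∀ x ∈ K, u x ∈ K := fun u hu x hx =>
    KummerEq.apply_mem_of_mem_normalizer K u (hnorm hu) hx
  set θ : U →* kˣ := ((ChiSetup.omegaK p k).comp U.subtype) * ψ⁻¹ with hθdef
  set σ : Representation (ZMod p) U k := chiRepF (ZMod p) ψ with hσdef
  set σ' : Representation (ZMod p) U k := chiRepF (ZMod p) θ with hσ'def
  have hσ : ∀ (u : U) (x : k), σ u x = ((ψ u : kˣ) : k) * x := fun _ _ => rfl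
  have hσ' : ∀ (u : U) (x : k), σ' u x = ((θ u : kˣ) : k) * x := fun _ _ => rfl
  have hθ1 : ∀ u : U, (u : GQ) ∈ K.fixingSubgroup → θ u = 1 := by
    intro u hu
    have h1 : ChiSetup.omegaK p k (u : GQ) = 1 := (ChiSetup.omegaK_eq_one_iff p k _).mpr (hK.cyc _ hu)
    show ChiSetup.omegaK p k (u : GQ) * (ψ u)⁻¹ = 1
    rw [h1, hψ u hu, inv_one, one_mul]
  -- the upper bound for `h¹`
  have hθeq : ∀ g : U, ((θ g : kˣ) : k) =
      algebraMap (ZMod p) k (cycloChar p (g : GQ) : ZMod p) * (((ψ g)⁻¹ : kˣ) : k) :=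
    fun g => rfl
  let a : U → (Additive ↥((primesOver K S).unit ↥K) →ₗ[ℤ]
      Additive ↥((primesOver K S).unit ↥K)) := fun g => galUnitsB K S g.1 (hU g.1 g.2)
  have ha : ∀ (g : U) (u : Additive ↥((primesOver K S).unit ↥K)),
      ((((Additive.toMul (a g u) : ↥((primesOver K S).unit ↥K)) : (↥K)ˣ) : ↥K) : Qb)
        = (g : GQ) ((((Additive.toMul u : ↥((primesOver K S).unit ↥K)) : (↥K)ˣ) : ↥K) : Qb) :=
    fun g u => galUnitsB_spec K S g.1 (hU g.1 g.2) u
  obtain ⟨hfinPsi, hdimPsi⟩ := KummerPsi.finrank_psiChars_theta K S k hpS hK.unram hζ hζK hCl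
    U hnorm ψ θ hθeq a ha
  have hH1 := (ShRes.finrank_H1_coind_le (levS S) K.fixingSubgroup U hle hlev ψ hψ σ hσ hY
    (by rwa [Ne, ZMod.natCast_eq_zero_iff])).2
  have htr := finrank_iInf_ker_baseChange_congr (k := k) a
    (fun g : U => sUnitsAut K S g.1 (hU g.1 g.2)) (unitLinearEquiv K S)
    (fun g u => unitLinearEquiv_galUnitsB K S g.1 (hU g.1 g.2) u)
    (fun g : U => ((θ g : kˣ) : k))
  have hub := hUB K U hle hU θ hθ1 hidx
  -- the lower bounds
  have hfinInf : Finite (DoubleCoset.Quotient (U : Set GQ)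
      (Subgroup.zpowers complexConjugation : Set GQ)) :=
    finite_doubleCosetQuotient_of_finiteIndex U _
  have hcm : cm complexConjugation (Representation.coind U.subtype σ) =
      finrank (ZMod p) k * Nat.card {x : DoubleCoset.Quotient (U : Set GQ)
        (Subgroup.zpowers complexConjugation : Set GQ) //
        TrivOn θ (Subgroup.zpowers complexConjugation) (Quotient.out x)} :=
    finrank_ker_add_one_coind complexConjugation (ChiSetup.omegaK p k)
      (ChiSetup.omegaK_complexConjugation p k)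
      σ ψ hσ
  have hH0 : finrank (ZMod p) ((datum S).H (Representation.coind U.subtype σ) hY 0) =
      if ψ = 1 then finrank (ZMod p) k else 0 := finrank_H_zero_coind (datum S) σ ψ hσ hY
  have hY' : (datum S).IsSmooth (Representation.coind U.subtype σ') :=
    isSmooth_coind_of_trivial (datum S) U K.fixingSubgroup hlev hle σ' (fun u hu => by
      refine LinearMap.ext fun x => ?_
      rw [hσ', hθ1 u hu, Units.val_one, one_mul]
      rfl)
  have hθψ : ∀ u : U, ((θ u : kˣ) : k) * ((ψ u : kˣ) : k) =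
      algebraMap (ZMod p) k (cycloChar p (u : GQ)) := by
    intro u
    rw [hθeq u, mul_assoc, ← Units.val_mul, inv_mul_cancel, Units.val_one, mul_one]
  obtain ⟨e, he⟩ := CoindDual.exists_dualTw_coind_equiv U (cycloChar p) ψ θ hθψ σ σ' hσ hσ'
  have hfinV : Module.Finite (ZMod p) (Representation.coindV U.subtype σ) :=
    CoindDual.finite_coindV U σ
  have hdual := DualCount.sum_finrank_Hv_zero_le_of_equiv (datum S) hPT.engine.count
    (Representation.coind U.subtype σ) (Representation.coind U.subtype σ') hY hY' e he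
  have hH0' : finrank (ZMod p) ((datum S).H (Representation.coind U.subtype σ') hY' 0) =
      if θ = 1 then finrank (ZMod p) k else 0 := finrank_H_zero_coind (datum S) σ' θ hσ' hY'
  have hHv : ∀ v : (datum S).ι,
      finrank (ZMod p) ((datum S).Hv (Representation.coind U.subtype σ') hY' v 0) =
        finrank (ZMod p) k * Nat.card {x : DoubleCoset.Quotient (U : Set GQ)
          (((primeLocalPlace v.1).decompositionSubgroup ℚ : Subgroup GQ) : Set GQ) //
          TrivOn θ ((primeLocalPlace v.1).decompositionSubgroup ℚ) (Quotient.out x)} :=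
    fun v =>
      haveI := finite_doubleCosetQuotient_of_finiteIndex U ((datum S).D v)
      finrank_Hv_zero_coind (datum S) σ' θ hσ' hY' v
  have hθω : θ = (ChiSetup.omegaK p k).comp U.subtype ↔ ψ = 1 := by
    constructor
    · intro h
      refine MonoidHom.ext fun u => ?_
      have h2 : ChiSetup.omegaK p k (u : GQ) * (ψ u)⁻¹ = ChiSetup.omegaK p k (u : GQ) :=
        congrArg (fun f : U →* kˣ => f u) h
      have h3 : (ψ u)⁻¹ = 1 := mul_left_cancel (a := ChiSetup.omegaK p k (u : GQ))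
        (by rw [h2, mul_one])
      exact inv_eq_one.mp h3
    · intro h
      refine MonoidHom.ext fun u => ?_
      show ChiSetup.omegaK p k (u : GQ) * (ψ u)⁻¹ = ChiSetup.omegaK p k (u : GQ)
      rw [h, MonoidHom.one_apply, inv_one, mul_one]
  -- arithmetic
  have hsum : ∑ v : (datum S).ι,
      finrank (ZMod p) ((datum S).Hv (Representation.coind U.subtype σ') hY' v 0) =
      finrank (ZMod p) k * ∑ q ∈ S, Nat.card {x : DoubleCoset.Quotient (U : Set GQ)
          (((primeLocalPlace q).decompositionSubgroup ℚ : Subgroup GQ) : Set GQ) //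
          TrivOn θ ((primeLocalPlace q).decompositionSubgroup ℚ) (Quotient.out x)} := by
    rw [Finset.sum_congr rfl (fun v _ => hHv v), ← Finset.mul_sum]
    congr 1
    exact Finset.sum_coe_sort S (fun q => Nat.card {x : DoubleCoset.Quotient (U : Set GQ)
          (((primeLocalPlace q).decompositionSubgroup ℚ : Subgroup GQ) : Set GQ) //
          TrivOn θ ((primeLocalPlace q).decompositionSubgroup ℚ) (Quotient.out x)})
  have F1 : finrank (ZMod p) (((datum S).C (Representation.coind U.subtype σ) hY).H 1) ≤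
      finrank (ZMod p) k * finrank k ↥(⨅ u : U, LinearMap.ker
        ((sUnitsAut K S u.1 (hU u.1 u.2)).baseChange k - ((θ u : kˣ) : k) • 1)) := by
    rw [← htr, ← hdimPsi]
    exact hH1
  have F6 : finrank (ZMod p) (((datum S).C (Representation.coind U.subtype σ) hY).H 0) =
      if ψ = 1 then finrank (ZMod p) k else 0 := hH0
  have F7 : finrank (ZMod p) k * ∑ q ∈ S, Nat.card {x : DoubleCoset.Quotient (U : Set GQ)
          (((primeLocalPlace q).decompositionSubgroup ℚ : Subgroup GQ) : Set GQ) //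
          TrivOn θ ((primeLocalPlace q).decompositionSubgroup ℚ) (Quotient.out x)} ≤
      finrank (ZMod p) (((datum S).C (Representation.coind U.subtype σ) hY).H 2) +
        (if θ = 1 then finrank (ZMod p) k else 0) := by
    rw [← hsum, ← hH0']
    exact hdual
  have F4 := Nat.mul_le_mul_left (finrank (ZMod p) k) hub
  rw [Nat.mul_add, Nat.mul_add, Nat.mul_add] at F4
  have e1 : finrank (ZMod p) k * (if θ = 1 then 1 else 0) =
      if θ = 1 then finrank (ZMod p) k else 0 := by
    split_ifs <;> simp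
  have e2 : finrank (ZMod p) k *
      (if θ = (ChiSetup.omegaK p k).comp U.subtype then 1 else 0) =
      if ψ = 1 then finrank (ZMod p) k else 0 := by
    by_cases hψ1 : ψ = 1
    · rw [if_pos (hθω.mpr hψ1), if_pos hψ1, mul_one]
    · rw [if_neg (fun h => hψ1 (hθω.mp h)), if_neg hψ1, mul_zero]
  rw [e1, e2] at F4
  unfold FS
  rw [Cx.chi_two, hcm]
  generalize finrank (ZMod p) (((datum S).C (Representation.coind U.subtype σ) hY).H 0) = h0
    at F6 ⊢
  generalize finrank (ZMod p) (((datum S).C (Representation.coind U.subtype σ) hY).H 1) = h1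
    at F1 ⊢
  generalize finrank (ZMod p) (((datum S).C (Representation.coind U.subtype σ) hY).H 2) = h2
    at F7 ⊢
  generalize (if θ = 1 then finrank (ZMod p) k else 0) = t1 at F4 F7
  generalize (if ψ = 1 then finrank (ZMod p) k else 0) = tω at F4 F6
  generalize finrank (ZMod p) k * finrank k ↥(⨅ u : U, LinearMap.ker
        ((sUnitsAut K S u.1 (hU u.1 u.2)).baseChange k - ((θ u : kˣ) : k) • 1)) = A at F1 F4
  generalize finrank (ZMod p) k * ∑ q ∈ S, Nat.card {x : DoubleCoset.Quotient (U : Set GQ)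
          (((primeLocalPlace q).decompositionSubgroup ℚ : Subgroup GQ) : Set GQ) //
          TrivOn θ ((primeLocalPlace q).decompositionSubgroup ℚ) (Quotient.out x)} = B at F4 F7
  generalize finrank (ZMod p) k * Nat.card {x : DoubleCoset.Quotient (U : Set GQ)
        (Subgroup.zpowers complexConjugation : Set GQ) //
        TrivOn θ (Subgroup.zpowers complexConjugation) (Quotient.out x)} = C at F4 ⊢
  omega

end Pos

/-! ### (EC-CHI) from the `S`-unit count -/

section Final

variable (p : ℕ) [Fact p.Prime] {k : Type} [Field k] [Algebra (ZMod p) k]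

/-- `ω(c) = -1 ≠ 1` for `p` odd. -/
theorem cycloChar_complexConjugation_ne_one (hp2 : p ≠ 2) :
    cycloChar p complexConjugation ≠ 1 := by
  rw [ChiSetup.cycloChar_complexConjugation]
  intro h1
  have h2 : ((-1 : (ZMod p)ˣ) : ZMod p) = ((1 : (ZMod p)ˣ) : ZMod p) := by rw [h1]
  rw [Units.val_neg, Units.val_one] at h2
  have h3 : ((2 : ℕ) : ZMod p) = 0 := by
    push_cast
    linear_combination -h2
  rw [ZMod.natCast_eq_zero_iff] at h3
  exact hp2 ((Nat.prime_dvd_prime_iff_eq (Fact.out : p.Prime) Nat.prime_two).mp h3)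

/-- **(EC-CHI), wrapper over `S ⊇ T`**, from the equivariant `S`-unit count (χ-U): the
hypothesis of `exists_finset_ec_of_chi`. -/
theorem chiStatement_of_unitBound [Finite k] (rb : GQ →* Mat2 k) (hp2 : p ≠ 2)
    (h : ResidualHyp rb p) (hUB : ∀ S : Finset Nat.Primes, UnitBound p k S) :
    ∃ T : Finset Nat.Primes, ∀ S : Finset Nat.Primes, T ⊆ S →
      (∀ q : Nat.Primes, q ∉ S → ∀ P : ValuationSubring Qb, P.LiesOverPrime (q : ℕ) →
        ∀ σ ∈ P.inertiaSubgroupIn ℚ, rb σ = 1) →
      PTOut p S → CHIStatement (datum S) complexConjugation rb.ker (ZMod p) k := by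
  have hfl : FiniteLevel rb := h.finiteLevel'
  have hfdL := ChiSetup.finiteDimensional_fixedField_ker hfl
  obtain ⟨T, hT⟩ := ClassKill.exists_classKill_all (IntermediateField.fixedField rb.ker)
  refine ⟨T, fun S hTS hunr hPT U hNU _ ψ hψ hY => ?_⟩
  have hfin : Module.Finite (ZMod p) k := Module.Finite.of_finite
  have hcharP : CharP k p := charP_of_injective_algebraMap (algebraMap (ZMod p) k).injective p
  obtain ⟨K₁, hK₁le, hK₁, hK₁fix⟩ := ChiSetup.exists_chiSetup p S h hunr U hNU ψ hψ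
  have hnf : NumberField K₁ := KumH1.numberField_of_isBaseField p S hK₁
  have hCl := (hT S hTS K₁ hK₁le).2.2.1 p (Fact.out : p.Prime).ne_zero
  have hle : K₁.fixingSubgroup ≤ U := by
    rw [hK₁fix]
    exact CharKer.kerSub_le
  have hnorm : U ≤ Subgroup.normalizer (K₁.fixingSubgroup : Set GQ) := by
    intro g hg
    rw [Subgroup.mem_normalizer_iff]
    intro x
    rw [hK₁fix]
    constructor
    · exact fun hx => CharKer.conj_mem_kerSub hg hx
    · intro hx
      have h1 := CharKer.conj_mem_kerSub' hg hx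
      have h2 : g⁻¹ * (g * x * g⁻¹) * g = x := by group
      rwa [h2] at h1
  have hker : rb.ker ≤ CharKer.kerSub U ψ ((ChiSetup.omegaK p k).comp U.subtype) :=
    ChiSetup.ker_le_kerSub p h U hNU ψ hψ
  obtain ⟨N, hN, hNker⟩ := exists_mem_levS_le
    (ChiSetup.isUnramifiedOutside_fixedField_ker hfl S hunr)
  rw [ChiSetup.fixingSubgroup_fixedField_ker hfl] at hNker
  have hNfin : N.FiniteIndex := (levS S).finiteIndex N hN
  have hrel0 : (CharKer.kerSub U ψ ((ChiSetup.omegaK p k).comp U.subtype)).relIndex U ≠ 0 :=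
    CharKer.relIndex_kerSub_ne_zero N (hNker.trans hker)
  have hidx : ¬ p ∣ K₁.fixingSubgroup.relIndex U := by
    rw [hK₁fix]
    exact CharKer.not_dvd_relIndex_kerSub p hrel0
  have hk : ((K₁.fixingSubgroup.relIndex U : ℕ) : k) ≠ 0 := by
    rwa [Ne, CharP.cast_eq_zero_iff k p]
  have hsub : ∀ ψ' : U →* kˣ,
      (∀ v : U, (v : GQ) ∈ CharKer.kerSub U ψ ((ChiSetup.omegaK p k).comp U.subtype) →
        ψ' v = 1) → K₁.fixingSubgroup.subgroupOf U ≤ ψ'.ker := by
    intro ψ' h' v hv
    rw [Subgroup.mem_subgroupOf, hK₁fix] at hv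
    exact MonoidHom.mem_ker.mpr (h' v hv)
  have hsep : ∀ u : U, (∀ ψ' : U →* kˣ, K₁.fixingSubgroup.subgroupOf U ≤ ψ'.ker → ψ' u = 1) →
      (u : GQ) ∈ K₁.fixingSubgroup := by
    intro u hu
    rw [hK₁fix, CharKer.mem_kerSub_iff]
    exact ⟨hu ψ (hsub ψ fun v hv => ((CharKer.mem_kerSub_iff v).mp hv).1),
      hu _ (hsub _ fun v hv => ((CharKer.mem_kerSub_iff v).mp hv).2)⟩
  have hψ0 : K₁.fixingSubgroup.subgroupOf U ≤ ψ.ker :=
    hsub ψ fun v hv => ((CharKer.mem_kerSub_iff v).mp hv).1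
  have hpos : ∀ ψ' : U →* kˣ, K₁.fixingSubgroup.subgroupOf U ≤ ψ'.ker →
      ∀ hY' : (datum S).IsSmooth (Representation.coind U.subtype (chiRepF (ZMod p) ψ')),
        0 ≤ FS (datum S) complexConjugation
          (Representation.coind U.subtype (chiRepF (ZMod p) ψ')) hY' := by
    intro ψ' hψ' hY'
    exact FS_coind_nonneg p S hPT (hUB S) K₁ hK₁ hCl U hle hnorm hidx ψ'
      (fun u hu => MonoidHom.mem_ker.mp (hψ' (Subgroup.mem_subgroupOf.mpr hu))) hY'
  exact CharSum.FS_coind_chi_eq_zero_of_PTOut p S hp2 hPT K₁ hK₁ U hle hk hsep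
    complexConjugation complexConjugation_mul_self
    (cycloChar_complexConjugation_ne_one p hp2) hpos ψ hψ0 hY

/-- **(EC) for `ad⁰(1)`** from the equivariant `S`-unit count (χ-U) alone: the literal
conclusion of `exists_finset_ec_of_chi`. -/
theorem exists_finset_ec_of_unitBound [Finite k] (rb : GQ →* Mat2 k) (hp2 : p ≠ 2)
    (h : ResidualHyp rb p) (hUB : ∀ S : Finset Nat.Primes, UnitBound p k S) :
    ∃ T₀ : Finset Nat.Primes, ∀ S : Finset Nat.Primes, T₀ ⊆ S →
      ∀ (hunr : ∀ q : Nat.Primes, q ∉ S → ∀ P : ValuationSubring Qb, P.LiesOverPrime (q : ℕ) →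
        ∀ σ ∈ P.inertiaSubgroupIn ℚ, rb σ = 1),
      PTOut p S →
      finrank (ZMod p) ((datum S).H (GW.adRep p rb (detChar rb))
          (GW.isSmooth_adRep_det p S h.finiteLevel' hunr) 2) + finrank (ZMod p) k ≤
        finrank (ZMod p) ((datum S).H (GW.adRep p rb (detChar rb))
          (GW.isSmooth_adRep_det p S h.finiteLevel' hunr) 1) :=
  exists_finset_ec_of_chi p rb hp2 h (chiStatement_of_unitBound p rb hp2 h hUB)

end Final

end

end Fermat.Agent.TW.EC.ChiAsmB
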