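import Mathlib
import Fermat.Agent.TW.EC.SUnitQb

/-!
# TW (EC), (χ-U): descent of the joint eigenspace from `K` to `K_θ`

`U ≤ G_ℚ` stabilises the number field `K ⊆ ℚ̄`, `θ : U →* kˣ` is trivial on `G_K`, and
`[ker θ : G_K]` is invertible in `k`.  With `K_θ := K ∩ ℚ̄^{ker θ}` (`kTheta K U θ`):

* `finrank_jointEigen_kTheta` : the joint `θ`-eigenspace of `U` on `k ⊗ E_{K,S}` has the same
  dimension as the joint `θ`-eigenspace of `U` on `k ⊗ E_{K_θ,S}` (norm argument);
* `jointEigen_kTheta_eq_ker` : on `K_θ` the joint eigenspace is the eigenspace of a single `σ ∈ U`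
  whose `θ`-value generates the image of `θ`;
* `exists_gen` : such a `σ` exists.

The abstract norm argument is `finrank_iInf_ker_descent` (Mathlib only).
-/

set_option autoImplicit false
set_option linter.style.haveILetI false

namespace Fermat.Agent.TW.EC.UnitDescent

open TensorProduct Module

section Abstract

variable {k : Type*} [Field k] {E E' : Type*} [AddCommGroup E] [AddCommGroup E']

/-- Base change of a composite, applied. -/
theorem baseChange_comp_apply' {M₁ M₂ M₃ : Type*} [AddCommGroup M₁] [AddCommGroup M₂]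
    [AddCommGroup M₃] (f : M₁ →ₗ[ℤ] M₂) (g : M₂ →ₗ[ℤ] M₃) (x : k ⊗[ℤ] M₁) :
    g.baseChange k (f.baseChange k x) = (g ∘ₗ f).baseChange k x := by
  rw [LinearMap.baseChange_comp]
  rfl

theorem mem_ker_sub_smul_iff' {V : Type*} [AddCommGroup V] [Module k V] (T : V →ₗ[k] V) (ζ : k)
    (v : V) : v ∈ LinearMap.ker (T - ζ • (1 : Module.End k V)) ↔ T v = ζ • v := by
  rw [LinearMap.mem_ker, LinearMap.sub_apply, LinearMap.smul_apply, Module.End.one_apply,
    sub_eq_zero]

/-- **Norm descent.**  `ι : E' → E` injective, `(h i)_{i ∈ I}` a finite family of endomorphisms of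
`E` fixing `ι E'` pointwise, whose sum ("the norm") has image in `ι E'`, with `#I` invertible in
`k`.  If every `h i` occurs in the family `a` with eigenvalue `1`, then the joint eigenspaces of
the compatible families `a'` on `k ⊗ E'` and `a` on `k ⊗ E` have the same dimension. -/
theorem finrank_iInf_ker_descent {I : Type*} [Fintype I] (hI : ((Fintype.card I : ℕ) : k) ≠ 0)
    (ι : E' →ₗ[ℤ] E) (hιinj : Function.Injective ι) (h : I → (E →ₗ[ℤ] E))
    (hfix : ∀ i y, h i (ι y) = ι y)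
    (hN : ∀ x, ∑ i, h i x ∈ LinearMap.range ι)
    {J : Type*} (a : J → (E →ₗ[ℤ] E)) (a' : J → (E' →ₗ[ℤ] E')) (θ : J → k)
    (hcomm : ∀ j y, ι (a' j y) = a j (ι y))
    (hJ : ∀ i, ∃ j, a j = h i ∧ θ j = 1) :
    finrank k ↥(⨅ j, LinearMap.ker ((a' j).baseChange k - θ j • (1 : Module.End k (k ⊗[ℤ] E')))) =
      finrank k ↥(⨅ j, LinearMap.ker ((a j).baseChange k - θ j • (1 : Module.End k (k ⊗[ℤ] E)))) := by
  classical
  -- the norm as a map `E → E'`
  let e := LinearEquiv.ofInjective ι hιinj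
  let ν : E →ₗ[ℤ] E' := (e.symm : LinearMap.range ι →ₗ[ℤ] E') ∘ₗ
    LinearMap.codRestrict (LinearMap.range ι) (∑ i, h i) (fun x => by
      rw [LinearMap.sum_apply]; exact hN x)
  have hν : ∀ x, ι (ν x) = ∑ i, h i x := by
    intro x
    have h1 : ι (ν x) = ((e (ν x) : LinearMap.range ι) : E) := rfl
    rw [h1]
    show ((e (e.symm _) : LinearMap.range ι) : E) = _
    rw [LinearEquiv.apply_symm_apply]
    show (∑ i, h i) x = _
    rw [LinearMap.sum_apply]
  have hνι : ∀ y, ν (ι y) = (Fintype.card I : ℤ) • y := by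
    intro y
    apply hιinj
    rw [hν, map_zsmul, Finset.sum_congr rfl (fun i _ => hfix i y), Finset.sum_const,
      Finset.card_univ, natCast_zsmul]
  set P := ι.baseChange k with hP
  set Nk := ν.baseChange k with hNk
  have hNP : ∀ z, Nk (P z) = ((Fintype.card I : ℕ) : k) • z := by
    intro z
    induction z using TensorProduct.induction_on with
    | zero => simp only [map_zero, smul_zero]
    | tmul c y =>
      rw [hP, hNk, LinearMap.baseChange_tmul, LinearMap.baseChange_tmul, hνι,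
        TensorProduct.tmul_smul, natCast_zsmul, Nat.cast_smul_eq_nsmul]
    | add x y hx hy => rw [map_add, map_add, hx, hy, smul_add]
  have hPN : ∀ x, P (Nk x) = ∑ i, (h i).baseChange k x := by
    intro x
    rw [hP, hNk, baseChange_comp_apply']
    have h1 : ι ∘ₗ ν = ∑ i, h i := by
      refine LinearMap.ext fun x => ?_
      rw [LinearMap.comp_apply, hν, LinearMap.sum_apply]
    rw [h1]
    have h2 : (∑ i, h i).baseChange k = ∑ i, (h i).baseChange k :=
      map_sum (LinearMap.baseChangeHom ℤ k E E) _ _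
    rw [h2, LinearMap.sum_apply]
  have hPinj : Function.Injective P := by
    intro z₁ z₂ hz
    have h1 := hNP z₁
    rw [hz, hNP z₂] at h1
    exact smul_right_injective _ hI h1.symm
  have hPa : ∀ j z, P ((a' j).baseChange k z) = (a j).baseChange k (P z) := by
    intro j z
    rw [hP, baseChange_comp_apply', baseChange_comp_apply']
    congr 2
    exact LinearMap.ext fun y => hcomm j y
  have hmap : (⨅ j, LinearMap.ker ((a' j).baseChange k - θ j • (1 : Module.End k (k ⊗[ℤ] E')))).map P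
      = ⨅ j, LinearMap.ker ((a j).baseChange k - θ j • (1 : Module.End k (k ⊗[ℤ] E))) := by
    apply le_antisymm
    · intro x hx
      obtain ⟨z, hz, rfl⟩ := Submodule.mem_map.mp hx
      rw [Submodule.mem_iInf] at hz ⊢
      intro j
      have hzj := (mem_ker_sub_smul_iff' _ _ _).mp (hz j)
      rw [mem_ker_sub_smul_iff', ← hPa, hzj, map_smul]
    · intro x hx
      rw [Submodule.mem_iInf] at hx
      have hxj : ∀ j, (a j).baseChange k x = θ j • x := fun j =>
        (mem_ker_sub_smul_iff' _ _ _).mp (hx j)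
      have hxi : ∀ i, (h i).baseChange k x = x := by
        intro i
        obtain ⟨j, hj, hj1⟩ := hJ i
        rw [← hj, hxj j, hj1, one_smul]
      have hx1 : P (Nk x) = ((Fintype.card I : ℕ) : k) • x := by
        rw [hPN, Finset.sum_congr rfl (fun i _ => hxi i), Finset.sum_const, Finset.card_univ,
          Nat.cast_smul_eq_nsmul]
      set z := (((Fintype.card I : ℕ) : k))⁻¹ • Nk x with hz
      have hPz : P z = x := by
        rw [hz, map_smul, hx1, smul_smul, inv_mul_cancel₀ hI, one_smul]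
      refine Submodule.mem_map.mpr ⟨z, ?_, hPz⟩
      rw [Submodule.mem_iInf]
      intro j
      rw [mem_ker_sub_smul_iff']
      apply hPinj
      rw [hPa, hPz, hxj j, map_smul, hPz]
  rw [← hmap]
  exact (Submodule.equivMapOfInjective P hPinj _).finrank_eq

/-- Powers of an endomorphism on an eigenvector. -/
theorem pow_apply_of_eigen {V : Type*} [AddCommGroup V] [Module k V] (T : Module.End k V) {ζ : k}
    {v : V} (hv : T v = ζ • v) (n : ℕ) : (T ^ n) v = ζ ^ n • v := by
  induction n with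
  | zero => rw [pow_zero, pow_zero, Module.End.one_apply, one_smul]
  | succ n ih => rw [pow_succ, Module.End.mul_apply, hv, map_smul, ih, smul_smul, pow_succ, mul_comm]

end Abstract

section Concrete

local notation "Qb" => AlgebraicClosure ℚ
local notation "GQ" => (AlgebraicClosure ℚ ≃ₐ[ℚ] AlgebraicClosure ℚ)

variable {k : Type*} [Field k] (K : IntermediateField ℚ Qb) (S : Finset Nat.Primes)
  (U : Subgroup GQ) (θ : U →* kˣ)

/-- `K_θ`: the subfield of `K` fixed by `ker θ`. -/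
noncomputable def kTheta : IntermediateField ℚ Qb := K ⊓ IntermediateField.fixedField (θ.ker.map U.subtype)

variable {K U θ} in
theorem mem_kTheta_iff {x : Qb} :
    x ∈ kTheta K U θ ↔ x ∈ K ∧ ∀ u : U, θ u = 1 → (u : GQ) x = x := by
  unfold kTheta
  rw [IntermediateField.mem_inf, IntermediateField.mem_fixedField_iff]
  constructor
  · rintro ⟨h1, h2⟩
    exact ⟨h1, fun u hu => h2 _ ⟨u, MonoidHom.mem_ker.mpr hu, rfl⟩⟩
  · rintro ⟨h1, h2⟩
    refine ⟨h1, ?_⟩
    rintro _ ⟨u, hu, rfl⟩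
    exact h2 u (MonoidHom.mem_ker.mp hu)

theorem kTheta_le : kTheta K U θ ≤ K := inf_le_left

/-- `ker θ` fixes `K_θ` pointwise. -/
theorem ker_le_fixingSubgroup_kTheta :
    θ.ker.map U.subtype ≤ (kTheta K U θ).fixingSubgroup :=
  (IntermediateField.le_iff_le _ _).mp inf_le_right

variable {K U} in
/-- `U` stabilises `K_θ`. -/
theorem kTheta_stable (hU : ∀ u ∈ U, ∀ x ∈ K, u x ∈ K) :
    ∀ u ∈ U, ∀ x ∈ kTheta K U θ, u x ∈ kTheta K U θ := by
  intro u hu x hx
  rw [mem_kTheta_iff] at hx ⊢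
  refine ⟨hU u hu x hx.1, fun w hw => ?_⟩
  have h1 : θ ((⟨u, hu⟩ : U)⁻¹ * w * ⟨u, hu⟩) = 1 := by
    rw [map_mul, map_mul, hw, mul_one, ← map_mul, inv_mul_cancel, map_one]
  have h2 := hx.2 _ h1
  have h3 : ((((⟨u, hu⟩ : U)⁻¹ * w * ⟨u, hu⟩ : U) : GQ)) = u⁻¹ * (w : GQ) * u := rfl
  rw [h3, AlgEquiv.mul_apply, AlgEquiv.mul_apply] at h2
  have h4 := congrArg u h2
  rw [AlgEquiv.aut_inv, AlgEquiv.apply_symm_apply] at h4
  exact h4

instance numberField_kTheta [NumberField K] : NumberField (kTheta K U θ) :=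
  haveI : FiniteDimensional ℚ (kTheta K U θ) :=
    FiniteDimensional.of_injective (IntermediateField.inclusion (kTheta_le K U θ)).toLinearMap
      (IntermediateField.inclusion_injective (kTheta_le K U θ))
  NumberField.mk

variable {K} in
/-- `sUnitsAut` only depends on the restriction to `K`. -/
theorem sUnitsAut_congr (σ τ : GQ) (hσ : ∀ x ∈ K, σ x ∈ K) (hτ : ∀ x ∈ K, τ x ∈ K)
    (h : ∀ x ∈ K, σ x = τ x) : sUnitsAut K S σ hσ = sUnitsAut K S τ hτ := by
  refine LinearMap.ext fun x => sUnits_ext ?_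
  rw [sUnitsAut_apply, sUnitsAut_apply]
  exact h _ (Additive.toMul x).2.1

/-- **(D1) Descent to `K_θ`.**  The joint `θ`-eigenspace of `U` on `k ⊗ E_{K,S}` and on
`k ⊗ E_{K_θ,S}` have the same dimension, when `[ker θ : G_K]` is invertible in `k`. -/
theorem finrank_jointEigen_kTheta_of_card (hU : ∀ u ∈ U, ∀ x ∈ K, u x ∈ K)
    (hcard : ((K.fixingSubgroup.relIndex (θ.ker.map U.subtype) : ℕ) : k) ≠ 0) :
    finrank k ↥(⨅ u : U, LinearMap.ker ((sUnitsAut K S u.1 (hU u.1 u.2)).baseChange k -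
        (θ u : k) • (1 : Module.End k (k ⊗[ℤ] Additive (sUnits K S))))) =
      finrank k ↥(⨅ u : U, LinearMap.ker
        ((sUnitsAut (kTheta K U θ) S u.1 (kTheta_stable θ hU u.1 u.2)).baseChange k -
          (θ u : k) • (1 : Module.End k (k ⊗[ℤ] Additive (sUnits (kTheta K U θ) S))))) := by
  classical
  set H : Subgroup GQ := θ.ker.map U.subtype with hH
  set N' : Subgroup H := K.fixingSubgroup.subgroupOf H with hN'
  have hidx : N'.index ≠ 0 := by
    intro h0
    apply hcard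
    have : K.fixingSubgroup.relIndex H = N'.index := rfl
    rw [this, h0, Nat.cast_zero]
  haveI : N'.FiniteIndex := ⟨hidx⟩
  haveI : Fintype (H ⧸ N') := Subgroup.fintypeQuotientOfFiniteIndex
  have hHU : ∀ g ∈ H, g ∈ U := by
    rintro _ ⟨u, -, rfl⟩
    exact u.2
  have hHθ : ∀ g : H, ∃ u : U, θ u = 1 ∧ (u : GQ) = g := by
    rintro ⟨_, u, hu, rfl⟩
    exact ⟨u, MonoidHom.mem_ker.mp hu, rfl⟩
  have hHstab : ∀ g : H, ∀ x ∈ K, (g : GQ) x ∈ K := fun g => hU g (hHU g g.2)
  let h : (H ⧸ N') → (Additive (sUnits K S) →ₗ[ℤ] Additive (sUnits K S)) :=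
    fun q => sUnitsAut K S (q.out : GQ) (hHstab q.out)
  -- `sUnitsAut g` only depends on the class of `g`
  have hA : ∀ g : H, sUnitsAut K S (g : GQ) (hHstab g) = h (QuotientGroup.mk g) := by
    intro g
    obtain ⟨n, hn⟩ := QuotientGroup.mk_out_eq_mul N' g
    apply sUnitsAut_congr
    intro x hx
    have h1 : (((QuotientGroup.mk g : H ⧸ N').out : H) : GQ) = (g : GQ) * ((n : H) : GQ) := by
      rw [hn]; rfl
    rw [h1, AlgEquiv.mul_apply]
    have h2 : ((n : H) : GQ) ∈ K.fixingSubgroup := Subgroup.mem_subgroupOf.mp n.2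
    rw [(IntermediateField.mem_fixingSubgroup_iff _ _).mp h2 x hx]
  have hcardI : Fintype.card (H ⧸ N') = K.fixingSubgroup.relIndex H := by
    rw [← Nat.card_eq_fintype_card, ← Subgroup.index_eq_card]
    rfl
  refine (finrank_iInf_ker_descent (I := H ⧸ N') (by rw [hcardI]; exact hcard)
    (sUnitsIncl (kTheta_le K U θ) S) (sUnitsIncl_injective _ S) h ?_ ?_
    (fun u : U => sUnitsAut K S u.1 (hU u.1 u.2))
    (fun u : U => sUnitsAut (kTheta K U θ) S u.1 (kTheta_stable θ hU u.1 u.2))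
    (fun u => (θ u : k)) ?_ ?_).symm
  · -- the `h q` fix the units of `K_θ`
    intro q y
    apply sUnits_ext
    rw [sUnitsAut_apply, sUnitsIncl_apply]
    obtain ⟨u, hu1, hu⟩ := hHθ q.out
    rw [← hu]
    exact (mem_kTheta_iff.mp (Additive.toMul y).2.1).2 u hu1
  · -- the norm lands in the units of `K_θ`
    intro x
    rw [mem_range_sUnitsIncl_iff, mem_kTheta_iff]
    refine ⟨(Additive.toMul (∑ q, h q x)).2.1, fun u hu => ?_⟩
    have huH : (u : GQ) ∈ H := ⟨u, MonoidHom.mem_ker.mpr hu, rfl⟩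
    set g : H := ⟨(u : GQ), huH⟩ with hg
    have h1 : sUnitsAut K S (g : GQ) (hHstab g) (∑ q, h q x) = ∑ q, h q x := by
      rw [map_sum]
      have h2 : ∀ q : H ⧸ N', sUnitsAut K S (g : GQ) (hHstab g) (h q x) = h (g • q) x := by
        intro q
        have h3 : g • q = QuotientGroup.mk (g * q.out) := by
          conv_lhs => rw [← QuotientGroup.out_eq' q]
          rfl
        rw [h3, ← hA]
        have h4 := sUnitsAut_mul K S (g : GQ) (q.out : GQ) (hHstab g) (hHstab q.out)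
          (hHstab (g * q.out))
        have h5 : sUnitsAut K S ((g * q.out : H) : GQ) (hHstab (g * q.out)) =
            sUnitsAut K S (g : GQ) (hHstab g) ∘ₗ sUnitsAut K S (q.out : GQ) (hHstab q.out) := h4
        rw [h5]
        rfl
      rw [Finset.sum_congr rfl (fun q _ => h2 q)]
      exact Equiv.sum_comp (MulAction.toPerm g) (fun q => h q x)
    have h6 := congrArg (fun y : Additive (sUnits K S) =>
      (((Additive.toMul y : sUnits K S) : Qbˣ) : Qb)) h1
    simp only [sUnitsAut_apply] at h6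
    exact h6
  · intro u y
    apply sUnits_ext
    rfl
  · intro q
    obtain ⟨u, hu1, hu⟩ := hHθ q.out
    refine ⟨u, ?_, by rw [hu1, Units.val_one]⟩
    show sUnitsAut K S u.1 (hU u.1 u.2) = sUnitsAut K S (q.out : GQ) (hHstab q.out)
    exact sUnitsAut_congr S _ _ _ _ (fun x _ => by rw [hu])

variable {K U θ} in
theorem fixingSubgroup_le_ker (hKU : K.fixingSubgroup ≤ U)
    (hθ : ∀ u : U, (u : GQ) ∈ K.fixingSubgroup → θ u = 1) :
    K.fixingSubgroup ≤ θ.ker.map U.subtype := fun g hg =>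
  ⟨⟨g, hKU hg⟩, MonoidHom.mem_ker.mpr (hθ ⟨g, hKU hg⟩ hg), rfl⟩

theorem ker_map_le : θ.ker.map U.subtype ≤ U := by
  rintro _ ⟨u, -, rfl⟩
  exact u.2

/-- **(D1)**, characteristic `p` form: `p ∤ [U : G_K]`. -/
theorem finrank_jointEigen_kTheta (p : ℕ) [Fact p.Prime] [Algebra (ZMod p) k]
    (hKU : K.fixingSubgroup ≤ U) (hU : ∀ u ∈ U, ∀ x ∈ K, u x ∈ K)
    (hθ : ∀ u : U, (u : GQ) ∈ K.fixingSubgroup → θ u = 1)
    (hpU : ¬ p ∣ K.fixingSubgroup.relIndex U) :
    finrank k ↥(⨅ u : U, LinearMap.ker ((sUnitsAut K S u.1 (hU u.1 u.2)).baseChange k -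
        (θ u : k) • (1 : Module.End k (k ⊗[ℤ] Additive (sUnits K S))))) =
      finrank k ↥(⨅ u : U, LinearMap.ker
        ((sUnitsAut (kTheta K U θ) S u.1 (kTheta_stable θ hU u.1 u.2)).baseChange k -
          (θ u : k) • (1 : Module.End k (k ⊗[ℤ] Additive (sUnits (kTheta K U θ) S))))) := by
  refine finrank_jointEigen_kTheta_of_card K S U θ hU ?_
  haveI : CharP k p := charP_of_injective_algebraMap (algebraMap (ZMod p) k).injective p
  rw [Ne, CharP.cast_eq_zero_iff k p]
  intro hdvd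
  apply hpU
  rw [← Subgroup.relIndex_mul_relIndex _ _ _ (fixingSubgroup_le_ker hKU hθ) (ker_map_le U θ)]
  exact Dvd.dvd.mul_right hdvd _

/-- **(D2)** On `K_θ`, the joint eigenspace is the eigenspace of one `σ` whose `θ`-value generates
the image of `θ`. -/
theorem jointEigen_kTheta_eq_ker (hU : ∀ u ∈ U, ∀ x ∈ K, u x ∈ K) (σ : U)
    (hgen : ∀ u : U, ∃ n : ℕ, θ u = θ σ ^ n) :
    (⨅ u : U, LinearMap.ker
        ((sUnitsAut (kTheta K U θ) S u.1 (kTheta_stable θ hU u.1 u.2)).baseChange k -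
          (θ u : k) • (1 : Module.End k (k ⊗[ℤ] Additive (sUnits (kTheta K U θ) S))))) =
      LinearMap.ker
        ((sUnitsAut (kTheta K U θ) S σ.1 (kTheta_stable θ hU σ.1 σ.2)).baseChange k -
          (θ σ : k) • (1 : Module.End k (k ⊗[ℤ] Additive (sUnits (kTheta K U θ) S)))) := by
  apply le_antisymm
  · exact iInf_le _ σ
  · rw [le_iInf_iff]
    intro u v hv
    obtain ⟨n, hn⟩ := hgen u
    have h1 : sUnitsAut (kTheta K U θ) S u.1 (kTheta_stable θ hU u.1 u.2) =
        sUnitsAut (kTheta K U θ) S σ.1 (kTheta_stable θ hU σ.1 σ.2) ^ n := by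
      rw [sUnitsAut_pow]
      apply sUnitsAut_congr
      intro x hx
      have hw : θ ((σ ^ n)⁻¹ * u) = 1 := by
        rw [map_mul, map_inv, map_pow, hn, inv_mul_cancel]
      have h2 := (mem_kTheta_iff.mp hx).2 _ hw
      have h3 : ((((σ ^ n)⁻¹ * u : U)) : GQ) = ((σ : GQ) ^ n)⁻¹ * (u : GQ) := rfl
      rw [h3, AlgEquiv.mul_apply] at h2
      have h4 := congrArg ((σ : GQ) ^ n) h2
      rw [AlgEquiv.aut_inv, AlgEquiv.apply_symm_apply] at h4
      exact h4
    rw [mem_ker_sub_smul_iff'] at hv ⊢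
    rw [h1, LinearMap.baseChange_pow, pow_apply_of_eigen _ hv, hn, Units.val_pow_eq_pow_val]

/-- A character with finite image has a "generator": `σ` with `θ(U) = ⟨θ σ⟩`. -/
theorem exists_gen_of_finite_range {G : Type*} [Group G] (θ : G →* kˣ) [Finite θ.range] :
    ∃ σ : G, ∀ u : G, ∃ n : ℕ, θ u = θ σ ^ n := by
  obtain ⟨⟨_, σ, rfl⟩, hx⟩ := IsCyclic.exists_monoid_generator (α := θ.range)
  refine ⟨σ, fun u => ?_⟩
  obtain ⟨n, hn⟩ := hx ⟨θ u, u, rfl⟩
  exact ⟨n, (congrArg Subtype.val hn).symm⟩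

variable {K U θ} in
theorem finite_range_of_relIndex_ne_zero
    (hθ : ∀ u : U, (u : GQ) ∈ K.fixingSubgroup → θ u = 1)
    (hfin : K.fixingSubgroup.relIndex U ≠ 0) : Finite θ.range := by
  haveI : (K.fixingSubgroup.subgroupOf U).FiniteIndex := ⟨hfin⟩
  have hle : K.fixingSubgroup.subgroupOf U ≤ θ.ker := fun u hu =>
    MonoidHom.mem_ker.mpr (hθ u (Subgroup.mem_subgroupOf.mp hu))
  haveI : θ.ker.FiniteIndex := Subgroup.finiteIndex_of_le hle
  exact Finite.of_equiv _ (QuotientGroup.quotientKerEquivRange θ).toEquiv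

/-- **(D3)** Existence of `σ ∈ U` with `θ(U) = ⟨θ σ⟩`. -/
theorem exists_gen
    (hθ : ∀ u : U, (u : GQ) ∈ K.fixingSubgroup → θ u = 1)
    (hfin : K.fixingSubgroup.relIndex U ≠ 0) :
    ∃ σ : U, ∀ u : U, ∃ n : ℕ, θ u = θ σ ^ n := by
  haveI := finite_range_of_relIndex_ne_zero hθ hfin
  exact exists_gen_of_finite_range θ

variable {K U θ} in
/-- `σ ^ ord(θ σ)` fixes `K_θ` pointwise. -/
theorem pow_orderOf_apply_eq (σ : U) {x : Qb} (hx : x ∈ kTheta K U θ) :
    ((σ : GQ) ^ orderOf (θ σ)) x = x := by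
  have h1 : θ (σ ^ orderOf (θ σ)) = 1 := by rw [map_pow, pow_orderOf_eq_one]
  exact (mem_kTheta_iff.mp hx).2 _ h1

/-- In characteristic `p`, a unit of finite order has order prime to `p`. -/
theorem not_dvd_orderOf_of_isOfFinOrder (p : ℕ) [Fact p.Prime] [CharP k p] (ζ : kˣ)
    (hζ : IsOfFinOrder ζ) : ¬ p ∣ orderOf ζ := by
  intro hdvd
  obtain ⟨m, hm⟩ := hdvd
  have hpos : 0 < orderOf ζ := hζ.orderOf_pos
  have hmpos : 0 < m := by
    rcases Nat.eq_zero_or_pos m with h0 | h0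
    · rw [h0, mul_zero] at hm; omega
    · exact h0
  have h1 : ((ζ ^ m : kˣ) : k) ^ p = 1 := by
    rw [← Units.val_pow_eq_pow_val, ← pow_mul, mul_comm, ← hm, pow_orderOf_eq_one, Units.val_one]
  have h2 : ((ζ ^ m : kˣ) : k) = 1 := by
    apply frobenius_inj k p
    rw [frobenius_def, frobenius_def, h1, one_pow]
  have h3 : ζ ^ m = 1 := Units.ext h2
  have h4 := orderOf_dvd_of_pow_eq_one h3
  have h5 := Nat.le_of_dvd hmpos h4
  have hp2 := (Fact.out : p.Prime).two_le
  nlinarith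

/-- `G_{K_θ} = ker θ` (infinite Galois theory; `K` a number field, `G_K ≤ ker θ`). -/
theorem fixingSubgroup_kTheta [FiniteDimensional ℚ K] (hKU : K.fixingSubgroup ≤ U)
    (hθ : ∀ u : U, (u : GQ) ∈ K.fixingSubgroup → θ u = 1) :
    (kTheta K U θ).fixingSubgroup = θ.ker.map U.subtype := by
  haveI : IsGalois ℚ Qb := Fermat.Agent.Lib.FrobeniusExists.isGalois_rat
  have hle := fixingSubgroup_le_ker hKU hθ
  have hopen : IsOpen ((θ.ker.map U.subtype : Subgroup GQ) : Set GQ) :=
    Subgroup.isOpen_mono hle (IntermediateField.fixingSubgroup_isOpen K)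
  have hcl : IsClosed ((θ.ker.map U.subtype : Subgroup GQ) : Set GQ) :=
    (θ.ker.map U.subtype).isClosed_of_isOpen hopen
  have h1 : kTheta K U θ = IntermediateField.fixedField (θ.ker.map U.subtype) := by
    unfold kTheta
    rw [inf_eq_right]
    conv_rhs => rw [← InfiniteGalois.fixedField_fixingSubgroup K]
    exact IntermediateField.fixedField_le hle
  rw [h1]
  exact InfiniteGalois.fixingSubgroup_fixedField ⟨θ.ker.map U.subtype, hcl⟩

/-- **(D1)+(D2)+(D3) assembled**: there is `σ ∈ U` generating `U` modulo `ker θ` such that the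
joint `θ`-eigenspace of `U` on `k ⊗ E_{K,S}` has the dimension of the `θ(σ)`-eigenspace of `σ` on
`k ⊗ E_{K_θ,S}`; moreover `σ ^ m` is trivial on `K_θ` for `m = ord θ(σ)`, and `p ∤ m`. -/
theorem exists_descent (p : ℕ) [Fact p.Prime] [Algebra (ZMod p) k]
    (hKU : K.fixingSubgroup ≤ U) (hU : ∀ u ∈ U, ∀ x ∈ K, u x ∈ K)
    (hθ : ∀ u : U, (u : GQ) ∈ K.fixingSubgroup → θ u = 1)
    (hpU : ¬ p ∣ K.fixingSubgroup.relIndex U) :
    ∃ σ : U, (∀ u : U, ∃ n : ℕ, θ u = θ σ ^ n) ∧ 0 < orderOf (θ σ) ∧ ¬ p ∣ orderOf (θ σ) ∧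
      (∀ x ∈ kTheta K U θ, ((σ : GQ) ^ orderOf (θ σ)) x = x) ∧
      finrank k ↥(⨅ u : U, LinearMap.ker ((sUnitsAut K S u.1 (hU u.1 u.2)).baseChange k -
        (θ u : k) • (1 : Module.End k (k ⊗[ℤ] Additive (sUnits K S))))) =
      finrank k ↥(LinearMap.ker
        ((sUnitsAut (kTheta K U θ) S σ.1 (kTheta_stable θ hU σ.1 σ.2)).baseChange k -
          (θ σ : k) • (1 : Module.End k (k ⊗[ℤ] Additive (sUnits (kTheta K U θ) S))))) := by
  have hfin : K.fixingSubgroup.relIndex U ≠ 0 := fun h0 => hpU (by rw [h0]; exact dvd_zero p)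
  haveI := finite_range_of_relIndex_ne_zero hθ hfin
  haveI : CharP k p := charP_of_injective_algebraMap (algebraMap (ZMod p) k).injective p
  obtain ⟨σ, hσ⟩ := exists_gen_of_finite_range θ
  have hfo : IsOfFinOrder (θ σ) := by
    have h1 : IsOfFinOrder (⟨θ σ, σ, rfl⟩ : θ.range) := isOfFinOrder_of_finite _
    exact (Submonoid.isOfFinOrder_coe (H := θ.range.toSubmonoid) (x := ⟨θ σ, σ, rfl⟩)).mpr h1
  refine ⟨σ, hσ, hfo.orderOf_pos, not_dvd_orderOf_of_isOfFinOrder p _ hfo,
    fun x hx => pow_orderOf_apply_eq σ hx, ?_⟩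
  rw [finrank_jointEigen_kTheta K S U θ p hKU hU hθ hpU, jointEigen_kTheta_eq_ker K S U θ hU σ hσ]

end Concrete

end Fermat.Agent.TW.EC.UnitDescent
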