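/-
TW / (EC), brick for (χ-U) (helper33): the infinite places of a subfield `L` of `ℚ̄` are the double
cosets `G_L \ G_ℚ / ⟨c⟩`, `c` the complex conjugation of the Prelude.

The double coset `G_L g ⟨c⟩` corresponds to the place `x ↦ ‖ι (g⁻¹ x)‖`, `ι = complexEmbedding`
(the same convention as `PT/G/PlaceCoset`: the prime cut out by `g • A₀`).
-/
import Mathlib
import Fermat.Prelude.Def_GaloisRep_ComplexConjugation

set_option autoImplicit false

namespace Fermat.Agent.TW.EC.InfPlaces

open NumberField

local notation "Qb" => AlgebraicClosure ℚ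
local notation "GQ" => (AlgebraicClosure ℚ ≃ₐ[ℚ] AlgebraicClosure ℚ)

/-- `⟨c⟩ = {1, c}`. -/
theorem mem_zpowers_complexConjugation {k : GQ} :
    k ∈ Subgroup.zpowers complexConjugation ↔ k = 1 ∨ k = complexConjugation := by
  constructor
  · rintro ⟨i, rfl⟩
    rcases Int.even_or_odd i with ⟨j, rfl⟩ | ⟨j, rfl⟩
    · left
      change complexConjugation ^ (j + j) = 1
      rw [← two_mul, zpow_mul, zpow_ofNat, complexConjugation_sq, one_zpow]
    · right
      change complexConjugation ^ (2 * j + 1) = complexConjugation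
      rw [zpow_add, zpow_mul, zpow_ofNat, complexConjugation_sq, one_zpow, one_mul, zpow_one]
  · rintro (rfl | rfl)
    · exact one_mem _
    · exact Subgroup.mem_zpowers _

/-- The complex embedding `x ↦ ι (g⁻¹ x)` of `L` attached to `g ∈ G_ℚ`. -/
noncomputable def embOf (L : IntermediateField ℚ Qb) (g : GQ) : L →+* ℂ :=
  complexEmbedding.toRingHom.comp ((g⁻¹ : GQ).toAlgHom.toRingHom.comp (algebraMap L Qb))

theorem embOf_apply (L : IntermediateField ℚ Qb) (g : GQ) (x : L) :
    embOf L g x = complexEmbedding (g⁻¹ (x : Qb)) := rfl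

theorem conjugate_embOf (L : IntermediateField ℚ Qb) (g : GQ) :
    ComplexEmbedding.conjugate (embOf L g) = embOf L (g * complexConjugation) := by
  ext x
  rw [ComplexEmbedding.conjugate_coe_eq, embOf_apply, embOf_apply, mul_inv_rev,
    complexConjugation_inv, AlgEquiv.mul_apply, complexEmbedding_complexConjugation]

theorem embOf_mul_left (L : IntermediateField ℚ Qb) {h : GQ} (hh : h ∈ L.fixingSubgroup)
    (g : GQ) : embOf L (h * g) = embOf L g := by
  ext x
  rw [embOf_apply, embOf_apply, mul_inv_rev, AlgEquiv.mul_apply]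
  have : h⁻¹ (x : Qb) = x :=
    (IntermediateField.mem_fixingSubgroup_iff L h⁻¹).mp (inv_mem hh) x x.2
  rw [this]

theorem embOf_eq_iff (L : IntermediateField ℚ Qb) (g g' : GQ) :
    embOf L g = embOf L g' ↔ g' * g⁻¹ ∈ L.fixingSubgroup := by
  rw [IntermediateField.mem_fixingSubgroup_iff]
  constructor
  · intro h x hx
    have h1 := DFunLike.congr_fun h (⟨x, hx⟩ : L)
    rw [embOf_apply, embOf_apply] at h1
    have h2 : g⁻¹ x = g'⁻¹ x := complexEmbedding.toRingHom.injective h1
    rw [AlgEquiv.mul_apply, h2]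
    exact AlgEquiv.apply_symm_apply g' x
  · intro h
    ext x
    rw [embOf_apply, embOf_apply]
    have h1 := h x x.2
    rw [AlgEquiv.mul_apply] at h1
    have h2 : g⁻¹ (x : Qb) = g'⁻¹ (x : Qb) := by
      rw [← h1]
      exact (AlgEquiv.symm_apply_apply g' _).symm ▸ (by rw [h1])
    rw [h2]

/-- Every complex embedding of `L` is of the form `embOf L g`. -/
theorem exists_embOf_eq (L : IntermediateField ℚ Qb) (φ : L →+* ℂ) : ∃ g : GQ, embOf L g = φ := by
  let _ : Algebra Qb ℂ := complexEmbedding.toRingHom.toAlgebra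
  have : IsScalarTower ℚ Qb ℂ := IsScalarTower.of_algebraMap_eq' (Subsingleton.elim _ _)
  have : Algebra.IsAlgebraic ℚ Qb := AlgebraicClosure.isAlgebraic ℚ
  have : IsAlgClosure ℚ Qb := ⟨inferInstance, inferInstance⟩
  have : Normal ℚ Qb := IsAlgClosure.normal ℚ Qb
  have : Algebra.IsAlgebraic L Qb := inferInstance
  obtain ⟨j, hj⟩ := IsAlgClosed.surjective_domRestrict_of_isAlgebraic (K := ℚ) (L := L) (M := ℂ)
    (E := Qb) φ.toRatAlgHom
  have hg₀ : ∀ y : Qb, complexEmbedding ((j.restrictNormal' Qb) y) = j y :=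
    fun y => AlgHom.restrictNormal_commutes j Qb y
  refine ⟨(j.restrictNormal' Qb)⁻¹, ?_⟩
  ext x
  rw [embOf_apply, inv_inv, hg₀]
  exact DFunLike.congr_fun hj x

/-- The infinite place of `L` attached to a double coset `G_L g ⟨c⟩`. -/
noncomputable def placeOfDoubleCoset (L : IntermediateField ℚ Qb) :
    DoubleCoset.Quotient (L.fixingSubgroup : Set GQ)
      (Subgroup.zpowers complexConjugation : Set GQ) → InfinitePlace L :=
  Quotient.lift (fun g : GQ => InfinitePlace.mk (embOf L g)) (by
    intro g g' h
    obtain ⟨u, hu, k, hk, rfl⟩ := DoubleCoset.rel_iff.mp h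
    rw [mul_assoc, embOf_mul_left L hu]
    rcases mem_zpowers_complexConjugation.mp hk with rfl | rfl
    · rw [mul_one]
    · rw [← conjugate_embOf, InfinitePlace.mk_conjugate_eq])

theorem placeOfDoubleCoset_mk (L : IntermediateField ℚ Qb) (g : GQ) :
    placeOfDoubleCoset L (DoubleCoset.mk L.fixingSubgroup (Subgroup.zpowers complexConjugation) g) =
      InfinitePlace.mk (embOf L g) := rfl

theorem placeOfDoubleCoset_bijective (L : IntermediateField ℚ Qb) :
    Function.Bijective (placeOfDoubleCoset L) := by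
  constructor
  · intro x y h
    induction x using Quotient.inductionOn with
    | _ g =>
      induction y using Quotient.inductionOn with
      | _ g' =>
        change InfinitePlace.mk (embOf L g) = InfinitePlace.mk (embOf L g') at h
        refine Quotient.sound (DoubleCoset.rel_iff.mpr ?_)
        rcases InfinitePlace.mk_eq_iff.mp h with h1 | h1
        · refine ⟨g' * g⁻¹, (embOf_eq_iff L g g').mp h1, 1, one_mem _, by group⟩
        · rw [conjugate_embOf] at h1
          refine ⟨g' * (g * complexConjugation)⁻¹, (embOf_eq_iff L _ g').mp h1,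
            complexConjugation, Subgroup.mem_zpowers _, by group⟩
  · intro w
    obtain ⟨g, hg⟩ := exists_embOf_eq L w.embedding
    refine ⟨DoubleCoset.mk L.fixingSubgroup (Subgroup.zpowers complexConjugation) g, ?_⟩
    rw [placeOfDoubleCoset_mk, hg, InfinitePlace.mk_embedding]

/-- **The dictionary at infinity.** Infinite places of `L ⊆ ℚ̄` are in bijection with the double
cosets `G_L \ G_ℚ / ⟨c⟩`. -/
noncomputable def infPlaceEquiv (L : IntermediateField ℚ Qb) :
    DoubleCoset.Quotient (L.fixingSubgroup : Set GQ)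
      (Subgroup.zpowers complexConjugation : Set GQ) ≃ InfinitePlace L :=
  Equiv.ofBijective _ (placeOfDoubleCoset_bijective L)

theorem infPlaceEquiv_mk (L : IntermediateField ℚ Qb) (g : GQ) :
    infPlaceEquiv L (DoubleCoset.mk L.fixingSubgroup (Subgroup.zpowers complexConjugation) g) =
      InfinitePlace.mk (embOf L g) := rfl

theorem infPlaceEquiv_mk_apply (L : IntermediateField ℚ Qb) (g : GQ) (x : L) :
    infPlaceEquiv L (DoubleCoset.mk L.fixingSubgroup (Subgroup.zpowers complexConjugation) g) x =
      ‖complexEmbedding (g⁻¹ (x : Qb))‖ := by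
  rw [infPlaceEquiv_mk, InfinitePlace.apply, embOf_apply]

/-- `#(infinite places of L) = #(G_L \ G_ℚ / ⟨c⟩)`. -/
theorem card_infinitePlace_eq (L : IntermediateField ℚ Qb) :
    Nat.card (InfinitePlace L) =
      Nat.card (DoubleCoset.Quotient (L.fixingSubgroup : Set GQ)
        (Subgroup.zpowers complexConjugation : Set GQ)) :=
  (Nat.card_congr (infPlaceEquiv L)).symm

theorem finite_doubleCoset_complexConjugation (L : IntermediateField ℚ Qb) [NumberField L] :
    Finite (DoubleCoset.Quotient (L.fixingSubgroup : Set GQ)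
      (Subgroup.zpowers complexConjugation : Set GQ)) :=
  Finite.of_equiv _ (infPlaceEquiv L).symm

end Fermat.Agent.TW.EC.InfPlaces
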