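import Mathlib

/-!
# TW (EC): eigenspace dimensions of `a ⊗ k` for an endomorphism `a` of an abelian group

Generic linear algebra for the equivariant `S`-unit count (Mathlib only).

* `finrank_eq_of_torsion` : a `ℤ`-linear map with torsion kernel and cokernel preserves the rank.
* `eigDim k a ζ` : `dim_k ker (a ⊗ k - ζ)`; invariance under isomorphisms (`eigDim_congr`),
  additivity on products (`eigDim_prodMap`), the trivial lattice `ℤ` (`eigDim_id_int`).
* `eigDim_le_of_exact` : left exactness for `0 → T → E → Λ → 0` with `T` cyclic and `a` acting on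
  `T` through an integer.
-/

set_option autoImplicit false

namespace Fermat.Agent.TW.EC

open TensorProduct Module

section Rank

/-- A `ℤ`-linear map with torsion kernel and torsion cokernel preserves the rank. -/
theorem finrank_eq_of_torsion {M N : Type*} [AddCommGroup M] [AddCommGroup N]
    [Module.Finite ℤ M] [Module.Finite ℤ N] (f : M →ₗ[ℤ] N)
    (hker : ∀ x, f x = 0 → ∃ n : ℤ, n ≠ 0 ∧ n • x = 0)
    (hcoker : ∀ y, ∃ n : ℤ, n ≠ 0 ∧ n • y ∈ LinearMap.range f) :
    finrank ℤ M = finrank ℤ N := by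
  have h1 := (LinearMap.ker f).finrank_quotient_add_finrank
  have h2 := (LinearMap.range f).finrank_quotient_add_finrank
  have h3 : finrank ℤ (M ⧸ LinearMap.ker f) = finrank ℤ (LinearMap.range f) :=
    f.quotKerEquivRange.finrank_eq
  have h4 : finrank ℤ (LinearMap.ker f) = 0 := by
    rw [Module.finrank_eq_zero_iff_isTorsion]
    rintro ⟨x, hx⟩
    obtain ⟨n, hn, hnx⟩ := hker x hx
    exact ⟨⟨n, mem_nonZeroDivisors_of_ne_zero hn⟩, Subtype.ext hnx⟩
  have h5 : finrank ℤ (N ⧸ LinearMap.range f) = 0 := by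
    rw [Module.finrank_eq_zero_iff_isTorsion]
    intro y
    obtain ⟨y, rfl⟩ := Submodule.Quotient.mk_surjective _ y
    obtain ⟨n, hn, hny⟩ := hcoker y
    refine ⟨⟨n, mem_nonZeroDivisors_of_ne_zero hn⟩, ?_⟩
    show (n : ℤ) • (Submodule.Quotient.mk y : N ⧸ LinearMap.range f) = 0
    rw [← Submodule.Quotient.mk_smul]
    exact (Submodule.Quotient.mk_eq_zero _).mpr hny
  omega

end Rank

section Conj

variable {k : Type*} [Field k]

/-- Conjugate endomorphisms have eigenspaces of the same dimension. -/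
theorem finrank_ker_sub_smul_congr {V W : Type*} [AddCommGroup V] [Module k V] [AddCommGroup W]
    [Module k W] (f : V →ₗ[k] V) (g : W →ₗ[k] W) (E : V ≃ₗ[k] W) (hE : ∀ x, E (f x) = g (E x))
    (ζ : k) : finrank k (LinearMap.ker (f - ζ • 1)) = finrank k (LinearMap.ker (g - ζ • 1)) := by
  have hmap : (LinearMap.ker (f - ζ • 1)).map (E : V →ₗ[k] W) = LinearMap.ker (g - ζ • 1) := by
    ext y
    rw [Submodule.mem_map, LinearMap.mem_ker]
    constructor
    · rintro ⟨x, hx, rfl⟩
      rw [LinearMap.mem_ker, LinearMap.sub_apply, LinearMap.smul_apply, Module.End.one_apply,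
        sub_eq_zero] at hx
      rw [LinearMap.sub_apply, LinearMap.smul_apply, Module.End.one_apply, sub_eq_zero]
      show g (E x) = ζ • E x
      rw [← hE, hx, map_smul]
    · intro hy
      rw [LinearMap.sub_apply, LinearMap.smul_apply, Module.End.one_apply, sub_eq_zero] at hy
      refine ⟨E.symm y, ?_, E.apply_symm_apply y⟩
      rw [LinearMap.mem_ker, LinearMap.sub_apply, LinearMap.smul_apply, Module.End.one_apply,
        sub_eq_zero]
      apply E.injective
      rw [hE, E.apply_symm_apply, hy, map_smul, E.apply_symm_apply]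
  rw [← hmap]
  exact (LinearEquiv.finrank_eq (E.submoduleMap (LinearMap.ker (f - ζ • 1))))

end Conj

section EigDim

variable (k : Type*) [Field k]

/-- The dimension of the `ζ`-eigenspace of `a ⊗ k` on `k ⊗[ℤ] M`. -/
noncomputable def eigDim {M : Type*} [AddCommGroup M] (a : M →ₗ[ℤ] M) (ζ : k) : ℕ :=
  finrank k (LinearMap.ker (a.baseChange k - ζ • 1))

theorem eigDim_def {M : Type*} [AddCommGroup M] (a : M →ₗ[ℤ] M) (ζ : k) :
    eigDim k a ζ = finrank k (LinearMap.ker (a.baseChange k - ζ • 1)) := rfl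

variable {k}

/-- `eigDim` is invariant under equivariant isomorphisms. -/
theorem eigDim_congr {M M' : Type*} [AddCommGroup M] [AddCommGroup M'] (a : M →ₗ[ℤ] M)
    (a' : M' →ₗ[ℤ] M') (e : M ≃ₗ[ℤ] M') (he : ∀ x, e (a x) = a' (e x)) (ζ : k) :
    eigDim k a ζ = eigDim k a' ζ := by
  refine finrank_ker_sub_smul_congr _ _ (LinearEquiv.baseChange ℤ k M M' e) (fun x => ?_) ζ
  induction x using TensorProduct.induction_on with
  | zero => simp
  | tmul c m =>
    rw [LinearMap.baseChange_tmul]
    show c ⊗ₜ[ℤ] e (a m) = a'.baseChange k (c ⊗ₜ[ℤ] e m)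
    rw [LinearMap.baseChange_tmul, he]
  | add x y hx hy => rw [map_add, map_add, hx, hy, map_add, map_add]

/-- `eigDim` is additive on products. -/
theorem eigDim_prodMap {M₁ M₂ : Type*} [AddCommGroup M₁] [AddCommGroup M₂]
    [Module.Finite ℤ M₁] [Module.Finite ℤ M₂] (a₁ : M₁ →ₗ[ℤ] M₁)
    (a₂ : M₂ →ₗ[ℤ] M₂) (ζ : k) :
    eigDim k (a₁.prodMap a₂) ζ = eigDim k a₁ ζ + eigDim k a₂ ζ := by
  have h1 : eigDim k (a₁.prodMap a₂) ζ
      = finrank k (LinearMap.ker ((a₁.baseChange k).prodMap (a₂.baseChange k) - ζ • 1)) := by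
    refine finrank_ker_sub_smul_congr _ _ (TensorProduct.prodRight ℤ k k M₁ M₂) (fun x => ?_) ζ
    induction x using TensorProduct.induction_on with
    | zero => simp only [map_zero]
    | tmul c m =>
      rw [LinearMap.baseChange_tmul, TensorProduct.prodRight_tmul, TensorProduct.prodRight_tmul]
      rfl
    | add x y hx hy => rw [map_add, map_add, hx, hy, map_add, map_add]
  rw [h1]
  have h2 : (a₁.baseChange k).prodMap (a₂.baseChange k) - ζ • 1
      = (a₁.baseChange k - ζ • 1).prodMap (a₂.baseChange k - ζ • 1) := by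
    refine LinearMap.ext fun x => ?_
    rfl
  rw [h2, LinearMap.ker_prodMap]
  unfold eigDim
  set p := LinearMap.ker (a₁.baseChange k - ζ • 1)
  set q := LinearMap.ker (a₂.baseChange k - ζ • 1)
  let e : (p.prod q) ≃ₗ[k] p × q :=
    { toFun := fun x => (⟨x.1.1, x.2.1⟩, ⟨x.1.2, x.2.2⟩)
      map_add' := fun _ _ => rfl
      map_smul' := fun _ _ => rfl
      invFun := fun y => ⟨(y.1.1, y.2.1), ⟨y.1.2, y.2.2⟩⟩
      left_inv := fun _ => rfl
      right_inv := fun _ => rfl }
  have : Module.Free k p := Module.Free.of_divisionRing k p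
  have : Module.Free k q := Module.Free.of_divisionRing k q
  rw [e.finrank_eq, Module.finrank_prod]

open Classical in
/-- The trivial lattice `ℤ`. -/
theorem eigDim_id_int (ζ : k) :
    eigDim k (LinearMap.id : ℤ →ₗ[ℤ] ℤ) ζ = if ζ = 1 then 1 else 0 := by
  unfold eigDim
  rw [LinearMap.baseChange_id]
  have hfr : finrank k (k ⊗[ℤ] ℤ) = 1 := by
    rw [(TensorProduct.AlgebraTensorModule.rid ℤ k k).finrank_eq, Module.finrank_self]
  split_ifs with h
  · subst h
    have : (LinearMap.id - (1 : k) • (1 : Module.End k (k ⊗[ℤ] ℤ))) = 0 := by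
      refine LinearMap.ext fun x => ?_
      simp
    rw [this, LinearMap.ker_zero, finrank_top, hfr]
  · have : LinearMap.ker (LinearMap.id - ζ • (1 : Module.End k (k ⊗[ℤ] ℤ))) = ⊥ := by
      rw [LinearMap.ker_eq_bot']
      intro x hx
      rw [LinearMap.sub_apply, LinearMap.id_apply, LinearMap.smul_apply, Module.End.one_apply,
        sub_eq_zero] at hx
      have h1 : (1 - ζ) • x = 0 := by rw [sub_smul, one_smul, ← hx, sub_self]
      exact (smul_eq_zero.mp h1).resolve_left (sub_ne_zero.mpr (Ne.symm h))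
    rw [this, finrank_bot]

/-- Every element of `k ⊗[ℤ] T`, `T` generated by `t₀`, is a multiple of `1 ⊗ t₀`. -/
theorem exists_eq_smul_tmul {T : Type*} [AddCommGroup T] (t₀ : T)
    (ht₀ : ∀ t, ∃ n : ℤ, t = n • t₀) (y : k ⊗[ℤ] T) : ∃ l : k, y = l • ((1 : k) ⊗ₜ[ℤ] t₀) := by
  induction y using TensorProduct.induction_on with
  | zero => exact ⟨0, by rw [zero_smul]⟩
  | tmul c t =>
    obtain ⟨n, rfl⟩ := ht₀ t
    refine ⟨n • c, ?_⟩
    rw [TensorProduct.tmul_smul, TensorProduct.smul_tmul', TensorProduct.smul_tmul', smul_eq_mul,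
      mul_one]
  | add x y hx hy =>
    obtain ⟨l₁, rfl⟩ := hx
    obtain ⟨l₂, rfl⟩ := hy
    exact ⟨l₁ + l₂, by rw [add_smul]⟩

open Classical in
/-- **Left exactness** of the eigenspace dimension for `0 → T → E → Λ → 0`, `T` generated by one
element `t₀` killed by `n₀`, the endomorphism acting on `T` through the integer `c`: the
contribution of `T` is at most one, and it vanishes unless `n₀ = 0` in `k` and `ζ = c`. -/
theorem eigDim_le_of_exact {T E Λ : Type*} [AddCommGroup T] [AddCommGroup E] [AddCommGroup Λ]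
    [Module.Finite ℤ E] [Module.Finite ℤ Λ]
    (ι : T →ₗ[ℤ] E) (π : E →ₗ[ℤ] Λ) (hex : Function.Exact ι π) (hπs : Function.Surjective π)
    (aE : E →ₗ[ℤ] E) (aΛ : Λ →ₗ[ℤ] Λ) (hπ : ∀ x, π (aE x) = aΛ (π x))
    (c : ℤ) (hc : ∀ t, aE (ι t) = c • ι t)
    (t₀ : T) (ht₀ : ∀ t, ∃ n : ℤ, t = n • t₀) (n₀ : ℤ) (hn₀ : n₀ • t₀ = 0) (ζ : k) :
    eigDim k aE ζ ≤ (if ((n₀ : k) = 0 ∧ ζ = (c : k)) then 1 else 0) + eigDim k aΛ ζ := by
  unfold eigDim
  set X := LinearMap.ker (aE.baseChange k - ζ • 1) with hX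
  set Y := LinearMap.ker (aΛ.baseChange k - ζ • 1) with hY
  set P := π.baseChange k with hP
  have hmemX : ∀ x, x ∈ X ↔ aE.baseChange k x = ζ • x := by
    intro x
    rw [hX, LinearMap.mem_ker, LinearMap.sub_apply, LinearMap.smul_apply, Module.End.one_apply,
      sub_eq_zero]
  have hmemY : ∀ y, y ∈ Y ↔ aΛ.baseChange k y = ζ • y := by
    intro y
    rw [hY, LinearMap.mem_ker, LinearMap.sub_apply, LinearMap.smul_apply, Module.End.one_apply,
      sub_eq_zero]
  have hcomm : ∀ x, P (aE.baseChange k x) = aΛ.baseChange k (P x) := by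
    intro x
    induction x using TensorProduct.induction_on with
    | zero => simp only [map_zero]
    | tmul c m =>
      rw [hP, LinearMap.baseChange_tmul, LinearMap.baseChange_tmul, LinearMap.baseChange_tmul,
        LinearMap.baseChange_tmul, hπ]
    | add x y hx hy => rw [map_add, map_add, hx, hy, map_add, map_add]
  have hPX : X.map P ≤ Y := by
    rintro _ ⟨x, hx, rfl⟩
    rw [hmemY, ← hcomm, (hmemX x).mp hx, map_smul]
  have hrn := LinearMap.finrank_range_add_finrank_ker (K := k) (V := X) (V₂ := k ⊗[ℤ] Λ)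
    (P.domRestrict X)
  rw [LinearMap.range_domRestrict, LinearMap.ker_domRestrict] at hrn
  have h1 : finrank k (X.map P) ≤ finrank k Y := Submodule.finrank_mono hPX
  set v₀ : k ⊗[ℤ] E := (1 : k) ⊗ₜ[ℤ] ι t₀ with hv₀
  have hexT := lTensor_exact k hex hπs
  have hkerP : ∀ x, P x = 0 → ∃ l : k, x = l • v₀ := by
    intro x hx
    have hx' : (π.lTensor k) x = 0 := by
      rw [← LinearMap.baseChange_eq_ltensor]
      exact hx
    obtain ⟨y, rfl⟩ := (hexT x).mp hx'
    obtain ⟨l, rfl⟩ := exists_eq_smul_tmul t₀ ht₀ y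
    refine ⟨l, ?_⟩
    rw [← LinearMap.baseChange_eq_ltensor (A := k), map_smul, LinearMap.baseChange_tmul]
  have hav₀ : aE.baseChange k v₀ = (c : k) • v₀ := by
    rw [hv₀, LinearMap.baseChange_tmul, hc, TensorProduct.tmul_smul, Int.cast_smul_eq_zsmul]
  have hn₀v : (n₀ : k) • v₀ = 0 := by
    rw [hv₀, Int.cast_smul_eq_zsmul, ← TensorProduct.tmul_smul, ← map_zsmul, hn₀, map_zero,
      TensorProduct.tmul_zero]
  set Z := Submodule.comap X.subtype (LinearMap.ker P) with hZ
  have h2 : finrank k Z ≤ (if ((n₀ : k) = 0 ∧ ζ = (c : k)) then 1 else 0) := by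
    split_ifs with hcond
    · have hle : Z.map X.subtype ≤ Submodule.span k {v₀} := by
        rintro _ ⟨x, hx, rfl⟩
        obtain ⟨l, hl⟩ := hkerP x.1 hx
        rw [Submodule.subtype_apply, hl]
        exact Submodule.smul_mem _ _ (Submodule.subset_span rfl)
      calc finrank k Z = finrank k (Z.map X.subtype) :=
            (Submodule.equivMapOfInjective _ X.injective_subtype Z).finrank_eq
        _ ≤ finrank k (Submodule.span k {v₀}) := Submodule.finrank_mono hle
        _ ≤ 1 := (finrank_span_le_card ({v₀} : Set (k ⊗[ℤ] E))).trans (by simp)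
    · have hbot : Z = ⊥ := by
        rw [eq_bot_iff]
        rintro ⟨x, hxX⟩ hx
        rw [Submodule.mem_bot]
        apply Subtype.ext
        show x = 0
        obtain ⟨l, rfl⟩ := hkerP x hx
        rw [not_and_or] at hcond
        rcases hcond with hcond | hcond
        · have : v₀ = 0 := (smul_eq_zero.mp hn₀v).resolve_left hcond
          rw [this, smul_zero]
        · have h3 := (hmemX _).mp hxX
          rw [map_smul, hav₀, smul_comm] at h3
          have h4 : ((c : k) - ζ) • (l • v₀) = 0 := by rw [sub_smul, h3, sub_self]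
          exact (smul_eq_zero.mp h4).resolve_left (sub_ne_zero.mpr (Ne.symm hcond))
      rw [hbot, finrank_bot]
  omega

end EigDim

end Fermat.Agent.TW.EC
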