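import Mathlib
import Fermat.Agent.TW.EC.EigDim
import Fermat.Agent.TW.EC.MackeyCount

/-!
# TW (EC): the permutation lattice on `⊔_i H \ G / D_i`

For a group `G`, subgroups `D i` (`i : ι`) and a subgroup `H`, `permMod D R H` is the module of
functions `f : ι → G → R` with `f i (h g d) = f i g` for `h ∈ H`, `d ∈ D i` — the `R`-valued
functions on the double cosets `⊔_i H \ G / D_i`.  An element `σ` normalising `H` acts by left
translation (`permTr`).

* `finrank_permMod` : the rank is the number of double cosets.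
* `finrank_ker_permTr_pow` : the fixed points of `σ ^ j` are the functions for `H ⊔ ⟨σ ^ j⟩`.
* `eigDim_permTr` : the `θ σ`-eigenspace of `σ ⊗ k`, for a character `θ` of `U = H ⟨σ⟩` trivial on
  `H`, has dimension the number of double cosets `U g D_i` with `θ` trivial on `U ∩ g D_i g⁻¹`
  (`Mackey.Good θ (D i)`).
-/

set_option autoImplicit false

namespace Fermat.Agent.TW.EC.UPerm

open TensorProduct Module

variable {G : Type*} [Group G] {ι : Type*} (D : ι → Subgroup G)

/-- `R`-valued functions on `⊔_i H \ G / D_i`, as functions on `G`. -/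
def permMod (R : Type*) [CommRing R] (H : Subgroup G) : Submodule R (ι → G → R) where
  carrier := {f | ∀ i, (∀ h ∈ H, ∀ g, f i (h * g) = f i g) ∧ ∀ d ∈ D i, ∀ g, f i (g * d) = f i g}
  add_mem' := by
    intro f f' hf hf' i
    exact ⟨fun h hh g => by simp only [Pi.add_apply, (hf i).1 h hh g, (hf' i).1 h hh g],
      fun d hd g => by simp only [Pi.add_apply, (hf i).2 d hd g, (hf' i).2 d hd g]⟩
  zero_mem' := fun _ => ⟨fun _ _ _ => rfl, fun _ _ _ => rfl⟩
  smul_mem' := by
    intro c f hf i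
    exact ⟨fun h hh g => by simp only [Pi.smul_apply, (hf i).1 h hh g],
      fun d hd g => by simp only [Pi.smul_apply, (hf i).2 d hd g]⟩

theorem mem_permMod_iff {R : Type*} [CommRing R] {H : Subgroup G} {f : ι → G → R} :
    f ∈ permMod D R H ↔
      ∀ i, (∀ h ∈ H, ∀ g, f i (h * g) = f i g) ∧ ∀ d ∈ D i, ∀ g, f i (g * d) = f i g := Iff.rfl

theorem permMod_anti (R : Type*) [CommRing R] {H H' : Subgroup G} (h : H ≤ H') :
    permMod D R H' ≤ permMod D R H :=
  fun _ hf i => ⟨fun x hx g => (hf i).1 x (h hx) g, (hf i).2⟩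

/-- The index set: all double cosets. -/
abbrev DC (H : Subgroup G) : Type _ := Σ i, DoubleCoset.Quotient (H : Set G) (D i : Set G)

/-- Functions on `G` which are bi-invariant are functions on the double cosets. -/
noncomputable def permModEquiv (R : Type*) [CommRing R] (H : Subgroup G) :
    permMod D R H ≃ₗ[R] (DC D H → R) where
  toFun f := fun x => Quotient.lift (f.1 x.1) (by
    intro a b hab
    obtain ⟨h, hh, d, hd, rfl⟩ := DoubleCoset.rel_iff.mp hab
    rw [(f.2 x.1).2 d hd, (f.2 x.1).1 h hh]) x.2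
  map_add' f f' := by
    funext x
    obtain ⟨i, q⟩ := x
    induction q using Quotient.inductionOn with
    | _ g => rfl
  map_smul' c f := by
    funext x
    obtain ⟨i, q⟩ := x
    induction q using Quotient.inductionOn with
    | _ g => rfl
  invFun φ := ⟨fun i g => φ ⟨i, DoubleCoset.mk H (D i) g⟩, fun i => ⟨fun h hh g => by
      have : DoubleCoset.mk H (D i) (h * g) = DoubleCoset.mk H (D i) g :=
        ((DoubleCoset.eq H (D i) g (h * g)).2 ⟨h, hh, 1, (D i).one_mem, by rw [mul_one]⟩).symm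
      show φ ⟨i, DoubleCoset.mk H (D i) (h * g)⟩ = φ ⟨i, DoubleCoset.mk H (D i) g⟩
      rw [this], fun d hd g => by
      have : DoubleCoset.mk H (D i) (g * d) = DoubleCoset.mk H (D i) g :=
        ((DoubleCoset.eq H (D i) g (g * d)).2 ⟨1, H.one_mem, d, hd, by rw [one_mul]⟩).symm
      show φ ⟨i, DoubleCoset.mk H (D i) (g * d)⟩ = φ ⟨i, DoubleCoset.mk H (D i) g⟩
      rw [this]⟩⟩
  left_inv f := Subtype.ext (funext fun i => funext fun g => rfl)
  right_inv φ := by
    funext x
    obtain ⟨i, q⟩ := x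
    induction q using Quotient.inductionOn with
    | _ g => rfl

theorem permModEquiv_apply_mk (R : Type*) [CommRing R] (H : Subgroup G) (f : permMod D R H)
    (i : ι) (g : G) :
    permModEquiv D R H f ⟨i, DoubleCoset.mk H (D i) g⟩ = f.1 i g := rfl

theorem permModEquiv_symm_apply (R : Type*) [CommRing R] (H : Subgroup G) (φ : DC D H → R)
    (i : ι) (g : G) :
    ((permModEquiv D R H).symm φ).1 i g = φ ⟨i, DoubleCoset.mk H (D i) g⟩ := rfl

section Finite

variable [Finite ι] (H : Subgroup G) [∀ i, Finite (DoubleCoset.Quotient (H : Set G) (D i : Set G))]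

instance finite_permMod (R : Type*) [CommRing R] : Module.Finite R (permMod D R H) :=
  Module.Finite.equiv (permModEquiv D R H).symm

instance free_permMod (R : Type*) [CommRing R] : Module.Free R (permMod D R H) :=
  Module.Free.of_equiv (permModEquiv D R H).symm

/-- The rank of the permutation lattice is the number of double cosets. -/
theorem finrank_permMod (R : Type*) [CommRing R] [Nontrivial R] [Fintype ι] :
    finrank R (permMod D R H) = ∑ i, Nat.card (DoubleCoset.Quotient (H : Set G) (D i : Set G)) := by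
  classical
  have := Fintype.ofFinite (DC D H)
  rw [(permModEquiv D R H).finrank_eq, Module.finrank_pi, ← Nat.card_eq_fintype_card,
    Nat.card_sigma]

end Finite

/-! ### Translations -/

/-- Left translation by an element normalising `H`: `(σ f) i g = f i (σ g)`. -/
def permTr (R : Type*) [CommRing R] (H : Subgroup G) (σ : G) (hσ : ∀ h ∈ H, σ * h * σ⁻¹ ∈ H) :
    permMod D R H →ₗ[R] permMod D R H where
  toFun f := ⟨fun i g => f.1 i (σ * g), fun i => ⟨fun h hh g => by
    have : σ * (h * g) = (σ * h * σ⁻¹) * (σ * g) := by group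
    show f.1 i (σ * (h * g)) = f.1 i (σ * g)
    rw [this, (f.2 i).1 _ (hσ h hh)], fun d hd g => by
    show f.1 i (σ * (g * d)) = f.1 i (σ * g)
    rw [← mul_assoc, (f.2 i).2 d hd]⟩⟩
  map_add' _ _ := rfl
  map_smul' _ _ := rfl

theorem permTr_apply (R : Type*) [CommRing R] (H : Subgroup G) (σ : G)
    (hσ : ∀ h ∈ H, σ * h * σ⁻¹ ∈ H) (f : permMod D R H) (i : ι) (g : G) :
    (permTr D R H σ hσ f).1 i g = f.1 i (σ * g) := rfl

theorem permTr_pow_apply (R : Type*) [CommRing R] (H : Subgroup G) (σ : G)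
    (hσ : ∀ h ∈ H, σ * h * σ⁻¹ ∈ H) (j : ℕ) (f : permMod D R H) (i : ι) (g : G) :
    ((permTr D R H σ hσ ^ j) f).1 i g = f.1 i (σ ^ j * g) := by
  induction j generalizing f g with
  | zero => simp
  | succ n ih =>
    rw [pow_succ, Module.End.mul_apply, ih, permTr_apply, ← mul_assoc, ← pow_succ']

theorem mem_ker_permTr_pow_iff (R : Type*) [CommRing R] (H : Subgroup G) (σ : G)
    (hσ : ∀ h ∈ H, σ * h * σ⁻¹ ∈ H) (j : ℕ) (f : permMod D R H) :
    f ∈ LinearMap.ker (permTr D R H σ hσ ^ j - 1) ↔ ∀ i g, f.1 i (σ ^ j * g) = f.1 i g := by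
  rw [LinearMap.mem_ker, LinearMap.sub_apply, Module.End.one_apply, sub_eq_zero]
  constructor
  · intro h i g
    rw [← permTr_pow_apply D R H σ hσ j f i g, h]
  · intro h
    apply Subtype.ext
    funext i g
    rw [permTr_pow_apply, h]

/-- The functions for `H ⊔ ⟨τ⟩` are the `τ`-invariant functions for `H`. -/
theorem mem_permMod_sup_zpowers_iff (R : Type*) [CommRing R] (H : Subgroup G) (τ : G)
    (f : ι → G → R) (hf : f ∈ permMod D R H) :
    f ∈ permMod D R (H ⊔ Subgroup.zpowers τ) ↔ ∀ i g, f i (τ * g) = f i g := by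
  constructor
  · intro h i g
    exact (h i).1 τ (Subgroup.mem_sup_right (Subgroup.mem_zpowers τ)) g
  · intro h i
    refine ⟨?_, (hf i).2⟩
    let stab : Subgroup G :=
      { carrier := {x | ∀ g, f i (x * g) = f i g}
        mul_mem' := fun {a b} ha hb g => by rw [mul_assoc, ha, hb]
        one_mem' := fun g => by rw [one_mul]
        inv_mem' := fun {a} ha g => by
          have := ha (a⁻¹ * g)
          rw [mul_inv_cancel_left] at this
          exact this.symm }
    have h1 : H ≤ stab := fun x hx g => (hf i).1 x hx g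
    have h2 : Subgroup.zpowers τ ≤ stab := (Subgroup.zpowers_le).mpr (fun g => h i g)
    intro x hx g
    exact (sup_le h1 h2 hx) g

/-- The fixed points of `σ ^ j`: the functions for `H ⊔ ⟨σ ^ j⟩`. -/
theorem finrank_ker_permTr_pow (R : Type*) [CommRing R] (H : Subgroup G) (σ : G)
    (hσ : ∀ h ∈ H, σ * h * σ⁻¹ ∈ H) (j : ℕ) :
    finrank R (LinearMap.ker (permTr D R H σ hσ ^ j - 1))
      = finrank R (permMod D R (H ⊔ Subgroup.zpowers (σ ^ j))) := by
  set incl : permMod D R (H ⊔ Subgroup.zpowers (σ ^ j)) →ₗ[R] permMod D R H :=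
    Submodule.inclusion (permMod_anti D R le_sup_left) with hincl
  have hinj : Function.Injective incl := Submodule.inclusion_injective _
  have hrange : LinearMap.range incl = LinearMap.ker (permTr D R H σ hσ ^ j - 1) := by
    ext f
    rw [mem_ker_permTr_pow_iff, ← mem_permMod_sup_zpowers_iff D R H (σ ^ j) f.1 f.2]
    constructor
    · rintro ⟨f', rfl⟩
      exact f'.2
    · intro hf
      exact ⟨⟨f.1, hf⟩, Subtype.ext rfl⟩
  rw [← hrange, LinearMap.finrank_range_of_inj hinj]

/-! ### Base change -/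

section BaseChange

variable (k : Type*) [Field k] (H : Subgroup G)

/-- The natural map `k ⊗ (ℤ-valued functions) → (k-valued functions)`. -/
noncomputable def permBCHom : k ⊗[ℤ] permMod D ℤ H →ₗ[k] permMod D k H :=
  LinearMap.liftBaseChange k
    { toFun := fun f => (⟨fun i g => ((f.1 i g : ℤ) : k), fun i => ⟨fun h hh g => by
        show ((f.1 i (h * g) : ℤ) : k) = ((f.1 i g : ℤ) : k)
        rw [(f.2 i).1 h hh g], fun d hd g => by
        show ((f.1 i (g * d) : ℤ) : k) = ((f.1 i g : ℤ) : k)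
        rw [(f.2 i).2 d hd g]⟩⟩ : permMod D k H)
      map_add' := fun f f' => Subtype.ext (funext fun i => funext fun g => by
        simp [Int.cast_add])
      map_smul' := fun n f => Subtype.ext (funext fun i => funext fun g => by
        simp) }

theorem permBCHom_tmul (c : k) (f : permMod D ℤ H) (i : ι) (g : G) :
    (permBCHom D k H (c ⊗ₜ[ℤ] f)).1 i g = c * ((f.1 i g : ℤ) : k) := by
  simp [permBCHom]

variable [Finite ι] [∀ i, Finite (DoubleCoset.Quotient (H : Set G) (D i : Set G))]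

theorem permBCHom_bijective : Function.Bijective (permBCHom D k H) := by
  classical
  have := Fintype.ofFinite (DC D H)
  let Ψ : k ⊗[ℤ] permMod D ℤ H ≃ₗ[k] permMod D k H :=
    (LinearEquiv.baseChange ℤ k _ _ (permModEquiv D ℤ H)) ≪≫ₗ
      (TensorProduct.piScalarRight ℤ k k (DC D H)) ≪≫ₗ (permModEquiv D k H).symm
  have hΨ : ∀ x, Ψ x = permBCHom D k H x := by
    intro x
    induction x using TensorProduct.induction_on with
    | zero => simp only [map_zero]
    | tmul c f =>
      apply Subtype.ext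
      funext i g
      rw [permBCHom_tmul]
      show ((permModEquiv D k H).symm (TensorProduct.piScalarRight ℤ k k (DC D H)
        (LinearEquiv.baseChange ℤ k _ _ (permModEquiv D ℤ H) (c ⊗ₜ[ℤ] f)))).1 i g = _
      rw [permModEquiv_symm_apply]
      show TensorProduct.piScalarRight ℤ k k (DC D H) (c ⊗ₜ[ℤ] (permModEquiv D ℤ H f))
        ⟨i, DoubleCoset.mk H (D i) g⟩ = _
      rw [TensorProduct.piScalarRight_apply, TensorProduct.piScalarRightHom_tmul]
      show (permModEquiv D ℤ H f ⟨i, DoubleCoset.mk H (D i) g⟩) • c = _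
      rw [permModEquiv_apply_mk, zsmul_eq_mul, mul_comm]
    | add x y hx hy => rw [map_add, map_add, hx, hy]
  have : (permBCHom D k H : k ⊗[ℤ] permMod D ℤ H → permMod D k H) = Ψ := funext fun x => (hΨ x).symm
  rw [this]
  exact Ψ.bijective

/-- `k ⊗ (ℤ-valued functions on the double cosets) ≃ (k-valued functions)`. -/
noncomputable def permBC : k ⊗[ℤ] permMod D ℤ H ≃ₗ[k] permMod D k H :=
  LinearEquiv.ofBijective (permBCHom D k H) (permBCHom_bijective D k H)

theorem permBC_tmul (c : k) (f : permMod D ℤ H) (i : ι) (g : G) :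
    (permBC D k H (c ⊗ₜ[ℤ] f)).1 i g = c * ((f.1 i g : ℤ) : k) :=
  permBCHom_tmul D k H c f i g

/-- The eigenspace dimension of the translation on the lattice, computed on `k`-valued
functions. -/
theorem eigDim_permTr_eq (σ : G) (hσ : ∀ h ∈ H, σ * h * σ⁻¹ ∈ H) (ζ : k) :
    eigDim k (permTr D ℤ H σ hσ) ζ = finrank k (LinearMap.ker (permTr D k H σ hσ - ζ • 1)) := by
  refine finrank_ker_sub_smul_congr _ _ (permBC D k H) (fun x => ?_) ζ
  induction x using TensorProduct.induction_on with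
  | zero => simp only [map_zero]
  | tmul c f =>
    apply Subtype.ext
    funext i g
    rw [LinearMap.baseChange_tmul, permBC_tmul, permTr_apply, permTr_apply, permBC_tmul]
  | add x y hx hy => rw [map_add, map_add, hx, hy, map_add, map_add]

end BaseChange

/-! ### The eigenspace of a translation: the Mackey count -/

section Count

variable (k : Type*) [Field k] (H : Subgroup G) {U : Subgroup G}

/-- The subgroup of `U` on which a function `f` on `G` is `θ`-equivariant. -/
def eqSub (θ : U →* kˣ) (f : G → k) : Subgroup U where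
  carrier := {u | ∀ g, f ((u : G) * g) = ((θ u : kˣ) : k) * f g}
  mul_mem' := fun {a b} ha hb g => by
    rw [Subgroup.coe_mul, mul_assoc, ha, hb, map_mul, Units.val_mul, mul_assoc]
  one_mem' := fun g => by rw [Subgroup.coe_one, one_mul, map_one, Units.val_one, one_mul]
  inv_mem' := fun {a} ha g => by
    have h := ha ((a : G)⁻¹ * g)
    rw [mul_inv_cancel_left] at h
    rw [Subgroup.coe_inv, map_inv, h, ← mul_assoc, Units.inv_mul, one_mul]

theorem mem_ker_permTr_sub_iff (σ : G) (hσ : ∀ h ∈ H, σ * h * σ⁻¹ ∈ H) (ζ : k)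
    (f : permMod D k H) :
    f ∈ LinearMap.ker (permTr D k H σ hσ - ζ • 1) ↔ ∀ i g, f.1 i (σ * g) = ζ * f.1 i g := by
  rw [LinearMap.mem_ker, LinearMap.sub_apply, LinearMap.smul_apply, Module.End.one_apply,
    sub_eq_zero]
  constructor
  · intro h i g
    rw [← permTr_apply D k H σ hσ f i g, h]
    rfl
  · intro h
    apply Subtype.ext
    funext i g
    rw [permTr_apply, h]
    rfl

/-- A `θ σ`-eigenfunction of the translation by `σ` is `θ`-equivariant under `U = H ⟨σ⟩`. -/
theorem equivariant_of_mem_ker (σ : G) (hσ : ∀ h ∈ H, σ * h * σ⁻¹ ∈ H)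
    (hσU : σ ∈ U) (hgen : ∀ u ∈ U, ∃ n : ℤ, σ ^ n * u ∈ H) (θ : U →* kˣ)
    (hθ : ∀ u : U, (u : G) ∈ H → θ u = 1) (f : permMod D k H)
    (hf : f ∈ LinearMap.ker (permTr D k H σ hσ - ((θ ⟨σ, hσU⟩ : kˣ) : k) • 1)) (i : ι) (u : U)
    (g : G) : f.1 i ((u : G) * g) = ((θ u : kˣ) : k) * f.1 i g := by
  rw [mem_ker_permTr_sub_iff] at hf
  have h1 : (⟨σ, hσU⟩ : U) ∈ eqSub k θ (f.1 i) := fun g => hf i g
  have h2 : ∀ h : U, (h : G) ∈ H → h ∈ eqSub k θ (f.1 i) := by
    intro h hh g
    rw [hθ h hh, Units.val_one, one_mul]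
    exact (f.2 i).1 _ hh g
  obtain ⟨n, hn⟩ := hgen u u.2
  have h3 : u = (⟨σ, hσU⟩ : U) ^ (-n) * ⟨σ ^ n * u, U.mul_mem (U.zpow_mem hσU n) u.2⟩ := by
    apply Subtype.ext
    rw [Subgroup.coe_mul, Subgroup.coe_zpow]
    show (u : G) = σ ^ (-n) * (σ ^ n * u)
    rw [← mul_assoc, ← zpow_add, neg_add_cancel, zpow_zero, one_mul]
  have h4 : u ∈ eqSub k θ (f.1 i) := by
    rw [h3]
    exact (eqSub k θ (f.1 i)).mul_mem ((eqSub k θ (f.1 i)).zpow_mem h1 _) (h2 _ hn)
  exact h4 g

/-- The `θ σ`-eigenspace of the translation by `σ` on the `k`-valued functions on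
`⊔_i H \ G / D_i` is the product of the `D_i`-invariants of the coinduced module of `k(θ)`. -/
noncomputable def kerPermTrEquiv (hHU : H ≤ U) (σ : G) (hσ : ∀ h ∈ H, σ * h * σ⁻¹ ∈ H)
    (hσU : σ ∈ U) (hgen : ∀ u ∈ U, ∃ n : ℤ, σ ^ n * u ∈ H) (θ : U →* kˣ)
    (hθ : ∀ u : U, (u : G) ∈ H → θ u = 1) :
    LinearMap.ker (permTr D k H σ hσ - ((θ ⟨σ, hσU⟩ : kˣ) : k) • 1) ≃ₗ[k]
      (∀ i, Mackey.fixedFun k θ (D i)) where
  toFun x := fun i => ⟨x.1.1 i, fun u h =>
    equivariant_of_mem_ker D k H σ hσ hσU hgen θ hθ x.1 x.2 i u h,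
    fun d hd h => (x.1.2 i).2 d hd h⟩
  map_add' _ _ := rfl
  map_smul' _ _ := rfl
  invFun y := ⟨⟨fun i => (y i).1, fun i => ⟨fun h hh g => by
      have := (y i).2.1 ⟨h, hHU hh⟩ g
      rw [hθ _ hh, Units.val_one, one_mul] at this
      exact this, fun d hd g => (y i).2.2 d hd g⟩⟩, by
      rw [mem_ker_permTr_sub_iff]
      intro i g
      exact (y i).2.1 ⟨σ, hσU⟩ g⟩
  left_inv _ := rfl
  right_inv _ := rfl

/-- **The Mackey count for the permutation lattice.** -/
theorem finrank_ker_permTr [Fintype ι] (hHU : H ≤ U) (σ : G) (hσ : ∀ h ∈ H, σ * h * σ⁻¹ ∈ H)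
    (hσU : σ ∈ U) (hgen : ∀ u ∈ U, ∃ n : ℤ, σ ^ n * u ∈ H) (θ : U →* kˣ)
    (hθ : ∀ u : U, (u : G) ∈ H → θ u = 1)
    [∀ i, Finite (DoubleCoset.Quotient (U : Set G) (D i : Set G))] :
    finrank k (LinearMap.ker (permTr D k H σ hσ - ((θ ⟨σ, hσU⟩ : kˣ) : k) • 1))
      = ∑ i, Nat.card (Mackey.Good θ (D i)) := by
  have hfin : ∀ i, Module.Finite k (Mackey.fixedFun k θ (D i)) := fun i =>
    Module.Finite.equiv (Mackey.fixedFunEquiv k θ (D i)).symm
  rw [(kerPermTrEquiv D k H hHU σ hσ hσU hgen θ hθ).finrank_eq, Module.finrank_pi_fintype]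
  refine Finset.sum_congr rfl fun i _ => ?_
  rw [Mackey.finrank_fixedFun, Module.finrank_self, one_mul]

/-- The eigenspace dimension of the translation on the permutation lattice: the number of
double cosets `U g D_i` on which `θ` is trivial. -/
theorem eigDim_permTr [Fintype ι] (hHU : H ≤ U) (σ : G) (hσ : ∀ h ∈ H, σ * h * σ⁻¹ ∈ H)
    (hσU : σ ∈ U) (hgen : ∀ u ∈ U, ∃ n : ℤ, σ ^ n * u ∈ H) (θ : U →* kˣ)
    (hθ : ∀ u : U, (u : G) ∈ H → θ u = 1)
    [∀ i, Finite (DoubleCoset.Quotient (H : Set G) (D i : Set G))]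
    [∀ i, Finite (DoubleCoset.Quotient (U : Set G) (D i : Set G))] :
    eigDim k (permTr D ℤ H σ hσ) ((θ ⟨σ, hσU⟩ : kˣ) : k) = ∑ i, Nat.card (Mackey.Good θ (D i)) := by
  rw [eigDim_permTr_eq, finrank_ker_permTr D k H hHU σ hσ hσU hgen θ hθ]

end Count

end Fermat.Agent.TW.EC.UPerm
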