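import Mathlib
import Fermat.Agent.TW.EC.SUnitQb
import Fermat.Agent.TW.EC.PermMod
import Fermat.Agent.TW.EC.InfPlaces
import Fermat.Agent.Lib.LinAlg.LatticeEigen
import Fermat.Agent.PT.LevelTwist

/-!
# TW (EC): the equivariant `S`-unit count modulo `p`  (brick (χ-U))

`K ⊆ ℚ̄` a number field, `σ ∈ G_ℚ` with `σ K ⊆ K` and `σ ^ m = 1` on `K`, `p ∤ m`,
`U = G_K ⟨σ⟩`, `θ : U → kˣ` a character trivial on `G_K`, `k` a field of characteristic `p`.  Then

  `dim_k ker (σ ⊗ k - θ σ  on  k ⊗ E_{K,S}) + [θ = 1]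
      ≤ ∑_{v ∈ S ∪ ∞} #{x ∈ U \ G_ℚ / D_v | θ = 1 on U ∩ g D_v g⁻¹} + [θ = ω|_U]`.

(`finrank_ker_sUnitsAut_le`; `Mackey.Good θ D` is the set of good double cosets.)  The proof
compares the lattice `E_{K,S} / torsion × ℤ` with the permutation lattice on the places of `K`
above `S ∪ ∞` through the lattice lemma `LatticeEigen.finrank_eigenspace_eq_of_finrank_fixed_eq`:
both have the same ranks of fixed points under all powers of `σ` by Dirichlet's `S`-unit theorem
for the fixed fields.
-/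

set_option autoImplicit false
set_option linter.style.haveILetI false

namespace Fermat.Agent.TW.EC

open scoped Pointwise
open IsDedekindDomain NumberField Module TensorProduct

local notation "Qb" => AlgebraicClosure ℚ
local notation "GQ" => (AlgebraicClosure ℚ ≃ₐ[ℚ] AlgebraicClosure ℚ)

attribute [local instance] Fermat.Agent.Lib.FrobeniusExists.isAlgClosure_rat
  Fermat.Agent.Lib.FrobeniusExists.isGalois_rat

/-! ### Galois theory of `K` and its fixed subfields -/

section Galois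

variable {K : IntermediateField ℚ Qb} [FiniteDimensional ℚ K] {σ : GQ}

/-- If `σ K ⊆ K` then `σ⁻¹ K ⊆ K` (`K` finite over `ℚ`). -/
theorem inv_apply_mem_of_forall_mem (hσ : ∀ x ∈ K, σ x ∈ K) : ∀ x ∈ K, σ⁻¹ x ∈ K := by
  intro x hx
  let f : K →ₗ[ℚ] K :=
    { toFun := fun y => ⟨σ y, hσ y y.2⟩
      map_add' := fun a b => Subtype.ext (map_add σ _ _)
      map_smul' := fun c a => Subtype.ext (σ.toLinearMap.map_smul c (a : Qb)) }
  have hinj : Function.Injective f := fun a b h =>
    Subtype.ext (σ.injective (congrArg Subtype.val h))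
  obtain ⟨y, hy⟩ := (LinearMap.injective_iff_surjective.mp hinj) ⟨x, hx⟩
  have h1 : σ (y : Qb) = x := congrArg Subtype.val hy
  have h2 : σ⁻¹ x = y := by
    rw [← h1]
    exact σ.symm_apply_apply _
  rw [h2]
  exact y.2

/-- If `σ K ⊆ K` then `σ` normalises `Gal(ℚ̄/K)`. -/
theorem conj_mem_fixingSubgroup (hσ : ∀ x ∈ K, σ x ∈ K) :
    ∀ h ∈ K.fixingSubgroup, σ * h * σ⁻¹ ∈ K.fixingSubgroup := by
  intro h hh
  rw [IntermediateField.mem_fixingSubgroup_iff] at hh ⊢
  intro x hx
  rw [AlgEquiv.mul_apply, AlgEquiv.mul_apply, hh _ (inv_apply_mem_of_forall_mem hσ x hx)]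
  exact σ.apply_symm_apply x

variable (K) in
theorem finiteIndex_fixingSubgroup : K.fixingSubgroup.FiniteIndex := ⟨by
  rw [← IntermediateField.finrank_eq_fixingSubgroup_index Qb K]
  exact Module.finrank_pos.ne'⟩

variable (K) in
/-- The Galois group of `ℚ̄` over the subfield of `K` fixed by `τ` is `Gal(ℚ̄/K) ⟨τ⟩`. -/
theorem fixingSubgroup_inf_fixedField_zpowers (τ : GQ) :
    (K ⊓ IntermediateField.fixedField (Subgroup.zpowers τ)).fixingSubgroup
      = K.fixingSubgroup ⊔ Subgroup.zpowers τ := by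
  set M := K.fixingSubgroup ⊔ Subgroup.zpowers τ with hM
  have hopen : IsOpen (M : Set GQ) :=
    Subgroup.isOpen_mono (le_sup_left : K.fixingSubgroup ≤ M) K.fixingSubgroup_isOpen
  have hclosed : IsClosed (M : Set GQ) := Subgroup.isClosed_of_isOpen M hopen
  have hfix : IntermediateField.fixedField M
      = K ⊓ IntermediateField.fixedField (Subgroup.zpowers τ) := by
    ext x
    rw [IntermediateField.mem_fixedField_iff, IntermediateField.mem_inf,
      IntermediateField.mem_fixedField_iff, Fermat.Agent.PT.Kummer.mem_iff_forall_apply_eq]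
    constructor
    · intro h
      exact ⟨fun g hg => h g (Subgroup.mem_sup_left hg), fun g hg => h g (Subgroup.mem_sup_right hg)⟩
    · rintro ⟨h1, h2⟩ g hg
      let stab : Subgroup GQ :=
        { carrier := {g | g x = x}
          mul_mem' := fun {a b} ha hb => by
            show (a * b) x = x
            rw [AlgEquiv.mul_apply, hb, ha]
          one_mem' := rfl
          inv_mem' := fun {a} ha => by
            show a⁻¹ x = x
            have : a⁻¹ (a x) = x := a.symm_apply_apply x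
            rwa [ha] at this }
      exact (sup_le (fun g hg => h1 g hg) (fun g hg => h2 g hg) : M ≤ stab) hg
  rw [← hfix]
  exact InfiniteGalois.fixingSubgroup_fixedField (⟨M, hclosed⟩ : ClosedSubgroup GQ)

end Galois

/-! ### Dirichlet's `S`-unit theorem in double coset form -/

/-- The decomposition groups at the places in `S ∪ {∞}`. -/
noncomputable def placeGroups (S : Finset Nat.Primes) (A₀ : Nat.Primes → ValuationSubring Qb) :
    Option ↥S → Subgroup GQ
  | none => Subgroup.zpowers complexConjugation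
  | some q => (A₀ q.1).decompositionSubgroup ℚ

/-- `rank E_{L,S} + 1 = ∑_{v ∈ S ∪ ∞} #(G_L \ G_ℚ / D_v)`. -/
theorem finrank_sUnits_add_one_eq_sum (L : IntermediateField ℚ Qb) [NumberField L]
    (S : Finset Nat.Primes) (A₀ : Nat.Primes → ValuationSubring Qb)
    (hA₀ : ∀ q ∈ S, (A₀ q).LiesOverPrime q) :
    finrank ℤ (Additive (sUnits L S)) + 1
      = ∑ i, Nat.card (DoubleCoset.Quotient (L.fixingSubgroup : Set GQ)
          (placeGroups S A₀ i : Set GQ)) := by
  rw [finrank_sUnits_add_one, InfPlaces.card_infinitePlace_eq,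
    Fermat.Agent.PT.G.card_primesOver_eq_sum_doubleCoset L S A₀ hA₀, Fintype.sum_option]
  congr 1
  exact (Finset.sum_coe_sort S (fun q => Nat.card (DoubleCoset.Quotient
    (L.fixingSubgroup : Set GQ) ((A₀ q).decompositionSubgroup ℚ : Set GQ)))).symm

/-! ### The lattice `E_{K,S} / torsion` and its fixed ranks -/

theorem map_mem_torsion_int {M N : Type*} [AddCommGroup M] [AddCommGroup N] (f : M →ₗ[ℤ] N)
    {x : M} (hx : x ∈ Submodule.torsion ℤ M) : f x ∈ Submodule.torsion ℤ N := by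
  rw [Submodule.mem_torsion_iff] at hx ⊢
  obtain ⟨a, ha⟩ := hx
  refine ⟨a, ?_⟩
  rw [Submonoid.smul_def] at ha ⊢
  rw [← map_smul, ha, map_zero]

theorem mem_torsion_int_iff {M : Type*} [AddCommGroup M] (x : M) :
    x ∈ Submodule.torsion ℤ M ↔ ∃ n : ℤ, n ≠ 0 ∧ n • x = 0 := by
  rw [Submodule.mem_torsion_iff]
  constructor
  · rintro ⟨a, ha⟩
    exact ⟨(a : ℤ), nonZeroDivisors.coe_ne_zero a, ha⟩
  · rintro ⟨n, hn, hx⟩
    exact ⟨⟨n, mem_nonZeroDivisors_of_ne_zero hn⟩, hx⟩

/-- Subfields of a number field inside `ℚ̄` are number fields. -/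
theorem numberField_of_le_numberField {K L : IntermediateField ℚ Qb} [NumberField K] (h : L ≤ K) :
    NumberField L :=
  { to_charZero := inferInstance
    to_finiteDimensional :=
      Module.Finite.of_injective (IntermediateField.inclusion h).toLinearMap
        (IntermediateField.inclusion h).injective }

section Fixed

variable (K : IntermediateField ℚ Qb) (S : Finset Nat.Primes) (σ : GQ)
  (hσ : ∀ x ∈ K, σ x ∈ K)

/-- `E_{K,S}` modulo torsion. -/
abbrev sLat : Type := Additive (sUnits K S) ⧸ Submodule.torsion ℤ (Additive (sUnits K S))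

/-- The action of `σ` on `E_{K,S}` modulo torsion. -/
noncomputable def sLatAut : sLat K S →ₗ[ℤ] sLat K S :=
  Submodule.mapQ _ _ (sUnitsAut K S σ hσ) (fun _ hx => map_mem_torsion_int _ hx)

theorem sLatAut_mk (x : Additive (sUnits K S)) :
    sLatAut K S σ hσ (Submodule.Quotient.mk x) = Submodule.Quotient.mk (sUnitsAut K S σ hσ x) :=
  rfl

theorem sLatAut_pow (j : ℕ) :
    sLatAut K S σ hσ ^ j = sLatAut K S (σ ^ j) (pow_mem_of_forall_mem hσ j) := by
  unfold sLatAut
  rw [← Submodule.mapQ_pow]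
  congr 1
  exact sUnitsAut_pow K S σ hσ j

theorem sLatAut_pow_mk (j : ℕ) (x : Additive (sUnits K S)) :
    (sLatAut K S σ hσ ^ j) (Submodule.Quotient.mk x)
      = Submodule.Quotient.mk (sUnitsAut K S (σ ^ j) (pow_mem_of_forall_mem hσ j) x) := by
  rw [sLatAut_pow]
  rfl

/-- An element of `ℚ̄` fixed by `τ` lies in the fixed field of `⟨τ⟩`. -/
theorem mem_fixedField_zpowers_of_apply_eq (τ : GQ) (x : Qb) (h : τ x = x) :
    x ∈ IntermediateField.fixedField (Subgroup.zpowers τ) := by
  rw [IntermediateField.mem_fixedField_iff]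
  let stab : Subgroup GQ :=
    { carrier := {g | g x = x}
      mul_mem' := fun {a b} ha hb => by
        show (a * b) x = x
        rw [AlgEquiv.mul_apply, hb, ha]
      one_mem' := rfl
      inv_mem' := fun {a} ha => by
        show a⁻¹ x = x
        have : a⁻¹ (a x) = x := a.symm_apply_apply x
        rwa [ha] at this }
  have hle : Subgroup.zpowers τ ≤ stab := (Subgroup.zpowers_le).mpr h
  exact fun g hg => hle hg

variable [NumberField K]

/-- **Fixed ranks.**  The rank of the `σ ^ j`-fixed part of `E_{K,S} / torsion` is the rank of the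
`S`-units of the fixed field. -/
theorem finrank_ker_sLatAut_pow (j : ℕ) :
    finrank ℤ (LinearMap.ker (sLatAut K S σ hσ ^ j - 1))
      = finrank ℤ (Additive (sUnits
          (K ⊓ IntermediateField.fixedField (Subgroup.zpowers (σ ^ j))) S)) := by
  set L : IntermediateField ℚ Qb := K ⊓ IntermediateField.fixedField (Subgroup.zpowers (σ ^ j))
    with hL
  have hLK : L ≤ K := inf_le_left
  haveI : NumberField L := numberField_of_le_numberField hLK
  set T := Submodule.torsion ℤ (Additive (sUnits K S)) with hT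
  -- `σ ^ j` fixes the image of `E_{L,S}`
  have hfixL : ∀ x : Additive (sUnits L S),
      sUnitsAut K S (σ ^ j) (pow_mem_of_forall_mem hσ j) (sUnitsIncl hLK S x)
        = sUnitsIncl hLK S x := by
    intro x
    apply sUnits_ext
    rw [sUnitsAut_apply, sUnitsIncl_apply]
    have hx : (((Additive.toMul x : sUnits L S) : Qbˣ) : Qb) ∈ L := (Additive.toMul x).2.1
    have hx2 := (IntermediateField.mem_inf.mp hx).2
    rw [IntermediateField.mem_fixedField_iff] at hx2
    exact hx2 _ (Subgroup.mem_zpowers _)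
  have hmem : ∀ x : Additive (sUnits L S),
      (T.mkQ ∘ₗ sUnitsIncl hLK S) x ∈ LinearMap.ker (sLatAut K S σ hσ ^ j - 1) := by
    intro x
    rw [LinearMap.mem_ker, LinearMap.sub_apply, Module.End.one_apply, sub_eq_zero]
    show (sLatAut K S σ hσ ^ j) (Submodule.Quotient.mk (sUnitsIncl hLK S x))
      = Submodule.Quotient.mk (sUnitsIncl hLK S x)
    rw [sLatAut_pow_mk, hfixL]
  set f : Additive (sUnits L S) →ₗ[ℤ] LinearMap.ker (sLatAut K S σ hσ ^ j - 1) :=
    LinearMap.codRestrict _ (T.mkQ ∘ₗ sUnitsIncl hLK S) hmem with hf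
  refine (finrank_eq_of_torsion f ?_ ?_).symm
  · intro x hx
    have h1 : (T.mkQ ∘ₗ sUnitsIncl hLK S) x = 0 := congrArg Subtype.val hx
    have h2 : sUnitsIncl hLK S x ∈ T := by
      rw [← Submodule.Quotient.mk_eq_zero]
      exact h1
    obtain ⟨n, hn, hnx⟩ := (mem_torsion_int_iff _).mp h2
    refine ⟨n, hn, sUnitsIncl_injective hLK S ?_⟩
    rw [map_smul, hnx, map_zero]
  · intro y
    obtain ⟨e, he⟩ := Submodule.mkQ_surjective T y.1
    have hy := y.2
    rw [LinearMap.mem_ker, LinearMap.sub_apply, Module.End.one_apply, sub_eq_zero, ← he] at hy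
    have hy' : (sLatAut K S σ hσ ^ j) (Submodule.Quotient.mk e) = Submodule.Quotient.mk e := hy
    rw [sLatAut_pow_mk, Submodule.Quotient.eq] at hy'
    obtain ⟨n, hn, hne⟩ := (mem_torsion_int_iff _).mp hy'
    refine ⟨n, hn, ?_⟩
    have hfix : sUnitsAut K S (σ ^ j) (pow_mem_of_forall_mem hσ j) (n • e) = n • e := by
      have h4 : n • (sUnitsAut K S (σ ^ j) (pow_mem_of_forall_mem hσ j) e - e) = 0 := hne
      rw [zsmul_sub, sub_eq_zero] at h4
      rw [map_zsmul, h4]
    have hval : (((Additive.toMul (n • e) : sUnits K S) : Qbˣ) : Qb) ∈ L := by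
      refine IntermediateField.mem_inf.mpr ⟨(Additive.toMul (n • e)).2.1, ?_⟩
      apply mem_fixedField_zpowers_of_apply_eq
      rw [← sUnitsAut_apply K S (σ ^ j) (pow_mem_of_forall_mem hσ j), hfix]
    obtain ⟨x, hx⟩ := (mem_range_sUnitsIncl_iff hLK S (n • e)).mpr hval
    refine ⟨x, Subtype.ext ?_⟩
    show T.mkQ (sUnitsIncl hLK S x) = n • y.1
    rw [hx, ← he, map_smul]

end Fixed

/-! ### Adding the trivial lattice `ℤ` -/

section ProdInt

variable {M : Type*} [AddCommGroup M] (a : M →ₗ[ℤ] M)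

theorem prodMap_id_pow_apply (j : ℕ) (x : M × ℤ) :
    ((a.prodMap (LinearMap.id : ℤ →ₗ[ℤ] ℤ)) ^ j) x = ((a ^ j) x.1, x.2) := by
  induction j generalizing x with
  | zero => rfl
  | succ n ih =>
    rw [pow_succ, Module.End.mul_apply, ih, pow_succ, Module.End.mul_apply]
    rfl

/-- The fixed points of `(a × id) ^ j` are `ker (a ^ j - 1) × ℤ`. -/
noncomputable def kerProdMapIdEquiv (j : ℕ) :
    LinearMap.ker ((a.prodMap (LinearMap.id : ℤ →ₗ[ℤ] ℤ)) ^ j - 1)
      ≃ₗ[ℤ] LinearMap.ker (a ^ j - 1) × ℤ where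
  toFun x := (⟨x.1.1, by
    have h := x.2
    rw [LinearMap.mem_ker, LinearMap.sub_apply, Module.End.one_apply, sub_eq_zero,
      prodMap_id_pow_apply] at h
    rw [LinearMap.mem_ker, LinearMap.sub_apply, Module.End.one_apply, sub_eq_zero]
    exact congrArg Prod.fst h⟩, x.1.2)
  invFun y := ⟨(y.1.1, y.2), by
    have h := y.1.2
    rw [LinearMap.mem_ker, LinearMap.sub_apply, Module.End.one_apply, sub_eq_zero] at h
    rw [LinearMap.mem_ker, LinearMap.sub_apply, Module.End.one_apply, sub_eq_zero,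
      prodMap_id_pow_apply]
    exact Prod.ext h rfl⟩
  map_add' _ _ := rfl
  map_smul' _ _ := rfl
  left_inv _ := rfl
  right_inv _ := rfl

theorem finrank_ker_prodMap_id_pow [Module.Finite ℤ M] (j : ℕ) :
    finrank ℤ (LinearMap.ker ((a.prodMap (LinearMap.id : ℤ →ₗ[ℤ] ℤ)) ^ j - 1))
      = finrank ℤ (LinearMap.ker (a ^ j - 1)) + 1 := by
  rw [(kerProdMapIdEquiv a j).finrank_eq, Fermat.Agent.PT.SUnit.finrank_prod_int,
    Module.finrank_self]

end ProdInt

/-! ### Comparison with the permutation lattice -/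

section Compare3

variable (K : IntermediateField ℚ Qb) (S : Finset Nat.Primes) (σ : GQ)
  (hσ : ∀ x ∈ K, σ x ∈ K)

theorem sLatAut_eq_id (h : ∀ x ∈ K, σ x = x) : sLatAut K S σ hσ = LinearMap.id := by
  refine LinearMap.ext fun x => ?_
  obtain ⟨e, rfl⟩ := Submodule.mkQ_surjective _ x
  show Submodule.Quotient.mk (sUnitsAut K S σ hσ e) = Submodule.Quotient.mk e
  rw [sUnitsAut_eq_id K S σ hσ h]
  rfl

variable [NumberField K]

theorem finite_doubleCoset_placeGroups (H : Subgroup GQ) (hH : K.fixingSubgroup ≤ H)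
    (A₀ : Nat.Primes → ValuationSubring Qb) (i : Option ↥S) :
    Finite (DoubleCoset.Quotient (H : Set GQ) (placeGroups S A₀ i : Set GQ)) := by
  haveI : K.fixingSubgroup.FiniteIndex := finiteIndex_fixingSubgroup K
  haveI : H.FiniteIndex := Subgroup.finiteIndex_of_le hH
  exact Mackey.finite_doubleCosetQuotient_of_finiteIndex H _

open Classical in
/-- **The lattice comparison.**  For `ζ : k`, `char k = p ∤ m`, `σ ^ m = 1` on `K`: the
`ζ`-eigenspace of `σ` on `k ⊗ (E_{K,S} / torsion)`, plus one if `ζ = 1`, has the dimension of the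
`ζ`-eigenspace of the translation by `σ` on the permutation lattice of the places above
`S ∪ ∞`. -/
theorem eigDim_sLatAut_add (p : ℕ) [Fact p.Prime] (k : Type) [Field k] [CharP k p]
    (m : ℕ) (hm : 0 < m) (hσm : ∀ x ∈ K, (σ ^ m) x = x) (hpm : ¬ p ∣ m)
    (A₀ : Nat.Primes → ValuationSubring Qb) (hA₀ : ∀ q ∈ S, (A₀ q).LiesOverPrime q) (ζ : k) :
    eigDim k (sLatAut K S σ hσ) ζ + (if ζ = 1 then 1 else 0)
      = eigDim k (UPerm.permTr (placeGroups S A₀) ℤ K.fixingSubgroup σ
          (conj_mem_fixingSubgroup hσ)) ζ := by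
  haveI : ∀ i, Finite (DoubleCoset.Quotient (K.fixingSubgroup : Set GQ)
      (placeGroups S A₀ i : Set GQ)) :=
    fun i => finite_doubleCoset_placeGroups K S _ le_rfl A₀ i
  set a₁ := (sLatAut K S σ hσ).prodMap (LinearMap.id : ℤ →ₗ[ℤ] ℤ) with ha₁
  set a₂ := UPerm.permTr (placeGroups S A₀) ℤ K.fixingSubgroup σ (conj_mem_fixingSubgroup hσ)
    with ha₂
  have h₁ : a₁ ^ m = 1 := by
    refine LinearMap.ext fun x => ?_
    rw [ha₁, prodMap_id_pow_apply, sLatAut_pow, sLatAut_eq_id K S (σ ^ m) _ hσm]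
    rfl
  have hσmK : σ ^ m ∈ K.fixingSubgroup := by
    rw [IntermediateField.mem_fixingSubgroup_iff]
    exact hσm
  have h₂ : a₂ ^ m = 1 := by
    refine LinearMap.ext fun f => Subtype.ext (funext fun i => funext fun g => ?_)
    rw [ha₂, UPerm.permTr_pow_apply]
    exact (f.2 i).1 _ hσmK g
  have hfix : ∀ j : ℕ, finrank ℤ (LinearMap.ker (a₁ ^ j - 1))
      = finrank ℤ (LinearMap.ker (a₂ ^ j - 1)) := by
    intro j
    haveI : NumberField ↥(K ⊓ IntermediateField.fixedField (Subgroup.zpowers (σ ^ j))) :=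
      numberField_of_le_numberField (inf_le_left : _ ≤ K)
    haveI : ∀ i, Finite (DoubleCoset.Quotient
        ((K.fixingSubgroup ⊔ Subgroup.zpowers (σ ^ j) : Subgroup GQ) : Set GQ)
        (placeGroups S A₀ i : Set GQ)) :=
      fun i => finite_doubleCoset_placeGroups K S _ le_sup_left A₀ i
    rw [ha₁, finrank_ker_prodMap_id_pow, finrank_ker_sLatAut_pow,
      finrank_sUnits_add_one_eq_sum _ S A₀ hA₀, fixingSubgroup_inf_fixedField_zpowers, ha₂,
      UPerm.finrank_ker_permTr_pow, UPerm.finrank_permMod]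
  have key := Fermat.Agent.Lib.LatticeEigen.finrank_eigenspace_eq_of_finrank_fixed_eq a₁ a₂ m hm
    h₁ h₂ hfix p hpm k ζ
  have key' : eigDim k a₁ ζ = eigDim k a₂ ζ := key
  rw [← key', ha₁, eigDim_prodMap, eigDim_id_int]

end Compare3

/-! ### The torsion of `E_{K,S}` -/

section Torsion

variable (K : IntermediateField ℚ Qb) (S : Finset Nat.Primes)

/-- The value in `ℚ̄` of an element of `Additive (sUnits K S)`. -/
noncomputable def sVal (x : Additive (sUnits K S)) : Qb :=
  (((Additive.toMul x : sUnits K S) : Qbˣ) : Qb)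

theorem sVal_zero : sVal K S 0 = 1 := rfl

theorem sVal_add (x y : Additive (sUnits K S)) : sVal K S (x + y) = sVal K S x * sVal K S y := rfl

theorem sVal_mem (x : Additive (sUnits K S)) : sVal K S x ∈ K := (Additive.toMul x).2.1

theorem sVal_ne_zero (x : Additive (sUnits K S)) : sVal K S x ≠ 0 :=
  ((Additive.toMul x : sUnits K S) : Qbˣ).ne_zero

theorem sVal_nsmul (n : ℕ) (x : Additive (sUnits K S)) : sVal K S (n • x) = sVal K S x ^ n := by
  induction n with
  | zero => rw [zero_smul, pow_zero]; rfl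
  | succ n ih => rw [succ_nsmul, sVal_add, ih, pow_succ]

theorem sVal_neg (x : Additive (sUnits K S)) : sVal K S (-x) = (sVal K S x)⁻¹ := by
  have h : sVal K S (-x) * sVal K S x = 1 := by
    rw [← sVal_add, neg_add_cancel]; rfl
  exact eq_inv_of_mul_eq_one_left h

theorem sVal_zsmul (n : ℤ) (x : Additive (sUnits K S)) : sVal K S (n • x) = sVal K S x ^ n := by
  obtain ⟨n, rfl | rfl⟩ := n.eq_nat_or_neg
  · rw [natCast_zsmul, sVal_nsmul, zpow_natCast]
  · rw [neg_smul, sVal_neg, natCast_zsmul, sVal_nsmul, zpow_neg, zpow_natCast]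

theorem sVal_injective : Function.Injective (sVal K S) := fun _ _ h => sUnits_ext h

theorem sVal_sUnitsAut (σ : GQ) (hσ : ∀ x ∈ K, σ x ∈ K) (x : Additive (sUnits K S)) :
    sVal K S (sUnitsAut K S σ hσ x) = σ (sVal K S x) := rfl

variable [NumberField K]

instance finite_torsion_sUnits : Finite (Submodule.torsion ℤ (Additive (sUnits K S))) :=
  Module.finite_of_fg_torsion _ (Submodule.torsion_isTorsion (R := ℤ))

/-- The torsion of `E_{K,S}` (the roots of unity of `K`) is generated by one element. -/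
theorem exists_torsion_generator :
    ∃ t₀ : Submodule.torsion ℤ (Additive (sUnits K S)), ∀ t, ∃ n : ℤ, t = n • t₀ := by
  set T := Submodule.torsion ℤ (Additive (sUnits K S)) with hT
  let φ : Multiplicative T →* Qb :=
    { toFun := fun t => sVal K S (Multiplicative.toAdd t).1
      map_one' := rfl
      map_mul' := fun _ _ => rfl }
  have hφ : Function.Injective φ := by
    intro a b hab
    apply Multiplicative.toAdd.injective
    exact Subtype.ext (sVal_injective K S hab)
  haveI : Finite (Multiplicative T) := inferInstanceAs (Finite T)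
  haveI := isCyclic_of_injective_ringHom φ hφ
  obtain ⟨g, hg⟩ := IsCyclic.exists_generator (α := Multiplicative T)
  refine ⟨Multiplicative.toAdd g, fun t => ?_⟩
  obtain ⟨n, hn⟩ := Subgroup.mem_zpowers_iff.mp (hg (Multiplicative.ofAdd t))
  exact ⟨n, (congrArg Multiplicative.toAdd hn).symm⟩

end Torsion

/-! ### Characters of `U = H ⟨σ⟩` trivial on `H` -/

/-- A character of `U = H ⟨σ⟩` trivial on `H` is determined by its value at `σ`. -/
theorem hom_eq_of_apply_eq {G : Type*} [Group G] {U H : Subgroup G} {M : Type*} [CommGroup M]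
    (σ : G) (hσU : σ ∈ U) (hgen : ∀ u ∈ U, ∃ n : ℤ, σ ^ n * u ∈ H) (θ θ' : U →* M)
    (hθ : ∀ u : U, (u : G) ∈ H → θ u = 1) (hθ' : ∀ u : U, (u : G) ∈ H → θ' u = 1)
    (h : θ ⟨σ, hσU⟩ = θ' ⟨σ, hσU⟩) : θ = θ' := by
  refine MonoidHom.ext fun u => ?_
  obtain ⟨n, hn⟩ := hgen u u.2
  have hmem : (((⟨σ, hσU⟩ : U) ^ n * u : U) : G) ∈ H := by
    rw [Subgroup.coe_mul, Subgroup.coe_zpow]
    exact hn
  have h1 := hθ _ hmem
  have h2 := hθ' _ hmem
  rw [map_mul, map_zpow] at h1 h2
  rw [eq_inv_of_mul_eq_one_right h1, eq_inv_of_mul_eq_one_right h2, h]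

/-! ### The equivariant `S`-unit count -/

section Main

open Classical in
/-- **(χ-U): the equivariant `S`-unit count modulo `p`.**
`K ⊆ ℚ̄` a number field, `σ K ⊆ K`, `σ ^ m = 1` on `K` with `p ∤ m`, `U = G_K ⟨σ⟩`, `θ : U → kˣ`
trivial on `G_K`.  Then
`dim_k ker (σ ⊗ k - θ σ | k ⊗ E_{K,S}) + [θ = 1] ≤ ∑_{v ∈ S ∪ ∞} #Good θ D_v + [θ = ω|_U]`. -/
theorem finrank_ker_sUnitsAut_le (p : ℕ) [Fact p.Prime] (k : Type) [Field k] [Algebra (ZMod p) k]
    (K : IntermediateField ℚ Qb) [NumberField K] (S : Finset Nat.Primes) (σ : GQ)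
    (hσ : ∀ x ∈ K, σ x ∈ K) (m : ℕ) (hm : 0 < m) (hσm : ∀ x ∈ K, (σ ^ m) x = x) (hpm : ¬ p ∣ m)
    (U : Subgroup GQ) (hKU : K.fixingSubgroup ≤ U) (hσU : σ ∈ U)
    (hgen : ∀ u ∈ U, ∃ n : ℤ, σ ^ n * u ∈ K.fixingSubgroup)
    (θ : U →* kˣ) (hθ : ∀ u : U, (u : GQ) ∈ K.fixingSubgroup → θ u = 1)
    (ωU : U →* kˣ)
    (hω : ∀ u : U, (ωU u : k) = algebraMap (ZMod p) k (ExtCitation.cycloChar p (u : GQ) : ZMod p))
    (A₀ : Nat.Primes → ValuationSubring Qb) (hA₀ : ∀ q ∈ S, (A₀ q).LiesOverPrime q) :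
    finrank k (LinearMap.ker ((sUnitsAut K S σ hσ).baseChange k - ((θ ⟨σ, hσU⟩ : kˣ) : k) • 1))
        + (if θ = 1 then 1 else 0)
      ≤ (∑ i, Nat.card (Mackey.Good θ (placeGroups S A₀ i))) + (if θ = ωU then 1 else 0) := by
  have hp : p.Prime := Fact.out
  haveI : CharP k p := charP_of_injective_algebraMap (algebraMap (ZMod p) k).injective p
  haveI : ∀ i, Finite (DoubleCoset.Quotient (K.fixingSubgroup : Set GQ)
      (placeGroups S A₀ i : Set GQ)) :=
    fun i => finite_doubleCoset_placeGroups K S _ le_rfl A₀ i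
  haveI : ∀ i, Finite (DoubleCoset.Quotient (U : Set GQ) (placeGroups S A₀ i : Set GQ)) :=
    fun i => finite_doubleCoset_placeGroups K S _ hKU A₀ i
  set ζ : k := ((θ ⟨σ, hσU⟩ : kˣ) : k) with hζ
  -- the lattice part
  have hC := eigDim_sLatAut_add K S σ hσ p k m hm hσm hpm A₀ hA₀ ζ
  have hP := UPerm.eigDim_permTr (placeGroups S A₀) k K.fixingSubgroup hKU σ
    (conj_mem_fixingSubgroup hσ) hσU hgen θ hθ
  rw [← hζ] at hP
  -- the torsion part
  set E := Additive (sUnits K S) with hE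
  set T := Submodule.torsion ℤ E with hT
  set a := sUnitsAut K S σ hσ with ha
  obtain ⟨t₀, ht₀⟩ := exists_torsion_generator K S
  obtain ⟨c, hc₀⟩ := ht₀ ⟨a t₀.1, map_mem_torsion_int a t₀.2⟩
  have hc₀' : a t₀.1 = c • t₀.1 := congrArg Subtype.val hc₀
  have hc : ∀ t : T, a (T.subtype t) = c • T.subtype t := by
    intro t
    obtain ⟨n, rfl⟩ := ht₀ t
    show a ((n • t₀ : T) : E) = c • ((n • t₀ : T) : E)
    rw [Submodule.coe_smul, map_zsmul, hc₀', smul_comm]
  set N := addOrderOf t₀ with hN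
  have hNpos : 0 < N := addOrderOf_pos t₀
  have hn₀ : (N : ℤ) • t₀ = 0 := by
    rw [natCast_zsmul]
    exact addOrderOf_nsmul_eq_zero t₀
  have hTle := eigDim_le_of_exact (k := k) T.subtype T.mkQ (LinearMap.exact_subtype_mkQ T)
    (Submodule.mkQ_surjective T) a (sLatAut K S σ hσ) (fun _ => rfl) c hc t₀ ht₀ (N : ℤ) hn₀ ζ
  have hmain : eigDim k a ζ = finrank k (LinearMap.ker (a.baseChange k - ζ • 1)) := rfl
  rw [← hmain]
  -- the two indicator comparisons
  have h1 : (if θ = 1 then 1 else 0) ≤ (if ζ = 1 then 1 else 0 : ℕ) := by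
    by_cases hθ1 : θ = 1
    · have : ζ = 1 := by rw [hζ, hθ1]; rfl
      rw [if_pos hθ1, if_pos this]
    · rw [if_neg hθ1]; exact Nat.zero_le _
  have h2 : (if (((N : ℤ) : k) = 0 ∧ ζ = (c : k)) then 1 else 0 : ℕ)
      ≤ (if θ = ωU then 1 else 0) := by
    by_cases hcond : (((N : ℤ) : k) = 0 ∧ ζ = (c : k))
    swap
    · rw [if_neg hcond]; exact Nat.zero_le _
    obtain ⟨hN0, hζc⟩ := hcond
    suffices hθω : θ = ωU by rw [if_pos hθω]; exact le_of_eq_of_le (if_pos ⟨hN0, hζc⟩) le_rfl
    -- a primitive `p`-th root of unity in `K`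
    rw [Int.cast_natCast, CharP.cast_eq_zero_iff k p] at hN0
    obtain ⟨d, hd⟩ := hN0
    have hdpos : 0 < d := by
      rcases Nat.eq_zero_or_pos d with h | h
      · rw [h, mul_zero] at hd; omega
      · exact h
    set z : Qb := sVal K S (d • t₀.1) with hz
    have hzp : z ^ p = 1 := by
      rw [hz, ← sVal_nsmul, ← mul_smul, ← hd]
      have : N • t₀.1 = 0 := by
        have := congrArg Subtype.val (addOrderOf_nsmul_eq_zero t₀)
        exact this
      rw [this]; rfl
    have hz1 : z ≠ 1 := by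
      intro h
      have h0 : d • t₀.1 = 0 := sVal_injective K S h
      have h0' : d • t₀ = 0 := Subtype.ext h0
      have hdvd := addOrderOf_dvd_of_nsmul_eq_zero h0'
      have hle := Nat.le_of_dvd hdpos hdvd
      have h2le : 2 ≤ p := hp.two_le
      have : N = p * d := hd
      nlinarith
    have hprim : IsPrimitiveRoot z p := by
      have := IsPrimitiveRoot.orderOf z
      rwa [orderOf_eq_prime hzp hz1] at this
    have hzK : z ∈ K := sVal_mem K S _
    -- `ω` is trivial on `G_K`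
    have hωK : ∀ u : U, (u : GQ) ∈ K.fixingSubgroup → ωU u = 1 := by
      intro u hu
      have h3 : ExtCitation.cycloChar p (u : GQ) = 1 := by
        rw [Fermat.Agent.PT.Levels.cycloChar_eq_one_iff p (u : GQ) hprim]
        exact (IntermediateField.mem_fixingSubgroup_iff K (u : GQ)).mp hu z hzK
      apply Units.ext
      rw [hω, h3, Units.val_one, map_one, Units.val_one]
    -- `σ z = z ^ c`
    have hσz : σ z = z ^ c := by
      rw [hz, ← sVal_sUnitsAut K S σ hσ, ← sVal_zsmul]
      congr 1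
      show a (d • t₀.1) = c • (d • t₀.1)
      rw [map_nsmul, hc₀', ← natCast_zsmul, ← natCast_zsmul, smul_comm]
    have hσz' := Fermat.Agent.PT.Levels.apply_eq_pow_cycloExp p σ z hzp
    have hcong : ((c : ℤ) : ZMod p) = ((ExtCitation.cycloExp p σ : ℕ) : ZMod p) := by
      have h4 : z ^ (c - (ExtCitation.cycloExp p σ : ℤ)) = 1 := by
        rw [zpow_sub₀ (hprim.ne_zero hp.ne_zero), ← hσz, zpow_natCast, ← hσz',
          div_self]
        rw [hσz]
        exact zpow_ne_zero _ (hprim.ne_zero hp.ne_zero)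
      have h5 := (hprim.zpow_eq_one_iff_dvd _).mp h4
      have h6 := (ZMod.intCast_eq_intCast_iff_dvd_sub (ExtCitation.cycloExp p σ : ℤ) c p).mpr h5
      rw [← h6, Int.cast_natCast]
    have hθσ : θ ⟨σ, hσU⟩ = ωU ⟨σ, hσU⟩ := by
      apply Units.ext
      rw [← hζ, hζc, hω, ExtCitation.coe_cycloChar, ← hcong, map_intCast]
    exact hom_eq_of_apply_eq σ hσU hgen θ ωU hθ hωK hθσ
  omega

end Main

end Fermat.Agent.TW.EC
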