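import Mathlib
import Fermat.Agent.TW.EC.UnitEigen
import Fermat.Agent.TW.EC.UnitDescent

/-!
# TW (EC): the equivariant `S`-unit count, joint form  (brick (χ-U), final statement)

`K ⊆ ℚ̄` a number field, `U ⊇ G_K` a subgroup of `G_ℚ` stabilising `K` with `p ∤ [U : G_K]`,
`θ : U → kˣ` a character trivial on `G_K`, `char k = p`.  Then the joint `θ`-eigenspace of `U` on
`k ⊗ E_{K,S}` satisfies

  `dim_k (k ⊗ E_{K,S})^{U = θ} + [θ = 1]
      ≤ #Good θ ⟨c⟩ + ∑_{q ∈ S} #Good θ D_q + [θ = ω|_U]`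

(`finrank_unitEigen_le`), where `Good θ D` are the double cosets `U g D` with `θ = 1` on
`U ∩ g D g⁻¹` (`Mackey.Good`).  Proof: descent to `K_θ` (`UnitDescent.exists_descent`) and the
cyclic case (`finrank_ker_sUnitsAut_le`).

`finrank_iInf_ker_le_of_ha` is the same statement for any family `a g` of `ℤ`-linear models of
the action of `g ∈ U` on `Additive ((primesOver K S).unit K)` (the shape consumed by
`KummerPsi.finrank_psiChars_theta`).
-/

set_option autoImplicit false
set_option linter.style.haveILetI false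

namespace Fermat.Agent.TW.EC

open scoped Pointwise
open IsDedekindDomain NumberField Module TensorProduct Fermat.Agent.PT.KumBridge

local notation "Qb" => AlgebraicClosure ℚ
local notation "GQ" => (AlgebraicClosure ℚ ≃ₐ[ℚ] AlgebraicClosure ℚ)

/-- The joint `θ`-eigenspace of `U` on `k ⊗ E_{K,S}`. -/
noncomputable def unitEigen (K : IntermediateField ℚ Qb) (S : Finset Nat.Primes) (k : Type) [Field k]
    (U : Subgroup GQ) (hU : ∀ u ∈ U, ∀ x ∈ K, u x ∈ K) (θ : U →* kˣ) :
    Submodule k (k ⊗[ℤ] Additive (sUnits K S)) :=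
  ⨅ u : U, LinearMap.ker ((sUnitsAut K S u.1 (hU u.1 u.2)).baseChange k - (θ u : k) • 1)

theorem unitEigen_def (K : IntermediateField ℚ Qb) (S : Finset Nat.Primes) (k : Type) [Field k]
    (U : Subgroup GQ) (hU : ∀ u ∈ U, ∀ x ∈ K, u x ∈ K) (θ : U →* kˣ) :
    unitEigen K S k U hU θ
      = ⨅ u : U, LinearMap.ker ((sUnitsAut K S u.1 (hU u.1 u.2)).baseChange k - (θ u : k) • 1) :=
  rfl

/-- The sum over `S ∪ {∞}` spelled out. -/
theorem sum_placeGroups (S : Finset Nat.Primes) (A₀ : Nat.Primes → ValuationSubring Qb)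
    (f : Subgroup GQ → ℕ) :
    ∑ i, f (placeGroups S A₀ i)
      = f (Subgroup.zpowers complexConjugation)
        + ∑ q ∈ S, f ((A₀ q).decompositionSubgroup ℚ) := by
  rw [Fintype.sum_option]
  congr 1
  exact Finset.sum_coe_sort S (fun q => f ((A₀ q).decompositionSubgroup ℚ))

open Classical in
/-- **(χ-U), joint form.** -/
theorem finrank_unitEigen_le (p : ℕ) [Fact p.Prime] (k : Type) [Field k] [Algebra (ZMod p) k]
    (K : IntermediateField ℚ Qb) [NumberField K] (S : Finset Nat.Primes) (U : Subgroup GQ)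
    (hKU : K.fixingSubgroup ≤ U) (hU : ∀ u ∈ U, ∀ x ∈ K, u x ∈ K) (θ : U →* kˣ)
    (hθ : ∀ u : U, (u : GQ) ∈ K.fixingSubgroup → θ u = 1)
    (hpU : ¬ p ∣ K.fixingSubgroup.relIndex U)
    (ωU : U →* kˣ)
    (hω : ∀ u : U, (ωU u : k) = algebraMap (ZMod p) k (ExtCitation.cycloChar p (u : GQ) : ZMod p))
    (A₀ : Nat.Primes → ValuationSubring Qb) (hA₀ : ∀ q ∈ S, (A₀ q).LiesOverPrime q) :
    finrank k (unitEigen K S k U hU θ) + (if θ = 1 then 1 else 0)
      ≤ Nat.card (Mackey.Good θ (Subgroup.zpowers complexConjugation))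
        + ∑ q ∈ S, Nat.card (Mackey.Good θ ((A₀ q).decompositionSubgroup ℚ))
        + (if θ = ωU then 1 else 0) := by
  obtain ⟨σ, hgen, hm, hpm, hσm, hfr⟩ := UnitDescent.exists_descent K S U θ p hKU hU hθ hpU
  have hfix : (UnitDescent.kTheta K U θ).fixingSubgroup = θ.ker.map U.subtype :=
    UnitDescent.fixingSubgroup_kTheta K U θ hKU hθ
  have hK'U : (UnitDescent.kTheta K U θ).fixingSubgroup ≤ U := by
    rw [hfix]
    exact UnitDescent.ker_map_le U θ
  have hθ' : ∀ u : U, (u : GQ) ∈ (UnitDescent.kTheta K U θ).fixingSubgroup → θ u = 1 := by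
    intro u hu
    rw [hfix] at hu
    obtain ⟨v, hv, hvu⟩ := hu
    have hvu' : v = u := Subtype.ext hvu
    rw [← hvu']
    exact MonoidHom.mem_ker.mp hv
  have hgen' : ∀ u ∈ U, ∃ n : ℤ,
      (σ : GQ) ^ n * u ∈ (UnitDescent.kTheta K U θ).fixingSubgroup := by
    intro u hu
    obtain ⟨n, hn⟩ := hgen ⟨u, hu⟩
    refine ⟨-(n : ℤ), ?_⟩
    rw [hfix]
    refine ⟨σ ^ (-(n : ℤ)) * ⟨u, hu⟩, ?_, rfl⟩
    show σ ^ (-(n : ℤ)) * ⟨u, hu⟩ ∈ θ.ker
    rw [MonoidHom.mem_ker, map_mul, map_zpow, hn, zpow_neg, zpow_natCast, inv_mul_cancel]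
  have key := finrank_ker_sUnitsAut_le p k (UnitDescent.kTheta K U θ) S σ.1
    (UnitDescent.kTheta_stable θ hU σ.1 σ.2) (orderOf (θ σ)) hm hσm hpm U hK'U σ.2 hgen' θ hθ'
    ωU hω A₀ hA₀
  rw [sum_placeGroups S A₀ (fun D => Nat.card (Mackey.Good θ D))] at key
  rw [unitEigen_def, hfr]
  exact key

/-! ### Transport to `Additive ((primesOver K S).unit K)` -/

section Transport

variable (K : IntermediateField ℚ Qb) [NumberField K] (S : Finset Nat.Primes)

/-- The action of `σ` on the `S`-units of `K` in the `Set.unit` model. -/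
noncomputable def galUnits (σ : GQ) (hσ : ∀ x ∈ K, σ x ∈ K) :
    Additive ((primesOver K S).unit ↥K) →ₗ[ℤ] Additive ((primesOver K S).unit ↥K) :=
  (unitLinearEquiv K S).symm.toLinearMap ∘ₗ sUnitsAut K S σ hσ ∘ₗ
    (unitLinearEquiv K S).toLinearMap

theorem unitLinearEquiv_galUnits (σ : GQ) (hσ : ∀ x ∈ K, σ x ∈ K)
    (u : Additive ((primesOver K S).unit ↥K)) :
    unitLinearEquiv K S (galUnits K S σ hσ u) = sUnitsAut K S σ hσ (unitLinearEquiv K S u) :=
  (unitLinearEquiv K S).apply_symm_apply _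

theorem galUnits_apply (σ : GQ) (hσ : ∀ x ∈ K, σ x ∈ K)
    (u : Additive ((primesOver K S).unit ↥K)) :
    ((((Additive.toMul (galUnits K S σ hσ u) : (primesOver K S).unit ↥K) : (↥K)ˣ) : ↥K) : Qb)
      = σ ((((Additive.toMul u : (primesOver K S).unit ↥K) : (↥K)ˣ) : ↥K) : Qb) := by
  rw [← unitLinearEquiv_apply K S (galUnits K S σ hσ u), unitLinearEquiv_galUnits,
    sUnitsAut_apply, unitLinearEquiv_apply]

/-- Any `ℤ`-linear model of the action of `σ` is `galUnits`. -/
theorem eq_galUnits_of_apply (σ : GQ) (hσ : ∀ x ∈ K, σ x ∈ K)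
    (a : Additive ((primesOver K S).unit ↥K) →ₗ[ℤ] Additive ((primesOver K S).unit ↥K))
    (ha : ∀ u : Additive ((primesOver K S).unit ↥K),
      ((((Additive.toMul (a u) : (primesOver K S).unit ↥K) : (↥K)ˣ) : ↥K) : Qb)
        = σ ((((Additive.toMul u : (primesOver K S).unit ↥K) : (↥K)ˣ) : ↥K) : Qb)) :
    a = galUnits K S σ hσ := by
  refine LinearMap.ext fun u => ?_
  apply (unitLinearEquiv K S).injective
  apply sUnits_ext
  rw [unitLinearEquiv_apply, unitLinearEquiv_apply, ha, galUnits_apply]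

/-- The joint eigenspaces in the two models have the same dimension. -/
theorem finrank_iInf_ker_galUnits (k : Type) [Field k] (U : Subgroup GQ)
    (hU : ∀ u ∈ U, ∀ x ∈ K, u x ∈ K) (θ : U →* kˣ) :
    finrank k ↥(⨅ g : U, LinearMap.ker
        ((galUnits K S g.1 (hU g.1 g.2)).baseChange k - (θ g : k) • 1))
      = finrank k (unitEigen K S k U hU θ) := by
  set E : k ⊗[ℤ] Additive ((primesOver K S).unit ↥K) ≃ₗ[k] k ⊗[ℤ] Additive (sUnits K S) :=
    LinearEquiv.baseChange ℤ k _ _ (unitLinearEquiv K S) with hE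
  have hcomm : ∀ (g : U) (x : k ⊗[ℤ] Additive ((primesOver K S).unit ↥K)),
      E ((galUnits K S g.1 (hU g.1 g.2)).baseChange k x)
        = (sUnitsAut K S g.1 (hU g.1 g.2)).baseChange k (E x) := by
    intro g x
    induction x using TensorProduct.induction_on with
    | zero => simp only [map_zero]
    | tmul c m =>
      rw [LinearMap.baseChange_tmul]
      show c ⊗ₜ[ℤ] unitLinearEquiv K S (galUnits K S g.1 (hU g.1 g.2) m)
        = (sUnitsAut K S g.1 (hU g.1 g.2)).baseChange k (c ⊗ₜ[ℤ] unitLinearEquiv K S m)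
      rw [LinearMap.baseChange_tmul, unitLinearEquiv_galUnits]
    | add x y hx hy => rw [map_add, map_add, hx, hy, map_add, map_add]
  have hmap : (⨅ g : U, LinearMap.ker
        ((galUnits K S g.1 (hU g.1 g.2)).baseChange k - (θ g : k) • 1))
      = (unitEigen K S k U hU θ).comap E.toLinearMap := by
    ext x
    rw [Submodule.mem_comap, unitEigen_def, Submodule.mem_iInf, Submodule.mem_iInf]
    refine forall_congr' fun g => ?_
    rw [LinearMap.mem_ker, LinearMap.mem_ker, LinearMap.sub_apply, LinearMap.sub_apply,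
      LinearMap.smul_apply, LinearMap.smul_apply, Module.End.one_apply, Module.End.one_apply,
      sub_eq_zero, sub_eq_zero]
    show _ ↔ (sUnitsAut K S g.1 (hU g.1 g.2)).baseChange k (E x) = (θ g : k) • E x
    rw [← hcomm, ← map_smul, E.injective.eq_iff]
  rw [hmap]
  exact (LinearEquiv.finrank_eq
    ((E.symm.submoduleMap (unitEigen K S k U hU θ)).trans
      (LinearEquiv.ofEq _ _ (Submodule.map_equiv_eq_comap_symm E.symm _)))).symm

open Classical in
/-- **(χ-U) for a family of models** (the shape of `KummerPsi.finrank_psiChars_theta`). -/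
theorem finrank_iInf_ker_le_of_ha (p : ℕ) [Fact p.Prime] (k : Type) [Field k]
    [Algebra (ZMod p) k] (U : Subgroup GQ)
    (hKU : K.fixingSubgroup ≤ U) (hU : ∀ u ∈ U, ∀ x ∈ K, u x ∈ K) (θ : U →* kˣ)
    (hθ : ∀ u : U, (u : GQ) ∈ K.fixingSubgroup → θ u = 1)
    (hpU : ¬ p ∣ K.fixingSubgroup.relIndex U)
    (ωU : U →* kˣ)
    (hω : ∀ u : U, (ωU u : k) = algebraMap (ZMod p) k (ExtCitation.cycloChar p (u : GQ) : ZMod p))
    (A₀ : Nat.Primes → ValuationSubring Qb) (hA₀ : ∀ q ∈ S, (A₀ q).LiesOverPrime q)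
    (a : U → (Additive ((primesOver K S).unit ↥K) →ₗ[ℤ] Additive ((primesOver K S).unit ↥K)))
    (ha : ∀ (g : U) (u : Additive ((primesOver K S).unit ↥K)),
      ((((Additive.toMul (a g u) : (primesOver K S).unit ↥K) : (↥K)ˣ) : ↥K) : Qb)
        = (g : GQ) ((((Additive.toMul u : (primesOver K S).unit ↥K) : (↥K)ˣ) : ↥K) : Qb)) :
    finrank k ↥(⨅ g : U, LinearMap.ker ((a g).baseChange k - (θ g : k) • 1))
        + (if θ = 1 then 1 else 0)
      ≤ Nat.card (Mackey.Good θ (Subgroup.zpowers complexConjugation))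
        + ∑ q ∈ S, Nat.card (Mackey.Good θ ((A₀ q).decompositionSubgroup ℚ))
        + (if θ = ωU then 1 else 0) := by
  have hag : a = fun g : U => galUnits K S g.1 (hU g.1 g.2) :=
    funext fun g => eq_galUnits_of_apply K S g.1 (hU g.1 g.2) (a g) (ha g)
  subst hag
  rw [finrank_iInf_ker_galUnits K S k U hU θ]
  exact finrank_unitEigen_le p k K S U hKU hU θ hθ hpU ωU hω A₀ hA₀

end Transport

end Fermat.Agent.TW.EC
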