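/-
TW (EC): Tate's Euler characteristic inequality for `ad⁰(1)`, UNCONDITIONAL.

* `unitBound` : the hypothesis `ChiAsmB.UnitBound p k S` of the (EC-CHI) assembly is
  `finrank_unitEigen_le` (the equivariant `S`-unit count, `TW/EC/UnitEigenJoint.lean`);
* `exists_finset_ec` : (EC) for `ad⁰(1)`: there is a finite set `T₀` of primes such that
  `h²(G_S, ad⁰(1)) + [k : 𝔽_p] ≤ h¹(G_S, ad⁰(1))` for every `S ⊇ T₀` outside which `rb` is
  unramified and for which the Poitou–Tate outputs `PTOut p S` hold.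
-/
import Mathlib
import Fermat.Agent.TW.EC.ChiAsmB
import Fermat.Agent.TW.EC.UnitEigenJoint

set_option autoImplicit false

namespace Fermat.Agent.TW.EC.ECUncond

open Fermat.Agent.S53 Fermat.Agent.PT Fermat.Agent.PT.Bridge ExtCitation Module
open Fermat.Agent.TW

local notation "Qb" => AlgebraicClosure ℚ

variable (p : ℕ) [Fact p.Prime] {k : Type} [Field k] [Algebra (ZMod p) k]

/-- **(χ-U) in the shape consumed by the (EC-CHI) assembly.** -/
theorem unitBound (S : Finset Nat.Primes) : ChiAsmB.UnitBound p k S := by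
  intro K _ U hKU hU θ hθ hpU
  exact finrank_unitEigen_le p k K S U hKU hU θ hθ hpU ((ChiSetup.omegaK p k).comp U.subtype)
    (fun _ => rfl) primeLocalPlace (fun q _ => Base.Mackey.liesOverPrime_primeLocalPlace q)

/-- **(EC) for `ad⁰(1)`**: Tate's global Euler characteristic inequality
`h²(ad⁰(1)) + [k : 𝔽_p] ≤ h¹(ad⁰(1))` over `G_S` for all `S ⊇ T₀`. -/
theorem exists_finset_ec [Finite k] (rb : GQ →* Mat2 k) (hp2 : p ≠ 2)
    (h : ResidualHyp rb p) :
    ∃ T₀ : Finset Nat.Primes, ∀ S : Finset Nat.Primes, T₀ ⊆ S →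
      ∀ (hunr : ∀ q : Nat.Primes, q ∉ S → ∀ P : ValuationSubring Qb, P.LiesOverPrime (q : ℕ) →
        ∀ σ ∈ P.inertiaSubgroupIn ℚ, rb σ = 1),
      PTOut p S →
      finrank (ZMod p) ((datum S).H (GW.adRep p rb (detChar rb))
          (GW.isSmooth_adRep_det p S h.finiteLevel' hunr) 2) + finrank (ZMod p) k ≤
        finrank (ZMod p) ((datum S).H (GW.adRep p rb (detChar rb))
          (GW.isSmooth_adRep_det p S h.finiteLevel' hunr) 1) :=
  ChiAsmB.exists_finset_ec_of_unitBound p rb hp2 h (fun S => unitBound p S)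

end Fermat.Agent.TW.EC.ECUncond
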