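import Fermat.Agent.TW.EC.ShRes
import Fermat.Agent.TW.EC.KummerEq
import Fermat.Agent.PT.G.SUnit
import Fermat.Agent.PT.Bridge

/-!
# TW / (EC): the chain (χ-Sh) → (χ-K)

`K` a number field in `ℚ̄` with `U₁ = Gal(ℚ̄/K) ≤ U`, `g ∈ U` normalising `U₁`, `ψ : U → kˣ`
trivial on `U₁`, `p ∤ [U : U₁]`.  Then

* `psiChars_le_eigenChars` : the `ψ`-eigen level characters (`ShRes.psiChars`, joint condition over
  all of `U`) lie in the single-`g` eigenspace `KummerEq.eigenChars K S k g hg (ψ g)`;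
* `finrank_H1_coind_le_eigenChars` :
  `dim_{𝔽_p} H¹(G_{ℚ,S}; Coind_U k(ψ)) ≤ [k : 𝔽_p] · dim_k eigenChars K S k g hg (ψ g)`;
* `finrank_H1_coind_le_ker` : the same bounded by `[k : 𝔽_p] · dim_k ker (a ⊗ k − ω(g) ψ(g)⁻¹)` on
  `k ⊗ (S-units of K)` (equivariant Kummer theory, `Cl_S(K)[p] = 0`).
-/

set_option autoImplicit false

namespace Fermat.Agent.TW.EC.ShRes

local notation "Qb" => AlgebraicClosure ℚ
local notation "GQ" => (AlgebraicClosure ℚ ≃ₐ[ℚ] AlgebraicClosure ℚ)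

open ExtCitation Fermat.Agent.PT Fermat.Agent.PT.Bridge Fermat.Agent.PT.KumBridge
  Fermat.Agent.PT.SelmerSeq Fermat.Agent.TW.EC.KummerEq Module TensorProduct

variable (S : Finset Nat.Primes) (K : IntermediateField ℚ Qb) {k : Type} [Field k]
variable (U : Subgroup GQ) (ψ : U →* kˣ)

/-- The joint `ψ`-eigen level characters lie in the eigenspace of a single `g ∈ U`. -/
theorem psiChars_le_eigenChars (g : GQ)
    (hg : g ∈ Subgroup.normalizer (K.fixingSubgroup : Set GQ)) (hgU : g ∈ U) :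
    psiChars (levS S) K.fixingSubgroup U ψ ≤ eigenChars K S k g hg (ψ ⟨g, hgU⟩ : k) := by
  intro c hc
  rw [mem_eigenChars_iff]
  exact ⟨hc.1, fun u => psiChars_le_single hc hgU u _⟩

variable {p : ℕ} [Fact p.Prime] [Algebra (ZMod p) k] [Module.Finite (ZMod p) k]

/-- **(χ-Sh) in the `eigenChars` vocabulary**:
`dim_{𝔽_p} H¹(G_{ℚ,S}; Coind_U k(ψ)) ≤ [k : 𝔽_p] · dim_k eigenChars K S k g hg (ψ g)`. -/
theorem finrank_H1_coind_le_eigenChars (hle : K.fixingSubgroup ≤ U)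
    (hlev : ∃ N ∈ (levS S).lev, N ≤ K.fixingSubgroup)
    (hψ : ∀ u : U, (u : GQ) ∈ K.fixingSubgroup → ψ u = 1)
    (σ : Representation (ZMod p) U k) (hσ : ∀ (u : U) (x : k), σ u x = (ψ u : k) * x)
    (hY : (datum S).IsSmooth (Representation.coind U.subtype σ))
    (hidx : ¬ p ∣ K.fixingSubgroup.relIndex U) (g : GQ)
    (hg : g ∈ Subgroup.normalizer (K.fixingSubgroup : Set GQ)) (hgU : g ∈ U)
    [Module.Finite k ↥(eigenChars K S k g hg (ψ ⟨g, hgU⟩ : k))] :
    Module.Finite (ZMod p) ((datum S).H (Representation.coind U.subtype σ) hY 1) ∧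
      finrank (ZMod p) ((datum S).H (Representation.coind U.subtype σ) hY 1) ≤
        finrank (ZMod p) k * finrank k ↥(eigenChars K S k g hg (ψ ⟨g, hgU⟩ : k)) := by
  have hle' := psiChars_le_eigenChars S K U ψ g hg hgU
  have hfin : Module.Finite k ↥(psiChars (levS S) K.fixingSubgroup U ψ) :=
    Module.Finite.of_injective (Submodule.inclusion hle') (Submodule.inclusion_injective hle')
  have h1 := finrank_H1_coind_le (levS S) K.fixingSubgroup U hle hlev ψ hψ σ hσ hY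
    (by rwa [Ne, ZMod.natCast_eq_zero_iff])
  refine ⟨h1.1, h1.2.trans (Nat.mul_le_mul_left _ ?_)⟩
  exact LinearMap.finrank_le_finrank_of_injective (Submodule.inclusion_injective hle')

variable [NumberField K]

/-- **(χ-Sh) + (χ-K)**: with `Cl_S(K)[p] = 0`, `ζ_p ∈ K`, and a `ℤ`-linear model `a` of the action
of `g` on the `S`-units of `K`:
`dim_{𝔽_p} H¹(G_{ℚ,S}; Coind_U k(ψ)) ≤ [k : 𝔽_p] · dim_k ker (a ⊗ k − ω(g) ψ(g)⁻¹)`. -/
theorem finrank_H1_coind_le_ker (hpS : pPrime p ∈ S) (hK : K.IsUnramifiedOutside S) {ζ : Qb}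
    (hζ : IsPrimitiveRoot ζ p) (hζK : ζ ∈ K)
    (hCl : ∀ x ∈ Sel K (primesOver K S) p, ∃ u ∈ (primesOver K S).unit ↥K, ∃ y : (↥K)ˣ,
      x = u * y ^ p)
    (hle : K.fixingSubgroup ≤ U)
    (hlev : ∃ N ∈ (levS S).lev, N ≤ K.fixingSubgroup)
    (hψ : ∀ u : U, (u : GQ) ∈ K.fixingSubgroup → ψ u = 1)
    (σ : Representation (ZMod p) U k) (hσ : ∀ (u : U) (x : k), σ u x = (ψ u : k) * x)
    (hY : (datum S).IsSmooth (Representation.coind U.subtype σ))
    (hidx : ¬ p ∣ K.fixingSubgroup.relIndex U) (g : GQ)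
    (hg : g ∈ Subgroup.normalizer (K.fixingSubgroup : Set GQ)) (hgU : g ∈ U)
    (a : Additive ↥((primesOver K S).unit ↥K) →ₗ[ℤ] Additive ↥((primesOver K S).unit ↥K))
    (ha : ∀ u, ((((Additive.toMul (a u) : ↥((primesOver K S).unit ↥K)) : (↥K)ˣ) : ↥K) : Qb)
      = g ((((Additive.toMul u : ↥((primesOver K S).unit ↥K)) : (↥K)ˣ) : ↥K) : Qb)) :
    Module.Finite (ZMod p) ((datum S).H (Representation.coind U.subtype σ) hY 1) ∧
      finrank (ZMod p) ((datum S).H (Representation.coind U.subtype σ) hY 1) ≤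
        finrank (ZMod p) k * finrank k ↥(LinearMap.ker (a.baseChange k -
          (algebraMap (ZMod p) k (cycloChar p g : ZMod p) *
            (((ψ ⟨g, hgU⟩)⁻¹ : kˣ) : k)) • 1)) := by
  have hfinU : Module.Finite ℤ (Additive ↥((primesOver K S).unit ↥K)) :=
    SUnit.finite_additive_unit ↥K (primesOver K S)
  have hfinT : Module.Finite k (k ⊗[ℤ] Additive ↥((primesOver K S).unit ↥K)) := inferInstance
  have heq := eigenChars_eq_map K S hpS hK hζ hζK k hCl g hg a ha (ψ ⟨g, hgU⟩)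
  have hfinE : Module.Finite k ↥(eigenChars K S k g hg (ψ ⟨g, hgU⟩ : k)) := by
    rw [heq]
    infer_instance
  have h1 := finrank_H1_coind_le_eigenChars S K U ψ hle hlev hψ σ hσ hY hidx g hg hgU
  rw [finrank_eigenChars K S hpS hK hζ hζK k hCl g hg a ha (ψ ⟨g, hgU⟩)] at h1
  exact h1

end Fermat.Agent.TW.EC.ShRes
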