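/-
TW, (EC), brick (χ-asm): assembly of Tate's Euler characteristic formula for induced characters,
`FS (Coind_U k(ψ)) = 0`, from the bricks (χ-Sh)+(χ-K), (χ-U), (χ-M), (χ-dual), (χ-B1).
-/
import Fermat.Agent.TW.EC.Abs
import Fermat.Agent.TW.EC.ShResK
import Fermat.Agent.TW.EC.MackeyCount
import Fermat.Agent.TW.EC.ClassKill
import Fermat.Agent.TW.EC.CharKer
import Fermat.Agent.TW.EC.ChiSetup
import Fermat.Agent.TW.Local.AwayCore
import Fermat.Agent.PT.Out

set_option autoImplicit false

namespace Fermat.Agent.TW.EC.ChiAsm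

local notation "Qb" => AlgebraicClosure ℚ
local notation "GQ" => (AlgebraicClosure ℚ ≃ₐ[ℚ] AlgebraicClosure ℚ)

open ExtCitation Fermat.Agent.PT Fermat.Agent.PT.Bridge Fermat.Agent.PT.Base Module
open Fermat.Agent.TW.EC.Mackey Fermat.Agent.TW.EC.ChiSetup

/-! ### The numerical core -/

/-- The positivity count: `h⁰ - h¹ + h² + cm ≥ 0`. -/
theorem pos_core (d h0 h1 h2 cmv e ninf N a b : ℕ) (H0 : h0 = d * b) (H1 : h1 ≤ d * e)
    (HU : e + a ≤ ninf + N + b) (HCM : cmv = d * ninf) (HF : d * N ≤ h2 + d * a) :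
    (0 : ℤ) ≤ (h0 : ℤ) - h1 + h2 + cmv := by
  have h3 : d * (e + a) ≤ d * (ninf + N + b) := Nat.mul_le_mul_left d HU
  have h4 : h1 + d * a ≤ cmv + h2 + d * a + h0 := by
    calc h1 + d * a ≤ d * e + d * a := Nat.add_le_add_right H1 _
      _ = d * (e + a) := by ring
      _ ≤ d * (ninf + N + b) := h3
      _ = d * ninf + d * N + d * b := by ring
      _ ≤ cmv + (h2 + d * a) + h0 := by
          rw [HCM, H0]
          exact Nat.add_le_add_right (Nat.add_le_add_left HF _) _
      _ = cmv + h2 + d * a + h0 := by ring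
  have h5 : h1 ≤ cmv + h2 + h0 := by omega
  have h6 : (h1 : ℤ) ≤ (cmv : ℤ) + h2 + h0 := by exact_mod_cast h5
  linarith

/-! ### Positivity of `FS` on induced characters -/

section Pos

variable {p : ℕ} [Fact p.Prime] {k : Type} [Field k] [Algebra (ZMod p) k]
  [Module.Finite (ZMod p) k]
variable (S : Finset Nat.Primes) (U : Subgroup GQ) [U.FiniteIndex] (ψ : U →* kˣ)

/-- `θ = ω|_U · ψ⁻¹`. -/
noncomputable abbrev theta (p : ℕ) [Fact p.Prime] {k : Type} [Field k] [Algebra (ZMod p) k]
    (U : Subgroup GQ) (ψ : U →* kˣ) : U →* kˣ :=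
  ((omegaK p k).comp U.subtype) * ψ⁻¹

open Classical in
/-- **Positivity from the counts.**  `FS (Coind_U k(ψ)) ≥ 0` from the bound for `h¹` by an
eigenspace of dimension `e`, the unit count for `e`, and the formal lower bound for `h²`. -/
theorem FS_nonneg_of_counts
    (hY : (datum S).IsSmooth (Representation.coind U.subtype (chiRepF (ZMod p) ψ))) (e : ℕ)
    (H1 : finrank (ZMod p) ((datum S).H (Representation.coind U.subtype (chiRepF (ZMod p) ψ)) hY 1)
      ≤ finrank (ZMod p) k * e)
    (HU : e + (if theta p U ψ = 1 then 1 else 0) ≤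
      Nat.card (Good (theta p U ψ) (Subgroup.zpowers complexConjugation)) +
        ∑ v : (datum S).ι, Nat.card (Good (theta p U ψ) ((datum S).D v)) +
          (if ψ = 1 then 1 else 0))
    (HF : ∑ v : (datum S).ι, finrank (ZMod p) k * Nat.card (Good (theta p U ψ) ((datum S).D v)) ≤
      finrank (ZMod p) ((datum S).H (Representation.coind U.subtype (chiRepF (ZMod p) ψ)) hY 2) +
        (if theta p U ψ = 1 then finrank (ZMod p) k else 0)) :
    0 ≤ FS (datum S) complexConjugation
      (Representation.coind U.subtype (chiRepF (ZMod p) ψ)) hY := by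
  have hfin : Finite (DoubleCoset.Quotient (U : Set GQ)
      (Subgroup.zpowers complexConjugation : Set GQ)) :=
    finite_doubleCosetQuotient_of_finiteIndex U _
  have h0 := finrank_H_zero_coind (datum S) (chiRepF (ZMod p) ψ) ψ (fun _ _ => rfl) hY
  have hcm := finrank_ker_add_one_coind (𝔽 := ZMod p) complexConjugation (omegaK p k)
    (omegaK_complexConjugation p k) (chiRepF (ZMod p) ψ) ψ (fun _ _ => rfl)
  unfold FS cm
  rw [Cx.chi_two]
  refine pos_core (finrank (ZMod p) k) _ _ _ _ e
    (Nat.card (Good (theta p U ψ) (Subgroup.zpowers complexConjugation)))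
    (∑ v : (datum S).ι, Nat.card (Good (theta p U ψ) ((datum S).D v)))
    (if theta p U ψ = 1 then 1 else 0) (if ψ = 1 then 1 else 0) ?_ H1 HU hcm ?_
  · rw [h0]
    split_ifs <;> simp
  · rw [Finset.mul_sum]
    refine HF.trans (le_of_eq ?_)
    split_ifs <;> simp

end Pos

end Fermat.Agent.TW.EC.ChiAsm
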