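import Fermat.Agent.TW.EC.Abs

/-!
# Fourier decomposition of `Coind_{U₁}^Γ k` into `⊕_ψ Coind_U^Γ k(ψ)`

`U₁ ≤ U ≤ Γ`, `k` a field, `𝔽` a commutative ring with `Algebra 𝔽 k` (the scalars of the
representations; for `𝔽 = ZMod p` the modules below are the `𝔽_p[Γ]`-modules underlying
`Coind k(ψ)`).  `chars U₁ U k` is the group of characters `ψ : U →* kˣ` trivial on `U₁`.

If the characters in `chars U₁ U k` separate the cosets of `U₁` in `U` and `[U : U₁]` is finite
and nonzero in `k`, then the explicit Fourier transform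
`(Φ f)_ψ (x) = ∑_{a ∈ U/U₁} ψ(a) f(a⁻¹ x)` is a `Γ`-equivariant `𝔽`-linear equivalence
`Coind_{U₁}^Γ k ≃ ∏_ψ Coind_U^Γ k(ψ)` (`exists_coindChiEquiv`), where `k(ψ) = chiRepF 𝔽 ψ`
(`TW/EC/Abs.lean`).

Also: `exists_coindPowEquiv` (`Coind_W^Γ k ≃ (Coind_W^Γ 𝔽)^[k:𝔽]`) and
`two_mul_finrank_ker_coind_add_one` (the `(-1)`-eigenspace of an involution acting freely on
`U₁ \ Γ` has half the dimension of `Coind_{U₁}^Γ A`).
-/

set_option autoImplicit false

namespace Fermat.Agent.TW.EC.CoindChar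

open Representation

variable {Γ : Type} [Group Γ] (U₁ U : Subgroup Γ)
variable (𝔽 : Type) [CommRing 𝔽] (k : Type) [Field k] [Algebra 𝔽 k]

/-- The characters of `U` with values in `kˣ` which are trivial on `U₁`. -/
def chars : Subgroup (U →* kˣ) where
  carrier := {ψ | U₁.subgroupOf U ≤ ψ.ker}
  one_mem' := fun _ _ => by simp
  mul_mem' := fun {ψ φ} hψ hφ u hu => by
    have h1 := hψ hu
    have h2 := hφ hu
    rw [MonoidHom.mem_ker] at h1 h2 ⊢
    rw [MonoidHom.mul_apply, h1, h2, one_mul]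
  inv_mem' := fun {ψ} hψ u hu => by
    have h1 := hψ hu
    rw [MonoidHom.mem_ker] at h1 ⊢
    rw [MonoidHom.inv_apply, h1, inv_one]

variable {U₁ U k}

lemma mem_chars {ψ : U →* kˣ} : ψ ∈ chars U₁ U k ↔ U₁.subgroupOf U ≤ ψ.ker := Iff.rfl

lemma chars_apply_eq_one (ψ : chars U₁ U k) {n : U} (hn : n ∈ U₁.subgroupOf U) :
    ψ.1 n = 1 := MonoidHom.mem_ker.mp (ψ.2 hn)

/-! ### Sums over coset representatives -/

section Sum

variable [Fintype (U ⧸ U₁.subgroupOf U)]

omit [Field k] [Fintype (U ⧸ U₁.subgroupOf U)] in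
lemma apply_out_mk {h : U → k} (hh : ∀ u n, n ∈ U₁.subgroupOf U → h (u * n) = h u) (u : U) :
    h ((QuotientGroup.mk u : U ⧸ U₁.subgroupOf U).out) = h u := by
  obtain ⟨n, hn⟩ := QuotientGroup.mk_out_eq_mul (U₁.subgroupOf U) u
  rw [hn]
  exact hh u n n.2

/-- Translating the argument by `v ∈ U` does not change a sum over coset representatives of a
right-`U₁`-invariant function. -/
lemma sum_out_mul_left {h : U → k} (hh : ∀ u n, n ∈ U₁.subgroupOf U → h (u * n) = h u) (v : U) :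
    ∑ a : U ⧸ U₁.subgroupOf U, h (v * a.out) = ∑ a : U ⧸ U₁.subgroupOf U, h a.out := by
  rw [← Equiv.sum_comp (MulAction.toPerm v : Equiv.Perm (U ⧸ U₁.subgroupOf U))
    (fun a => h a.out)]
  refine Finset.sum_congr rfl fun a _ => ?_
  have h1 : (MulAction.toPerm v : Equiv.Perm (U ⧸ U₁.subgroupOf U)) a =
      (QuotientGroup.mk (v * a.out) : U ⧸ U₁.subgroupOf U) := by
    conv_lhs => rw [← QuotientGroup.out_eq' a]
    rfl
  rw [h1, apply_out_mk hh]

/-- A sum over coset representatives of a function supported on `U₁`. -/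
lemma sum_out_ite {h : U → k} (hh : ∀ u n, n ∈ U₁.subgroupOf U → h (u * n) = h u) (c : k)
    [DecidablePred fun u : U => u ∈ U₁.subgroupOf U] :
    ∑ a : U ⧸ U₁.subgroupOf U, (if a.out ∈ U₁.subgroupOf U then c else 0) * h a.out =
      c * h 1 := by
  rw [Finset.sum_eq_single (QuotientGroup.mk 1 : U ⧸ U₁.subgroupOf U)]
  · have h1 : (QuotientGroup.mk 1 : U ⧸ U₁.subgroupOf U).out ∈ U₁.subgroupOf U := by
      obtain ⟨n, hn⟩ := QuotientGroup.mk_out_eq_mul (U₁.subgroupOf U) 1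
      rw [hn, one_mul]
      exact n.2
    rw [if_pos h1, apply_out_mk hh]
  · intro a _ ha
    rw [if_neg, zero_mul]
    intro hmem
    apply ha
    rw [← QuotientGroup.out_eq' a, QuotientGroup.eq, mul_one]
    exact inv_mem hmem
  · intro h
    exact absurd (Finset.mem_univ _) h

end Sum

/-! ### Orthogonality relations -/

section Orth

variable [Fintype (U ⧸ U₁.subgroupOf U)]

omit [Fintype (U ⧸ U₁.subgroupOf U)] in
lemma char_right_inv (ψ : chars U₁ U k) (u n : U) (hn : n ∈ U₁.subgroupOf U) :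
    ((ψ.1 (u * n) : kˣ) : k) = ψ.1 u := by
  rw [map_mul, chars_apply_eq_one ψ hn, mul_one]

/-- First orthogonality relation: `∑_{a ∈ U/U₁} ψ(a) = [ψ = 1]·[U : U₁]`. -/
lemma sum_char_out [DecidableEq (chars U₁ U k)] (ψ : chars U₁ U k) :
    ∑ a : U ⧸ U₁.subgroupOf U, ((ψ.1 a.out : kˣ) : k) =
      if ψ = 1 then (Fintype.card (U ⧸ U₁.subgroupOf U) : k) else 0 := by
  split_ifs with h
  · subst h
    simp
  · obtain ⟨v, hv⟩ : ∃ v : U, ψ.1 v ≠ 1 := by
      by_contra hcon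
      exact h (Subtype.ext (MonoidHom.ext fun v => by_contra fun hv => hcon ⟨v, hv⟩))
    have h1 := sum_out_mul_left (h := fun u => ((ψ.1 u : kˣ) : k)) (char_right_inv ψ) v
    simp only [map_mul, Units.val_mul, ← Finset.mul_sum] at h1
    have h2 : (((ψ.1 v : kˣ) : k) - 1) *
        ∑ a : U ⧸ U₁.subgroupOf U, ((ψ.1 a.out : kˣ) : k) = 0 := by
      rw [sub_mul, h1, one_mul, sub_self]
    rcases mul_eq_zero.mp h2 with h3 | h3
    · exact absurd (Units.ext (sub_eq_zero.mp h3)) hv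
    · exact h3

variable [Fintype (chars U₁ U k)]

omit [Fintype (U ⧸ U₁.subgroupOf U)] in
/-- Second orthogonality relation: `∑_ψ ψ(u) = [u ∈ U₁]·#chars`, when the characters separate
the cosets of `U₁`. -/
lemma sum_chars_apply
    (hsep : ∀ u : U, (∀ ψ : chars U₁ U k, ψ.1 u = 1) → u ∈ U₁.subgroupOf U) (u : U)
    [Decidable (u ∈ U₁.subgroupOf U)] :
    ∑ ψ : chars U₁ U k, ((ψ.1 u : kˣ) : k) =
      if u ∈ U₁.subgroupOf U then (Fintype.card (chars U₁ U k) : k) else 0 := by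
  split_ifs with h
  · simp [chars_apply_eq_one _ h]
  · obtain ⟨φ, hφ⟩ : ∃ φ : chars U₁ U k, φ.1 u ≠ 1 := by
      by_contra hcon
      exact h (hsep u fun ψ => by_contra fun hψ => hcon ⟨ψ, hψ⟩)
    have h1 : ∑ ψ : chars U₁ U k, (((φ * ψ).1 u : kˣ) : k) =
        ∑ ψ : chars U₁ U k, ((ψ.1 u : kˣ) : k) :=
      Equiv.sum_comp (Equiv.mulLeft φ) (fun ψ => ((ψ.1 u : kˣ) : k))
    simp only [Subgroup.coe_mul, MonoidHom.mul_apply, Units.val_mul, ← Finset.mul_sum] at h1
    have h2 : (((φ.1 u : kˣ) : k) - 1) * ∑ ψ : chars U₁ U k, ((ψ.1 u : kˣ) : k) = 0 := by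
      rw [sub_mul, h1, one_mul, sub_self]
    rcases mul_eq_zero.mp h2 with h3 | h3
    · exact absurd (Units.ext (sub_eq_zero.mp h3)) hφ
    · exact h3

/-- `#chars = [U : U₁]` in `k`. -/
lemma card_chars_eq
    (hsep : ∀ u : U, (∀ ψ : chars U₁ U k, ψ.1 u = 1) → u ∈ U₁.subgroupOf U) :
    (Fintype.card (chars U₁ U k) : k) = (Fintype.card (U ⧸ U₁.subgroupOf U) : k) := by
  classical
  have h1 : ∑ a : U ⧸ U₁.subgroupOf U, ∑ ψ : chars U₁ U k, ((ψ.1 a.out : kˣ) : k) =
      (Fintype.card (chars U₁ U k) : k) := by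
    simp_rw [sum_chars_apply hsep]
    have := sum_out_ite (U₁ := U₁) (U := U) (h := fun _ => (1 : k)) (fun _ _ _ => rfl)
      (Fintype.card (chars U₁ U k) : k)
    simpa using this
  have h2 : ∑ ψ : chars U₁ U k, ∑ a : U ⧸ U₁.subgroupOf U, ((ψ.1 a.out : kˣ) : k) =
      (Fintype.card (U ⧸ U₁.subgroupOf U) : k) := by
    simp_rw [sum_char_out]
    simp
  rw [← h1, ← h2, Finset.sum_comm]

end Orth

/-! ### The Fourier transform and its inverse -/

section Maps

lemma triv_inv (f : coindV U₁.subtype (Representation.trivial 𝔽 U₁ k)) {n : Γ} (hn : n ∈ U₁)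
    (x : Γ) : f.1 (n * x) = f.1 x := by
  have := f.2 ⟨n, hn⟩ x
  simpa using this

lemma term_right_inv (ψ : chars U₁ U k)
    (f : coindV U₁.subtype (Representation.trivial 𝔽 U₁ k)) (y : Γ) (u n : U)
    (hn : n ∈ U₁.subgroupOf U) :
    ((ψ.1 (u * n) : kˣ) : k) * f.1 (((u * n : U) : Γ)⁻¹ * y) =
      ((ψ.1 u : kˣ) : k) * f.1 ((u : Γ)⁻¹ * y) := by
  rw [char_right_inv ψ u n hn]
  congr 1
  have h1 : ((u * n : U) : Γ)⁻¹ * y = (n : Γ)⁻¹ * ((u : Γ)⁻¹ * y) := by
    simp [mul_assoc]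
  rw [h1]
  exact triv_inv 𝔽 f (inv_mem (Subgroup.mem_subgroupOf.mp hn)) _

variable [Fintype (U ⧸ U₁.subgroupOf U)]

/-- The `ψ`-component of the Fourier transform: `(Φ f)_ψ (x) = ∑_{a ∈ U/U₁} ψ(a) f(a⁻¹ x)`. -/
noncomputable def fwd (ψ : chars U₁ U k) :
    coindV U₁.subtype (Representation.trivial 𝔽 U₁ k) →ₗ[𝔽]
      coindV U.subtype (chiRepF 𝔽 ψ.1) where
  toFun f := ⟨fun x => ∑ a : U ⧸ U₁.subgroupOf U,
      ((ψ.1 a.out : kˣ) : k) * f.1 ((a.out : Γ)⁻¹ * x), by
    intro v x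
    have h1 := sum_out_mul_left
      (h := fun u : U => ((ψ.1 u : kˣ) : k) * f.1 ((u : Γ)⁻¹ * (U.subtype v * x)))
      (fun u n hn => term_right_inv 𝔽 ψ f _ u n hn) v
    show ∑ a : U ⧸ U₁.subgroupOf U,
      ((ψ.1 a.out : kˣ) : k) * f.1 ((a.out : Γ)⁻¹ * (U.subtype v * x)) = _
    rw [← h1, chiRepF_apply, Finset.mul_sum]
    refine Finset.sum_congr rfl fun a _ => ?_
    have h2 : (((v * a.out : U) : Γ))⁻¹ * (U.subtype v * x) = (a.out : Γ)⁻¹ * x := by
      simp [mul_assoc]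
    rw [h2, map_mul, Units.val_mul, mul_assoc]⟩
  map_add' f g := by
    apply Subtype.ext
    funext x
    simp [mul_add, Finset.sum_add_distrib]
  map_smul' c f := by
    apply Subtype.ext
    funext x
    simp [Finset.smul_sum]

lemma fwd_apply (ψ : chars U₁ U k) (f : coindV U₁.subtype (Representation.trivial 𝔽 U₁ k))
    (x : Γ) :
    (fwd 𝔽 ψ f).1 x = ∑ a : U ⧸ U₁.subgroupOf U,
      ((ψ.1 a.out : kˣ) : k) * f.1 ((a.out : Γ)⁻¹ * x) := rfl

/-- The Fourier transform is `Γ`-equivariant. -/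
lemma fwd_equivariant (ψ : chars U₁ U k) (g : Γ)
    (f : coindV U₁.subtype (Representation.trivial 𝔽 U₁ k)) :
    fwd 𝔽 ψ (coind U₁.subtype (Representation.trivial 𝔽 U₁ k) g f) =
      coind U.subtype (chiRepF 𝔽 ψ.1) g (fwd 𝔽 ψ f) := by
  apply Subtype.ext
  funext x
  show ∑ a : U ⧸ U₁.subgroupOf U, ((ψ.1 a.out : kˣ) : k) * f.1 ((a.out : Γ)⁻¹ * x * g) =
    ∑ a : U ⧸ U₁.subgroupOf U, ((ψ.1 a.out : kˣ) : k) * f.1 ((a.out : Γ)⁻¹ * (x * g))
  simp only [mul_assoc]

omit [Fintype (U ⧸ U₁.subgroupOf U)] in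
lemma chi_apply_left (ψ : chars U₁ U k) (F : coindV U.subtype (chiRepF 𝔽 ψ.1)) (u : U)
    (x : Γ) : F.1 ((u : Γ) * x) = ((ψ.1 u : kˣ) : k) * F.1 x :=
  F.2 u x

variable [Fintype (chars U₁ U k)]

omit [Fintype (U ⧸ U₁.subgroupOf U)] in
/-- The inverse Fourier transform: `(Ψ F)(x) = #chars⁻¹ ∑_ψ F_ψ (x)`. -/
noncomputable def bwd (hle : U₁ ≤ U) :
    (Π ψ : chars U₁ U k, coindV U.subtype (chiRepF 𝔽 ψ.1)) →ₗ[𝔽]
      coindV U₁.subtype (Representation.trivial 𝔽 U₁ k) where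
  toFun F := ⟨fun x => (Fintype.card (chars U₁ U k) : k)⁻¹ * ∑ ψ : chars U₁ U k, (F ψ).1 x, by
    intro n x
    show (Fintype.card (chars U₁ U k) : k)⁻¹ * ∑ ψ : chars U₁ U k, (F ψ).1 ((n : Γ) * x) =
      (Fintype.card (chars U₁ U k) : k)⁻¹ * ∑ ψ : chars U₁ U k, (F ψ).1 x
    congr 1
    refine Finset.sum_congr rfl fun ψ _ => ?_
    have h1 := chi_apply_left 𝔽 ψ (F ψ) ⟨n, hle n.2⟩ x
    have h2 : ψ.1 ⟨n, hle n.2⟩ = 1 :=
      chars_apply_eq_one ψ (Subgroup.mem_subgroupOf.mpr n.2)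
    rw [h2, Units.val_one, one_mul] at h1
    exact h1⟩
  map_add' F G := by
    apply Subtype.ext
    funext x
    simp [Finset.sum_add_distrib, mul_add]
  map_smul' c F := by
    apply Subtype.ext
    funext x
    show (Fintype.card (chars U₁ U k) : k)⁻¹ * ∑ ψ : chars U₁ U k, c • (F ψ).1 x =
      c • ((Fintype.card (chars U₁ U k) : k)⁻¹ * ∑ ψ : chars U₁ U k, (F ψ).1 x)
    rw [← Finset.smul_sum, mul_smul_comm]

omit [Fintype (U ⧸ U₁.subgroupOf U)] in
lemma bwd_apply (hle : U₁ ≤ U)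
    (F : Π ψ : chars U₁ U k, coindV U.subtype (chiRepF 𝔽 ψ.1)) (x : Γ) :
    (bwd 𝔽 hle F).1 x =
      (Fintype.card (chars U₁ U k) : k)⁻¹ * ∑ ψ : chars U₁ U k, (F ψ).1 x := rfl

lemma bwd_fwd (hle : U₁ ≤ U)
    (hsep : ∀ u : U, (∀ ψ : chars U₁ U k, ψ.1 u = 1) → u ∈ U₁.subgroupOf U)
    (hc : (Fintype.card (chars U₁ U k) : k) ≠ 0)
    (f : coindV U₁.subtype (Representation.trivial 𝔽 U₁ k)) :
    bwd 𝔽 hle (fun ψ => fwd 𝔽 ψ f) = f := by
  classical
  apply Subtype.ext
  funext x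
  rw [bwd_apply]
  simp only [fwd_apply]
  rw [Finset.sum_comm]
  simp_rw [← Finset.sum_mul, sum_chars_apply hsep]
  have h1 := sum_out_ite (U₁ := U₁) (U := U) (h := fun u : U => f.1 ((u : Γ)⁻¹ * x))
    (fun u n hn => by
      have h2 : ((u * n : U) : Γ)⁻¹ * x = (n : Γ)⁻¹ * ((u : Γ)⁻¹ * x) := by
        simp [mul_assoc]
      show f.1 (((u * n : U) : Γ)⁻¹ * x) = f.1 ((u : Γ)⁻¹ * x)
      rw [h2]
      exact triv_inv 𝔽 f (inv_mem (Subgroup.mem_subgroupOf.mp hn)) _)
    (Fintype.card (chars U₁ U k) : k)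
  rw [h1]
  simp [hc]

lemma fwd_bwd (hle : U₁ ≤ U)
    (hsep : ∀ u : U, (∀ ψ : chars U₁ U k, ψ.1 u = 1) → u ∈ U₁.subgroupOf U)
    (hc : (Fintype.card (U ⧸ U₁.subgroupOf U) : k) ≠ 0)
    (F : Π ψ : chars U₁ U k, coindV U.subtype (chiRepF 𝔽 ψ.1)) (ψ : chars U₁ U k) :
    fwd 𝔽 ψ (bwd 𝔽 hle F) = F ψ := by
  classical
  apply Subtype.ext
  funext x
  rw [fwd_apply]
  simp only [bwd_apply]
  have h1 : ∀ (a : U ⧸ U₁.subgroupOf U) (φ : chars U₁ U k),
      (F φ).1 ((a.out : Γ)⁻¹ * x) = ((φ⁻¹.1 a.out : kˣ) : k) * (F φ).1 x := by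
    intro a φ
    have := chi_apply_left 𝔽 φ (F φ) (a.out)⁻¹ x
    rw [map_inv] at this
    exact this
  simp_rw [h1, Finset.mul_sum]
  rw [Finset.sum_comm]
  have h2 : ∀ φ : chars U₁ U k, ∑ a : U ⧸ U₁.subgroupOf U,
      ((ψ.1 a.out : kˣ) : k) * ((Fintype.card (chars U₁ U k) : k)⁻¹ *
        (((φ⁻¹.1 a.out : kˣ) : k) * (F φ).1 x)) =
      (Fintype.card (chars U₁ U k) : k)⁻¹ *
        ((if ψ * φ⁻¹ = 1 then (Fintype.card (U ⧸ U₁.subgroupOf U) : k) else 0) * (F φ).1 x) := by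
    intro φ
    rw [← sum_char_out (ψ * φ⁻¹), Finset.sum_mul, Finset.mul_sum]
    refine Finset.sum_congr rfl fun a _ => ?_
    rw [Subgroup.coe_mul, MonoidHom.mul_apply, Units.val_mul]
    ring
  rw [Finset.sum_congr rfl fun φ _ => h2 φ, ← Finset.mul_sum,
    Finset.sum_eq_single ψ]
  · rw [if_pos (mul_inv_cancel ψ), card_chars_eq hsep, ← mul_assoc, inv_mul_cancel₀ hc, one_mul]
  · intro φ _ hφ
    rw [if_neg, zero_mul]
    intro h
    exact hφ (mul_inv_eq_one.mp h).symm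
  · intro h
    exact absurd (Finset.mem_univ _) h

end Maps

/-! ### The equivalence -/

section Main

/-- If the characters trivial on `U₁` separate the cosets of `U₁` in `U`, then `U₁` is normal
in `U`. -/
lemma normal_of_sep
    (hsep : ∀ u : U, (∀ ψ : chars U₁ U k, ψ.1 u = 1) → u ∈ U₁.subgroupOf U) :
    (U₁.subgroupOf U).Normal :=
  ⟨fun n hn g => hsep _ fun ψ => by
    rw [map_mul, map_mul, chars_apply_eq_one ψ hn, mul_one, map_inv, mul_inv_cancel]⟩

/-- There are finitely many characters of `U` trivial on a normal subgroup of finite index. -/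
lemma finite_chars [Finite (U ⧸ U₁.subgroupOf U)] [(U₁.subgroupOf U).Normal] :
    Finite (chars U₁ U k) := by
  have hinj : Function.Injective
      (fun ψ : chars U₁ U k => QuotientGroup.lift (U₁.subgroupOf U) ψ.1 ψ.2) := by
    intro ψ φ h
    apply Subtype.ext
    apply MonoidHom.ext
    intro u
    have h1 := congrArg (fun χ : U ⧸ U₁.subgroupOf U →* kˣ => χ (QuotientGroup.mk u)) h
    exact h1
  exact Finite.of_injective _ hinj

variable (U₁ U k) in
/-- **Fourier decomposition**: if `[U : U₁]` is finite and nonzero in `k` and the `k`-valued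
characters of `U` trivial on `U₁` separate the cosets of `U₁`, then
`Coind_{U₁}^Γ k ≃ ∏_ψ Coind_U^Γ k(ψ)`, `Γ`-equivariantly and `𝔽`-linearly. -/
theorem exists_coindChiEquiv (hle : U₁ ≤ U) (hk : ((U₁.relIndex U : ℕ) : k) ≠ 0)
    (hsep : ∀ u : U, (∀ ψ : chars U₁ U k, ψ.1 u = 1) → u ∈ U₁.subgroupOf U) :
    Finite (chars U₁ U k) ∧
      ∃ e : coindV U₁.subtype (Representation.trivial 𝔽 U₁ k) ≃ₗ[𝔽]
          (Π ψ : chars U₁ U k, coindV U.subtype (chiRepF 𝔽 ψ.1)),
        ∀ (g : Γ) (f : coindV U₁.subtype (Representation.trivial 𝔽 U₁ k)) (ψ : chars U₁ U k),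
          e (coind U₁.subtype (Representation.trivial 𝔽 U₁ k) g f) ψ =
            coind U.subtype (chiRepF 𝔽 ψ.1) g (e f ψ) := by
  classical
  have hidx : (U₁.subgroupOf U).index ≠ 0 := by
    intro h0
    apply hk
    show (((U₁.subgroupOf U).index : ℕ) : k) = 0
    rw [h0, Nat.cast_zero]
  have : Finite (U ⧸ U₁.subgroupOf U) := Nat.finite_of_card_ne_zero hidx
  have := normal_of_sep hsep
  have hfc : Finite (chars U₁ U k) := finite_chars
  have := Fintype.ofFinite (U ⧸ U₁.subgroupOf U)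
  have := Fintype.ofFinite (chars U₁ U k)
  have hc2 : (Fintype.card (U ⧸ U₁.subgroupOf U) : k) ≠ 0 := by
    rw [← Nat.card_eq_fintype_card]
    exact hk
  have hc1 : (Fintype.card (chars U₁ U k) : k) ≠ 0 := by
    rw [card_chars_eq hsep]
    exact hc2
  refine ⟨hfc, ?_⟩
  let e : coindV U₁.subtype (Representation.trivial 𝔽 U₁ k) ≃ₗ[𝔽]
      (Π ψ : chars U₁ U k, coindV U.subtype (chiRepF 𝔽 ψ.1)) :=
    { toFun := fun f ψ => fwd 𝔽 ψ f
      map_add' := fun f g => funext fun ψ => map_add _ _ _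
      map_smul' := fun c f => funext fun ψ => map_smul _ _ _
      invFun := bwd 𝔽 hle
      left_inv := fun f => bwd_fwd 𝔽 hle hsep hc1 f
      right_inv := fun F => funext fun ψ => fwd_bwd 𝔽 hle hsep hc2 F ψ }
  exact ⟨e, fun g f ψ => fwd_equivariant 𝔽 ψ g f⟩

end Main

/-! ### `Coind_U^Γ k` as a power of `Coind_U^Γ 𝔽` -/

section Pow

variable (W : Subgroup Γ) [Nontrivial 𝔽] [Module.Free 𝔽 k] [Module.Finite 𝔽 k]

variable (k) in
/-- `Coind_W^Γ k ≃ (Coind_W^Γ 𝔽)^[k:𝔽]` (trivial actions on the coefficients), `Γ`-equivariantly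
and `𝔽`-linearly. -/
theorem exists_coindPowEquiv :
    ∃ e : coindV W.subtype (Representation.trivial 𝔽 W k) ≃ₗ[𝔽]
        (Fin (Module.finrank 𝔽 k) → coindV W.subtype (Representation.trivial 𝔽 W 𝔽)),
      ∀ (g : Γ) (f : coindV W.subtype (Representation.trivial 𝔽 W k))
        (i : Fin (Module.finrank 𝔽 k)),
        e (coind W.subtype (Representation.trivial 𝔽 W k) g f) i =
          coind W.subtype (Representation.trivial 𝔽 W 𝔽) g (e f i) := by
  classical
  let b := Module.finBasis 𝔽 k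
  let e : coindV W.subtype (Representation.trivial 𝔽 W k) ≃ₗ[𝔽]
      (Fin (Module.finrank 𝔽 k) → coindV W.subtype (Representation.trivial 𝔽 W 𝔽)) :=
    { toFun := fun f i => ⟨fun x => b.repr (f.1 x) i, fun u x => by
        show b.repr (f.1 ((u : Γ) * x)) i = b.repr (f.1 x) i
        rw [triv_inv 𝔽 f u.2 x]⟩
      map_add' := fun f g => by
        funext i
        apply Subtype.ext
        funext x
        simp
      map_smul' := fun c f => by
        funext i
        apply Subtype.ext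
        funext x
        simp
      invFun := fun F => ⟨fun x => ∑ i, (F i).1 x • b i, fun u x => by
        show ∑ i, (F i).1 ((u : Γ) * x) • b i = ∑ i, (F i).1 x • b i
        refine Finset.sum_congr rfl fun i _ => ?_
        have h1 : (F i).1 ((u : Γ) * x) = (F i).1 x := (F i).2 u x
        rw [h1]⟩
      left_inv := fun f => by
        apply Subtype.ext
        funext x
        exact b.sum_repr (f.1 x)
      right_inv := fun F => by
        funext i
        apply Subtype.ext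
        funext x
        show b.repr (∑ j, (F j).1 x • b j) i = (F i).1 x
        simp [Finsupp.single_apply] }
  exact ⟨e, fun g f i => rfl⟩

end Pow

/-! ### Involutions: the `(-1)`-eigenspace -/

section Invol

variable {F : Type} [Field F] {V : Type} [AddCommGroup V] [Module F V]

/-- For an involution `T` of a finite-dimensional space in characteristic `≠ 2`:
`dim ker (T + 1) + dim ker (T - 1) = dim V`. -/
lemma finrank_ker_add_one_add_ker_sub_one [Module.Finite F V] (T : V →ₗ[F] V)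
    (hT : ∀ x, T (T x) = x) (h2 : (2 : F) ≠ 0) :
    Module.finrank F (LinearMap.ker (T + 1)) + Module.finrank F (LinearMap.ker (T - 1)) =
      Module.finrank F V := by
  have h1 : LinearMap.range (T - 1) = LinearMap.ker (T + 1) := by
    ext x
    constructor
    · rintro ⟨y, rfl⟩
      simp [hT]
    · intro hx
      have hx' : T x = -x := by
        have : T x + x = 0 := by simpa using hx
        exact eq_neg_of_add_eq_zero_left this
      refine ⟨(-(2 : F)⁻¹) • x, ?_⟩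
      show T ((-(2 : F)⁻¹) • x) - (-(2 : F)⁻¹) • x = x
      rw [map_smul, hx', ← smul_sub,
        show -x - x = (-(2 : F)) • x by rw [neg_smul, two_smul]; abel, smul_smul,
        neg_mul_neg, inv_mul_cancel₀ h2, one_smul]
  rw [← h1]
  exact LinearMap.finrank_range_add_finrank_ker (T - 1)

/-- An automorphism anticommuting with `T` exchanges the `(±1)`-eigenspaces. -/
lemma finrank_ker_sub_one_eq_of_anticomm (T : V →ₗ[F] V) (σ : V ≃ₗ[F] V)
    (h : ∀ x, σ (T x) = -T (σ x)) :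
    Module.finrank F (LinearMap.ker (T - 1)) = Module.finrank F (LinearMap.ker (T + 1)) := by
  have h1 : (LinearMap.ker (T - 1)).map (σ : V →ₗ[F] V) = LinearMap.ker (T + 1) := by
    ext y
    constructor
    · rintro ⟨x, hx, rfl⟩
      have hx' : T x = x := by
        have : T x - x = 0 := by simpa using hx
        exact sub_eq_zero.mp this
      have h3 := h x
      rw [hx'] at h3
      have h5 : T (σ x) = -σ x := neg_eq_iff_eq_neg.mp h3.symm
      show T (σ x) + σ x = 0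
      rw [h5, neg_add_cancel]
    · intro hy
      have hy' : T y = -y := by
        have : T y + y = 0 := by simpa using hy
        exact eq_neg_of_add_eq_zero_left this
      refine ⟨σ.symm y, ?_, by simp⟩
      have h3 := h (σ.symm y)
      rw [LinearEquiv.apply_symm_apply, hy', neg_neg] at h3
      have h4 : T (σ.symm y) = σ.symm y := by
        apply σ.injective
        rw [h3, LinearEquiv.apply_symm_apply]
      show (T - 1) (σ.symm y) = 0
      simp [h4]
  rw [← h1]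
  exact (LinearEquiv.finrank_eq (σ.submoduleMap (LinearMap.ker (T - 1))))

end Invol

/-! ### A free involution on `U₁ \ Γ`: the sign function -/

section Sign

variable (U₁) (c : Γ)

open Classical in
/-- A sign function on `Γ`, left `U₁`-invariant and odd under right translation by a free
involution `c`. -/
noncomputable def sgn (x : Γ) : ℤ :=
  if ∃ u ∈ U₁, (DoubleCoset.mk U₁ (Subgroup.zpowers c) x).out = u * x then 1 else -1

lemma sgn_mul_self (x : Γ) : sgn U₁ c x * sgn U₁ c x = 1 := by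
  unfold sgn
  split_ifs <;> simp

lemma sgn_mul_left {u : Γ} (hu : u ∈ U₁) (x : Γ) : sgn U₁ c (u * x) = sgn U₁ c x := by
  have h1 : DoubleCoset.mk U₁ (Subgroup.zpowers c) (u * x) =
      DoubleCoset.mk U₁ (Subgroup.zpowers c) x := by
    rw [eq_comm, DoubleCoset.eq]
    exact ⟨u, hu, 1, one_mem _, by rw [mul_one]⟩
  have h2 : (∃ v ∈ U₁, (DoubleCoset.mk U₁ (Subgroup.zpowers c) (u * x)).out = v * (u * x)) ↔
      ∃ v ∈ U₁, (DoubleCoset.mk U₁ (Subgroup.zpowers c) x).out = v * x := by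
    rw [h1]
    constructor
    · rintro ⟨v, hv, e⟩
      exact ⟨v * u, mul_mem hv hu, by rw [e, mul_assoc]⟩
    · rintro ⟨v, hv, e⟩
      exact ⟨v * u⁻¹, mul_mem hv (inv_mem hu), by rw [e]; group⟩
  unfold sgn
  by_cases hP : ∃ v ∈ U₁, (DoubleCoset.mk U₁ (Subgroup.zpowers c) x).out = v * x
  · rw [if_pos hP, if_pos (h2.mpr hP)]
  · rw [if_neg hP, if_neg (fun h => hP (h2.mp h))]

lemma mem_zpowers_invol {c : Γ} (hc : c * c = 1) {y : Γ} (hy : y ∈ Subgroup.zpowers c) :
    y = 1 ∨ y = c := by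
  obtain ⟨n, rfl⟩ := Subgroup.mem_zpowers_iff.mp hy
  have hc2 : c ^ (2 : ℤ) = 1 := by
    rw [zpow_ofNat, pow_two, hc]
  rcases Int.even_or_odd' n with ⟨m, rfl | rfl⟩
  · left
    rw [zpow_mul, hc2, one_zpow]
  · right
    rw [zpow_add, zpow_mul, hc2, one_zpow, one_mul, zpow_one]

lemma sgn_mul_right {c : Γ} (hc : c * c = 1) (hfree : ∀ x : Γ, x * c * x⁻¹ ∉ U₁) (x : Γ) :
    sgn U₁ c (x * c) = -sgn U₁ c x := by
  have h1 : DoubleCoset.mk U₁ (Subgroup.zpowers c) (x * c) =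
      DoubleCoset.mk U₁ (Subgroup.zpowers c) x := by
    rw [eq_comm, DoubleCoset.eq]
    exact ⟨1, one_mem _, c, Subgroup.mem_zpowers c, by rw [one_mul]⟩
  set r := (DoubleCoset.mk U₁ (Subgroup.zpowers c) x).out with hr
  have hor : (∃ v ∈ U₁, r = v * x) ∨ ∃ v ∈ U₁, r = v * (x * c) := by
    obtain ⟨h, y, hh, hy, e⟩ := DoubleCoset.mk_out_eq_mul U₁ (Subgroup.zpowers c) x
    rcases mem_zpowers_invol hc hy with rfl | rfl
    · left
      exact ⟨h, hh, by rw [hr, e, mul_one]⟩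
    · right
      exact ⟨h, hh, by rw [hr, e, mul_assoc]⟩
  have hnot : ¬ ((∃ v ∈ U₁, r = v * x) ∧ ∃ v ∈ U₁, r = v * (x * c)) := by
    rintro ⟨⟨v, hv, e⟩, ⟨w, hw, e'⟩⟩
    apply hfree x
    have h3 : x * c * x⁻¹ = w⁻¹ * v := by
      have h4 : v * x = w * (x * c) := e.symm.trans e'
      have h5 : x * c = w⁻¹ * (v * x) := by rw [h4, inv_mul_cancel_left]
      rw [h5]
      group
    rw [h3]
    exact mul_mem (inv_mem hw) hv
  unfold sgn
  rw [h1]
  by_cases hP : ∃ v ∈ U₁, r = v * x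
  · have hQ : ¬ ∃ v ∈ U₁, r = v * (x * c) := fun hQ => hnot ⟨hP, hQ⟩
    rw [if_pos hP, if_neg hQ]
  · have hQ : ∃ v ∈ U₁, r = v * (x * c) := hor.resolve_left hP
    rw [if_neg hP, if_pos hQ, neg_neg]

variable {F : Type} [Field F] {A : Type} [AddCommGroup A] [Module F A]

/-- Multiplication by the sign function on `Coind_{U₁}^Γ A`. -/
noncomputable def sgnTwist :
    coindV U₁.subtype (Representation.trivial F U₁ A) ≃ₗ[F]
      coindV U₁.subtype (Representation.trivial F U₁ A) where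
  toFun f := ⟨fun x => sgn U₁ c x • f.1 x, fun u x => by
    show sgn U₁ c ((u : Γ) * x) • f.1 ((u : Γ) * x) = sgn U₁ c x • f.1 x
    have h1 : f.1 ((u : Γ) * x) = f.1 x := f.2 u x
    rw [sgn_mul_left U₁ c u.2, h1]⟩
  map_add' f g := by
    apply Subtype.ext
    funext x
    simp
  map_smul' a f := by
    apply Subtype.ext
    funext x
    show sgn U₁ c x • a • f.1 x = a • sgn U₁ c x • f.1 x
    rw [smul_comm]
  invFun f := ⟨fun x => sgn U₁ c x • f.1 x, fun u x => by
    show sgn U₁ c ((u : Γ) * x) • f.1 ((u : Γ) * x) = sgn U₁ c x • f.1 x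
    have h1 : f.1 ((u : Γ) * x) = f.1 x := f.2 u x
    rw [sgn_mul_left U₁ c u.2, h1]⟩
  left_inv f := by
    apply Subtype.ext
    funext x
    show sgn U₁ c x • sgn U₁ c x • f.1 x = f.1 x
    rw [smul_smul, sgn_mul_self, one_smul]
  right_inv f := by
    apply Subtype.ext
    funext x
    show sgn U₁ c x • sgn U₁ c x • f.1 x = f.1 x
    rw [smul_smul, sgn_mul_self, one_smul]

/-- **The `(-1)`-eigenspace of a free involution on `Coind_{U₁}^Γ A`** has half the dimension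
(characteristic `≠ 2`). -/
theorem two_mul_finrank_ker_coind_add_one {c : Γ} (hc : c * c = 1)
    (hfree : ∀ x : Γ, x * c * x⁻¹ ∉ U₁) (h2 : (2 : F) ≠ 0)
    [Module.Finite F (coindV U₁.subtype (Representation.trivial F U₁ A))] :
    2 * Module.finrank F
        (LinearMap.ker (coind U₁.subtype (Representation.trivial F U₁ A) c + 1)) =
      Module.finrank F (coindV U₁.subtype (Representation.trivial F U₁ A)) := by
  set T := coind U₁.subtype (Representation.trivial F U₁ A) c with hTdef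
  have hT : ∀ f, T (T f) = f := by
    intro f
    apply Subtype.ext
    funext x
    show f.1 (x * c * c) = f.1 x
    rw [mul_assoc, hc, mul_one]
  have hanti : ∀ f, sgnTwist U₁ c (F := F) (A := A) (T f) = -T (sgnTwist U₁ c f) := by
    intro f
    apply Subtype.ext
    funext x
    show sgn U₁ c x • f.1 (x * c) = -(sgn U₁ c (x * c) • f.1 (x * c))
    rw [sgn_mul_right U₁ hc hfree, neg_smul, neg_neg]
  have h3 := finrank_ker_add_one_add_ker_sub_one T hT h2
  have h4 := finrank_ker_sub_one_eq_of_anticomm T (sgnTwist U₁ c) hanti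
  omega

end Sign

end Fermat.Agent.TW.EC.CoindChar
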