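import Mathlib
import Fermat.Agent.PT.Coh.EngineNat

/-!
# TW / (EC), brick (χ-dual): the twisted dual of `Coind_U k(ψ)` is `Coind_U k(θ)`, `θ ψ = χ`

`U ≤ G` of finite index, `k/𝔽` a finite separable field extension, `χ : G → 𝔽ˣ`, `ψ, θ : U → kˣ`
with `θ ψ = χ|_U`; `σ = k(ψ)`, `σ' = k(θ)` as `𝔽`-representations of `U`.  The pairing

  `⟨φ', φ⟩ = ∑_{x ∈ U\G} χ(x)⁻¹ · Tr_{k/𝔽}(φ x · φ' x)`     (`φ ∈ Coind_U σ`, `φ' ∈ Coind_U σ'`)

is perfect and satisfies `⟨g φ', φ⟩ = χ(g) ⟨φ', g⁻¹ φ⟩`, i.e. it identifies `Coind_U σ'` with the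
twisted dual `dualTw χ (Coind_U σ)` (`exists_dualTw_coind_equiv`).
-/

set_option autoImplicit false

namespace Fermat.Agent.TW.EC.CoindDual

open Fermat.Agent.PT Module

variable {G : Type} [Group G] (U : Subgroup G) {𝔽 k : Type} [Field 𝔽] [Field k] [Algebra 𝔽 k]
variable (χ : G →* 𝔽ˣ) (ψ θ : U →* kˣ)
variable (σ σ' : Representation 𝔽 U k)

section Pairing

variable (hθ : ∀ u : U, (θ u : k) * (ψ u : k) = algebraMap 𝔽 k (χ (u : G)))
variable (hσ : ∀ (u : U) (x : k), σ u x = (ψ u : k) * x)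
variable (hσ' : ∀ (u : U) (x : k), σ' u x = (θ u : k) * x)

include hθ hσ hσ' in
/-- The summand of the pairing is constant on cosets. -/
lemma pair_wd (φ' : Representation.coindV U.subtype σ') (φ : Representation.coindV U.subtype σ)
    (a b : G) (hab : a⁻¹ * b ∈ U) :
    ((χ a : 𝔽ˣ) : 𝔽) * Algebra.trace 𝔽 k (φ.1 a⁻¹ * φ'.1 a⁻¹)
      = ((χ b : 𝔽ˣ) : 𝔽) * Algebra.trace 𝔽 k (φ.1 b⁻¹ * φ'.1 b⁻¹) := by
  have e : U.subtype ⟨a⁻¹ * b, hab⟩ * b⁻¹ = a⁻¹ := by simp
  have h1 := φ.2 ⟨a⁻¹ * b, hab⟩ b⁻¹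
  have h2 := φ'.2 ⟨a⁻¹ * b, hab⟩ b⁻¹
  rw [e, hσ] at h1
  rw [e, hσ'] at h2
  have h3 : φ.1 a⁻¹ * φ'.1 a⁻¹ = (χ (a⁻¹ * b) : 𝔽) • (φ.1 b⁻¹ * φ'.1 b⁻¹) := by
    rw [h1, h2, Algebra.smul_def, ← hθ ⟨a⁻¹ * b, hab⟩]
    ring
  rw [h3, map_smul, smul_eq_mul, ← mul_assoc, ← Units.val_mul, ← map_mul, mul_inv_cancel_left]

/-- The summand of the pairing, as a function on `G ⧸ U`: `g U ↦ χ(g) · Tr(φ(g⁻¹) φ'(g⁻¹))`. -/
noncomputable def pairFun (φ' : Representation.coindV U.subtype σ')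
    (φ : Representation.coindV U.subtype σ) : G ⧸ U → 𝔽 :=
  fun q => Quotient.liftOn' q
    (fun g => ((χ g : 𝔽ˣ) : 𝔽) * Algebra.trace 𝔽 k (φ.1 g⁻¹ * φ'.1 g⁻¹))
    (fun a b hab => pair_wd U χ ψ θ σ σ' hθ hσ hσ' φ' φ a b (QuotientGroup.leftRel_apply.mp hab))

lemma pairFun_mk (φ' : Representation.coindV U.subtype σ')
    (φ : Representation.coindV U.subtype σ) (g : G) :
    pairFun U χ ψ θ σ σ' hθ hσ hσ' φ' φ (g : G ⧸ U)
      = ((χ g : 𝔽ˣ) : 𝔽) * Algebra.trace 𝔽 k (φ.1 g⁻¹ * φ'.1 g⁻¹) := rfl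

variable [U.FiniteIndex]

noncomputable local instance : Fintype (G ⧸ U) := Fintype.ofFinite _

/-- The pairing `Coind_U σ' → (Coind_U σ)^*`. -/
noncomputable def pairing :
    Representation.coindV U.subtype σ' →ₗ[𝔽] Module.Dual 𝔽 (Representation.coindV U.subtype σ) :=
  LinearMap.mk₂ 𝔽 (fun φ' φ => ∑ q : G ⧸ U, pairFun U χ ψ θ σ σ' hθ hσ hσ' φ' φ q)
    (fun φ₁ φ₂ φ => by
      rw [← Finset.sum_add_distrib]
      refine Finset.sum_congr rfl fun q _ => ?_
      induction q using QuotientGroup.induction_on with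
      | _ g =>
        rw [pairFun_mk, pairFun_mk, pairFun_mk]
        show _ * Algebra.trace 𝔽 k (φ.1 g⁻¹ * (φ₁.1 g⁻¹ + φ₂.1 g⁻¹)) = _
        rw [mul_add, map_add, mul_add])
    (fun c φ' φ => by
      rw [Finset.smul_sum]
      refine Finset.sum_congr rfl fun q _ => ?_
      induction q using QuotientGroup.induction_on with
      | _ g =>
        rw [pairFun_mk, pairFun_mk]
        show _ * Algebra.trace 𝔽 k (φ.1 g⁻¹ * (c • φ'.1 g⁻¹)) = _
        rw [mul_smul_comm, map_smul, smul_eq_mul, smul_eq_mul]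
        ring)
    (fun φ' φ₁ φ₂ => by
      rw [← Finset.sum_add_distrib]
      refine Finset.sum_congr rfl fun q _ => ?_
      induction q using QuotientGroup.induction_on with
      | _ g =>
        rw [pairFun_mk, pairFun_mk, pairFun_mk]
        show _ * Algebra.trace 𝔽 k ((φ₁.1 g⁻¹ + φ₂.1 g⁻¹) * φ'.1 g⁻¹) = _
        rw [add_mul, map_add, mul_add])
    (fun c φ' φ => by
      rw [Finset.smul_sum]
      refine Finset.sum_congr rfl fun q _ => ?_
      induction q using QuotientGroup.induction_on with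
      | _ g =>
        rw [pairFun_mk, pairFun_mk]
        show _ * Algebra.trace 𝔽 k ((c • φ.1 g⁻¹) * φ'.1 g⁻¹) = _
        rw [smul_mul_assoc, map_smul, smul_eq_mul, smul_eq_mul]
        ring)

lemma pairing_apply (φ' : Representation.coindV U.subtype σ')
    (φ : Representation.coindV U.subtype σ) :
    pairing U χ ψ θ σ σ' hθ hσ hσ' φ' φ = ∑ q : G ⧸ U, pairFun U χ ψ θ σ σ' hθ hσ hσ' φ' φ q :=
  rfl

/-- `⟨g φ', φ⟩ = χ(g) ⟨φ', g⁻¹ φ⟩`. -/
theorem pairing_equivariant (g : G) (φ' : Representation.coindV U.subtype σ') :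
    pairing U χ ψ θ σ σ' hθ hσ hσ' (Representation.coind U.subtype σ' g φ')
      = LocDatum.dualTw χ (Representation.coind U.subtype σ) g
          (pairing U χ ψ θ σ σ' hθ hσ hσ' φ') := by
  apply LinearMap.ext
  intro φ
  rw [LocDatum.dualTw_apply, pairing_apply, pairing_apply, Finset.mul_sum,
    ← Equiv.sum_comp (MulAction.toPerm g : G ⧸ U ≃ G ⧸ U)
      (fun q => pairFun U χ ψ θ σ σ' hθ hσ hσ' (Representation.coind U.subtype σ' g φ') φ q)]
  refine Finset.sum_congr rfl fun q _ => ?_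
  induction q using QuotientGroup.induction_on with
  | _ h =>
    show pairFun U χ ψ θ σ σ' hθ hσ hσ' _ φ (((g * h : G) : G ⧸ U)) = _
    rw [pairFun_mk, pairFun_mk]
    show ((χ (g * h) : 𝔽ˣ) : 𝔽) * Algebra.trace 𝔽 k (φ.1 (g * h)⁻¹ * φ'.1 ((g * h)⁻¹ * g))
      = ((χ g : 𝔽ˣ) : 𝔽) * (((χ h : 𝔽ˣ) : 𝔽) * Algebra.trace 𝔽 k (φ.1 (h⁻¹ * g⁻¹) * φ'.1 h⁻¹))
    rw [mul_inv_rev, inv_mul_cancel_right, map_mul, Units.val_mul, mul_assoc]

open scoped Classical in
omit [U.FiniteIndex] in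
include hσ in
/-- The element of `Coind_U σ` supported on the coset `U x₀` with value `a` at `x₀`. -/
lemma delta_mem (x₀ : G) (a : k) :
    (fun y : G => if h : y * x₀⁻¹ ∈ U then (ψ ⟨y * x₀⁻¹, h⟩ : k) * a else 0)
      ∈ Representation.coindV U.subtype σ := by
  intro u y
  show (if h : (u : G) * y * x₀⁻¹ ∈ U then (ψ ⟨(u : G) * y * x₀⁻¹, h⟩ : k) * a else 0)
    = σ u (if h : y * x₀⁻¹ ∈ U then (ψ ⟨y * x₀⁻¹, h⟩ : k) * a else 0)
  by_cases h : y * x₀⁻¹ ∈ U
  · have h' : (u : G) * y * x₀⁻¹ ∈ U := by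
      rw [mul_assoc]
      exact U.mul_mem u.2 h
    rw [dif_pos h, dif_pos h', hσ]
    have e : (⟨(u : G) * y * x₀⁻¹, h'⟩ : U) = u * ⟨y * x₀⁻¹, h⟩ := by
      apply Subtype.ext
      simp [mul_assoc]
    rw [e, map_mul, Units.val_mul, mul_assoc]
  · have h' : ¬ (u : G) * y * x₀⁻¹ ∈ U := by
      intro h'
      apply h
      have := U.mul_mem (U.inv_mem u.2) h'
      rwa [mul_assoc, inv_mul_cancel_left] at this
    rw [dif_neg h, dif_neg h', map_zero]

open scoped Classical in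
/-- The element of `Coind_U σ` supported on the coset `U x₀` with value `a` at `x₀`. -/
noncomputable def delta (x₀ : G) (a : k) : Representation.coindV U.subtype σ :=
  ⟨fun y : G => if h : y * x₀⁻¹ ∈ U then (ψ ⟨y * x₀⁻¹, h⟩ : k) * a else 0,
    delta_mem U ψ σ hσ x₀ a⟩

omit [U.FiniteIndex] in
lemma delta_self (x₀ : G) (a : k) : (delta U ψ σ hσ x₀ a).1 x₀ = a := by
  classical
  have h : x₀ * x₀⁻¹ ∈ U := by rw [mul_inv_cancel]; exact U.one_mem
  show (if h : x₀ * x₀⁻¹ ∈ U then (ψ ⟨x₀ * x₀⁻¹, h⟩ : k) * a else 0) = a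
  rw [dif_pos h]
  have e : (⟨x₀ * x₀⁻¹, h⟩ : U) = 1 := Subtype.ext (mul_inv_cancel x₀)
  rw [e, map_one, Units.val_one, one_mul]

omit [U.FiniteIndex] in
lemma delta_eq_zero (x₀ : G) (a : k) {y : G} (hy : ¬ y * x₀⁻¹ ∈ U) :
    (delta U ψ σ hσ x₀ a).1 y = 0 := by
  classical
  show (if h : y * x₀⁻¹ ∈ U then (ψ ⟨y * x₀⁻¹, h⟩ : k) * a else 0) = 0
  rw [dif_neg hy]

/-- The pairing against the element supported on `U x₀`. -/
theorem pairing_delta (φ' : Representation.coindV U.subtype σ') (x₀ : G) (a : k) :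
    pairing U χ ψ θ σ σ' hθ hσ hσ' φ' (delta U ψ σ hσ x₀ a)
      = ((χ x₀⁻¹ : 𝔽ˣ) : 𝔽) * Algebra.trace 𝔽 k (a * φ'.1 x₀) := by
  classical
  rw [pairing_apply, Finset.sum_eq_single ((x₀⁻¹ : G) : G ⧸ U)]
  · rw [pairFun_mk, inv_inv, delta_self]
  · intro q _ hq
    induction q using QuotientGroup.induction_on with
    | _ g =>
      rw [pairFun_mk, delta_eq_zero, zero_mul, map_zero, mul_zero]
      intro hmem
      apply hq
      rw [eq_comm, QuotientGroup.eq, inv_inv]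
      have := U.inv_mem hmem
      rwa [mul_inv_rev, inv_inv, inv_inv] at this
  · intro h
    exact absurd (Finset.mem_univ _) h

/-- The pairing is injective (separability of `k/𝔽`). -/
theorem pairing_injective [FiniteDimensional 𝔽 k] [Algebra.IsSeparable 𝔽 k] :
    Function.Injective (pairing U χ ψ θ σ σ' hθ hσ hσ') := by
  refine (injective_iff_map_eq_zero _).mpr fun φ' h => ?_
  apply Subtype.ext
  funext x₀
  have h1 : ∀ a : k, Algebra.trace 𝔽 k (a * φ'.1 x₀) = 0 := by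
    intro a
    have h2 := pairing_delta U χ ψ θ σ σ' hθ hσ hσ' φ' x₀ a
    rw [h, LinearMap.zero_apply] at h2
    exact (mul_eq_zero.mp h2.symm).resolve_left (Units.ne_zero _)
  exact (traceForm_nondegenerate 𝔽 k).2 (φ'.1 x₀) fun a => by
    rw [Algebra.traceForm_apply]
    exact h1 a

end Pairing

section Finite

variable [U.FiniteIndex]

/-- `Coind_U σ` is finite-dimensional over `𝔽`. -/
theorem finite_coindV [Module.Finite 𝔽 k] :
    Module.Finite 𝔽 (Representation.coindV U.subtype σ) := by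
  have : Finite (G ⧸ U) := Subgroup.finite_quotient_of_finiteIndex
  let ev : Representation.coindV U.subtype σ →ₗ[𝔽] (G ⧸ U → k) :=
    { toFun := fun φ q => φ.1 (q.out)⁻¹
      map_add' := fun _ _ => rfl
      map_smul' := fun _ _ => rfl }
  have hev : Function.Injective ev := by
    refine (injective_iff_map_eq_zero ev).mpr fun φ hφ => ?_
    apply Subtype.ext
    funext x
    have h1 : (((x⁻¹ : G) : G ⧸ U).out : G ⧸ U) = ((x⁻¹ : G) : G ⧸ U) := QuotientGroup.out_eq' _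
    rw [QuotientGroup.eq] at h1
    have h2 := φ.2 ⟨_, U.inv_mem h1⟩ (((x⁻¹ : G) : G ⧸ U).out)⁻¹
    have e : U.subtype ⟨_, U.inv_mem h1⟩ * (((x⁻¹ : G) : G ⧸ U).out)⁻¹ = x := by simp
    rw [e, show φ.1 (((x⁻¹ : G) : G ⧸ U).out)⁻¹ = 0 from congrFun hφ _, map_zero] at h2
    exact h2
  exact Module.Finite.of_injective ev hev

end Finite

/-- **(χ-dual)**: for `θ ψ = χ|_U`, the coinduced module `Coind_U k(θ)` is the `χ`-twisted dual of
`Coind_U k(ψ)`, equivariantly. -/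
theorem exists_dualTw_coind_equiv {G : Type} [Group G] (U : Subgroup G) [U.FiniteIndex]
    {𝔽 k : Type} [Field 𝔽] [Field k] [Algebra 𝔽 k] [Module.Finite 𝔽 k] [Algebra.IsSeparable 𝔽 k]
    (χ : G →* 𝔽ˣ) (ψ θ : U →* kˣ)
    (hθ : ∀ u : U, (θ u : k) * (ψ u : k) = algebraMap 𝔽 k (χ (u : G)))
    (σ σ' : Representation 𝔽 U k) (hσ : ∀ u x, σ u x = (ψ u : k) * x)
    (hσ' : ∀ u x, σ' u x = (θ u : k) * x) :
    ∃ e : Representation.coindV U.subtype σ' ≃ₗ[𝔽]
        Module.Dual 𝔽 (Representation.coindV U.subtype σ),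
      ∀ (g : G) (φ : Representation.coindV U.subtype σ'),
        e (Representation.coind U.subtype σ' g φ)
          = Fermat.Agent.PT.LocDatum.dualTw χ (Representation.coind U.subtype σ) g (e φ) := by
  have hθ' : ∀ u : U, (ψ u : k) * (θ u : k) = algebraMap 𝔽 k (χ (u : G)) := fun u => by
    rw [mul_comm]; exact hθ u
  have hfin : Module.Finite 𝔽 (Representation.coindV U.subtype σ) := finite_coindV U σ
  have hfin' : Module.Finite 𝔽 (Representation.coindV U.subtype σ') := finite_coindV U σ'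
  have hinj := pairing_injective U χ ψ θ σ σ' hθ hσ hσ'
  have hinj' := pairing_injective U χ θ ψ σ' σ hθ' hσ' hσ
  have h1 : finrank 𝔽 (Representation.coindV U.subtype σ') ≤
      finrank 𝔽 (Representation.coindV U.subtype σ) := by
    have := LinearMap.finrank_le_finrank_of_injective hinj
    rwa [Subspace.dual_finrank_eq] at this
  have h2 : finrank 𝔽 (Representation.coindV U.subtype σ) ≤
      finrank 𝔽 (Representation.coindV U.subtype σ') := by
    have := LinearMap.finrank_le_finrank_of_injective hinj'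
    rwa [Subspace.dual_finrank_eq] at this
  have heq : finrank 𝔽 (Representation.coindV U.subtype σ') =
      finrank 𝔽 (Module.Dual 𝔽 (Representation.coindV U.subtype σ)) := by
    rw [Subspace.dual_finrank_eq]
    exact le_antisymm h1 h2
  have hsurj := (LinearMap.injective_iff_surjective_of_finrank_eq_finrank heq).mp hinj
  exact ⟨LinearEquiv.ofBijective (pairing U χ ψ θ σ σ' hθ hσ hσ') ⟨hinj, hsurj⟩,
    fun g φ => pairing_equivariant U χ ψ θ σ σ' hθ hσ hσ' g φ⟩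

end Fermat.Agent.TW.EC.CoindDual
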