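import Mathlib

/-!
# TW (EC): a common eigenvector for a subgroup which is cyclic modulo the kernel

* `exists_eigenvector_of_split` : a root of the characteristic polynomial of a `2 × 2` matrix has
  an eigenvector;
* `exists_common_eigenvector` : if `U` is generated by one element modulo the kernel of
  `rb : G →* M₂(k)` and the characteristic polynomials of `rb` split, then the matrices `rb u`,
  `u ∈ U`, have a common eigenvector (the input `heig` of `Flag.exists_flag`).
-/

set_option autoImplicit false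

namespace Fermat.Agent.TW.EC

open Polynomial

variable {k : Type} [Field k]

/-- A root of the characteristic polynomial of a `2 × 2` matrix has an eigenvector. -/
theorem exists_eigenvector_of_split (M : Matrix (Fin 2) (Fin 2) k) (α β : k)
    (h : M.charpoly = (X - C α) * (X - C β)) : ∃ v : Fin 2 → k, v ≠ 0 ∧ M.mulVec v = α • v := by
  have h1 : (Matrix.scalar (Fin 2) α - M).det = 0 := by
    rw [← Matrix.eval_charpoly, h]
    simp
  obtain ⟨v, hv0, hv⟩ := Matrix.exists_mulVec_eq_zero_iff.mpr h1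
  refine ⟨v, hv0, ?_⟩
  rw [Matrix.sub_mulVec, sub_eq_zero] at hv
  rw [← hv]
  funext i
  simp [Matrix.mulVec, dotProduct, Matrix.scalar_apply, Matrix.diagonal_apply]

/-- **A common eigenvector** for a subgroup `U` which is cyclic modulo the kernel of `rb`, when
the characteristic polynomials split. -/
theorem exists_common_eigenvector {G : Type} [Group G] (rb : G →* Matrix (Fin 2) (Fin 2) k)
    (U : Subgroup G) (hcyc : ∃ g ∈ U, ∀ u ∈ U, ∃ n : ℤ, g ^ n * u ∈ rb.ker)
    (hsplit : ∀ σ : G, ∃ α β : k, (rb σ).charpoly = (X - C α) * (X - C β)) :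
    ∃ v : Fin 2 → k, v ≠ 0 ∧ ∀ u ∈ U, ∃ c : k, (rb u).mulVec v = c • v := by
  obtain ⟨g, -, hg⟩ := hcyc
  obtain ⟨α, β, hαβ⟩ := hsplit g
  obtain ⟨v, hv0, hv⟩ := exists_eigenvector_of_split (rb g) α β hαβ
  refine ⟨v, hv0, ?_⟩
  have hinv : ∀ h : G, (rb h⁻¹).mulVec ((rb h).mulVec v) = v := by
    intro h
    rw [Matrix.mulVec_mulVec, ← map_mul, inv_mul_cancel, map_one, Matrix.one_mulVec]
  let E : Subgroup G :=
    { carrier := {h | ∃ c : k, (rb h).mulVec v = c • v}
      mul_mem' := by
        rintro h h' ⟨c, hc⟩ ⟨c', hc'⟩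
        exact ⟨c' * c, by
          rw [map_mul, ← Matrix.mulVec_mulVec, hc', Matrix.mulVec_smul, hc, smul_smul]⟩
      one_mem' := ⟨1, by rw [map_one, Matrix.one_mulVec, one_smul]⟩
      inv_mem' := by
        rintro h ⟨c, hc⟩
        have h1 := hinv h
        rw [hc, Matrix.mulVec_smul] at h1
        have hc0 : c ≠ 0 := by
          rintro rfl
          rw [zero_smul] at h1
          exact hv0 h1.symm
        refine ⟨c⁻¹, ?_⟩
        calc (rb h⁻¹).mulVec v = c⁻¹ • (c • (rb h⁻¹).mulVec v) := by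
              rw [smul_smul, inv_mul_cancel₀ hc0, one_smul]
          _ = c⁻¹ • v := by rw [h1] }
  intro u hu
  obtain ⟨n, hn⟩ := hg u hu
  have h1 : g ^ n * u ∈ E := ⟨1, by rw [MonoidHom.mem_ker.mp hn, Matrix.one_mulVec, one_smul]⟩
  have h2 : g ∈ E := ⟨α, hv⟩
  have h3 : u = (g ^ n)⁻¹ * (g ^ n * u) := by group
  have h4 : u ∈ E := by
    rw [h3]
    exact E.mul_mem (E.inv_mem (E.zpow_mem h2 n)) h1
  exact h4

end Fermat.Agent.TW.EC
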