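/-
TW / (EC), brick (χ-Σ): the class-group killing set.

For a number field `K ⊂ ℚ̄` there is a finite set `Σ` of rational primes such that the `S`-class
group `Cl_S(K)` is trivial for every `S ⊇ Σ`; then the Selmer group `K(S, p)` consists of
`S`-units times `p`-th powers.  One `Σ` serves all subfields of a given finite extension `L/ℚ`.

* `exists_finset_clS_subsingleton` : `∃ Σ, ∀ S ⊇ Σ, Cl_S(K) = 1`;
* `exists_unit_mul_pow_of_selmer` : if `Cl_S(K) = 1`, an `a ∈ Kˣ` with `p ∣ v(a)` outside `S`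
  (valuation-subring form, as in `PT/G/KumSelmer`) is `u · y^p` with `u ∈ K` an `S`-unit;
* `exists_finset_clS_subsingleton_le`, `exists_finset_kill` : one `Σ` for all subfields `K ≤ L`.
-/
import Fermat.Agent.PT.G.KumBridge

set_option autoImplicit false

namespace Fermat.Agent.TW.EC

local notation "Qb" => AlgebraicClosure ℚ

open IsDedekindDomain NumberField FractionalIdeal
open Fermat.Agent.PT.SelmerSeq Fermat.Agent.PT.KumBridge
open scoped nonZeroDivisors

/-! ### Abstract: an `S`-class group is trivial once `S` supports representatives of all classes -/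

section Abstract

variable {R : Type*} [CommRing R] [IsDedekindDomain R] (K : Type*) [Field K] [Algebra R K]
  [IsFractionRing R K]

/-- The exponent of `v` in an integral ideal not contained in `v` is zero. -/
theorem cnt_mk0_eq_zero (v : HeightOneSpectrum R) (J : (Ideal R)⁰)
    (h : ¬ (J : Ideal R) ≤ v.asIdeal) : cnt K v (FractionalIdeal.mk0 K J) = 0 := by
  classical
  have hJ : (J : Ideal R) ≠ 0 := mem_nonZeroDivisors_iff_ne_zero.mp J.2
  rw [cnt, FractionalIdeal.coe_mk0, count_coe K v hJ, Int.natCast_eq_zero]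
  by_contra hne
  exact h (Ideal.le_of_dvd ((Associates.count_ne_zero_iff_dvd hJ v.irreducible).1 hne))

/-- If every ideal class has an integral representative whose prime factors lie in `S`, the
`S`-class group is trivial. -/
theorem clS_subsingleton_of_reps (S : Set (HeightOneSpectrum R))
    (h : ∀ c : ClassGroup R, ∃ J : (Ideal R)⁰, ClassGroup.mk0 J = c ∧
      ∀ v : HeightOneSpectrum R, v ∉ S → ¬ (J : Ideal R) ≤ v.asIdeal) :
    Subsingleton (ClS K S) := by
  have key : ∀ I : (FractionalIdeal R⁰ K)ˣ, (QuotientGroup.mk I : ClS K S) = 1 := by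
    intro I
    obtain ⟨J, hJc, hJ⟩ := h ((ClassGroup.equiv K).symm (QuotientGroup.mk I))
    have h1 : (QuotientGroup.mk (FractionalIdeal.mk0 K J) :
        (FractionalIdeal R⁰ K)ˣ ⧸ (toPrincipalIdeal R K).range) = QuotientGroup.mk I := by
      have h2 := ClassGroup.equiv_mk0 (K := K) J
      rw [hJc, MulEquiv.apply_symm_apply] at h2
      exact h2.symm
    obtain ⟨x, hx⟩ := QuotientGroup.eq.1 h1
    rw [mk_eq_one_iff]
    refine ⟨x, fun v hv => ?_⟩
    have h3 : I = FractionalIdeal.mk0 K J * toPrincipalIdeal R K x := by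
      rw [hx, mul_inv_cancel_left]
    rw [h3, cnt_mul, cnt_mk0_eq_zero K v J (hJ v hv), zero_add]
    rfl
  refine ⟨fun a b => ?_⟩
  obtain ⟨I, rfl⟩ := QuotientGroup.mk_surjective a
  obtain ⟨I', rfl⟩ := QuotientGroup.mk_surjective b
  rw [key I, key I']

end Abstract

/-! ### Number fields inside `ℚ̄` -/

section NF

variable (K : IntermediateField ℚ Qb) [NumberField K]

/-- A prime of `𝓞 K` containing a nonzero ideal `J` contains a rational prime dividing the
absolute norm of `J`. -/
theorem exists_prime_mem_of_le (v : HeightOneSpectrum (𝓞 K)) (J : Ideal (𝓞 K)) (hJ : J ≠ 0)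
    (h : J ≤ v.asIdeal) :
    ∃ q : ℕ, q.Prime ∧ q ∣ Ideal.absNorm J ∧ ((q : ℕ) : 𝓞 K) ∈ v.asIdeal := by
  have hN : Ideal.absNorm J ≠ 0 := by
    rw [Ne, Ideal.absNorm_eq_zero_iff]
    exact hJ
  have hmem : ((Ideal.absNorm J : ℕ) : 𝓞 K) ∈ v.asIdeal := h (Ideal.absNorm_mem J)
  -- strong induction on the natural number
  have key : ∀ n : ℕ, n ≠ 0 → ((n : ℕ) : 𝓞 K) ∈ v.asIdeal →
      ∃ q : ℕ, q.Prime ∧ q ∣ n ∧ ((q : ℕ) : 𝓞 K) ∈ v.asIdeal := by
    intro n
    induction n using Nat.strong_induction_on with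
    | _ n ih =>
      intro hn0 hn
      have hn1 : n ≠ 1 := by
        rintro rfl
        rw [Nat.cast_one] at hn
        exact v.isPrime.ne_top ((Ideal.eq_top_iff_one _).2 hn)
      obtain ⟨q, hq, m, rfl⟩ := Nat.exists_prime_and_dvd hn1
      rw [Nat.cast_mul] at hn
      rcases v.isPrime.mem_or_mem hn with h1 | h1
      · exact ⟨q, hq, dvd_mul_right _ _, h1⟩
      · have hm0 : m ≠ 0 := by
          rintro rfl
          exact hn0 (mul_zero _)
        have hlt : m < q * m := by
          have := hq.one_lt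
          nlinarith [Nat.pos_of_ne_zero hm0]
        obtain ⟨q', hq', hdvd, hmem'⟩ := ih m hlt hm0 h1
        exact ⟨q', hq', hdvd.trans (dvd_mul_left _ _), hmem'⟩
  exact key _ hN hmem

/-- **(Σ1)** There is a finite set `Σ` of rational primes such that `Cl_S(K)` is trivial for
every `S ⊇ Σ`. -/
theorem exists_finset_clS_subsingleton :
    ∃ Sg : Finset Nat.Primes, ∀ S : Finset Nat.Primes, Sg ⊆ S →
      Subsingleton (ClS ↥K (primesOver K S)) := by
  classical
  have hfin : Finite (ClassGroup (𝓞 K)) := inferInstance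
  have := Fintype.ofFinite (ClassGroup (𝓞 K))
  choose J hJ using fun c : ClassGroup (𝓞 K) => ClassGroup.mk0_surjective c
  let N : ℕ := ∏ c : ClassGroup (𝓞 K), Ideal.absNorm (J c : Ideal (𝓞 K))
  refine ⟨N.primeFactors.subtype Nat.Prime, fun S hS => ?_⟩
  refine clS_subsingleton_of_reps (↥K) (primesOver K S) fun c => ⟨J c, hJ c, fun v hv hle => ?_⟩
  have hJ0 : (J c : Ideal (𝓞 K)) ≠ 0 := mem_nonZeroDivisors_iff_ne_zero.mp (J c).2
  obtain ⟨q, hq, hdvd, hmem⟩ := exists_prime_mem_of_le K v (J c : Ideal (𝓞 K)) hJ0 hle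
  apply hv
  have hN0 : N ≠ 0 := by
    refine Finset.prod_ne_zero_iff.2 fun c' _ => ?_
    rw [Ne, Ideal.absNorm_eq_zero_iff]
    exact mem_nonZeroDivisors_iff_ne_zero.mp (J c').2
  have hqN : q ∣ N := hdvd.trans (Finset.dvd_prod_of_mem _ (Finset.mem_univ c))
  have hqS : (⟨q, hq⟩ : Nat.Primes) ∈ S :=
    hS (Finset.mem_subtype.2 (Nat.mem_primeFactors.2 ⟨hq, hqN, hN0⟩))
  exact ⟨⟨q, hq⟩, hqS, hmem⟩

/-- **(Σ2)** If `Cl_S(K)` is trivial, then every `a ∈ Kˣ` satisfying the Selmer condition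
outside `S` (valuation-subring form) is an `S`-unit of `K` times a `p`-th power in `K`. -/
theorem exists_unit_mul_pow_of_selmer (p : ℕ) (hp : p ≠ 0) (S : Finset Nat.Primes)
    (hK : K.IsUnramifiedOutside S) (hcl : Subsingleton (ClS ↥K (primesOver K S)))
    (a : Qb) (ha : a ∈ K) (ha0 : a ≠ 0)
    (h : ∀ q : Nat.Primes, q ∉ S → ∀ A : ValuationSubring Qb, A.LiesOverPrime q →
      ∃ n : ℤ, A.valuation a = A.valuation (((q : ℕ) : Qb) ^ ((p : ℤ) * n))) :
    ∃ u y : Qb, u ∈ K ∧ y ∈ K ∧ u ≠ 0 ∧ y ≠ 0 ∧ a = u * y ^ p ∧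
      ∀ q : Nat.Primes, q ∉ S → ∀ A : ValuationSubring Qb, A.LiesOverPrime q →
        A.valuation u = 1 := by
  have ha0' : (⟨a, ha⟩ : K) ≠ 0 := fun h0 => ha0 (congrArg Subtype.val h0)
  let a' : (↥K)ˣ := Units.mk0 ⟨a, ha⟩ ha0'
  have hsel : a' ∈ Sel (↥K) (primesOver K S) p := (selmer_condition_iff K S hK p a').1 h
  have h1 : toClS (↥K) (primesOver K S) p ⟨a', hsel⟩ = 1 := Subsingleton.elim _ _
  obtain ⟨u, hu, y, hy⟩ := (toClS_eq_one_iff hp ⟨a', hsel⟩).1 h1
  refine ⟨((u : ↥K) : Qb), ((y : ↥K) : Qb), (u : ↥K).2, (y : ↥K).2, ?_, ?_, ?_, ?_⟩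
  · exact fun h0 => u.ne_zero (Subtype.ext h0)
  · exact fun h0 => y.ne_zero (Subtype.ext h0)
  · have h3 : a' = u * y ^ p := hy
    calc a = ((a' : ↥K) : Qb) := rfl
      _ = (((u * y ^ p : (↥K)ˣ) : ↥K) : Qb) := by rw [h3]
      _ = ((u : ↥K) : Qb) * ((y : ↥K) : Qb) ^ p := by push_cast; rfl
  · intro q hq A hA
    have h2 := (mem_unit_iff.1 hu) (primeOf K A q.2.ne_zero hA)
      (primeOf_notMem_primesOver K S A q hq hA)
    exact valuation_eq_one_of_primeOf K A q.2.ne_zero hA (u : ↥K)
      ((Fermat.Agent.PT.SelmerSeq.valuation_eq_one_iff _ u).2 h2)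

end NF

/-! ### One `Σ` for all subfields of a finite extension -/

/-- The subfields of a finite extension `L/ℚ` inside `ℚ̄` are finite in number. -/
theorem finite_subfields (L : IntermediateField ℚ Qb) [FiniteDimensional ℚ L] :
    {K : IntermediateField ℚ Qb | K ≤ L}.Finite := by
  have hfin : Finite (IntermediateField ℚ L) :=
    Field.finite_intermediateField_of_exists_primitive_element ℚ L
      (Field.exists_primitive_element ℚ L)
  have hsub : {K : IntermediateField ℚ Qb | K ≤ L} ⊆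
      Set.range (IntermediateField.lift : IntermediateField ℚ L → IntermediateField ℚ Qb) := by
    intro K hK
    exact ⟨IntermediateField.restrict hK, IntermediateField.lift_restrict hK⟩
  exact (@Set.finite_range _ _ (IntermediateField.lift :
    IntermediateField ℚ L → IntermediateField ℚ Qb) hfin).subset hsub

/-- A subfield of a finite extension of `ℚ` inside `ℚ̄` is a number field. -/
theorem numberField_of_le {K L : IntermediateField ℚ Qb} [FiniteDimensional ℚ L] (hK : K ≤ L) :
    NumberField K :=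
  haveI : FiniteDimensional ℚ K :=
    FiniteDimensional.of_injective (IntermediateField.inclusion hK).toLinearMap
      (IntermediateField.inclusion_injective hK)
  NumberField.mk

/-- **(Σ3')** One finite set `Σ` of rational primes such that `Cl_S(K)` is trivial for every
`S ⊇ Σ` and every subfield `K ≤ L`. -/
theorem exists_finset_clS_subsingleton_le (L : IntermediateField ℚ Qb) [FiniteDimensional ℚ L] :
    ∃ Sg : Finset Nat.Primes, ∀ S : Finset Nat.Primes, Sg ⊆ S →
      ∀ K : IntermediateField ℚ Qb, K ≤ L → ∀ [NumberField K],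
        Subsingleton (ClS ↥K (primesOver K S)) := by
  classical
  have hfinset := finite_subfields L
  have hex : ∀ K : IntermediateField ℚ Qb, ∃ Sg : Finset Nat.Primes, K ≤ L →
      ∀ (hn : NumberField K) (S : Finset Nat.Primes), Sg ⊆ S →
        Subsingleton (ClS ↥K (primesOver K S)) := by
    intro K
    by_cases hK : K ≤ L
    · have := numberField_of_le hK
      have h1 := exists_finset_clS_subsingleton K
      obtain ⟨Sg, hSg⟩ := h1
      refine ⟨Sg, fun _ hn S hS => ?_⟩
      have : hn = numberField_of_le hK := Subsingleton.elim _ _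
      subst this
      exact hSg S hS
    · exact ⟨∅, fun h => absurd h hK⟩
  choose Sg hSg using hex
  refine ⟨hfinset.toFinset.biUnion Sg, fun S hS K hKL hn => ?_⟩
  have hsub : Sg K ⊆ S := fun q hq => hS (Finset.mem_biUnion.2
    ⟨K, hfinset.mem_toFinset.2 hKL, hq⟩)
  exact hSg K hKL hn S hsub

/-- **(Σ3)** One finite set `Σ` of rational primes such that, for every `S ⊇ Σ` and every
subfield `K ≤ L` unramified outside `S`, the Selmer group `K(S, p)` is "units times `p`-th
powers" (for every `p ≠ 0`). -/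
theorem exists_finset_kill (L : IntermediateField ℚ Qb) [FiniteDimensional ℚ L] :
    ∃ Sg : Finset Nat.Primes, ∀ S : Finset Nat.Primes, Sg ⊆ S →
      ∀ K : IntermediateField ℚ Qb, K ≤ L → K.IsUnramifiedOutside S →
      ∀ p : ℕ, p ≠ 0 → ∀ a : Qb, a ∈ K → a ≠ 0 →
      (∀ q : Nat.Primes, q ∉ S → ∀ A : ValuationSubring Qb, A.LiesOverPrime q →
        ∃ n : ℤ, A.valuation a = A.valuation (((q : ℕ) : Qb) ^ ((p : ℤ) * n))) →
      ∃ u y : Qb, u ∈ K ∧ y ∈ K ∧ u ≠ 0 ∧ y ≠ 0 ∧ a = u * y ^ p ∧
        ∀ q : Nat.Primes, q ∉ S → ∀ A : ValuationSubring Qb, A.LiesOverPrime q →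
          A.valuation u = 1 := by
  have h1 := exists_finset_clS_subsingleton_le L
  obtain ⟨Sg, hSg⟩ := h1
  refine ⟨Sg, fun S hS K hKL hK p hp a ha ha0 h => ?_⟩
  have := numberField_of_le hKL
  exact exists_unit_mul_pow_of_selmer K p hp S hK (hSg S hS K hKL) a ha ha0 h

end Fermat.Agent.TW.EC
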