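/-
TW / (EC): the last wire.  helper50's joint equivariant `S`-unit count
(`finrank_unitEigen_le`, TW/EC/UnitEigenJoint.lean) is literally the open input `UnitBound`
of the (χ-asm) assembly (TW/EC/ChiAsmB.lean); hence (EC-CHI) and (EC) for `ad⁰(1)` hold
unconditionally.

* `unitBound p k S : ChiAsmB.UnitBound p k S`
* `chiStatement` : (EC-CHI) for all `S ⊇ T`
* `exists_finset_ec` : (EC) for `ad⁰(1)` over all `S ⊇ T₀`, in the literal conclusion shape of
  `exists_finset_ec_of_chi` / `exists_finset_ec_of`.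
-/
import Mathlib
import Fermat.Agent.TW.EC.ChiAsmB
import Fermat.Agent.TW.EC.UnitEigenJoint

set_option autoImplicit false

namespace Fermat.Agent.TW.EC.UnitBoundPf

open Fermat.Agent.S53 Fermat.Agent.PT Fermat.Agent.PT.Bridge ExtCitation Module TensorProduct
open Fermat.Agent.TW Fermat.Agent.TW.EC.Mackey Fermat.Agent.PT.KumBridge

local notation "Qb" => AlgebraicClosure ℚ

/-- **(χ-U)**: the equivariant `S`-unit count, in the shape consumed by the (χ-asm) assembly. -/
theorem unitBound (p : ℕ) [Fact p.Prime] (k : Type) [Field k] [Algebra (ZMod p) k]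
    (S : Finset Nat.Primes) : ChiAsmB.UnitBound p k S := by
  intro K _ U hKU hU θ hθ hpU
  exact finrank_unitEigen_le p k K S U hKU hU θ hθ hpU ((ChiSetup.omegaK p k).comp U.subtype)
    (fun _ => rfl) primeLocalPlace (fun q _ => Base.liesOverPrime_primeLocalPlace q)

variable (p : ℕ) [Fact p.Prime] {k : Type} [Field k] [Algebra (ZMod p) k]

/-- **(EC-CHI)**, unconditional: for all `S ⊇ T`, `FS(Coind_U k(ψ)) = 0`. -/
theorem chiStatement [Finite k] (rb : GQ →* Mat2 k) (hp2 : p ≠ 2) (h : ResidualHyp rb p) :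
    ∃ T : Finset Nat.Primes, ∀ S : Finset Nat.Primes, T ⊆ S →
      (∀ q : Nat.Primes, q ∉ S → ∀ P : ValuationSubring Qb, P.LiesOverPrime (q : ℕ) →
        ∀ σ ∈ P.inertiaSubgroupIn ℚ, rb σ = 1) →
      PTOut p S → CHIStatement (datum S) complexConjugation rb.ker (ZMod p) k :=
  ChiAsmB.chiStatement_of_unitBound p rb hp2 h (fun S => unitBound p k S)

/-- **(EC) for `ad⁰(1)`**, unconditional:
`h²(G_S, ad⁰ρ̄(1)) + [k : 𝔽_p] ≤ h¹(G_S, ad⁰ρ̄(1))` for all `S ⊇ T₀`. -/
theorem exists_finset_ec [Finite k] (rb : GQ →* Mat2 k) (hp2 : p ≠ 2)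
    (h : ResidualHyp rb p) :
    ∃ T₀ : Finset Nat.Primes, ∀ S : Finset Nat.Primes, T₀ ⊆ S →
      ∀ (hunr : ∀ q : Nat.Primes, q ∉ S → ∀ P : ValuationSubring Qb, P.LiesOverPrime (q : ℕ) →
        ∀ σ ∈ P.inertiaSubgroupIn ℚ, rb σ = 1),
      PTOut p S →
      finrank (ZMod p) ((datum S).H (GW.adRep p rb (detChar rb))
          (GW.isSmooth_adRep_det p S h.finiteLevel' hunr) 2) + finrank (ZMod p) k ≤
        finrank (ZMod p) ((datum S).H (GW.adRep p rb (detChar rb))
          (GW.isSmooth_adRep_det p S h.finiteLevel' hunr) 1) :=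
  ChiAsmB.exists_finset_ec_of_unitBound p rb hp2 h (fun S => unitBound p k S)

end Fermat.Agent.TW.EC.UnitBoundPf
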