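import Mathlib
import Fermat.Agent.TW.EC.SUnitQb
import Fermat.Agent.TW.EC.InfPlaces

/-!
# TW (EC), brick for (χ-U): fixed ranks of the `S`-unit lattice as double-coset counts

`K ⊆ ℚ̄` a number field, `σ ∈ G_ℚ` with `σ K ⊆ K`, `a = sUnitsAut K S σ hσ` the action of `σ` on
the `S`-units of `K`.  For every `j`:

* `fixingSubgroup_inf_fixedField` : `Gal(ℚ̄ / K ∩ ℚ̄^H) = H ⊔ G_K` for every subgroup `H ≤ G_ℚ`;
* `ker_sUnitsAut_sub_one` : `ker (a - 1)` is the image of the `S`-units of `K ∩ ℚ̄^⟨σ⟩`;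
* `finrank_ker_sUnitsAut_pow_sub_one_add_one` :
  `rank ker (a ^ j - 1) + 1 = #(⟨σ^j⟩G_K \ G_ℚ / ⟨c⟩) + ∑_{q ∈ S} #(⟨σ^j⟩G_K \ G_ℚ / D_q)`;
* `mk_sup_eq_mk_iff`, `card_orbitRel_quotient_eq` (group theory): for `τ` normalising `N`, the
  double cosets `⟨τ⟩N \ G / D` are the orbits of left translation by `⟨τ⟩` on `N \ G / D`, in any
  model of that action.
-/

set_option autoImplicit false

namespace Fermat.Agent.TW.EC.UnitFixRank

open Module NumberField
open Fermat.Agent.TW.EC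

local notation "Qb" => AlgebraicClosure ℚ
local notation "GQ" => (AlgebraicClosure ℚ ≃ₐ[ℚ] AlgebraicClosure ℚ)

attribute [local instance] Fermat.Agent.Lib.FrobeniusExists.isAlgClosure_rat
  Fermat.Agent.Lib.FrobeniusExists.isGalois_rat

/-! ### Group theory: double cosets for `⟨τ⟩ N` -/

section Group

variable {G : Type*} [Group G]

/-- If `τ` normalises `N`, every element of `⟨τ⟩ ⊔ N` is of the form `n * τ ^ i`. -/
theorem exists_eq_mul_zpow_of_mem_sup {N : Subgroup G} {τ : G}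
    (hτ : τ ∈ Subgroup.normalizer (N : Set G)) {h : G} (hh : h ∈ Subgroup.zpowers τ ⊔ N) :
    ∃ n ∈ N, ∃ i : ℤ, h = n * τ ^ i := by
  have hconj : ∀ (i : ℤ) (n : G), n ∈ N → τ ^ i * n * (τ ^ i)⁻¹ ∈ N := fun i n hn =>
    (Subgroup.mem_normalizer_iff.mp (zpow_mem hτ i) n).mp hn
  rw [Subgroup.sup_eq_closure_mul] at hh
  induction hh using Subgroup.closure_induction with
  | mem x hx =>
    obtain ⟨a, ha, n, hn, rfl⟩ := hx
    obtain ⟨i, rfl⟩ := ha
    exact ⟨τ ^ i * n * (τ ^ i)⁻¹, hconj i n hn, i, by group⟩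
  | one => exact ⟨1, N.one_mem, 0, by simp⟩
  | mul x y _ _ hx hy =>
    obtain ⟨n, hn, i, rfl⟩ := hx
    obtain ⟨n', hn', j, rfl⟩ := hy
    refine ⟨n * (τ ^ i * n' * (τ ^ i)⁻¹), N.mul_mem hn (hconj i n' hn'), i + j, ?_⟩
    rw [zpow_add]
    group
  | inv x _ hx =>
    obtain ⟨n, hn, i, rfl⟩ := hx
    refine ⟨τ ^ (-i) * n⁻¹ * (τ ^ (-i))⁻¹, hconj (-i) n⁻¹ (N.inv_mem hn), -i, ?_⟩
    rw [zpow_neg]
    group

/-- **Double cosets of `⟨τ⟩N` are `⟨τ⟩`-orbits of double cosets of `N`** (`τ` normalising `N`). -/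
theorem mk_sup_eq_mk_iff (N D : Subgroup G) {τ : G} (hτ : τ ∈ Subgroup.normalizer (N : Set G))
    (g g' : G) :
    DoubleCoset.mk (Subgroup.zpowers τ ⊔ N) D g = DoubleCoset.mk (Subgroup.zpowers τ ⊔ N) D g' ↔
      ∃ i : ℤ, DoubleCoset.mk N D (τ ^ i * g) = DoubleCoset.mk N D g' := by
  rw [DoubleCoset.eq]
  constructor
  · rintro ⟨h, hh, k, hk, rfl⟩
    obtain ⟨n, hn, i, rfl⟩ := exists_eq_mul_zpow_of_mem_sup hτ hh
    exact ⟨i, (DoubleCoset.eq N D _ _).mpr ⟨n, hn, k, hk, by group⟩⟩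
  · rintro ⟨i, hi⟩
    obtain ⟨n, hn, k, hk, rfl⟩ := (DoubleCoset.eq N D _ _).mp hi
    refine ⟨n * τ ^ i, mul_mem ((le_sup_right : N ≤ Subgroup.zpowers τ ⊔ N) hn)
      ((le_sup_left : Subgroup.zpowers τ ≤ Subgroup.zpowers τ ⊔ N)
        (Subgroup.zpow_mem_zpowers τ i)), k, hk, by group⟩

/-- The orbit count: for ANY action of a group `Γ` on `N \ G / D` given by left translation
through `φ : Γ →* G`, and `γ₀ : Γ` with `φ γ₀` normalising `N`, the `⟨γ₀⟩`-orbits on `N \ G / D`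
are counted by the double cosets `⟨φ γ₀⟩N \ G / D`. -/
theorem card_orbitRel_quotient_eq {Γ : Type*} [Group Γ] (N D : Subgroup G)
    [MulAction Γ (DoubleCoset.Quotient (N : Set G) (D : Set G))] (φ : Γ →* G)
    (hact : ∀ (γ : Γ) (g : G), γ • DoubleCoset.mk N D g = DoubleCoset.mk N D (φ γ * g))
    (γ₀ : Γ) (hγ₀ : φ γ₀ ∈ Subgroup.normalizer (N : Set G)) :
    Nat.card (MulAction.orbitRel.Quotient (Subgroup.zpowers γ₀)
        (DoubleCoset.Quotient (N : Set G) (D : Set G)))
      = Nat.card (DoubleCoset.Quotient ((Subgroup.zpowers (φ γ₀) ⊔ N : Subgroup G) : Set G)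
          (D : Set G)) := by
  classical
  set H : Subgroup G := Subgroup.zpowers (φ γ₀) ⊔ N with hH
  let f : DoubleCoset.Quotient (N : Set G) (D : Set G) →
      DoubleCoset.Quotient (H : Set G) (D : Set G) :=
    Quotient.lift (fun g => DoubleCoset.mk H D g) (by
      intro a b hab
      obtain ⟨n, hn, k, hk, rfl⟩ := DoubleCoset.rel_iff.mp hab
      exact (DoubleCoset.eq H D _ _).mpr
        ⟨n, (le_sup_right : N ≤ Subgroup.zpowers (φ γ₀) ⊔ N) hn, k, hk, rfl⟩)
  have hiff : ∀ x y : DoubleCoset.Quotient (N : Set G) (D : Set G),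
      f x = f y ↔ x ∈ MulAction.orbit (Subgroup.zpowers γ₀) y := by
    intro x y
    induction x using Quotient.inductionOn with
    | _ g =>
      induction y using Quotient.inductionOn with
      | _ g' =>
        change DoubleCoset.mk H D g = DoubleCoset.mk H D g' ↔
          DoubleCoset.mk N D g ∈ MulAction.orbit (Subgroup.zpowers γ₀) (DoubleCoset.mk N D g')
        rw [hH, mk_sup_eq_mk_iff N D hγ₀, MulAction.mem_orbit_iff]
        constructor
        · rintro ⟨i, hi⟩
          refine ⟨⟨γ₀ ^ (-i), Subgroup.zpow_mem_zpowers γ₀ (-i)⟩, ?_⟩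
          rw [← hi, Subgroup.mk_smul, hact, map_zpow]
          congr 1
          group
        · rintro ⟨⟨γ, hγ⟩, hγg⟩
          obtain ⟨i, rfl⟩ := Subgroup.mem_zpowers_iff.mp hγ
          rw [Subgroup.mk_smul] at hγg
          refine ⟨-i, ?_⟩
          have h1 : (γ₀ ^ (-i)) • DoubleCoset.mk N D g = DoubleCoset.mk N D (φ γ₀ ^ (-i) * g) := by
            rw [hact, map_zpow]
          rw [← h1, ← hγg, smul_smul, ← zpow_add, neg_add_cancel, zpow_zero, one_smul]
  let F : MulAction.orbitRel.Quotient (Subgroup.zpowers γ₀)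
      (DoubleCoset.Quotient (N : Set G) (D : Set G)) →
      DoubleCoset.Quotient (H : Set G) (D : Set G) :=
    Quotient.lift f (fun x y hxy => (hiff x y).mpr hxy)
  have hFinj : Function.Injective F := by
    intro a b hab
    induction a using Quotient.inductionOn with
    | _ x =>
      induction b using Quotient.inductionOn with
      | _ y => exact Quotient.sound ((hiff x y).mp hab)
  have hFsurj : Function.Surjective F := by
    intro z
    induction z using Quotient.inductionOn with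
    | _ g => exact ⟨Quotient.mk _ (DoubleCoset.mk N D g), rfl⟩
  exact Nat.card_congr (Equiv.ofBijective F ⟨hFinj, hFsurj⟩)

end Group

/-! ### Galois theory -/

section Galois

/-- `σ K ⊆ K` for a finite extension `K / ℚ` implies `σ⁻¹ K ⊆ K`. -/
theorem inv_apply_mem (K : IntermediateField ℚ Qb) [FiniteDimensional ℚ K] (σ : GQ)
    (hσ : ∀ x ∈ K, σ x ∈ K) : ∀ x ∈ K, σ⁻¹ x ∈ K := by
  intro x hx
  let r : K →ₗ[ℚ] K :=
    { toFun := fun y => ⟨σ (y : Qb), hσ _ y.2⟩
      map_add' := fun y z => Subtype.ext (map_add σ _ _)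
      map_smul' := fun c y => Subtype.ext (by
        show σ (c • (y : Qb)) = c • σ (y : Qb)
        exact (σ : Qb →ₗ[ℚ] Qb).map_smul c (y : Qb)) }
  have hinj : Function.Injective r := by
    intro y z hyz
    exact Subtype.ext (σ.injective (congrArg Subtype.val hyz))
  obtain ⟨y, hy⟩ := LinearMap.surjective_of_injective hinj ⟨x, hx⟩
  have h1 : σ (y : Qb) = x := congrArg Subtype.val hy
  have h2 : σ⁻¹ x = (y : Qb) := by
    rw [← h1, ← AlgEquiv.mul_apply, inv_mul_cancel, AlgEquiv.one_apply]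
  rw [h2]
  exact y.2

/-- An automorphism stabilising a finite extension `K / ℚ` normalises `Gal(ℚ̄ / K)`. -/
theorem mem_normalizer_fixingSubgroup (K : IntermediateField ℚ Qb) [FiniteDimensional ℚ K]
    (σ : GQ) (hσ : ∀ x ∈ K, σ x ∈ K) :
    σ ∈ Subgroup.normalizer (K.fixingSubgroup : Set GQ) := by
  rw [Subgroup.mem_normalizer_iff]
  intro g
  rw [IntermediateField.mem_fixingSubgroup_iff, IntermediateField.mem_fixingSubgroup_iff]
  constructor
  · intro hg x hx
    have h1 := hg (σ⁻¹ x) (inv_apply_mem K σ hσ x hx)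
    rw [AlgEquiv.mul_apply, AlgEquiv.mul_apply, h1, ← AlgEquiv.mul_apply, mul_inv_cancel,
      AlgEquiv.one_apply]
  · intro hg x hx
    have h1 := hg (σ x) (hσ x hx)
    rw [AlgEquiv.mul_apply, AlgEquiv.mul_apply, ← AlgEquiv.mul_apply σ⁻¹ σ, inv_mul_cancel,
      AlgEquiv.one_apply] at h1
    exact σ.injective h1

theorem mem_fixedField_sup_iff (H N : Subgroup GQ) (x : Qb) :
    x ∈ IntermediateField.fixedField (H ⊔ N) ↔
      x ∈ IntermediateField.fixedField H ∧ x ∈ IntermediateField.fixedField N := by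
  simp only [IntermediateField.mem_fixedField_iff]
  constructor
  · intro h
    exact ⟨fun f hf => h f ((le_sup_left : H ≤ H ⊔ N) hf),
      fun f hf => h f ((le_sup_right : N ≤ H ⊔ N) hf)⟩
  · rintro ⟨h1, h2⟩ f hf
    have hle : H ⊔ N ≤ MulAction.stabilizer GQ x :=
      sup_le (fun g hg => MulAction.mem_stabilizer_iff.mpr (h1 g hg))
        (fun g hg => MulAction.mem_stabilizer_iff.mpr (h2 g hg))
    exact MulAction.mem_stabilizer_iff.mp (hle hf)

/-- **(FR1)** `Gal(ℚ̄ / K ∩ ℚ̄^H) = H ⊔ Gal(ℚ̄ / K)` for a finite extension `K / ℚ`. -/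
theorem fixingSubgroup_inf_fixedField (K : IntermediateField ℚ Qb) [FiniteDimensional ℚ K]
    (H : Subgroup GQ) :
    (K ⊓ IntermediateField.fixedField H).fixingSubgroup = H ⊔ K.fixingSubgroup := by
  have h1 : IntermediateField.fixedField (H ⊔ K.fixingSubgroup)
      = K ⊓ IntermediateField.fixedField H := by
    ext x
    rw [mem_fixedField_sup_iff, InfiniteGalois.fixedField_fixingSubgroup,
      IntermediateField.mem_inf, and_comm]
  rw [← h1]
  have hopen : IsOpen ((H ⊔ K.fixingSubgroup : Subgroup GQ) : Set GQ) :=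
    Subgroup.isOpen_mono le_sup_right K.fixingSubgroup_isOpen
  exact InfiniteGalois.fixingSubgroup_fixedField
    (⟨H ⊔ K.fixingSubgroup, Subgroup.isClosed_of_isOpen _ hopen⟩ : ClosedSubgroup GQ)

theorem mem_fixedField_zpowers_iff (τ : GQ) (x : Qb) :
    x ∈ IntermediateField.fixedField (Subgroup.zpowers τ) ↔ τ x = x := by
  rw [IntermediateField.mem_fixedField_iff]
  constructor
  · intro h
    exact h τ (Subgroup.mem_zpowers τ)
  · intro h f hf
    have hle : Subgroup.zpowers τ ≤ MulAction.stabilizer GQ x :=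
      Subgroup.zpowers_le.mpr (MulAction.mem_stabilizer_iff.mpr h)
    exact MulAction.mem_stabilizer_iff.mp (hle hf)

end Galois

/-! ### Fixed ranks of the `S`-unit lattice -/

section Units

variable (K : IntermediateField ℚ Qb) (S : Finset Nat.Primes)

/-- The subfield of `K` fixed by `τ`. -/
noncomputable abbrev fixK (τ : GQ) : IntermediateField ℚ Qb :=
  K ⊓ IntermediateField.fixedField (Subgroup.zpowers τ)

instance numberField_fixK [NumberField K] (τ : GQ) : NumberField (fixK K τ) :=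
  { to_charZero := inferInstance
    to_finiteDimensional := Module.Finite.of_injective
      (IntermediateField.inclusion (inf_le_left : fixK K τ ≤ K)).toLinearMap
      (IntermediateField.inclusion_injective (inf_le_left : fixK K τ ≤ K)) }

/-- **(FR2), kernel form**: the `S`-units of `K` fixed by `τ` are the `S`-units of `K ∩ ℚ̄^⟨τ⟩`. -/
theorem ker_sUnitsAut_sub_one (τ : GQ) (hτ : ∀ x ∈ K, τ x ∈ K) :
    LinearMap.ker (sUnitsAut K S τ hτ - 1)
      = LinearMap.range (sUnitsIncl (inf_le_left : fixK K τ ≤ K) S) := by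
  ext x
  rw [LinearMap.mem_ker, LinearMap.sub_apply, Module.End.one_apply, sub_eq_zero,
    mem_range_sUnitsIncl_iff, IntermediateField.mem_inf, mem_fixedField_zpowers_iff,
    ← sUnitsAut_apply K S τ hτ x]
  constructor
  · intro h
    exact ⟨(Additive.toMul x).2.1, by rw [h]⟩
  · rintro ⟨-, h⟩
    exact sUnits_ext h

/-- **(FR2)** `rank ker (a ^ j - 1) = rank E_S(K ∩ ℚ̄^⟨σ^j⟩)`. -/
theorem finrank_ker_sUnitsAut_pow_sub_one (σ : GQ) (hσ : ∀ x ∈ K, σ x ∈ K) (j : ℕ) :
    finrank ℤ (LinearMap.ker (sUnitsAut K S σ hσ ^ j - 1))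
      = finrank ℤ (Additive (sUnits (fixK K (σ ^ j)) S)) := by
  rw [sUnitsAut_pow, ker_sUnitsAut_sub_one]
  exact LinearMap.finrank_range_of_inj (sUnitsIncl_injective _ S)

/-- **(FR3)** Dirichlet for the fixed lattices, in double-coset form:
`rank ker (a ^ j - 1) + 1 = #(⟨σ^j⟩G_K \ G_ℚ / ⟨c⟩) + ∑_{q ∈ S} #(⟨σ^j⟩G_K \ G_ℚ / D_q)`. -/
theorem finrank_ker_sUnitsAut_pow_sub_one_add_one [NumberField K] (σ : GQ)
    (hσ : ∀ x ∈ K, σ x ∈ K) (j : ℕ) (A₀ : Nat.Primes → ValuationSubring Qb)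
    (hA₀ : ∀ q ∈ S, (A₀ q).LiesOverPrime q) :
    finrank ℤ (LinearMap.ker (sUnitsAut K S σ hσ ^ j - 1)) + 1
      = Nat.card (DoubleCoset.Quotient
            ((Subgroup.zpowers (σ ^ j) ⊔ K.fixingSubgroup : Subgroup GQ) : Set GQ)
            (Subgroup.zpowers complexConjugation : Set GQ))
        + ∑ q ∈ S, Nat.card (DoubleCoset.Quotient
            ((Subgroup.zpowers (σ ^ j) ⊔ K.fixingSubgroup : Subgroup GQ) : Set GQ)
            ((A₀ q).decompositionSubgroup ℚ : Set GQ)) := by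
  rw [finrank_ker_sUnitsAut_pow_sub_one, finrank_sUnits_add_one,
    InfPlaces.card_infinitePlace_eq,
    Fermat.Agent.PT.G.card_primesOver_eq_sum_doubleCoset (fixK K (σ ^ j)) S A₀ hA₀,
    fixingSubgroup_inf_fixedField]

end Units

end Fermat.Agent.TW.EC.UnitFixRank
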