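/-
TW / (EC), brick (EC-U) (helper33): ranks of the fixed subgroups of the `S`-units in terms of
orbits of places.

For a Galois extension `M / E` of number fields, a finite set `S` of primes of `E`, the group
`U = (sAbove M S).unit M` of `S`-units of `M` and a subgroup `H ≤ Gal(M/E)`:

  `rank U^H + 1 = #(H \ InfinitePlace M) + #(H \ S_M)`          (`finrank_fixedSUnits_add_one`)

(the `S'`-unit theorem for the fixed field of `H`), and for `a ∈ Gal(M/E)`, `j ≠ 0`:

  `rank U^{a^j} + 1 = ∑_{orbits c of a on places} gcd(j, #c)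
                    = ∑_{d ∣ j} φ(d) · #{orbits c of a : d ∣ #c}`.

The combinatorial part (`card_orbits_pow`) is Mathlib-only.
-/
import Mathlib
import Fermat.Agent.CFT.HNT.HerbrandSMain
import Fermat.Agent.PT.G.SUnit

set_option autoImplicit false
set_option linter.unusedSectionVars false

open NumberField IsDedekindDomain Module

open scoped Pointwise

namespace Fermat.Agent.TW.ECU

open Fermat.Agent.CFT.HNT

/-! ### Orbits of the powers of a permutation -/

section Comb

open MulAction

variable {X : Type*} [Finite X]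

/-- The orbit of `x` under `⟨π⟩` has `minimalPeriod π x` elements. -/
theorem card_orbit_zpowers (π : Equiv.Perm X) (x : X) :
    Nat.card (orbit (Subgroup.zpowers π) x) = Function.minimalPeriod π x := by
  classical
  have := Fintype.ofFinite X
  rw [Nat.card_eq_fintype_card]
  exact (minimalPeriod_eq_card π x).symm

theorem minimalPeriod_pos_perm (π : Equiv.Perm X) (x : X) : 0 < Function.minimalPeriod π x := by
  rw [← card_orbit_zpowers]
  have : Nonempty (orbit (Subgroup.zpowers π) x) := ⟨⟨x, mem_orbit_self x⟩⟩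
  exact Nat.card_pos

/-- Class-function sums over a finite `G`-set, orbit by orbit. -/
theorem sum_card_orbit {G : Type*} [Group G] [MulAction G X] [Fintype X]
    [Fintype (orbitRel.Quotient G X)] (g : ℕ → ℚ) :
    ∑ x : X, g (Nat.card (orbit G x)) =
      ∑ ω : orbitRel.Quotient G X, (Nat.card ω.orbit : ℚ) * g (Nat.card ω.orbit) := by
  classical
  have : ∀ ω : orbitRel.Quotient G X, Fintype ω.orbit := fun ω => Fintype.ofFinite _
  rw [← Equiv.sum_comp (selfEquivSigmaOrbits' G X).symm, Fintype.sum_sigma]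
  refine Finset.sum_congr rfl fun ω _ => ?_
  have h : ∀ y : ω.orbit, g (Nat.card (orbit G ((selfEquivSigmaOrbits' G X).symm ⟨ω, y⟩))) =
      g (Nat.card ω.orbit) := by
    intro y
    have hy : (selfEquivSigmaOrbits' G X).symm ⟨ω, y⟩ = (y : X) := rfl
    rw [hy]
    have h2 : orbit G (y : X) = ω.orbit := by
      rw [← orbitRel.Quotient.orbit_mk, orbitRel.Quotient.mem_orbit.mp y.2]
    rw [h2]
  rw [Finset.sum_congr rfl fun y _ => h y, Finset.sum_const, Finset.card_univ, nsmul_eq_mul,
    Nat.card_eq_fintype_card]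

/-- The number of orbits is `∑ₓ 1 / #(orbit x)`. -/
theorem card_orbits_eq_sum {G : Type*} [Group G] [MulAction G X] [Fintype X] :
    (Nat.card (orbitRel.Quotient G X) : ℚ) = ∑ x : X, (1 : ℚ) / (Nat.card (orbit G x) : ℚ) := by
  classical
  have := Fintype.ofFinite (orbitRel.Quotient G X)
  rw [sum_card_orbit (fun n => (1 : ℚ) / (n : ℚ))]
  have h : ∀ ω : orbitRel.Quotient G X,
      (Nat.card ω.orbit : ℚ) * ((1 : ℚ) / (Nat.card ω.orbit : ℚ)) = 1 := by
    intro ω
    have hne : (Nat.card ω.orbit : ℚ) ≠ 0 := by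
      have : Nonempty ω.orbit := by
        induction ω using Quotient.inductionOn' with
        | h x => exact ⟨⟨x, orbitRel.Quotient.mem_orbit.mpr rfl⟩⟩
      exact Nat.cast_ne_zero.mpr Nat.card_pos.ne'
    rw [mul_one_div, div_self hne]
  rw [Finset.sum_congr rfl fun ω _ => h ω, Finset.sum_const, Finset.card_univ, nsmul_eq_mul,
    mul_one, Nat.card_eq_fintype_card]

/-- **Orbits of a power**: the number of orbits of `π ^ j` is `∑_c gcd(j, #c)`, the sum over the
orbits `c` of `π`. -/
theorem card_orbits_pow (π : Equiv.Perm X) {j : ℕ} (hj : j ≠ 0) :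
    Nat.card (orbitRel.Quotient (Subgroup.zpowers (π ^ j)) X) =
      ∑ᶠ c : orbitRel.Quotient (Subgroup.zpowers π) X, Nat.gcd j (Nat.card c.orbit) := by
  classical
  have := Fintype.ofFinite X
  have := Fintype.ofFinite (orbitRel.Quotient (Subgroup.zpowers π) X)
  rw [finsum_eq_sum_of_fintype]
  have key : (Nat.card (orbitRel.Quotient (Subgroup.zpowers (π ^ j)) X) : ℚ) =
      ((∑ c : orbitRel.Quotient (Subgroup.zpowers π) X, Nat.gcd j (Nat.card c.orbit) : ℕ) : ℚ) := by
    rw [card_orbits_eq_sum]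
    have h1 : ∀ x : X, (1 : ℚ) / (Nat.card (orbit (Subgroup.zpowers (π ^ j)) x) : ℚ) =
        (fun n : ℕ => (Nat.gcd j n : ℚ) / (n : ℚ)) (Nat.card (orbit (Subgroup.zpowers π) x)) := by
      intro x
      rw [card_orbit_zpowers, card_orbit_zpowers, ← Equiv.Perm.iterate_eq_pow,
        Function.minimalPeriod_iterate_eq_div_gcd hj]
      have hpos := minimalPeriod_pos_perm π x
      set n := Function.minimalPeriod π x
      have hd : n.gcd j ∣ n := Nat.gcd_dvd_left n j
      have hg : (n.gcd j : ℚ) ≠ 0 := Nat.cast_ne_zero.mpr (Nat.gcd_pos_of_pos_left j hpos).ne'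
      have hn : (n : ℚ) ≠ 0 := Nat.cast_ne_zero.mpr hpos.ne'
      show (1 : ℚ) / ((n / n.gcd j : ℕ) : ℚ) = (Nat.gcd j n : ℚ) / (n : ℚ)
      rw [Nat.cast_div hd hg, Nat.gcd_comm j n]
      field_simp
    rw [Finset.sum_congr rfl fun x _ => h1 x,
      sum_card_orbit (G := Subgroup.zpowers π) (fun n : ℕ => (Nat.gcd j n : ℚ) / (n : ℚ)),
      Nat.cast_sum]
    refine Finset.sum_congr rfl fun c _ => ?_
    have hne : (Nat.card c.orbit : ℚ) ≠ 0 := by
      have : Nonempty c.orbit := by
        induction c using Quotient.inductionOn' with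
        | h x => exact ⟨⟨x, orbitRel.Quotient.mem_orbit.mpr rfl⟩⟩
      exact Nat.cast_ne_zero.mpr Nat.card_pos.ne'
    field_simp
  exact_mod_cast key

/-- `gcd(j, n) = ∑_{d ∣ j, d ∣ n} φ(d)`. -/
theorem gcd_eq_sum_totient (j n : ℕ) (hj : j ≠ 0) :
    Nat.gcd j n = ∑ d ∈ j.divisors, if d ∣ n then Nat.totient d else 0 := by
  rw [← Finset.sum_filter]
  have h : j.divisors.filter (fun d => d ∣ n) = (Nat.gcd j n).divisors := by
    ext d
    simp only [Finset.mem_filter, Nat.mem_divisors]
    constructor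
    · rintro ⟨⟨h1, _⟩, h2⟩
      exact ⟨Nat.dvd_gcd h1 h2, Nat.gcd_ne_zero_left hj⟩
    · rintro ⟨h1, _⟩
      exact ⟨⟨h1.trans (Nat.gcd_dvd_left j n), hj⟩, h1.trans (Nat.gcd_dvd_right j n)⟩
  rw [h, Nat.sum_totient]

/-- The number of orbits of `π` whose size is divisible by `d`. -/
noncomputable def cycCount (d : ℕ) (π : Equiv.Perm X) : ℕ :=
  Nat.card {c : orbitRel.Quotient (Subgroup.zpowers π) X // d ∣ Nat.card c.orbit}

/-- `∑_c gcd(j, #c) = ∑_{d ∣ j} φ(d) · #{c : d ∣ #c}`. -/
theorem finsum_gcd_eq_sum_totient (π : Equiv.Perm X) {j : ℕ} (hj : j ≠ 0) :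
    ∑ᶠ c : orbitRel.Quotient (Subgroup.zpowers π) X, Nat.gcd j (Nat.card c.orbit) =
      ∑ d ∈ j.divisors, Nat.totient d * cycCount d π := by
  classical
  have := Fintype.ofFinite X
  have := Fintype.ofFinite (orbitRel.Quotient (Subgroup.zpowers π) X)
  rw [finsum_eq_sum_of_fintype]
  rw [Finset.sum_congr rfl fun c _ => gcd_eq_sum_totient j (Nat.card c.orbit) hj, Finset.sum_comm]
  refine Finset.sum_congr rfl fun d _ => ?_
  rw [← Finset.sum_filter, Finset.sum_const, smul_eq_mul, mul_comm, cycCount,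
    Nat.card_eq_fintype_card, Fintype.card_subtype]

/-- **(U2)** the number of orbits of `π ^ j` is `∑_{d ∣ j} φ(d) · #{orbits c of π : d ∣ #c}`. -/
theorem card_orbits_pow_eq_sum_totient (π : Equiv.Perm X) {j : ℕ} (hj : j ≠ 0) :
    Nat.card (orbitRel.Quotient (Subgroup.zpowers (π ^ j)) X) =
      ∑ d ∈ j.divisors, Nat.totient d * cycCount d π := by
  rw [card_orbits_pow π hj, finsum_gcd_eq_sum_totient π hj]

end Comb

/-! ### Fixed `S`-units -/

section Fixed

variable {E M : Type*} [Field E] [NumberField E] [Field M] [NumberField M] [Algebra E M]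
  [IsGalois E M]

variable (M) in
/-- The `S`-units of `M` fixed by a subgroup `H` of `Gal(M/E)`. -/
def fixedSUnits (S : Set (HeightOneSpectrum (𝓞 E))) (H : Subgroup (M ≃ₐ[E] M)) : Subgroup Mˣ where
  carrier := {x | x ∈ (sAbove M S).unit M ∧ ∀ σ ∈ H, galUnits σ x = x}
  mul_mem' := by
    rintro x y ⟨hx, hx'⟩ ⟨hy, hy'⟩
    exact ⟨mul_mem hx hy, fun σ hσ => by rw [map_mul, hx' σ hσ, hy' σ hσ]⟩
  one_mem' := ⟨one_mem _, fun σ _ => map_one _⟩
  inv_mem' := by
    rintro x ⟨hx, hx'⟩
    exact ⟨inv_mem hx, fun σ hσ => by rw [map_inv, hx' σ hσ]⟩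

theorem mem_fixedSUnits {S : Set (HeightOneSpectrum (𝓞 E))} {H : Subgroup (M ≃ₐ[E] M)} {x : Mˣ} :
    x ∈ fixedSUnits M S H ↔ x ∈ (sAbove M S).unit M ∧ ∀ σ ∈ H, σ (x : M) = x := by
  constructor
  · rintro ⟨h1, h2⟩
    exact ⟨h1, fun σ hσ => by rw [← coe_galUnits, h2 σ hσ]⟩
  · rintro ⟨h1, h2⟩
    exact ⟨h1, fun σ hσ => Units.ext (by rw [coe_galUnits, h2 σ hσ])⟩

/-- Transitivity of `under` in the tower `E ⊆ F ⊆ M`. -/
theorem under_under (F : IntermediateField E M) (w : HeightOneSpectrum (𝓞 M)) :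
    (w.under (𝓞 F)).under (𝓞 E) = w.under (𝓞 E) := by
  ext1
  ext x
  change algebraMap (𝓞 F) (𝓞 M) (algebraMap (𝓞 E) (𝓞 F) x) ∈ w.asIdeal ↔
    algebraMap (𝓞 E) (𝓞 M) x ∈ w.asIdeal
  rw [← IsScalarTower.algebraMap_apply]

theorem sAbove_sAbove (F : IntermediateField E M) (S : Set (HeightOneSpectrum (𝓞 E))) :
    sAbove M (sAbove F S) = sAbove M S := by
  ext w
  change (w.under (𝓞 F)).under (𝓞 E) ∈ S ↔ w.under (𝓞 E) ∈ S
  rw [under_under]

/-- The `T`-units of an intermediate field `F`, inside `Mˣ`: the `T_M`-units of `M` lying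
in `F`. -/
theorem mem_range_sUnitIncl_iff (F : IntermediateField E M) (T : Set (HeightOneSpectrum (𝓞 F)))
    (y : Mˣ) : y ∈ (sUnitIncl M T).range ↔ y ∈ (sAbove M T).unit M ∧ (y : M) ∈ F := by
  constructor
  · rintro ⟨x, rfl⟩
    refine ⟨?_, ?_⟩
    · rw [mem_sUnit_iff]
      intro w hw
      rw [coe_sUnitIncl, hs_valuation_algebraMap]
      exact (mem_sUnit_iff T (x : Fˣ)).mp x.2 _ hw
    · rw [coe_sUnitIncl]
      exact (((x : Fˣ) : F)).2
  · rintro ⟨hyU, hyF⟩
    have he0 : (⟨(y : M), hyF⟩ : F) ≠ 0 := by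
      intro h
      exact y.ne_zero (congrArg Subtype.val h)
    have hmem : Units.mk0 (⟨(y : M), hyF⟩ : F) he0 ∈ T.unit F := by
      rw [mem_sUnit_iff]
      intro v hv
      obtain ⟨w, hw⟩ := hs_exists_under (M := M) v
      have hwS : w ∉ sAbove M T := by
        rw [mem_sAbove, hw]
        exact hv
      have h2 := (mem_sUnit_iff _ y).mp hyU w hwS
      have h3 : (y : M) = algebraMap F M (⟨(y : M), hyF⟩ : F) := rfl
      rw [h3, hs_valuation_algebraMap, hw] at h2
      exact h2
    exact ⟨⟨Units.mk0 _ he0, hmem⟩, Units.ext rfl⟩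

/-- The `H`-fixed `S`-units of `M` are the `S`-units of the fixed field of `H`. -/
theorem mem_fixedSUnits_iff_mem_range (S : Set (HeightOneSpectrum (𝓞 E)))
    (H : Subgroup (M ≃ₐ[E] M)) (y : Mˣ) :
    y ∈ fixedSUnits M S H ↔
      y ∈ (sUnitIncl M (sAbove (IntermediateField.fixedField H) S)).range := by
  rw [mem_range_sUnitIncl_iff, sAbove_sAbove, mem_fixedSUnits, IntermediateField.mem_fixedField_iff]

/-- The orbit relation of `H` on the primes of `M` above `S`. -/
def primeSetoid (M : Type*) [Field M] [NumberField M] [Algebra E M] [IsGalois E M]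
    (S : Set (HeightOneSpectrum (𝓞 E))) (H : Subgroup (M ≃ₐ[E] M)) :
    Setoid ↥(sAbove M S) where
  r w w' := ∃ σ ∈ H, hsPrime σ w.1 = w'.1
  iseqv := by
    refine ⟨fun w => ⟨1, H.one_mem, ?_⟩, ?_, ?_⟩
    · ext1
      rw [hsPrime_asIdeal, one_smul]
    · rintro w w' ⟨σ, hσ, h⟩
      refine ⟨σ⁻¹, H.inv_mem hσ, ?_⟩
      rw [← h]
      ext1
      rw [hsPrime_asIdeal, hsPrime_asIdeal, inv_smul_smul]
    · rintro w w' w'' ⟨σ, hσ, h⟩ ⟨τ, hτ, h'⟩
      refine ⟨τ * σ, H.mul_mem hτ hσ, ?_⟩
      rw [← h', ← h]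
      ext1
      rw [hsPrime_asIdeal, hsPrime_asIdeal, hsPrime_asIdeal, mul_smul]

/-- The orbit relation of `H` on the infinite places of `M`. -/
def infSetoid (H : Subgroup (M ≃ₐ[E] M)) : Setoid (InfinitePlace M) where
  r w w' := ∃ σ ∈ H, σ • w = w'
  iseqv := by
    refine ⟨fun w => ⟨1, H.one_mem, one_smul _ _⟩, ?_, ?_⟩
    · rintro w w' ⟨σ, hσ, h⟩
      exact ⟨σ⁻¹, H.inv_mem hσ, by rw [← h, inv_smul_smul]⟩
    · rintro w w' w'' ⟨σ, hσ, h⟩ ⟨τ, hτ, h'⟩
      exact ⟨τ * σ, H.mul_mem hτ hσ, by rw [← h', ← h, mul_smul]⟩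

/-- Two primes of `M` lie over the same prime of the fixed field of `H` iff they are conjugate
under `H`. -/
theorem under_fixedField_eq_iff (H : Subgroup (M ≃ₐ[E] M)) (w w' : HeightOneSpectrum (𝓞 M)) :
    w.under (𝓞 (IntermediateField.fixedField H)) = w'.under (𝓞 (IntermediateField.fixedField H)) ↔
      ∃ σ ∈ H, hsPrime σ w = w' := by
  constructor
  · intro h
    have hP : w.asIdeal.LiesOver (w.under (𝓞 (IntermediateField.fixedField H))).asIdeal := ⟨rfl⟩
    have hQ : w'.asIdeal.LiesOver (w.under (𝓞 (IntermediateField.fixedField H))).asIdeal := by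
      rw [h]
      exact ⟨rfl⟩
    have hPp : w.asIdeal.IsPrime := w.isPrime
    have hQp : w'.asIdeal.IsPrime := w'.isPrime
    obtain ⟨τ, hτ⟩ := Ideal.exists_smul_eq_of_isGaloisGroup
      (w.under (𝓞 (IntermediateField.fixedField H))).asIdeal w.asIdeal w'.asIdeal
      (M ≃ₐ[IntermediateField.fixedField H] M)
    have hmem : τ.restrictScalars E ∈ H := by
      have h1 : τ.restrictScalars E ∈ (IntermediateField.fixedField H).fixingSubgroup := by
        rw [IntermediateField.mem_fixingSubgroup_iff]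
        intro x hx
        exact τ.commutes ⟨x, hx⟩
      have h2 := IntermediateField.fixingSubgroup_fixedField H
      exact (SetLike.ext_iff.mp h2 _).mp h1
    refine ⟨τ.restrictScalars E, hmem, ?_⟩
    ext1
    rw [hsPrime_asIdeal, ← hτ]
    ext y
    rw [Ideal.mem_pointwise_smul_iff_inv_smul_mem, Ideal.mem_pointwise_smul_iff_inv_smul_mem]
    have : (τ.restrictScalars E)⁻¹ • y = τ⁻¹ • y := RingOfIntegers.ext rfl
    rw [this]
  · rintro ⟨σ, hσ, rfl⟩
    ext1
    ext x
    change algebraMap (𝓞 (IntermediateField.fixedField H)) (𝓞 M) x ∈ w.asIdeal ↔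
      algebraMap (𝓞 (IntermediateField.fixedField H)) (𝓞 M) x ∈ σ • w.asIdeal
    rw [Ideal.mem_pointwise_smul_iff_inv_smul_mem]
    have : σ⁻¹ • algebraMap (𝓞 (IntermediateField.fixedField H)) (𝓞 M) x =
        algebraMap (𝓞 (IntermediateField.fixedField H)) (𝓞 M) x := by
      apply RingOfIntegers.ext
      change σ⁻¹ ((x : IntermediateField.fixedField H) : M) = ((x : IntermediateField.fixedField H) : M)
      exact (IntermediateField.mem_fixedField_iff H _).mp (x : IntermediateField.fixedField H).2 σ⁻¹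
        (H.inv_mem hσ)
    rw [this]

/-- Restriction of primes to the fixed field. -/
def underFixed (M : Type*) [Field M] [NumberField M] [Algebra E M] [IsGalois E M]
    (S : Set (HeightOneSpectrum (𝓞 E))) (H : Subgroup (M ≃ₐ[E] M)) :
    ↥(sAbove M S) → ↥(sAbove (IntermediateField.fixedField H) S) :=
  fun w => ⟨w.1.under (𝓞 (IntermediateField.fixedField H)), by
    change (w.1.under (𝓞 (IntermediateField.fixedField H))).under (𝓞 E) ∈ S
    rw [under_under]
    exact w.2⟩

theorem underFixed_surjective (S : Set (HeightOneSpectrum (𝓞 E))) (H : Subgroup (M ≃ₐ[E] M)) :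
    Function.Surjective (underFixed M S H) := by
  rintro ⟨v, hv⟩
  obtain ⟨w, hw⟩ := hs_exists_under (M := M) v
  refine ⟨⟨w, ?_⟩, Subtype.ext hw⟩
  change w.under (𝓞 E) ∈ S
  rw [← under_under (IntermediateField.fixedField H), hw]
  exact hv

/-- The primes of the fixed field of `H` above `S` are the `H`-orbits of primes of `M`
above `S`. -/
theorem card_sAbove_fixedField (S : Set (HeightOneSpectrum (𝓞 E))) (H : Subgroup (M ≃ₐ[E] M)) :
    Nat.card ↥(sAbove (IntermediateField.fixedField H) S) = Nat.card (Quotient (primeSetoid M S H)) := by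
  refine (Nat.card_congr ?_).symm
  refine (Quotient.congrRight ?_).trans
    (Setoid.quotientKerEquivOfSurjective (underFixed M S H) (underFixed_surjective S H))
  intro w w'
  change (∃ σ ∈ H, hsPrime σ w.1 = w'.1) ↔ underFixed M S H w = underFixed M S H w'
  rw [← under_fixedField_eq_iff]
  exact ⟨fun h => Subtype.ext h, fun h => congrArg Subtype.val h⟩

/-- Two infinite places of `M` restrict to the same place of the fixed field of `H` iff they are
conjugate under `H`. -/
theorem comap_fixedField_eq_iff (H : Subgroup (M ≃ₐ[E] M)) (w w' : InfinitePlace M) :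
    w.comap (algebraMap (IntermediateField.fixedField H) M) =
        w'.comap (algebraMap (IntermediateField.fixedField H) M) ↔ ∃ σ ∈ H, σ • w = w' := by
  constructor
  · intro h
    obtain ⟨τ, hτ⟩ := InfinitePlace.mem_orbit_iff.mpr h
    have hmem : τ.restrictScalars E ∈ H := by
      have h1 : τ.restrictScalars E ∈ (IntermediateField.fixedField H).fixingSubgroup := by
        rw [IntermediateField.mem_fixingSubgroup_iff]
        intro x hx
        exact τ.commutes ⟨x, hx⟩
      have h2 := IntermediateField.fixingSubgroup_fixedField H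
      exact (SetLike.ext_iff.mp h2 _).mp h1
    refine ⟨τ.restrictScalars E, hmem, ?_⟩
    rw [← hτ]
    rfl
  · rintro ⟨σ, hσ, rfl⟩
    apply InfinitePlace.ext
    intro x
    rw [InfinitePlace.comap_apply, InfinitePlace.comap_apply, InfinitePlace.smul_apply]
    have : σ.symm (algebraMap (IntermediateField.fixedField H) M x) =
        algebraMap (IntermediateField.fixedField H) M x :=
      (IntermediateField.mem_fixedField_iff H _).mp x.2 σ⁻¹ (H.inv_mem hσ)
    rw [this]

/-- The infinite places of the fixed field of `H` are the `H`-orbits of infinite places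
of `M`. -/
theorem card_infinitePlace_fixedField (H : Subgroup (M ≃ₐ[E] M)) :
    Nat.card (InfinitePlace (IntermediateField.fixedField H)) =
      Nat.card (Quotient (infSetoid (M := M) H)) := by
  refine (Nat.card_congr ?_).symm
  refine (Quotient.congrRight ?_).trans
    (Setoid.quotientKerEquivOfSurjective
      (fun w : InfinitePlace M => w.comap (algebraMap (IntermediateField.fixedField H) M))
      InfinitePlace.comap_surjective)
  intro w w'
  exact (comap_fixedField_eq_iff H w w').symm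

/-- **(U1)** `rank U^H + 1 = #(H \ InfinitePlace M) + #(H \ S_M)` for the `S`-units `U`
of `M`. -/
theorem finrank_fixedSUnits_add_one (S : Finset (HeightOneSpectrum (𝓞 E)))
    (H : Subgroup (M ≃ₐ[E] M)) :
    finrank ℤ (Additive ↥(fixedSUnits M (S : Set (HeightOneSpectrum (𝓞 E))) H)) + 1 =
      Nat.card (Quotient (infSetoid (M := M) H)) +
        Nat.card (Quotient (primeSetoid M (S : Set (HeightOneSpectrum (𝓞 E))) H)) := by
  have hfinM : Finite ↥(sAbove M (S : Set (HeightOneSpectrum (𝓞 E)))) :=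
    (hs_sAbove_finite S).to_subtype
  have hfin : Finite ↥(sAbove (IntermediateField.fixedField H)
      (S : Set (HeightOneSpectrum (𝓞 E)))) :=
    Finite.of_surjective _ (underFixed_surjective (S : Set (HeightOneSpectrum (𝓞 E))) H)
  have e1 : (sAbove (IntermediateField.fixedField H) (S : Set (HeightOneSpectrum (𝓞 E)))).unit
      (IntermediateField.fixedField H) ≃*
      (sUnitIncl M (sAbove (IntermediateField.fixedField H)
        (S : Set (HeightOneSpectrum (𝓞 E))))).range :=
    MonoidHom.ofInjective (sUnitIncl_injective _)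
  have e2 : (sUnitIncl M (sAbove (IntermediateField.fixedField H)
        (S : Set (HeightOneSpectrum (𝓞 E))))).range ≃*
      fixedSUnits M (S : Set (HeightOneSpectrum (𝓞 E))) H :=
    MulEquiv.subgroupCongr (by
      ext y
      exact (mem_fixedSUnits_iff_mem_range _ H y).symm)
  have hrank : finrank ℤ (Additive ↥(fixedSUnits M (S : Set (HeightOneSpectrum (𝓞 E))) H)) =
      Units.rank (IntermediateField.fixedField H) +
        Nat.card ↥(sAbove (IntermediateField.fixedField H) (S : Set (HeightOneSpectrum (𝓞 E)))) := by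
    rw [← PT.SUnit.finrank_additive_unit]
    exact ((e1.trans e2).toAdditive.toIntLinearEquiv).finrank_eq.symm
  have hpos : 0 < Fintype.card (InfinitePlace (IntermediateField.fixedField H)) :=
    Fintype.card_pos
  have hc : Nat.card (InfinitePlace (IntermediateField.fixedField H)) =
      Fintype.card (InfinitePlace (IntermediateField.fixedField H)) := Nat.card_eq_fintype_card
  rw [hrank, card_sAbove_fixedField, ← card_infinitePlace_fixedField, hc, Units.rank]
  omega

/-! ### The cyclic case: permutations of the places -/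

/-- The permutation of the primes of `M` above `S` induced by `σ ∈ Gal(M/E)`. -/
noncomputable def sPermHom (M : Type*) [Field M] [NumberField M] [Algebra E M] [IsGalois E M]
    (S : Set (HeightOneSpectrum (𝓞 E))) : (M ≃ₐ[E] M) →* Equiv.Perm ↥(sAbove M S) where
  toFun σ :=
    { toFun := fun w => ⟨hsPrime σ w.1, by
        change (hsPrime σ w.1).under (𝓞 E) ∈ S
        rw [hsPrime_under]
        exact w.2⟩
      invFun := fun w => ⟨hsPrime σ⁻¹ w.1, by
        change (hsPrime σ⁻¹ w.1).under (𝓞 E) ∈ S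
        rw [hsPrime_under]
        exact w.2⟩
      left_inv := fun w => by
        apply Subtype.ext
        ext1
        change σ⁻¹ • (σ • w.1.asIdeal) = w.1.asIdeal
        rw [inv_smul_smul]
      right_inv := fun w => by
        apply Subtype.ext
        ext1
        change σ • (σ⁻¹ • w.1.asIdeal) = w.1.asIdeal
        rw [smul_inv_smul] }
  map_one' := Equiv.ext fun w => Subtype.ext (HeightOneSpectrum.ext (by
    change (1 : M ≃ₐ[E] M) • w.1.asIdeal = w.1.asIdeal
    rw [one_smul]))
  map_mul' σ τ := Equiv.ext fun w => Subtype.ext (HeightOneSpectrum.ext (by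
    change (σ * τ) • w.1.asIdeal = σ • (τ • w.1.asIdeal)
    rw [mul_smul]))

theorem sPermHom_apply (S : Set (HeightOneSpectrum (𝓞 E))) (σ : M ≃ₐ[E] M) (w : ↥(sAbove M S)) :
    (sPermHom M S σ w : HeightOneSpectrum (𝓞 M)) = hsPrime σ w.1 := rfl

/-- The permutation of the infinite places of `M` induced by `σ ∈ Gal(M/E)`. -/
noncomputable def infPermHom (M : Type*) [Field M] [NumberField M] [Algebra E M] [IsGalois E M] :
    (M ≃ₐ[E] M) →* Equiv.Perm (InfinitePlace M) :=
  MulAction.toPermHom (M ≃ₐ[E] M) (InfinitePlace M)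

theorem infPermHom_apply (σ : M ≃ₐ[E] M) (w : InfinitePlace M) :
    infPermHom M σ w = σ • w := rfl

/-- Orbits of `⟨σ⟩` on the primes above `S`, as orbits of the permutation `sPermHom M S σ`. -/
theorem card_primeSetoid_zpowers (S : Set (HeightOneSpectrum (𝓞 E))) (σ : M ≃ₐ[E] M) :
    Nat.card (Quotient (primeSetoid M S (Subgroup.zpowers σ))) =
      Nat.card (MulAction.orbitRel.Quotient (Subgroup.zpowers (sPermHom M S σ)) ↥(sAbove M S)) := by
  refine Nat.card_congr (Quotient.congrRight ?_)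
  intro w w'
  change (∃ τ ∈ Subgroup.zpowers σ, hsPrime τ w.1 = w'.1) ↔
    w ∈ MulAction.orbit (Subgroup.zpowers (sPermHom M S σ)) w'
  constructor
  · rintro ⟨τ, ⟨i, rfl⟩, h⟩
    refine ⟨⟨(sPermHom M S σ) ^ (-i), ⟨-i, rfl⟩⟩, ?_⟩
    change ((sPermHom M S σ) ^ (-i)) w' = w
    have h' : (sPermHom M S σ ^ i) w = w' := by
      rw [← map_zpow]
      exact Subtype.ext h
    rw [← h', zpow_neg, Equiv.Perm.inv_def, Equiv.symm_apply_apply]
  · rintro ⟨⟨π, ⟨i, rfl⟩⟩, h⟩
    refine ⟨σ ^ (-i), ⟨-i, rfl⟩, ?_⟩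
    have h' : (sPermHom M S σ ^ i) w' = w := h
    rw [← sPermHom_apply, map_zpow, ← h', zpow_neg, Equiv.Perm.inv_def, Equiv.symm_apply_apply]

/-- Orbits of `⟨σ⟩` on the infinite places, as orbits of the permutation `infPermHom M σ`. -/
theorem card_infSetoid_zpowers (σ : M ≃ₐ[E] M) :
    Nat.card (Quotient (infSetoid (M := M) (Subgroup.zpowers σ))) =
      Nat.card (MulAction.orbitRel.Quotient (Subgroup.zpowers (infPermHom M σ))
        (InfinitePlace M)) := by
  refine Nat.card_congr (Quotient.congrRight ?_)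
  intro w w'
  change (∃ τ ∈ Subgroup.zpowers σ, τ • w = w') ↔
    w ∈ MulAction.orbit (Subgroup.zpowers (infPermHom M σ)) w'
  constructor
  · rintro ⟨τ, ⟨i, rfl⟩, h⟩
    refine ⟨⟨(infPermHom M σ) ^ (-i), ⟨-i, rfl⟩⟩, ?_⟩
    change ((infPermHom M σ) ^ (-i)) w' = w
    have h' : (infPermHom M σ ^ i) w = w' := by
      rw [← map_zpow]
      exact h
    rw [← h', zpow_neg, Equiv.Perm.inv_def, Equiv.symm_apply_apply]
  · rintro ⟨⟨π, ⟨i, rfl⟩⟩, h⟩
    refine ⟨σ ^ (-i), ⟨-i, rfl⟩, ?_⟩
    have h' : (infPermHom M σ ^ i) w' = w := h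
    rw [← infPermHom_apply, map_zpow, ← h', zpow_neg, Equiv.Perm.inv_def, Equiv.symm_apply_apply]

/-- **(U3), gcd form**: for `a ∈ Gal(M/E)` and `j ≠ 0`,
`rank U^{a^j} + 1 = ∑_c gcd(j, #c)`, the sum over the orbits `c` of `a` on the infinite places
of `M` and on the primes of `M` above `S`. -/
theorem finrank_fixedSUnits_zpowers_pow (S : Finset (HeightOneSpectrum (𝓞 E))) (a : M ≃ₐ[E] M)
    {j : ℕ} (hj : j ≠ 0) :
    finrank ℤ (Additive ↥(fixedSUnits M (S : Set (HeightOneSpectrum (𝓞 E)))
        (Subgroup.zpowers (a ^ j)))) + 1 =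
      (∑ᶠ c : MulAction.orbitRel.Quotient (Subgroup.zpowers (infPermHom M a)) (InfinitePlace M),
          Nat.gcd j (Nat.card c.orbit)) +
        ∑ᶠ c : MulAction.orbitRel.Quotient (Subgroup.zpowers
            (sPermHom M (S : Set (HeightOneSpectrum (𝓞 E))) a))
            ↥(sAbove M (S : Set (HeightOneSpectrum (𝓞 E)))),
          Nat.gcd j (Nat.card c.orbit) := by
  have hfinM : Finite ↥(sAbove M (S : Set (HeightOneSpectrum (𝓞 E)))) :=
    (hs_sAbove_finite S).to_subtype
  rw [finrank_fixedSUnits_add_one, card_infSetoid_zpowers, card_primeSetoid_zpowers, map_pow,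
    map_pow, card_orbits_pow _ hj, card_orbits_pow _ hj]

/-- **(U3), totient form**: for `a ∈ Gal(M/E)` and `j ≠ 0`,
`rank U^{a^j} + 1 = ∑_{d ∣ j} φ(d) · (N_d(∞) + N_d(S))`, `N_d` the number of orbits of `a` of size
divisible by `d` on the infinite places of `M`, resp. on the primes of `M` above `S`. -/
theorem finrank_fixedSUnits_zpowers_pow_totient (S : Finset (HeightOneSpectrum (𝓞 E)))
    (a : M ≃ₐ[E] M) {j : ℕ} (hj : j ≠ 0) :
    finrank ℤ (Additive ↥(fixedSUnits M (S : Set (HeightOneSpectrum (𝓞 E)))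
        (Subgroup.zpowers (a ^ j)))) + 1 =
      ∑ d ∈ j.divisors, Nat.totient d *
        (cycCount d (infPermHom M a) +
          cycCount d (sPermHom M (S : Set (HeightOneSpectrum (𝓞 E))) a)) := by
  have hfinM : Finite ↥(sAbove M (S : Set (HeightOneSpectrum (𝓞 E)))) :=
    (hs_sAbove_finite S).to_subtype
  rw [finrank_fixedSUnits_zpowers_pow S a hj, finsum_gcd_eq_sum_totient _ hj,
    finsum_gcd_eq_sum_totient _ hj, ← Finset.sum_add_distrib]
  exact Finset.sum_congr rfl fun d _ => (mul_add _ _ _).symm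

end Fixed

end Fermat.Agent.TW.ECU
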